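import Fermat.Agent.RED.H42_Riemann

/-!
# S17 part H, leaves (A3) and (A4) (helper35): the base-point-free pencil trick

Generic function-field lemmas, for a function field `F` of one variable over a field `K`
satisfying the hypotheses `RED.H42.Hyp K F` (principal divisors of degree zero, places of degree
one, non-constant functions have poles) and a Riemann bound `l(D) = deg D + 1 - g` for
`deg D ≥ c`.

* `pencil_ker`: if `(s, t)` is a base-point-free pair relative to `D` and `s u + t w = 0` with
  `u, w ∈ L(E)`, then `u = t z`, `w = -s z` with `z ∈ L(E - D)`.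
* `pencil_surj`: `s L(E) + t L(E) = L(D + E)` as soon as
  `l(D + E) + l(E - D) ≤ 2 l(E)`.
* `exists_bpfPair`: a subspace which is base-point-free relative to `D` contains a
  base-point-free pair (the field `K` is infinite).
* `mul_L_eq` (A3): `L(D₁) * L(D₂) = L(D₁ + D₂)` if `deg D₁ ≥ c + 1`, `deg D₂ ≥ deg D₁ + c`.
* `exists_eq_L_of_finrank_mul_le` (A4): a subspace `U ≤ L(D₀)` of dimension `l(D₀) - a` with
  `dim (L(M) * U) ≤ l(D₀ + M) - a` is `L(D₀ - A)` for an effective divisor `A` of degree `a`.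
-/

set_option autoImplicit false

noncomputable section

open AlgebraicCurve WithZero

namespace Fermat.Agent.S17.H35

open Fermat.Agent.RED.H42

variable {K F : Type*} [Field K] [Field F] [Algebra K F]

local notation "L" => riemannRochSpace

/-! ## Orders -/

theorem ord_neg' (v : Place K F) (f : F) : v.ord (-f) = v.ord f := by
  simp [Place.ord]

theorem neg_le_ord_of_mem {D : Divisor K F} {f : F} (hf : f ∈ L D) (hf0 : f ≠ 0)
    (v : Place K F) : -D v ≤ v.ord f :=
  ((mem_riemannRochSpace_iff.mp hf) v).resolve_left hf0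

theorem mem_L_of_neg_le_ord {D : Divisor K F} {f : F} (h : ∀ v : Place K F, -D v ≤ v.ord f) :
    f ∈ L D :=
  mem_riemannRochSpace_iff.mpr fun v => Or.inr (h v)

/-- The Riemann bound: `l(D) = deg D + 1 - g` for `deg D ≥ c`, with `c ≥ 0`. -/
def RiemannBound (K F : Type*) [Field K] [Field F] [Algebra K F] (g : ℕ) (c : ℤ) : Prop :=
  0 ≤ c ∧ ∀ D : Divisor K F, c ≤ Divisor.degree D →
    (Module.finrank K (L D) : ℤ) = Divisor.degree D + 1 - g

/-! ## Base-point-free pairs -/

/-- `(s, t)` is a base-point-free pair relative to `D`: both are nonzero elements of `L(D)` and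
at every place one of them has exact order `-D(v)`. -/
structure IsBpfPair (D : Divisor K F) (s t : F) : Prop where
  s_ne : s ≠ 0
  t_ne : t ≠ 0
  s_mem : s ∈ L D
  t_mem : t ∈ L D
  bpf : ∀ v : Place K F, v.ord s = -D v ∨ v.ord t = -D v

/-- The kernel of the pencil map. -/
theorem pencil_ker {D E : Divisor K F} {s t : F} (h : IsBpfPair D s t) {u w : F}
    (hu : u ∈ L E) (hw : w ∈ L E) (huw : s * u + t * w = 0) :
    u * t⁻¹ ∈ L (E - D) ∧ u = t * (u * t⁻¹) ∧ w = -(s * (u * t⁻¹)) := by
  have ht := h.t_ne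
  have hs := h.s_ne
  have hsu : s * u = -(t * w) := eq_neg_of_add_eq_zero_left huw
  refine ⟨?_, ?_, ?_⟩
  · rw [mem_riemannRochSpace_iff]
    intro v
    by_cases hu0 : u = 0
    · left; simp [hu0]
    right
    have hw0 : w ≠ 0 := by
      rintro rfl
      rw [mul_zero, neg_zero] at hsu
      rcases mul_eq_zero.mp hsu with h1 | h1
      exacts [hs h1, hu0 h1]
    have hz : v.ord (u * t⁻¹) = v.ord u - v.ord t := by
      rw [v.ord_mul hu0 (inv_ne_zero ht), v.ord_inv]; ring
    have hord : v.ord s + v.ord u = v.ord t + v.ord w := by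
      have h1 := congrArg v.ord hsu
      rwa [v.ord_mul hs hu0, ord_neg', v.ord_mul ht hw0] at h1
    have hu' := neg_le_ord_of_mem hu hu0 v
    have hw' := neg_le_ord_of_mem hw hw0 v
    rw [hz, Finsupp.sub_apply]
    rcases h.bpf v with h1 | h1 <;> omega
  · field_simp
  · have h1 : t * w = -(s * u) := by rw [hsu, neg_neg]
    have h2 : w = -(s * u) * t⁻¹ := by
      rw [← h1]; field_simp
    rw [h2]; ring

/-- The pencil map `(u, w) ↦ s u + t w`. -/
def pencilMap (D E : Divisor K F) {s t : F} (hs : s ∈ L D) (ht : t ∈ L D) :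
    (L E × L E) →ₗ[K] L (D + E) where
  toFun p := ⟨s * p.1.1 + t * p.2.1,
    Submodule.add_mem _ (mul_mem_L_add hs p.1.2) (mul_mem_L_add ht p.2.2)⟩
  map_add' p q := by
    ext
    simp only [Prod.fst_add, Prod.snd_add, Submodule.coe_add]
    ring
  map_smul' a p := by
    ext
    simp only [Prod.smul_fst, Prod.smul_snd, Submodule.coe_smul, RingHom.id_apply,
      Algebra.smul_def]
    ring

@[simp]
theorem pencilMap_apply_coe (D E : Divisor K F) {s t : F} (hs : s ∈ L D) (ht : t ∈ L D)
    (p : L E × L E) : ((pencilMap D E hs ht p : L (D + E)) : F) = s * p.1.1 + t * p.2.1 := rfl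

theorem pencilMap_ker_eq {D E : Divisor K F} {s t : F} (hs : s ∈ L D) (ht : t ∈ L D)
    (p : LinearMap.ker (pencilMap D E hs ht)) : s * p.1.1.1 + t * p.1.2.1 = 0 := by
  have h1 : pencilMap D E hs ht p.1 = 0 := LinearMap.mem_ker.mp p.2
  exact congrArg Subtype.val h1

/-- The kernel of the pencil map embeds into `L(E - D)`. -/
def pencilKerMap {D E : Divisor K F} {s t : F} (h : IsBpfPair D s t) :
    LinearMap.ker (pencilMap D E h.s_mem h.t_mem) →ₗ[K] L (E - D) where
  toFun p := ⟨p.1.1.1 * t⁻¹,
    (pencil_ker h p.1.1.2 p.1.2.2 (pencilMap_ker_eq h.s_mem h.t_mem p)).1⟩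
  map_add' p q := by
    ext
    simp only [Submodule.coe_add, Prod.fst_add]
    ring
  map_smul' a p := by
    ext
    simp only [Submodule.coe_smul, Prod.smul_fst, RingHom.id_apply, Algebra.smul_def]
    ring

theorem pencilKerMap_injective {D E : Divisor K F} {s t : F} (h : IsBpfPair D s t) :
    Function.Injective (pencilKerMap (E := E) h) := by
  intro p q hpq
  have hp' := pencilMap_ker_eq h.s_mem h.t_mem p
  have hq' := pencilMap_ker_eq h.s_mem h.t_mem q
  obtain ⟨-, hp1, hp2⟩ := pencil_ker h p.1.1.2 p.1.2.2 hp'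
  obtain ⟨-, hq1, hq2⟩ := pencil_ker h q.1.1.2 q.1.2.2 hq'
  have hz : p.1.1.1 * t⁻¹ = q.1.1.1 * t⁻¹ := by
    have := congrArg Subtype.val hpq
    simpa [pencilKerMap] using this
  apply Subtype.ext
  apply Prod.ext
  · apply Subtype.ext
    rw [hp1, hq1, hz]
  · apply Subtype.ext
    rw [hp2, hq2, hz]

variable (H : Hyp K F)
include H

/-- **The base-point-free pencil trick**: `s L(E) + t L(E) = L(D + E)`. -/
theorem pencil_surj {D E : Divisor K F} {s t : F} (h : IsBpfPair D s t)
    (hdim : Module.finrank K (L (D + E)) + Module.finrank K (L (E - D))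
      ≤ 2 * Module.finrank K (L E)) {f : F} (hf : f ∈ L (D + E)) :
    ∃ u ∈ L E, ∃ w ∈ L E, f = s * u + t * w := by
  have hfin1 := finite_L H E
  have hfin2 := finite_L H (D + E)
  have hfin3 := finite_L H (E - D)
  set φ := pencilMap D E h.s_mem h.t_mem with hφ
  have hrn := LinearMap.finrank_range_add_finrank_ker φ
  have hker : Module.finrank K (LinearMap.ker φ) ≤ Module.finrank K (L (E - D)) :=
    LinearMap.finrank_le_finrank_of_injective (pencilKerMap_injective h)
  have hprod : Module.finrank K (L E × L E) = 2 * Module.finrank K (L E) := by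
    rw [Module.finrank_prod]; ring
  have hrange : Module.finrank K (LinearMap.range φ) = Module.finrank K (L (D + E)) := by
    apply le_antisymm (Submodule.finrank_le _)
    omega
  have htop : LinearMap.range φ = ⊤ := Submodule.eq_top_of_finrank_eq hrange
  have hmem : (⟨f, hf⟩ : L (D + E)) ∈ LinearMap.range φ := by rw [htop]; trivial
  obtain ⟨p, hp⟩ := hmem
  refine ⟨p.1.1, p.1.2, p.2.1, p.2.2, ?_⟩
  have := congrArg Subtype.val hp
  simpa [hφ] using this.symm

/-! ## Existence of base-point-free pairs -/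

omit H in
theorem sub_single_apply_self (D : Divisor K F) (v : Place K F) :
    (D - Finsupp.single v 1 : Divisor K F) v = D v - 1 := by
  rw [Finsupp.sub_apply, Finsupp.single_eq_same]

omit H in
theorem sub_single_apply_of_ne (D : Divisor K F) {v w : Place K F} (h : w ≠ v) :
    (D - Finsupp.single v 1 : Divisor K F) w = D w := by
  rw [Finsupp.sub_apply, Finsupp.single_eq_of_ne h, sub_zero]

omit H in
/-- An element of `L(D)` is in `L(D - v)` iff its order at `v` is not exactly `-D(v)`. -/
theorem mem_L_sub_single_iff {D : Divisor K F} {f : F} (hf : f ∈ L D) (hf0 : f ≠ 0)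
    (v : Place K F) : f ∈ L (D - Finsupp.single v 1) ↔ v.ord f ≠ -D v := by
  constructor
  · intro h1 h2
    have := neg_le_ord_of_mem h1 hf0 v
    rw [sub_single_apply_self] at this
    omega
  · intro h1
    apply mem_L_of_neg_le_ord
    intro w
    by_cases hw : w = v
    · subst hw
      have := neg_le_ord_of_mem hf hf0 w
      rw [sub_single_apply_self]
      omega
    · rw [sub_single_apply_of_ne D hw]
      exact neg_le_ord_of_mem hf hf0 w

/-- The places where a nonzero `s ∈ L(D)` does not have exact order `-D(v)` are finite. -/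
theorem finite_bad {D : Divisor K F} {s : F} (hs0 : s ≠ 0) :
    {v : Place K F | v.ord s ≠ -D v}.Finite := by
  classical
  obtain ⟨E, hE, -⟩ := H.principal s hs0
  refine (E.support ∪ D.support).finite_toSet.subset ?_
  intro v hv
  simp only [Set.mem_ofPred_eq] at hv
  simp only [Finset.coe_union, Set.mem_union, Finset.mem_coe, Finsupp.mem_support_iff]
  by_contra hcon
  push Not at hcon
  apply hv
  rw [← hE v, hcon.1, hcon.2, neg_zero]

/-- A nonzero subspace `U ≤ L(D)` without base points relative to `D` contains a base-point-free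
pair. -/
theorem exists_bpfPair [Infinite K] {D : Divisor K F} {U : Submodule K F} (hU : U ≤ L D)
    (hne : U ≠ ⊥) (hbpf : ∀ v : Place K F, ∃ f ∈ U, f ≠ 0 ∧ v.ord f = -D v) :
    ∃ s ∈ U, ∃ t ∈ U, IsBpfPair D s t := by
  classical
  obtain ⟨s, hsU, hs0⟩ := (Submodule.ne_bot_iff _).mp hne
  have hfin := finite_bad H (D := D) hs0
  have : Finite {v : Place K F | v.ord s ≠ -D v} := hfin
  let p : Option {v : Place K F | v.ord s ≠ -D v} → Submodule K U := fun o =>
    match o with
    | none => ⊥
    | some v => Submodule.comap U.subtype (L (D - Finsupp.single v.1 1))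
  have hp : ∀ o, p o ≠ ⊤ := by
    intro o
    cases o with
    | none =>
      intro h
      have h1 : (⟨s, hsU⟩ : U) ∈ (⊥ : Submodule K U) := by
        show (⟨s, hsU⟩ : U) ∈ p none
        rw [h]; trivial
      rw [Submodule.mem_bot] at h1
      exact hs0 (congrArg Subtype.val h1)
    | some v =>
      intro h
      obtain ⟨f, hfU, hf0, hfv⟩ := hbpf v.1
      have h1 : (⟨f, hfU⟩ : U) ∈ p (some v) := by rw [h]; trivial
      have h2 : f ∈ L (D - Finsupp.single v.1 1) := h1
      exact (mem_L_sub_single_iff (hU hfU) hf0 v.1).mp h2 hfv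
  obtain ⟨t, ht⟩ := Submodule.exists_forall_notMem_of_forall_ne_top p hp
  have ht0 : (t : F) ≠ 0 := by
    intro h
    apply ht none
    show t ∈ (⊥ : Submodule K U)
    rw [Submodule.mem_bot]
    exact Subtype.ext h
  refine ⟨s, hsU, t.1, t.2, hs0, ht0, hU hsU, hU t.2, ?_⟩
  intro v
  by_cases hv : v.ord s = -D v
  · exact Or.inl hv
  · right
    by_contra hcon
    apply ht (some ⟨v, hv⟩)
    show (t : F) ∈ L (D - Finsupp.single v 1)
    exact (mem_L_sub_single_iff (hU t.2) ht0 v).mpr hcon

omit H in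
theorem degree_sub_single (hdeg : ∀ v : Place K F, v.deg = 1) (D : Divisor K F)
    (v : Place K F) : Divisor.degree (D - Finsupp.single v 1) = Divisor.degree D - 1 := by
  rw [map_sub, Divisor.degree_single, hdeg v]
  simp

/-- `L(D)` has no base points relative to `D` if `deg D ≥ c + 1`. -/
theorem L_bpf {g : ℕ} {c : ℤ} (hR : RiemannBound K F g c) {D : Divisor K F}
    (hD : c + 1 ≤ Divisor.degree D) (v : Place K F) :
    ∃ f ∈ L D, f ≠ 0 ∧ v.ord f = -D v := by
  classical
  have h1 := hR.2 D (by omega)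
  have h2 := hR.2 (D - Finsupp.single v 1) (by rw [degree_sub_single H.deg_one]; omega)
  rw [degree_sub_single H.deg_one] at h2
  have hle : L (D - Finsupp.single v 1) ≤ L D := L_mono (by
    rw [Finsupp.le_def]
    intro w
    rw [Finsupp.sub_apply]
    have : 0 ≤ (Finsupp.single v (1 : ℤ)) w := by
      rw [Finsupp.single_apply]; split_ifs <;> omega
    omega)
  have hlt : ¬ L D ≤ L (D - Finsupp.single v 1) := by
    intro h
    have heq : L (D - Finsupp.single v 1) = L D := le_antisymm hle h
    rw [heq] at h2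
    omega
  obtain ⟨f, hf, hfD⟩ := SetLike.not_le_iff_exists.mp hlt
  have hf0 : f ≠ 0 := by
    rintro rfl
    exact hfD (Submodule.zero_mem _)
  refine ⟨f, hf, hf0, ?_⟩
  by_contra hcon
  exact hfD ((mem_L_sub_single_iff hf hf0 v).mpr hcon)

/-- `L(D)` is nonzero if `deg D ≥ c + 1` (and even if `deg D ≥ max c g`). -/
theorem L_ne_bot {g : ℕ} {c : ℤ} (hR : RiemannBound K F g c) {D : Divisor K F}
    (hD : c + 1 ≤ Divisor.degree D) : L D ≠ ⊥ := by
  have hD0 : D ≠ 0 := by
    rintro rfl
    rw [map_zero] at hD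
    have := hR.1
    omega
  obtain ⟨v, -⟩ := Finsupp.support_nonempty_iff.mpr hD0
  obtain ⟨f, hf, hf0, -⟩ := L_bpf H hR hD v
  exact (Submodule.ne_bot_iff _).mpr ⟨f, hf, hf0⟩

/-! ## (A3): multiplication of Riemann-Roch spaces -/

/-- If `U ≤ L(D)` is nonzero without base points relative to `D`, then `U * L(M) = L(D + M)`
for `M` of large degree. -/
theorem mul_eq_L_of_bpf [Infinite K] {g : ℕ} {c : ℤ} (hR : RiemannBound K F g c)
    {D M : Divisor K F} {U : Submodule K F} (hU : U ≤ L D) (hne : U ≠ ⊥)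
    (hbpf : ∀ v : Place K F, ∃ f ∈ U, f ≠ 0 ∧ v.ord f = -D v)
    (h1 : c + Divisor.degree D ≤ Divisor.degree M) (h2 : c ≤ Divisor.degree M)
    (h3 : c ≤ Divisor.degree D + Divisor.degree M) :
    U * L M = L (D + M) := by
  apply le_antisymm
  · rw [Submodule.mul_le]
    intro f hf k hk
    exact mul_mem_L_add (hU hf) hk
  · intro f hf
    obtain ⟨s, hs, t, ht, hst⟩ := exists_bpfPair H hU hne hbpf
    have hdim : Module.finrank K (L (D + M)) + Module.finrank K (L (M - D))
        ≤ 2 * Module.finrank K (L M) := by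
      have e1 := hR.2 (D + M) (by rw [map_add]; omega)
      have e2 := hR.2 (M - D) (by rw [map_sub]; omega)
      have e3 := hR.2 M h2
      rw [map_add] at e1
      rw [map_sub] at e2
      omega
    obtain ⟨u, hu, w, hw, rfl⟩ := pencil_surj H hst hdim hf
    exact Submodule.add_mem _ (Submodule.mul_mem_mul hs hu) (Submodule.mul_mem_mul ht hw)

/-- **(A3)** `L(D₁) * L(D₂) = L(D₁ + D₂)` if `deg D₁ ≥ c + 1` and `deg D₂ ≥ deg D₁ + c`. -/
theorem mul_L_eq [Infinite K] {g : ℕ} {c : ℤ} (hR : RiemannBound K F g c)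
    {D₁ D₂ : Divisor K F} (h1 : c + 1 ≤ Divisor.degree D₁)
    (h2 : c + Divisor.degree D₁ ≤ Divisor.degree D₂) :
    L D₁ * L D₂ = L (D₁ + D₂) := by
  have hc := hR.1
  exact mul_eq_L_of_bpf H hR le_rfl (L_ne_bot H hR h1) (L_bpf H hR h1) h2 (by omega) (by omega)

/-! ## (A4): the base divisor -/

/-- A nonzero subspace `U ≤ L(D₀)` has a base divisor `B ≥ 0`: `U ≤ L(D₀ - B)` without base
points relative to `D₀ - B`. -/
theorem exists_base {D₀ : Divisor K F} {U : Submodule K F} (hU : U ≤ L D₀) (hne : U ≠ ⊥) :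
    ∃ B : Divisor K F, 0 ≤ B ∧ U ≤ L (D₀ - B) ∧
      ∀ v : Place K F, ∃ f ∈ U, f ≠ 0 ∧ v.ord f = -(D₀ - B : Divisor K F) v := by
  classical
  let P : ℕ → Prop := fun n =>
    ∃ B : Divisor K F, 0 ≤ B ∧ Divisor.degree B = n ∧ U ≤ L (D₀ - B)
  have hbound : ∀ n, P n → (n : ℤ) ≤ Divisor.degree D₀ := by
    rintro n ⟨B, -, hBn, hUB⟩
    by_contra hcon
    have hneg : Divisor.degree (D₀ - B) < 0 := by rw [map_sub]; omega
    have := L_eq_bot_of_degree_neg H hneg
    rw [this] at hUB
    exact hne (eq_bot_iff.mpr hUB)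
  have hP0 : P 0 := ⟨0, le_rfl, by simp, by simpa using hU⟩
  set N := (Divisor.degree D₀).toNat with hN
  have hspec : P (Nat.findGreatest P N) := Nat.findGreatest_spec (Nat.zero_le _) hP0
  obtain ⟨B, hB0, hBn, hUB⟩ := hspec
  refine ⟨B, hB0, hUB, ?_⟩
  intro v
  by_contra hcon
  push Not at hcon
  have hP1 : P (Nat.findGreatest P N + 1) := by
    refine ⟨B + Finsupp.single v 1, ?_, ?_, ?_⟩
    · refine add_nonneg hB0 ?_
      rw [Finsupp.le_def]
      intro w
      rw [Finsupp.single_apply]
      split_ifs <;> simp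
    · rw [map_add, hBn, Divisor.degree_single, H.deg_one v]
      simp
    · intro f hf
      by_cases hf0 : f = 0
      · rw [hf0]; exact Submodule.zero_mem _
      have h1 := (mem_L_sub_single_iff (hUB hf) hf0 v).mpr (hcon f hf hf0)
      have heq : D₀ - (B + Finsupp.single v 1) = D₀ - B - Finsupp.single v 1 := by abel
      rw [heq]
      exact h1
  have h1 := hbound _ hP1
  have h2 : Nat.findGreatest P N + 1 ≤ N := by omega
  have h3 := Nat.le_findGreatest h2 hP1
  omega

/-- **(A4)** A subspace `U ≤ L(D₀)` of dimension `l(D₀) - a` such that `U * L(M)` has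
dimension at most `l(D₀ + M) - a` is `L(D₀ - A)` for an effective divisor `A` of degree `a`. -/
theorem exists_eq_L_of_finrank_mul_le [Infinite K] {g : ℕ} {c : ℤ}
    (hR : RiemannBound K F g c) {D₀ M : Divisor K F} {U : Submodule K F} (hU : U ≤ L D₀)
    {a : ℕ} (hr : (Module.finrank K U : ℤ) = Divisor.degree D₀ + 1 - g - a)
    (hD₀ : c + g + a ≤ Divisor.degree D₀) (hM : c + Divisor.degree D₀ ≤ Divisor.degree M)
    (hmul : (Module.finrank K (U * L M : Submodule K F) : ℤ)
      ≤ Divisor.degree D₀ + Divisor.degree M + 1 - g - a) :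
    ∃ A : Divisor K F, 0 ≤ A ∧ Divisor.degree A = a ∧ U = L (D₀ - A) := by
  have hc := hR.1
  have hne : U ≠ ⊥ := by
    rintro rfl
    rw [finrank_bot] at hr
    simp only [Nat.cast_zero] at hr
    omega
  obtain ⟨B, hB0, hUB, hbpf⟩ := exists_base H hU hne
  have hBdeg := degree_nonneg hB0
  have hBle : Divisor.degree B ≤ Divisor.degree D₀ := by
    by_contra hcon
    have hneg : Divisor.degree (D₀ - B) < 0 := by rw [map_sub]; omega
    have := L_eq_bot_of_degree_neg H hneg
    rw [this] at hUB
    exact hne (eq_bot_iff.mpr hUB)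
  have hdegDB : Divisor.degree (D₀ - B) = Divisor.degree D₀ - Divisor.degree B := map_sub _ _ _
  have hmulL : U * L M = L (D₀ - B + M) :=
    mul_eq_L_of_bpf H hR hUB hne hbpf (by omega) (by omega) (by omega)
  have e1 := hR.2 (D₀ - B + M) (by rw [map_add]; omega)
  rw [map_add, hdegDB] at e1
  rw [hmulL] at hmul
  have hBa : (a : ℤ) ≤ Divisor.degree B := by omega
  have hfin := finite_L H (D₀ - B)
  have hle : Module.finrank K U ≤ Module.finrank K (L (D₀ - B)) := Submodule.finrank_mono hUB
  by_cases hcase : c ≤ Divisor.degree (D₀ - B)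
  · have e2 := hR.2 (D₀ - B) hcase
    rw [hdegDB] at e2
    have hBa' : Divisor.degree B = a := by omega
    refine ⟨B, hB0, hBa', ?_⟩
    apply Submodule.eq_of_le_of_finrank_eq hUB
    omega
  · exfalso
    have e3 := finrank_L_le H (D := D₀ - B) (by omega)
    omega

end Fermat.Agent.S17.H35
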