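import Fermat.Agent.S17.Height.H35_Trace
import Fermat.Agent.S17.Height.H35_Pencil
import Fermat.Agent.S17.OpenStabAbstract

/-!
# S17 part H, package MOVE-D (helper35): rational structure on `L(D)` for an invariant class

Abstract setting: `F / K` a function field (`Hyp K F`), a group `G` acting semilinearly through
`ρ : G →* SemilinearAut K F`, a multiplicative "leading coefficient" `lc : F → K` compatible with
`ρ` (this is the rational point `∞`), and a divisor `D₁` whose class is `G`-invariant.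

* `cocycle ρ lcd hD σ`: the unique function with divisor `σ D₁ - D₁` and leading coefficient `1`;
  `cocycle_mul`: it is a cocycle (the rational point kills the Brauer obstruction).
* `twist`: the twisted semilinear action `f ↦ cocycle σ * σ f`, which preserves `L(D₁ + E)` for
  every `G`-stable divisor `E`.
* `smul_divisor_eq_of_twist_fixed`: if `f ≠ 0` is fixed by the twisted action then the divisor
  `div f + D₁ + E` is `G`-stable.
* `mem_span_twist_fixed`: every `f : F` is a `K`-linear combination of fixed vectors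
  (descent by traces).
-/

set_option autoImplicit false

noncomputable section

open AlgebraicCurve

namespace Fermat.Agent.S17.H35

open Fermat.Agent.RED.H42 Fermat.Agent.S17

variable {K F : Type*} [Field K] [Field F] [Algebra K F]
variable {G : Type*} [Group G] (ρ : G →* SemilinearAut K F)

local notation "L" => riemannRochSpace

/-- A leading coefficient: multiplicative, normalised on constants, compatible with `ρ`. -/
structure LeadCoeff where
  /-- the leading coefficient -/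
  lc : F → K
  lc_mul : ∀ f g : F, lc (f * g) = lc f * lc g
  lc_algebraMap : ∀ c : K, lc (algebraMap K F c) = c
  lc_smul : ∀ (σ : G) (f : F), lc (ρ σ • f) = SemilinearAut.baseAut (ρ σ) (lc f)
  lc_ne_zero : ∀ f : F, f ≠ 0 → lc f ≠ 0

variable {ρ}

namespace LeadCoeff

variable (lcd : LeadCoeff ρ)

theorem lc_one : lcd.lc 1 = 1 := by
  have := lcd.lc_algebraMap 1
  rwa [map_one] at this

theorem lc_inv {f : F} (hf : f ≠ 0) : lcd.lc f⁻¹ = (lcd.lc f)⁻¹ := by
  have h := lcd.lc_mul f f⁻¹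
  rw [mul_inv_cancel₀ hf, lcd.lc_one] at h
  exact eq_inv_of_mul_eq_one_right h.symm

end LeadCoeff

/-- Two nonzero functions with the same divisor and the same leading coefficient are equal. -/
theorem eq_of_ord_eq_of_lc_eq (H : Hyp K F) (lcd : LeadCoeff ρ) {f g : F} (hf : f ≠ 0)
    (hg : g ≠ 0) (hord : ∀ v : Place K F, v.ord f = v.ord g) (hlc : lcd.lc f = lcd.lc g) :
    f = g := by
  have hh : f * g⁻¹ ≠ 0 := mul_ne_zero hf (inv_ne_zero hg)
  have hrange : f * g⁻¹ ∈ Set.range (algebraMap K F) := by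
    by_contra hcon
    obtain ⟨v, hv⟩ := H.exists_pole _ hcon
    rw [v.ord_mul hf (inv_ne_zero hg), v.ord_inv, hord v] at hv
    omega
  obtain ⟨c, hc⟩ := hrange
  have h1 : lcd.lc (f * g⁻¹) = 1 := by
    rw [lcd.lc_mul, lcd.lc_inv hg, hlc, mul_inv_cancel₀ (lcd.lc_ne_zero g hg)]
  rw [← hc, lcd.lc_algebraMap] at h1
  rw [h1, map_one] at hc
  have : f = f * g⁻¹ * g := by field_simp
  rw [this, ← hc, one_mul]

/-- The order of `σ f` at `v` is the order of `f` at `σ⁻¹ v`. -/
theorem ord_smul' (g : SemilinearAut K F) (v : Place K F) (f : F) :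
    v.ord (g • f) = (g⁻¹ • v).ord f := by
  have h := SemilinearAut.ord_smul g (g⁻¹ • v) f
  rwa [smul_inv_smul] at h

/-- The class of `D₁` is invariant: `σ D₁ - D₁` is principal for every `σ`. -/
def ClassInvariant (ρ : G →* SemilinearAut K F) (D₁ : Divisor K F) : Prop :=
  ∀ σ : G, ∃ f : F, f ≠ 0 ∧ ∀ v : Place K F, v.ord f = (ρ σ • D₁) v - D₁ v

section Cocycle

variable (lcd : LeadCoeff ρ) {D₁ : Divisor K F} (hD : ClassInvariant ρ D₁)

/-- The normalised function with divisor `σ D₁ - D₁`. -/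
def cocycle (σ : G) : F :=
  (hD σ).choose * algebraMap K F (lcd.lc (hD σ).choose)⁻¹

theorem cocycle_ne_zero (σ : G) : cocycle lcd hD σ ≠ 0 := by
  have h := (hD σ).choose_spec.1
  refine mul_ne_zero h ?_
  rw [Ne, map_eq_zero_iff _ (algebraMap K F).injective]
  exact inv_ne_zero (lcd.lc_ne_zero _ h)

theorem ord_algebraMap_of_ne (v : Place K F) {c : K} (hc : c ≠ 0) :
    v.ord (algebraMap K F c) = 0 := by
  have h1 : v.adicValuation (algebraMap K F c) ≤ 1 := v.adicValuation_algebraMap_le_one c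
  have h2 : v.adicValuation (algebraMap K F c⁻¹) ≤ 1 := v.adicValuation_algebraMap_le_one c⁻¹
  have hne : algebraMap K F c ≠ 0 := by
    rw [Ne, map_eq_zero_iff _ (algebraMap K F).injective]
    exact hc
  have hne' : algebraMap K F c⁻¹ ≠ 0 := by
    rw [Ne, map_eq_zero_iff _ (algebraMap K F).injective]
    exact inv_ne_zero hc
  rw [v.adicValuation_le_one_iff] at h1 h2
  have h3 := h1.resolve_left hne
  have h4 := h2.resolve_left hne'
  rw [map_inv₀, v.ord_inv] at h4
  omega

theorem ord_cocycle (σ : G) (v : Place K F) :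
    v.ord (cocycle lcd hD σ) = (ρ σ • D₁) v - D₁ v := by
  have h := (hD σ).choose_spec
  unfold cocycle
  have hne : algebraMap K F (lcd.lc (hD σ).choose)⁻¹ ≠ 0 := by
    rw [Ne, map_eq_zero_iff _ (algebraMap K F).injective]
    exact inv_ne_zero (lcd.lc_ne_zero _ h.1)
  rw [v.ord_mul h.1 hne, ord_algebraMap_of_ne v (inv_ne_zero (lcd.lc_ne_zero _ h.1)), add_zero]
  exact h.2 v

theorem lc_cocycle (σ : G) : lcd.lc (cocycle lcd hD σ) = 1 := by
  unfold cocycle
  rw [lcd.lc_mul, lcd.lc_algebraMap]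
  exact mul_inv_cancel₀ (lcd.lc_ne_zero _ (hD σ).choose_spec.1)

variable (H : Hyp K F)

include H in
/-- **The cocycle identity.** -/
theorem cocycle_mul (σ τ : G) :
    cocycle lcd hD (σ * τ) = cocycle lcd hD σ * (ρ σ • cocycle lcd hD τ) := by
  have hτ : ρ σ • cocycle lcd hD τ ≠ 0 := by
    rw [Ne, smul_eq_zero_iff_eq]
    exact cocycle_ne_zero lcd hD τ
  apply eq_of_ord_eq_of_lc_eq H lcd (cocycle_ne_zero lcd hD _)
    (mul_ne_zero (cocycle_ne_zero lcd hD σ) hτ)
  · intro v
    rw [v.ord_mul (cocycle_ne_zero lcd hD σ) hτ, ord_cocycle, ord_cocycle, ord_smul',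
      ord_cocycle, map_mul, mul_smul, SemilinearAut.divisor_smul_apply (ρ σ) (ρ τ • D₁) v,
      SemilinearAut.divisor_smul_apply (ρ σ) D₁ v]
    ring
  · rw [lcd.lc_mul, lcd.lc_smul, lc_cocycle, lc_cocycle, lc_cocycle, map_one, mul_one]

include H in
/-- The cocycle is trivial on the stabiliser of `D₁`. -/
theorem cocycle_eq_one {σ : G} (hσ : ρ σ • D₁ = D₁) : cocycle lcd hD σ = 1 := by
  apply eq_of_ord_eq_of_lc_eq H lcd (cocycle_ne_zero lcd hD _) one_ne_zero
  · intro v
    rw [ord_cocycle, hσ, Place.ord_one, sub_self]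
  · rw [lc_cocycle, lcd.lc_one]

/-- The twisted action. -/
def twist (σ : G) (f : F) : F := cocycle lcd hD σ * (ρ σ • f)

theorem twist_add (σ : G) (f g : F) :
    twist lcd hD σ (f + g) = twist lcd hD σ f + twist lcd hD σ g := by
  unfold twist
  rw [smul_add, mul_add]

include H in
theorem twist_mul (σ τ : G) (f : F) :
    twist lcd hD (σ * τ) f = twist lcd hD σ (twist lcd hD τ f) := by
  unfold twist
  rw [cocycle_mul lcd hD H, map_mul, mul_smul, smul_mul', mul_assoc]

/-- The action of `G` on the constants. -/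
def baseHom (ρ : G →* SemilinearAut K F) : G →* (K ≃+* K) where
  toFun σ := SemilinearAut.baseAut (ρ σ)
  map_one' := by rw [map_one]; rfl
  map_mul' σ τ := by rw [map_mul]; rfl

@[simp] theorem baseHom_apply (σ : G) (c : K) :
    baseHom ρ σ c = SemilinearAut.baseAut (ρ σ) c := rfl

theorem twist_smul (σ : G) (c : K) (f : F) :
    twist lcd hD σ (c • f) = baseHom ρ σ c • twist lcd hD σ f := by
  unfold twist
  rw [Algebra.smul_def, Algebra.smul_def, smul_mul', SemilinearAut.smul_algebraMap, baseHom_apply]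
  ring

theorem twist_ne_zero (σ : G) {f : F} (hf : f ≠ 0) : twist lcd hD σ f ≠ 0 := by
  refine mul_ne_zero (cocycle_ne_zero lcd hD σ) ?_
  rw [Ne, smul_eq_zero_iff_eq]
  exact hf

/-- The twisted action preserves `L(D₁ + E)` if `E` is `G`-stable. -/
theorem twist_mem_L {E : Divisor K F} (hE : ∀ σ : G, ρ σ • E = E) (σ : G) {f : F}
    (hf : f ∈ L (D₁ + E)) : twist lcd hD σ f ∈ L (D₁ + E) := by
  by_cases hf0 : f = 0
  · rw [hf0]
    unfold twist
    rw [smul_zero, mul_zero]
    exact Submodule.zero_mem _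
  apply mem_L_of_neg_le_ord
  intro v
  have hσf : ρ σ • f ≠ 0 := by
    rw [Ne, smul_eq_zero_iff_eq]
    exact hf0
  unfold twist
  rw [v.ord_mul (cocycle_ne_zero lcd hD σ) hσf, ord_cocycle, ord_smul']
  have h1 := neg_le_ord_of_mem hf hf0 ((ρ σ)⁻¹ • v)
  rw [Finsupp.add_apply] at h1 ⊢
  have h2 : (ρ σ • D₁) v = D₁ ((ρ σ)⁻¹ • v) := SemilinearAut.divisor_smul_apply _ _ _
  have h3 : E v = E ((ρ σ)⁻¹ • v) := by
    conv_lhs => rw [← hE σ]
    exact SemilinearAut.divisor_smul_apply _ _ _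
  omega

/-- The divisor `div f + D₁ + E` of a vector fixed by the twisted action is `G`-stable. -/
theorem smul_divisor_eq_of_twist_fixed {E : Divisor K F} (hE : ∀ σ : G, ρ σ • E = E) {f : F}
    (hf0 : f ≠ 0) (hfix : ∀ σ : G, twist lcd hD σ f = f) {A : Divisor K F}
    (hA : ∀ v : Place K F, A v = v.ord f + D₁ v + E v) (σ : G) : ρ σ • A = A := by
  ext v
  rw [SemilinearAut.divisor_smul_apply, hA, hA]
  have hσf : ρ σ • f ≠ 0 := by
    rw [Ne, smul_eq_zero_iff_eq]
    exact hf0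
  have h1 := congrArg v.ord (hfix σ)
  unfold twist at h1
  rw [v.ord_mul (cocycle_ne_zero lcd hD σ) hσf, ord_cocycle, ord_smul'] at h1
  have h2 : (ρ σ • D₁) v = D₁ ((ρ σ)⁻¹ • v) := SemilinearAut.divisor_smul_apply _ _ _
  have h3 : E v = E ((ρ σ)⁻¹ • v) := by
    conv_lhs => rw [← hE σ]
    exact SemilinearAut.divisor_smul_apply _ _ _
  omega

/-- The vectors fixed by the twisted action. -/
def twistFixed : Set F := {f : F | ∀ σ : G, twist lcd hD σ f = f}

theorem twistFixed_eq : twistFixed lcd hD = invVectors (twist lcd hD) := rfl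

variable (𝒰 : Set (Subgroup G))

include H in
/-- Every function is fixed by the twisted action of a member of `𝒰`. -/
theorem exists_subgroup_twist_fixed (htop : ∃ U, U ∈ 𝒰)
    (hinf : ∀ U ∈ 𝒰, ∀ V ∈ 𝒰, ∃ W ∈ 𝒰, W ≤ U ⊓ V)
    (helem : ∀ x : F, ∃ U ∈ 𝒰, ∀ σ ∈ U, ρ σ • x = x) (f : F) :
    ∃ U ∈ 𝒰, ∀ σ ∈ U, twist lcd hD σ f = f := by
  classical
  have hZ : ∀ x : F, x ≠ 0 → {v : Place K F | 0 < v.ord x}.Finite := by
    intro x hx
    obtain ⟨E, hE, -⟩ := H.principal x hx
    refine E.support.finite_toSet.subset ?_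
    intro v hv
    simp only [Set.mem_ofPred_eq] at hv
    simp only [Finset.mem_coe, Finsupp.mem_support_iff]
    rw [hE v]
    omega
  obtain ⟨U₁, hU₁, hfix₁⟩ := helem f
  choose Uv hUv1 hUv2 using exists_subgroup_fixing_place ρ 𝒰 htop hinf helem hZ
  obtain ⟨W, hW, hWle⟩ := exists_le_of_finite 𝒰 htop hinf
    (fun v : ((D₁ : Divisor K F).support : Set (Place K F)) => Uv v.1) (fun v => hUv1 v.1)
  obtain ⟨W', hW', hW'le⟩ := hinf U₁ hU₁ W hW
  refine ⟨W', hW', fun σ hσ => ?_⟩
  have hσ1 : σ ∈ U₁ := (hW'le.trans inf_le_left) hσ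
  have hσW : σ ∈ W := (hW'le.trans inf_le_right) hσ
  have hD₁ : ρ σ • D₁ = D₁ := by
    rw [SemilinearAut.divisor_smul_def]
    have h3 := Finsupp.mapDomain_congr (v := D₁) (f := (ρ σ • ·)) (g := id)
      (fun v hv => hUv2 v σ (hWle ⟨v, hv⟩ hσW))
    rw [h3, Finsupp.mapDomain_id]
  unfold twist
  rw [cocycle_eq_one lcd hD H hD₁, one_mul, hfix₁ σ hσ1]

include H in
/-- **Descent**: every function is a `K`-linear combination of functions fixed by the twisted
action, provided the members of `𝒰` have finite index and are closed. -/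
theorem mem_span_twistFixed (htop : ∃ U, U ∈ 𝒰)
    (hinf : ∀ U ∈ 𝒰, ∀ V ∈ 𝒰, ∃ W ∈ 𝒰, W ≤ U ⊓ V)
    (helem : ∀ x : F, ∃ U ∈ 𝒰, ∀ σ ∈ U, ρ σ • x = x)
    (hfin : ∀ U ∈ 𝒰, U.FiniteIndex)
    (hsep : ∀ U ∈ 𝒰, ∀ σ τ : G,
      (∀ c : K, (∀ u ∈ U, SemilinearAut.baseAut (ρ u) c = c) →
        SemilinearAut.baseAut (ρ σ) c = SemilinearAut.baseAut (ρ τ) c) → σ⁻¹ * τ ∈ U)
    (f : F) : f ∈ Submodule.span K (twistFixed lcd hD) := by
  obtain ⟨U, hU, hfix⟩ := exists_subgroup_twist_fixed lcd hD H 𝒰 htop hinf helem f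
  have := hfin U hU
  rw [twistFixed_eq]
  exact mem_span_invariants (a := baseHom ρ) (r := twist lcd hD) (twist_add lcd hD)
    (twist_mul lcd hD H) (twist_smul lcd hD) U (hsep U hU) hfix

include H in
/-- **Descent inside `L(D₁ + E)`**: every element of `L(D₁ + E)` is a `K`-linear combination of
elements of `L(D₁ + E)` fixed by the twisted action. -/
theorem mem_span_twistFixed_L (htop : ∃ U, U ∈ 𝒰)
    (hinf : ∀ U ∈ 𝒰, ∀ V ∈ 𝒰, ∃ W ∈ 𝒰, W ≤ U ⊓ V)
    (helem : ∀ x : F, ∃ U ∈ 𝒰, ∀ σ ∈ U, ρ σ • x = x)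
    (hfin : ∀ U ∈ 𝒰, U.FiniteIndex)
    (hsep : ∀ U ∈ 𝒰, ∀ σ τ : G,
      (∀ c : K, (∀ u ∈ U, SemilinearAut.baseAut (ρ u) c = c) →
        SemilinearAut.baseAut (ρ σ) c = SemilinearAut.baseAut (ρ τ) c) → σ⁻¹ * τ ∈ U)
    {E : Divisor K F} (hE : ∀ σ : G, ρ σ • E = E) {f : F} (hf : f ∈ L (D₁ + E)) :
    f ∈ Submodule.span K (twistFixed lcd hD ∩ (L (D₁ + E) : Set F)) := by
  obtain ⟨U, hU, hfix⟩ := exists_subgroup_twist_fixed lcd hD H 𝒰 htop hinf helem f
  have := hfin U hU
  let r' : G → L (D₁ + E) → L (D₁ + E) := fun σ x =>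
    ⟨twist lcd hD σ x.1, twist_mem_L lcd hD hE σ x.2⟩
  have h1 : (⟨f, hf⟩ : L (D₁ + E)) ∈ Submodule.span K (invVectors r') := by
    refine mem_span_invariants (a := baseHom ρ) (r := r') ?_ ?_ ?_ U (hsep U hU) ?_
    · intro σ x y
      exact Subtype.ext (twist_add lcd hD σ x.1 y.1)
    · intro σ τ x
      exact Subtype.ext (twist_mul lcd hD H σ τ x.1)
    · intro σ c x
      exact Subtype.ext (twist_smul lcd hD σ c x.1)
    · intro u hu
      exact Subtype.ext (hfix u hu)
  have h2 := Submodule.mem_map_of_mem (f := (L (D₁ + E)).subtype) h1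
  rw [Submodule.map_span] at h2
  refine Submodule.span_mono ?_ h2
  rintro _ ⟨x, hx, rfl⟩
  refine ⟨fun σ => ?_, x.2⟩
  exact congrArg Subtype.val (hx σ)

omit H in
theorem zero_mem_twistFixed : (0 : F) ∈ twistFixed lcd hD := by
  intro σ
  unfold twist
  rw [smul_zero, mul_zero]

omit H in
theorem add_mem_twistFixed {f g : F} (hf : f ∈ twistFixed lcd hD) (hg : g ∈ twistFixed lcd hD) :
    f + g ∈ twistFixed lcd hD := by
  intro σ
  rw [twist_add, hf σ, hg σ]

omit H in
/-- The fixed vectors are stable under multiplication by invariant constants. -/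
theorem smul_mem_twistFixed {c : K} (hc : ∀ σ : G, SemilinearAut.baseAut (ρ σ) c = c) {f : F}
    (hf : f ∈ twistFixed lcd hD) : c • f ∈ twistFixed lcd hD := by
  intro σ
  rw [twist_smul, baseHom_apply, hc σ, hf σ]

end Cocycle

end Fermat.Agent.S17.H35
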