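import Fermat.Agent.S17.Height.H35_Pencil
import Fermat.Agent.RED.H42_RiemannFinal

/-!
# S17 part H, leaves (A3) and (A4) (helper35): statements for function fields `IsFF K F`

`exists_geo`: for a function field of one variable `F` over an algebraically closed field `K`
there are `g : ℕ` and `c : ℤ` with `Geo K F g c`, i.e. the Riemann bound, (A3) and (A4).
-/

set_option autoImplicit false

noncomputable section

open AlgebraicCurve

namespace Fermat.Agent.S17.H35

open Fermat.Agent.RED Fermat.Agent.RED.H42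

local notation "L" => riemannRochSpace

/-- The hypotheses of the pencil trick hold in every function field of one variable over an
algebraically closed field. -/
theorem hyp_of_isFF (K F : Type) [Field K] [Field F] [Algebra K F] [IsAlgClosed K]
    (hFF : IsFF K F) : Hyp K F := by
  obtain ⟨x, hx, hfin⟩ := hFF
  exact hyp_of_zeros (zerosAll K F ⟨x, hx, hfin⟩) hx

theorem exists_riemannBound (K F : Type) [Field K] [Field F] [Algebra K F] [IsAlgClosed K]
    (hFF : IsFF K F) : ∃ (g : ℕ) (c : ℤ), RiemannBound K F g c := by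
  obtain ⟨g, c, h⟩ := stmt_FFR_riemann K F hFF
  exact ⟨g, max c 0, le_max_right _ _, fun D hD => (h D).2 (le_trans (le_max_left _ _) hD)⟩

/-- The geometric package for part H of S17: Riemann bound, (A3), (A4), with the same
constants `g`, `c`. -/
structure Geo (K F : Type) [Field K] [Field F] [Algebra K F] (g : ℕ) (c : ℤ) : Prop where
  c_nonneg : 0 ≤ c
  finite : ∀ D : Divisor K F, Module.Finite K (L D)
  riemann : ∀ D : Divisor K F, c ≤ Divisor.degree D →
    (Module.finrank K (L D) : ℤ) = Divisor.degree D + 1 - g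
  le : ∀ D : Divisor K F, 0 ≤ Divisor.degree D →
    (Module.finrank K (L D) : ℤ) ≤ Divisor.degree D + 1
  bot : ∀ D : Divisor K F, Divisor.degree D < 0 → L D = ⊥
  a3 : ∀ D₁ D₂ : Divisor K F, c + 1 ≤ Divisor.degree D₁ →
    c + Divisor.degree D₁ ≤ Divisor.degree D₂ → L D₁ * L D₂ = L (D₁ + D₂)
  a3' : ∀ (D M : Divisor K F) (U : Submodule K F), U ≤ L D → U ≠ ⊥ →
    (∀ v : Place K F, ∃ f ∈ U, f ≠ 0 ∧ v.ord f = -D v) →
    c + Divisor.degree D ≤ Divisor.degree M → c ≤ Divisor.degree M →
    c ≤ Divisor.degree D + Divisor.degree M → U * L M = L (D + M)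
  base : ∀ (D₀ : Divisor K F) (U : Submodule K F), U ≤ L D₀ → U ≠ ⊥ →
    ∃ B : Divisor K F, 0 ≤ B ∧ U ≤ L (D₀ - B) ∧
      ∀ v : Place K F, ∃ f ∈ U, f ≠ 0 ∧ v.ord f = -(D₀ - B : Divisor K F) v
  a4 : ∀ (D₀ M : Divisor K F) (U : Submodule K F) (a : ℕ), U ≤ L D₀ →
    (Module.finrank K U : ℤ) = Divisor.degree D₀ + 1 - g - a →
    c + g + a ≤ Divisor.degree D₀ → c + Divisor.degree D₀ ≤ Divisor.degree M →
    (Module.finrank K (U * L M : Submodule K F) : ℤ)
      ≤ Divisor.degree D₀ + Divisor.degree M + 1 - g - a →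
    ∃ A : Divisor K F, 0 ≤ A ∧ Divisor.degree A = a ∧ U = L (D₀ - A)

/-- **(A3) + (A4)** for function fields of one variable over algebraically closed fields. -/
theorem exists_geo (K F : Type) [Field K] [Field F] [Algebra K F] [IsAlgClosed K]
    (hFF : IsFF K F) : ∃ (g : ℕ) (c : ℤ), Geo K F g c := by
  have H := hyp_of_isFF K F hFF
  obtain ⟨g, c, hR⟩ := exists_riemannBound K F hFF
  have : Infinite K := IsAlgClosed.instInfinite
  exact ⟨g, c,
    { c_nonneg := hR.1
      finite := fun D => finite_L H D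
      riemann := hR.2
      le := fun D hD => finrank_L_le H hD
      bot := fun D hD => L_eq_bot_of_degree_neg H hD
      a3 := fun D₁ D₂ h1 h2 => mul_L_eq H hR h1 h2
      a3' := fun D M U hU hne hbpf h1 h2 h3 => mul_eq_L_of_bpf H hR hU hne hbpf h1 h2 h3
      base := fun D₀ U hU hne => exists_base H hU hne
      a4 := fun D₀ M U a hU hr hD₀ hM hmul =>
        exists_eq_L_of_finrank_mul_le H hR hU hr hD₀ hM hmul }⟩

/-- The modular function field version. -/
theorem exists_geo_modular (h : Stmt_HKA_isFF) (N : ℕ) [NeZero N] :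
    ∃ (g : ℕ) (c : ℤ),
      Geo (AlgebraicClosure ℚ) ↥(ModularCurve.modularFunctionFieldBar N) g c :=
  exists_geo _ _ (h N)

end Fermat.Agent.S17.H35
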