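import Mathlib.FieldTheory.Fixed
import Mathlib.LinearAlgebra.Dual.Lemmas
import Mathlib.GroupTheory.Index
import Mathlib.GroupTheory.GroupAction.Quotient
import Mathlib.Tactic

/-!
# S17 part H, package MOVE-D (helper35): Galois descent by traces (abstract form)

`mem_span_invariants`: a group `G` acts on a field `K` by automorphisms (`a`) and on a
`K`-vector space `V` by additive `a`-semilinear maps (`r`).  If `U ≤ G` has finite index, is
"closed" (two elements of `G` agreeing on the elements of `K` fixed by `U` are congruent mod `U`)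
and fixes `f : V`, then `f` is a `K`-linear combination of `G`-invariant vectors.

No Hilbert 90 is used: the invariant vectors are the traces `∑_{q ∈ G/U} r(q)(c • f)`, and Dedekind's
independence of characters shows that they span.
-/

set_option autoImplicit false

noncomputable section

namespace Fermat.Agent.S17.H35

section Trace

variable {K V G : Type*} [Field K] [AddCommGroup V] [Module K V] [Group G]
variable (a : G →* (K ≃+* K)) (r : G → V → V)

/-- The invariant vectors. -/
def invVectors : Set V := {h : V | ∀ g : G, r g h = h}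

variable {a r}

/-- The trace of `c • f`. -/
def traceVec (a : G →* (K ≃+* K)) (r : G → V → V) (U : Subgroup G) [U.FiniteIndex] (f : V)
    (c : K) : V :=
  letI := Subgroup.fintypeQuotientOfFiniteIndex (H := U)
  ∑ q : G ⧸ U, a (Quotient.out q) c • r (Quotient.out q) f

variable (hradd : ∀ g x y, r g (x + y) = r g x + r g y)
  (hrmul : ∀ g h x, r (g * h) x = r g (r h x))
  (hsemi : ∀ g (c : K) (x : V), r g (c • x) = a g c • r g x)

omit [Group G] in
include hradd in
theorem r_sum {ι : Type*} (s : Finset ι) (g : G) (x : ι → V) (h0 : r g 0 = 0) :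
    r g (∑ i ∈ s, x i) = ∑ i ∈ s, r g (x i) := by
  classical
  induction s using Finset.induction_on with
  | empty => simpa using h0
  | insert i s hi ih => rw [Finset.sum_insert hi, Finset.sum_insert hi, hradd, ih]

include hsemi in
theorem r_zero (g : G) : r g 0 = 0 := by
  have := hsemi g 0 0
  simpa using this

include hradd hrmul hsemi in
/-- The traces are invariant. -/
theorem traceVec_mem_invVectors (U : Subgroup G) [U.FiniteIndex] {f : V}
    (hf : ∀ u ∈ U, r u f = f) {c : K} (hc : ∀ u ∈ U, a u c = c) :
    traceVec a r U f c ∈ invVectors r := by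
  let _ := Subgroup.fintypeQuotientOfFiniteIndex (H := U)
  intro g
  have hΨ : ∀ (h : G) (u : G), u ∈ U → r (h * u) (c • f) = r h (c • f) := by
    intro h u hu
    rw [hrmul, hsemi u, hc u hu, hf u hu]
  have hterm : ∀ q : G ⧸ U, a (Quotient.out q) c • r (Quotient.out q) f
      = r (Quotient.out q) (c • f) := fun q => (hsemi _ _ _).symm
  unfold traceVec
  simp only [hterm]
  rw [r_sum hradd _ _ _ (r_zero hsemi g)]
  have h1 : ∀ q : G ⧸ U, r g (r (Quotient.out q) (c • f))
      = r (Quotient.out (g • q)) (c • f) := by
    intro q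
    rw [← hrmul]
    have hq : ((g * Quotient.out q : G) : G ⧸ U) = g • q := by
      conv_rhs => rw [← QuotientGroup.out_eq' q]
      rfl
    obtain ⟨u, hu⟩ := QuotientGroup.mk_out_eq_mul U (g * Quotient.out q)
    rw [hq] at hu
    rw [hu, hΨ _ _ u.2]
  simp only [h1]
  exact Equiv.sum_comp (MulAction.toPerm g : Equiv.Perm (G ⧸ U))
    (fun q => r (Quotient.out q) (c • f))

include hradd hrmul hsemi in
/-- **Galois descent by traces.** -/
theorem mem_span_invariants (U : Subgroup G) [U.FiniteIndex]
    (hsep : ∀ σ τ : G, (∀ c : K, (∀ u ∈ U, a u c = c) → a σ c = a τ c) → σ⁻¹ * τ ∈ U)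
    {f : V} (hf : ∀ u ∈ U, r u f = f) :
    f ∈ Submodule.span K (invVectors r) := by
  classical
  let _ := Subgroup.fintypeQuotientOfFiniteIndex (H := U)
  -- the monoid of `U`-fixed scalars
  let M : Submonoid K :=
    { carrier := {c | ∀ u ∈ U, a u c = c}
      one_mem' := fun u _ => map_one _
      mul_mem' := fun {x y} hx hy u hu => by rw [map_mul, hx u hu, hy u hu] }
  let χ : G ⧸ U → (M →* K) := fun q =>
    ((a (Quotient.out q) : K ≃+* K) : K →* K).comp M.subtype
  have hχinj : Function.Injective χ := by
    intro q q' h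
    have h1 : (Quotient.out q)⁻¹ * Quotient.out q' ∈ U := by
      apply hsep
      intro c hc
      have := congrArg (fun φ : M →* K => φ ⟨c, hc⟩) h
      exact this
    have h2 := QuotientGroup.eq.mpr h1
    rwa [QuotientGroup.out_eq', QuotientGroup.out_eq'] at h2
  have hli : LinearIndependent K (fun q : G ⧸ U => (χ q : M → K)) :=
    (linearIndependent_monoidHom M K).comp χ hχinj
  -- the vectors `x_c`
  let x : M → (G ⧸ U → K) := fun c q => χ q c
  have htop : Submodule.span K (Set.range x) = ⊤ := by
    by_contra hne
    have hlt : Submodule.span K (Set.range x) < ⊤ := lt_top_iff_ne_top.mpr hne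
    obtain ⟨φ, hφ0, hφ⟩ := Submodule.exists_dual_map_eq_bot_of_lt_top hlt inferInstance
    apply hφ0
    have hvan : ∀ c : M, φ (x c) = 0 := by
      intro c
      have : φ (x c) ∈ Submodule.map φ (Submodule.span K (Set.range x)) :=
        Submodule.mem_map_of_mem (Submodule.subset_span ⟨c, rfl⟩)
      rw [hφ, Submodule.mem_bot] at this
      exact this
    have hcoef : ∀ q, φ (fun j => if q = j then 1 else 0) = 0 := by
      rw [Fintype.linearIndependent_iff] at hli
      apply hli
      funext c
      have h1 := hvan c
      rw [LinearMap.pi_apply_eq_sum_univ φ (x c)] at h1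
      simp only [Finset.sum_apply, Pi.smul_apply, Pi.zero_apply, smul_eq_mul]
      refine Eq.trans ?_ h1
      refine Finset.sum_congr rfl fun q _ => ?_
      simp only [smul_eq_mul]
      exact mul_comm (φ _) (x c q)
    apply LinearMap.ext
    intro y
    rw [LinearMap.pi_apply_eq_sum_univ φ y]
    simp [hcoef]
  -- the linear map `Λ`
  let Λ : (G ⧸ U → K) →ₗ[K] V :=
    { toFun := fun y => ∑ q : G ⧸ U, y q • r (Quotient.out q) f
      map_add' := fun y z => by
        simp only [Pi.add_apply, add_smul, Finset.sum_add_distrib]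
      map_smul' := fun b y => by
        simp only [Pi.smul_apply, smul_eq_mul, mul_smul, Finset.smul_sum, RingHom.id_apply] }
  have hΛx : ∀ c : M, Λ (x c) ∈ invVectors r := fun c =>
    traceVec_mem_invVectors hradd hrmul hsemi U hf c.2
  have hδ : Λ (Pi.single ((1 : G) : G ⧸ U) 1) = f := by
    show ∑ q : G ⧸ U, (Pi.single ((1 : G) : G ⧸ U) (1 : K) : G ⧸ U → K) q
      • r (Quotient.out q) f = f
    rw [Finset.sum_eq_single ((1 : G) : G ⧸ U)]
    · rw [Pi.single_eq_same, one_smul]
      obtain ⟨u, hu⟩ := QuotientGroup.mk_out_eq_mul U (1 : G)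
      rw [hu, one_mul]
      exact hf u u.2
    · intro q _ hq
      rw [Pi.single_eq_of_ne hq, zero_smul]
    · intro h
      exact absurd (Finset.mem_univ _) h
  have hmem : (Pi.single ((1 : G) : G ⧸ U) 1 : G ⧸ U → K) ∈ Submodule.span K (Set.range x) := by
    rw [htop]; trivial
  have h2 := Submodule.mem_map_of_mem (f := Λ) hmem
  rw [hδ, Submodule.map_span] at h2
  refine Submodule.span_mono ?_ h2
  rintro _ ⟨_, ⟨c, rfl⟩, rfl⟩
  exact hΛx c

end Trace

end Fermat.Agent.S17.H35
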