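import Fermat.Agent.S17.Height.H16_DescStmt
import Fermat.Agent.S17.Height.H35_Trace
import Mathlib.FieldTheory.Galois.Infinite
import Mathlib.FieldTheory.IsAlgClosed.AlgebraicClosure
import Mathlib.LinearAlgebra.Matrix.Rank
import Mathlib.LinearAlgebra.Matrix.NonsingularInverse
import Mathlib.LinearAlgebra.Dimension.Constructions
import Mathlib.LinearAlgebra.FiniteDimensional.Lemmas

/-!
# S17, part H: Galois descent for subspaces of `ℚ̄ⁿ` (helper35)

`stmt_DescLin : H16.Stmt_DescLin`: a subspace of `ℚ̄ⁿ` which is stable under the coordinatewise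
action of `Gal(ℚ̄/ℚ)` is spanned by the rows of a rational matrix with a nonzero maximal minor.

Proof: descent by traces (`mem_span_invariants`) shows that the subspace is spanned by its
Galois-fixed vectors; those are the rational vectors (`ℚ̄^G = ℚ`); a `ℚ`-basis of the rational
vectors gives the matrix.
-/

set_option autoImplicit false

open Matrix Module

namespace Fermat.Agent.S17.H35

open Fermat.Agent.S17

section DescLin

/-- The Galois-fixed elements of `ℚ̄` are rational. -/
theorem qbar_rational_of_fixed (x : Qbar) (hx : ∀ σ : GQ, σ x = x) :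
    ∃ q : ℚ, algebraMap ℚ Qbar q = x := by
  have h1 : Algebra.IsAlgebraic ℚ (AlgebraicClosure ℚ) := AlgebraicClosure.isAlgebraic ℚ
  have h2 : IsAlgClosure ℚ (AlgebraicClosure ℚ) := ⟨inferInstance, inferInstance⟩
  have h3 : IsGalois ℚ (AlgebraicClosure ℚ) := inferInstance
  exact (InfiniteGalois.mem_range_algebraMap_iff_fixed x).2 hx

/-- `k` linearly independent vectors have a nonzero `k × k` minor. -/
theorem exists_det_submatrix_ne_zero {F : Type*} [Field F] {n k : ℕ}
    (X : Matrix (Fin k) (Fin n) F) (h : LinearIndependent F X.row) :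
    ∃ J : Fin k → Fin n, (X.submatrix id J).det ≠ 0 := by
  classical
  have hrank : X.rank = k := by
    have := LinearIndependent.rank_matrix (M := X) h
    simpa using this
  have hcols : finrank F (Submodule.span F (Set.range X.col)) = k := by
    rw [← Matrix.rank_eq_finrank_span_cols]
    exact hrank
  obtain ⟨κ, a, ha, hspan, hli⟩ := exists_linearIndependent' F X.col
  have : Finite κ := Finite.of_injective a ha
  let _ : Fintype κ := Fintype.ofFinite κ
  have hcard : Fintype.card κ = k := by
    rw [← hcols, ← hspan]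
    exact (finrank_span_eq_card hli).symm
  let e : Fin k ≃ κ := (Fintype.equivFinOfCardEq hcard).symm
  refine ⟨a ∘ e, ?_⟩
  have hcolsA : LinearIndependent F (X.submatrix id (a ∘ e)).col := by
    have hAcol : (X.submatrix id (a ∘ e)).col = (X.col ∘ a) ∘ e := by
      funext j i
      rfl
    rw [hAcol]
    exact hli.comp e e.injective
  have hunit : IsUnit (X.submatrix id (a ∘ e)) := Matrix.linearIndependent_cols_iff_isUnit.1 hcolsA
  exact ((Matrix.isUnit_iff_isUnit_det _).1 hunit).ne_zero

/-- The action of `Gal(ℚ̄/ℚ)` on `ℚ̄` as a homomorphism to ring automorphisms. -/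
noncomputable def gqRingAut : GQ →* (Qbar ≃+* Qbar) where
  toFun σ := σ.toRingEquiv
  map_one' := rfl
  map_mul' _ _ := rfl

@[simp] theorem gqRingAut_apply (σ : GQ) (x : Qbar) : gqRingAut σ x = σ x := rfl

/-- The rational vectors, embedded in `ℚ̄ⁿ`. -/
noncomputable def ratVec (n : ℕ) : (Fin n → ℚ) →ₗ[ℚ] (Fin n → Qbar) :=
  (Algebra.linearMap ℚ Qbar).compLeft (Fin n)

@[simp] theorem ratVec_apply (n : ℕ) (q : Fin n → ℚ) (i : Fin n) :
    ratVec n q i = algebraMap ℚ Qbar (q i) := rfl

theorem ratVec_injective (n : ℕ) : Function.Injective (ratVec n) := by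
  intro q q' h
  funext i
  have := congrFun h i
  simpa using this

/-- **DESC-LIN.** -/
theorem stmt_DescLin : H16.Stmt_DescLin := by
  classical
  intro n W hstab
  -- the rational points of `W`
  let Wq : Submodule ℚ (Fin n → ℚ) := (W.restrictScalars ℚ).comap (ratVec n)
  have hWq : ∀ q : Fin n → ℚ, q ∈ Wq ↔ ratVec n q ∈ W := fun q => Iff.rfl
  let r : ℕ := finrank ℚ Wq
  let b : Basis (Fin r) ℚ Wq := Module.finBasis ℚ Wq
  let B : Matrix (Fin r) (Fin n) ℚ := Matrix.of fun i j => (b i : Fin n → ℚ) j
  have hBrow : B.row = fun i => (b i : Fin n → ℚ) := rfl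
  have hli : LinearIndependent ℚ B.row := by
    rw [hBrow]
    exact b.linearIndependent.map' Wq.subtype (Submodule.ker_subtype _)
  refine ⟨r, B, exists_det_submatrix_ne_zero B hli, ?_⟩
  have hrows : (fun i : Fin r => fun j => (algebraMap ℚ Qbar) (B i j))
      = fun i => ratVec n (b i : Fin n → ℚ) := rfl
  rw [hrows]
  apply le_antisymm
  · rw [Submodule.span_le]
    rintro _ ⟨i, rfl⟩
    exact (hWq _).1 (b i).2
  · intro w hw
    -- every rational point of `W` is in the span
    have hrat : ∀ q : Fin n → ℚ, ratVec n q ∈ W →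
        ratVec n q ∈ Submodule.span Qbar (Set.range fun i => ratVec n (b i : Fin n → ℚ)) := by
      intro q hq
      have h1 : (⟨q, (hWq q).2 hq⟩ : Wq) = ∑ i, b.repr ⟨q, (hWq q).2 hq⟩ i • b i :=
        (b.sum_repr _).symm
      have h2 : q = ∑ i, b.repr ⟨q, (hWq q).2 hq⟩ i • (b i : Fin n → ℚ) := by
        have h3 := congrArg (Wq.subtype) h1
        rw [map_sum] at h3
        exact h3
      rw [h2, map_sum]
      refine Submodule.sum_mem _ fun i _ => ?_
      rw [map_smul]
      exact Submodule.smul_of_tower_mem _ _ (Submodule.subset_span ⟨i, rfl⟩)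
    -- the semilinear action on `W`
    let ρ : GQ → W → W := fun σ x => ⟨fun i => σ (x.1 i), hstab σ x.1 x.2⟩
    have hradd : ∀ g x y, ρ g (x + y) = ρ g x + ρ g y := by
      intro g x y
      apply Subtype.ext
      funext i
      exact map_add g _ _
    have hrmul : ∀ g h x, ρ (g * h) x = ρ g (ρ h x) := by
      intro g h x
      rfl
    have hsemi : ∀ g (c : Qbar) (x : W), ρ g (c • x) = gqRingAut g c • ρ g x := by
      intro g c x
      apply Subtype.ext
      funext i
      exact map_mul g _ _
    -- a number field containing the coordinates of `w`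
    let E : IntermediateField ℚ Qbar := IntermediateField.adjoin ℚ (Set.range w)
    have halg : Algebra.IsAlgebraic ℚ (AlgebraicClosure ℚ) := AlgebraicClosure.isAlgebraic ℚ
    have halc : IsAlgClosure ℚ (AlgebraicClosure ℚ) := ⟨inferInstance, inferInstance⟩
    have hgal : IsGalois ℚ (AlgebraicClosure ℚ) := inferInstance
    have hE : FiniteDimensional ℚ E :=
      IntermediateField.finiteDimensional_adjoin (fun x _ => (halg.isAlgebraic x).isIntegral)
    have hfi : E.fixingSubgroup.FiniteIndex := by
      rw [Subgroup.finiteIndex_iff, ← IntermediateField.finrank_eq_fixingSubgroup_index]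
      exact Module.finrank_pos.ne'
    have hsep : ∀ σ τ : GQ, (∀ c : Qbar, (∀ u ∈ E.fixingSubgroup, gqRingAut u c = c) →
        gqRingAut σ c = gqRingAut τ c) → σ⁻¹ * τ ∈ E.fixingSubgroup := by
      intro σ τ h
      rw [IntermediateField.mem_fixingSubgroup_iff]
      intro c hc
      have h1 := h c (fun u hu => (IntermediateField.mem_fixingSubgroup_iff _ _).1 hu c hc)
      have h2 : σ c = τ c := h1
      show σ⁻¹ (τ c) = c
      rw [← h2]
      exact σ.symm_apply_apply c
    have hfix : ∀ u ∈ E.fixingSubgroup, ρ u ⟨w, hw⟩ = ⟨w, hw⟩ := by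
      intro u hu
      apply Subtype.ext
      funext i
      exact (IntermediateField.mem_fixingSubgroup_iff _ _).1 hu (w i)
        (IntermediateField.subset_adjoin ℚ _ ⟨i, rfl⟩)
    have hmem := mem_span_invariants (a := gqRingAut) (r := ρ) hradd hrmul hsemi
      E.fixingSubgroup hsep hfix
    -- push forward to `ℚ̄ⁿ`
    have hmap : (⟨w, hw⟩ : W) ∈ (Submodule.span Qbar
        (Set.range fun i => ratVec n (b i : Fin n → ℚ))).comap W.subtype := by
      refine Submodule.span_le.2 ?_ hmem
      intro x hx
      rw [SetLike.mem_coe, Submodule.mem_comap, Submodule.subtype_apply]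
      have hx' : ∀ σ : GQ, ∀ i, σ (x.1 i) = x.1 i := by
        intro σ i
        have := congrArg (fun y : W => y.1 i) (hx σ)
        exact this
      choose q hq using fun i => qbar_rational_of_fixed (x.1 i) (fun σ => hx' σ i)
      have hxq : ratVec n q = x.1 := by
        funext i
        exact hq i
      rw [← hxq]
      exact hrat q (by rw [hxq]; exact x.2)
    exact hmap

end DescLin

end Fermat.Agent.S17.H35
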