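import Fermat.Agent.S17.Height.H35_PencilFF
import Fermat.Agent.RED.H95_IsFF

/-!
# S17 part H (helper35): the geometric package (A3)+(A4) for the modular function field
-/

set_option autoImplicit false

namespace Fermat.Agent.S17.H35

/-- **(A3) + (A4)** for the function field of `X₀(N)` over `ℚ̄`, unconditionally. -/
theorem geo_modular (N : ℕ) [NeZero N] :
    ∃ (g : ℕ) (c : ℤ),
      Geo (AlgebraicClosure ℚ) ↥(ModularCurve.modularFunctionFieldBar N) g c :=
  exists_geo_modular Fermat.Agent.RED.H95.stmt_HKA_isFF N

end Fermat.Agent.S17.H35
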