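import Fermat.Agent.S17.Height.H35_RatSeq
import Fermat.Agent.S17.Height.H35_MoveDMod
import Fermat.Agent.S17.Height.H35_DescLin

/-!
# S17 part H (helper35): H90 and RAT-BASIS for the modular function field

* `openSysMod N`, `ratCtxMod N : RatCtx (galN N)`: the context (leading `q`-coefficient at the cusp
  `∞`, which is fixed by `G_ℚ`);
* `h90_mod`: a `G_ℚ`-stable principal divisor has a `G_ℚ`-fixed generator;
* `baseAut_galN`: the action on the constants is the tautological one;
* `repr_rational`: the coordinates of a fixed function in the rational basis are rational.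
-/

set_option autoImplicit false

noncomputable section

open ModularCurve AlgebraicCurve

namespace Fermat.Agent.S17.H35

open Fermat.Agent.RED.H42 Fermat.Agent.S17 Fermat.Agent.RED.KD.H22 Fermat.Agent.S24

local notation "L" => riemannRochSpace

variable (N : ℕ) [NeZero N]

theorem hypMod : Hyp Kbar (FN N) := hyp_of_isFF _ _ (Fermat.Agent.RED.H95.stmt_HKA_isFF N)

omit [NeZero N] in
theorem openSysMod : OpenSys (galN N) := by
  refine ⟨fun f => ?_⟩
  obtain ⟨E', hE', h⟩ := exists_field_fixing_elem (modularFunctionFieldFull N) f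
  exact ⟨E'.fixingSubgroup, openFamily_finiteIndex _ ⟨E', hE', rfl⟩,
    openFamily_sep N _ ⟨E', hE', rfl⟩, h⟩

/-- The context for the rational bases of the modular function field. -/
def ratCtxMod : RatCtx (galN N) where
  lcd := leadCoeffMod N
  opn := openSysMod N
  hyp := hypMod N
  P := cuspInf N
  hP := smul_cuspInf N

@[simp] theorem ratCtxMod_P : (ratCtxMod N).P = cuspInf N := rfl

omit [NeZero N] in
theorem baseAut_galN (σ : GQ) (c : Kbar) : SemilinearAut.baseAut (galN N σ) c = σ c := rfl

/-- **H90** for the modular function field: a `G_ℚ`-stable principal divisor has a `G_ℚ`-fixed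
generator (with leading `q`-coefficient `1`). -/
theorem h90_mod {D : Divisor Kbar (FN N)} (hD : ∀ σ : GQ, galN N σ • D = D)
    (hprin : Divisor.IsPrincipal D) :
    ∃ w : FN N, w ≠ 0 ∧ (∀ v : Place Kbar (FN N), v.ord w = D v) ∧
      (leadCoeffMod N).lc w = 1 ∧ w ∈ fixedFun (galN N) := by
  obtain ⟨w, hw, hord⟩ := hprin
  exact exists_fixed_generator (hypMod N) (leadCoeffMod N) hD hw (fun v => (hord v).symm)

omit [NeZero N] in
/-- The coordinates of a fixed function with respect to a basis of fixed functions are
rational. -/
theorem repr_rational {ι : Type*} {V : Submodule Kbar (FN N)} (e : Module.Basis ι Kbar V)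
    (he : ∀ i, (e i : FN N) ∈ fixedFun (galN N)) (f : V) (hf : (f : FN N) ∈ fixedFun (galN N))
    (i : ι) : ∃ q : ℚ, algebraMap ℚ Kbar q = e.repr f i := by
  apply qbar_rational_of_fixed
  intro σ
  have h1 := repr_smul_of_fixed e he σ f (by rw [hf σ]; exact f.2) i
  rw [baseAut_galN] at h1
  rw [← h1]
  congr 2
  exact Subtype.ext (hf σ)

end Fermat.Agent.S17.H35
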