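import Mathlib.RingTheory.Nullstellensatz
import Mathlib.Algebra.Order.AbsoluteValue.Basic
import Mathlib.Algebra.Order.Ring.IsNonarchimedean
import Mathlib.Data.Real.Basic
import Mathlib.Algebra.BigOperators.Finprod
import Mathlib.Tactic

/-!
# S17, part H (heights): the bi-projective Nullstellensatz lemma with local constants

`mph_local`: let `Y` be the zero locus of an ideal `I` of `K[x_i, y_j]` (`K` algebraically closed),
stable under scaling of the `x`-block and of the `y`-block, and let `F_t` be polynomials that are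
bihomogeneous of bidegree `(d, e)` and have no common zero `(x, y) ∈ Y` with `x ≠ 0`, `y ≠ 0`.
Then for EVERY absolute value `v` of `K` there is a constant `C ≥ 1` with

  `max_i |x_i|^d * max_j |y_j|^e ≤ C * max_t |F_t (x, y)|`   on `Y`,

and `C = 1` as soon as `v` is nonarchimedean and finitely many elements of `K` (the coefficients of
a Nullstellensatz certificate, independent of `v`) are `v`-integral.
-/

set_option autoImplicit false

open MvPolynomial

namespace Fermat.Agent.S17.H71

variable {K : Type*} [Field K]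

/-- A family of local constants: `C v ≥ 1` for every absolute value, and `C v = 1` for the
nonarchimedean absolute values at which the finitely many elements of `T` are integral. -/
structure LocConst (K : Type*) [Field K] where
  /-- the constant -/
  C : AbsoluteValue K ℝ → ℝ
  one_le : ∀ v, 1 ≤ C v
  /-- the exceptional elements -/
  T : Finset K
  eq_one : ∀ v : AbsoluteValue K ℝ, IsNonarchimedean v → (∀ c ∈ T, v c ≤ 1) → C v = 1

namespace LocConst

theorem pos (L : LocConst K) (v : AbsoluteValue K ℝ) : 0 < L.C v :=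
  lt_of_lt_of_le one_pos (L.one_le v)

/-- The trivial family. -/
def one (K : Type*) [Field K] : LocConst K where
  C _ := 1
  one_le _ := le_rfl
  T := ∅
  eq_one _ _ _ := rfl

open Classical in
/-- Product of two families. -/
noncomputable def mul (L M : LocConst K) : LocConst K where
  C v := L.C v * M.C v
  one_le v := by
    have h1 := L.one_le v
    have h2 := M.one_le v
    nlinarith
  T := L.T ∪ M.T
  eq_one v hv h := by
    rw [L.eq_one v hv fun c hc => h c (Finset.mem_union_left _ hc),
      M.eq_one v hv fun c hc => h c (Finset.mem_union_right _ hc), one_mul]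

/-- Power of a family. -/
def pow (L : LocConst K) (n : ℕ) : LocConst K where
  C v := L.C v ^ n
  one_le v := one_le_pow₀ (L.one_le v)
  T := L.T
  eq_one v hv h := by rw [L.eq_one v hv h, one_pow]

theorem le_mul_left (L M : LocConst K) (v : AbsoluteValue K ℝ) : L.C v ≤ (L.mul M).C v := by
  show L.C v ≤ L.C v * M.C v
  have h1 := L.one_le v
  have h2 := M.one_le v
  nlinarith

theorem le_mul_right (L M : LocConst K) (v : AbsoluteValue K ℝ) : M.C v ≤ (L.mul M).C v := by
  show M.C v ≤ L.C v * M.C v
  have h1 := L.one_le v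
  have h2 := M.one_le v
  nlinarith

open Classical in
/-- A family from a finite set of elements and a real number: `B` in general, `1` at the good
nonarchimedean absolute values. -/
noncomputable def ofFinset (T : Finset K) (B : AbsoluteValue K ℝ → ℝ) : LocConst K where
  C v := if IsNonarchimedean v ∧ ∀ c ∈ T, v c ≤ 1 then 1 else max 1 (B v)
  one_le v := by
    split_ifs
    · exact le_rfl
    · exact le_max_left _ _
  T := T
  eq_one v hv h := if_pos ⟨hv, h⟩

open Classical in
theorem ofFinset_le (T : Finset K) (B : AbsoluteValue K ℝ → ℝ) (v : AbsoluteValue K ℝ)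
    (h : ¬ (IsNonarchimedean v ∧ ∀ c ∈ T, v c ≤ 1)) : B v ≤ (ofFinset T B).C v := by
  show B v ≤ if IsNonarchimedean v ∧ ∀ c ∈ T, v c ≤ 1 then 1 else max 1 (B v)
  rw [if_neg h]
  exact le_max_right _ _

end LocConst

section Eval

variable {σ : Type*}

/-- Triangle inequality for the value of a polynomial at a point of the unit polydisc. -/
theorem abv_eval_le_sum (v : AbsoluteValue K ℝ) (G : MvPolynomial σ K) (z : σ → K)
    (hz : ∀ k, v (z k) ≤ 1) : v (eval z G) ≤ ∑ m ∈ G.support, v (coeff m G) := by
  rw [eval_eq]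
  refine (v.sum_le _ _).trans (Finset.sum_le_sum fun m _ => ?_)
  rw [v.map_mul, v.map_prod]
  refine mul_le_of_le_one_right (v.nonneg _) ?_
  refine Finset.prod_le_one (fun i _ => v.nonneg _) fun i _ => ?_
  rw [v.map_pow]
  exact pow_le_one₀ (v.nonneg _) (hz i)

/-- Ultrametric bound for the value of a polynomial with integral coefficients at a point of the
unit polydisc. -/
theorem abv_eval_le_one (v : AbsoluteValue K ℝ) (hv : IsNonarchimedean v) (G : MvPolynomial σ K)
    (hG : ∀ m ∈ G.support, v (coeff m G) ≤ 1) (z : σ → K) (hz : ∀ k, v (z k) ≤ 1) :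
    v (eval z G) ≤ 1 := by
  rw [eval_eq]
  rcases G.support.eq_empty_or_nonempty with h | h
  · rw [h, Finset.sum_empty, map_zero]
    exact zero_le_one
  · obtain ⟨m, hm, hle⟩ := IsNonarchimedean.finset_image_add_of_nonempty hv
      (fun m => coeff m G * ∏ i ∈ m.support, z i ^ m i) h
    refine hle.trans ?_
    rw [v.map_mul, v.map_prod]
    refine mul_le_one₀ (hG m hm) (Finset.prod_nonneg fun i _ => v.nonneg _) ?_
    refine Finset.prod_le_one (fun i _ => v.nonneg _) fun i _ => ?_
    rw [v.map_pow]
    exact pow_le_one₀ (v.nonneg _) (hz i)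

end Eval

section Cert

variable [IsAlgClosed K] {ι κ τ : Type*} [Finite ι] [Finite κ] [Finite τ]

/-- The Nullstellensatz certificate. -/
theorem exists_cert (I : Ideal (MvPolynomial (ι ⊕ κ) K)) (F : τ → MvPolynomial (ι ⊕ κ) K)
    (h : ∀ z : ι ⊕ κ → K, z ∈ zeroLocus K I → (∀ t, eval z (F t) = 0) →
      (∀ i, z (Sum.inl i) = 0) ∨ (∀ j, z (Sum.inr j) = 0)) (i : ι) (j : κ) :
    ∃ (N : ℕ) (G : τ → MvPolynomial (ι ⊕ κ) K) (g : MvPolynomial (ι ⊕ κ) K), g ∈ I ∧
      (X (Sum.inl i) * X (Sum.inr j)) ^ N = (∑ᶠ t, G t * F t) + g := by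
  classical
  letI := Fintype.ofFinite τ
  set J : Ideal (MvPolynomial (ι ⊕ κ) K) := I ⊔ Ideal.span (Set.range F) with hJ
  have hmem : (X (Sum.inl i) * X (Sum.inr j) : MvPolynomial (ι ⊕ κ) K) ∈ J.radical := by
    rw [← vanishingIdeal_zeroLocus_eq_radical (K := K)]
    rw [mem_vanishingIdeal_iff]
    intro z hz
    have hzI : z ∈ zeroLocus K I := zeroLocus_anti_mono le_sup_left hz
    have hzF : ∀ t, eval z (F t) = 0 := fun t => by
      have := hz (F t) (le_sup_right (a := I) (Ideal.subset_span ⟨t, rfl⟩))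
      simpa using this
    rw [map_mul, aeval_X, aeval_X]
    rcases h z hzI hzF with h0 | h0
    · rw [h0 i, zero_mul]
    · rw [h0 j, mul_zero]
  obtain ⟨N, hN⟩ := hmem
  obtain ⟨g, hg, f, hf, hgf⟩ := Submodule.mem_sup.1 hN
  obtain ⟨G, hG⟩ := (Ideal.mem_span_range_iff_exists_fun).1 hf
  refine ⟨N, G, g, hg, ?_⟩
  rw [finsum_eq_sum_of_fintype, hG, ← hgf, add_comm]

end Cert

section Main

variable [IsAlgClosed K] {ι κ τ : Type*} [Finite ι] [Finite κ] [Finite τ]

open Classical in
/-- **The bi-projective Nullstellensatz lemma with local constants.** -/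
theorem mph_local (I : Ideal (MvPolynomial (ι ⊕ κ) K))
    (hcone : ∀ (x : ι → K) (y : κ → K), Sum.elim x y ∈ zeroLocus K I → ∀ a b : K,
      Sum.elim (a • x) (b • y) ∈ zeroLocus K I)
    (F : τ → MvPolynomial (ι ⊕ κ) K) (d e : ℕ)
    (hF : ∀ (t : τ) (x : ι → K) (y : κ → K) (a b : K),
      eval (Sum.elim (a • x) (b • y)) (F t) = a ^ d * b ^ e * eval (Sum.elim x y) (F t))
    (h : ∀ (x : ι → K) (y : κ → K), Sum.elim x y ∈ zeroLocus K I →
      (∀ t, eval (Sum.elim x y) (F t) = 0) → x = 0 ∨ y = 0) :
    ∃ L : LocConst K, ∀ (v : AbsoluteValue K ℝ) (x : ι → K) (y : κ → K),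
      Sum.elim x y ∈ zeroLocus K I → ∀ (i₀ : ι) (j₀ : κ),
        (∀ i, v (x i) ≤ v (x i₀)) → (∀ j, v (y j) ≤ v (y j₀)) → x i₀ ≠ 0 → y j₀ ≠ 0 →
        ∃ t, v (x i₀) ^ d * v (y j₀) ^ e ≤ L.C v * v (eval (Sum.elim x y) (F t)) := by
  letI := Fintype.ofFinite ι
  letI := Fintype.ofFinite κ
  letI := Fintype.ofFinite τ
  -- certificates
  have hz : ∀ z : ι ⊕ κ → K, z ∈ zeroLocus K I → (∀ t, eval z (F t) = 0) →
      (∀ i, z (Sum.inl i) = 0) ∨ (∀ j, z (Sum.inr j) = 0) := by
    intro z hzI hzF
    have hze : z = Sum.elim (z ∘ Sum.inl) (z ∘ Sum.inr) := by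
      funext s; cases s <;> rfl
    rw [hze] at hzI hzF
    rcases h _ _ hzI hzF with h0 | h0
    · exact Or.inl fun i => congrFun h0 i
    · exact Or.inr fun j => congrFun h0 j
  choose N G g hg hcert using fun p : ι × κ => exists_cert I F hz p.1 p.2
  -- the set of all coefficients
  set T : Finset K := Finset.univ.biUnion fun p : ι × κ =>
    Finset.univ.biUnion fun t : τ => (G p t).support.image fun m => coeff m (G p t) with hT
  set B : AbsoluteValue K ℝ → ℝ := fun v =>
    ∑ p : ι × κ, ∑ t : τ, ∑ m ∈ (G p t).support, v (coeff m (G p t)) with hB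
  refine ⟨LocConst.ofFinset T B, ?_⟩
  intro v x y hxy i₀ j₀ hx hy hx0 hy0
  -- normalise
  set x' : ι → K := (x i₀)⁻¹ • x with hx'
  set y' : κ → K := (y j₀)⁻¹ • y with hy'
  have hmem' : Sum.elim x' y' ∈ zeroLocus K I := hcone x y hxy _ _
  have hvx0 : 0 < v (x i₀) := v.pos hx0
  have hvy0 : 0 < v (y j₀) := v.pos hy0
  have hz' : ∀ k, v (Sum.elim x' y' k) ≤ 1 := by
    rintro (i | j)
    · show v ((x i₀)⁻¹ * x i) ≤ 1
      rw [v.map_mul, map_inv₀, inv_mul_le_iff₀ hvx0, mul_one]
      exact hx i
    · show v ((y j₀)⁻¹ * y j) ≤ 1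
      rw [v.map_mul, map_inv₀, inv_mul_le_iff₀ hvy0, mul_one]
      exact hy j
  -- the certificate at the normalised point
  have hone : (1 : K) = ∑ t, eval (Sum.elim x' y') (G (i₀, j₀) t) *
      eval (Sum.elim x' y') (F t) := by
    have h1 := congrArg (eval (Sum.elim x' y')) (hcert (i₀, j₀))
    rw [finsum_eq_sum_of_fintype] at h1
    have hg0 : eval (Sum.elim x' y') (g (i₀, j₀)) = 0 := by
      simpa using hmem' _ (hg (i₀, j₀))
    simp only [map_pow, map_mul, eval_X, map_add, map_sum, hg0, add_zero, Sum.elim_inl,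
      Sum.elim_inr] at h1
    rw [← h1]
    show (1 : K) = (((x i₀)⁻¹ * x i₀) * ((y j₀)⁻¹ * y j₀)) ^ (N (i₀, j₀))
    rw [inv_mul_cancel₀ hx0, inv_mul_cancel₀ hy0, one_mul, one_pow]
  -- a `t` with `1 ≤ C * |F_t (x', y')|`
  have key : ∃ t, 1 ≤ (LocConst.ofFinset T B).C v * v (eval (Sum.elim x' y') (F t)) := by
    by_cases hgood : IsNonarchimedean v ∧ ∀ c ∈ T, v c ≤ 1
    · -- ultrametric case
      obtain ⟨hv, hTv⟩ := hgood
      have hCone : (LocConst.ofFinset T B).C v = 1 := (LocConst.ofFinset T B).eq_one v hv hTv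
      have hne : (Finset.univ : Finset τ).Nonempty := by
        by_contra hcon
        rw [Finset.not_nonempty_iff_eq_empty] at hcon
        rw [hcon, Finset.sum_empty] at hone
        exact one_ne_zero hone
      obtain ⟨t, -, ht⟩ := IsNonarchimedean.finset_image_add_of_nonempty hv
        (fun t => eval (Sum.elim x' y') (G (i₀, j₀) t) * eval (Sum.elim x' y') (F t)) hne
      refine ⟨t, ?_⟩
      rw [hCone, one_mul]
      have h1 : (1 : ℝ) ≤ v (eval (Sum.elim x' y') (G (i₀, j₀) t) *
          eval (Sum.elim x' y') (F t)) := by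
        rw [← hone, v.map_one] at ht
        exact ht
      rw [v.map_mul] at h1
      have hGle : v (eval (Sum.elim x' y') (G (i₀, j₀) t)) ≤ 1 := by
        refine abv_eval_le_one v hv _ (fun m hm => hTv _ ?_) _ hz'
        rw [hT]
        refine Finset.mem_biUnion.2 ⟨(i₀, j₀), Finset.mem_univ _, ?_⟩
        refine Finset.mem_biUnion.2 ⟨t, Finset.mem_univ _, ?_⟩
        exact Finset.mem_image.2 ⟨m, hm, rfl⟩
      exact h1.trans (mul_le_of_le_one_left (v.nonneg _) hGle)
    · -- general case
      have hBle : B v ≤ (LocConst.ofFinset T B).C v := LocConst.ofFinset_le T B v hgood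
      by_contra hcon
      simp only [not_exists, not_le] at hcon
      have hCpos : 0 < (LocConst.ofFinset T B).C v := (LocConst.ofFinset T B).pos v
      have hBnn : ∀ t, 0 ≤ ∑ m ∈ (G (i₀, j₀) t).support, v (coeff m (G (i₀, j₀) t)) :=
        fun t => Finset.sum_nonneg fun m _ => v.nonneg _
      have hsum : (∑ t : τ, ∑ m ∈ (G (i₀, j₀) t).support, v (coeff m (G (i₀, j₀) t))) ≤ B v := by
        rw [hB]
        exact Finset.single_le_sum
          (f := fun p : ι × κ => ∑ t : τ, ∑ m ∈ (G p t).support, v (coeff m (G p t)))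
          (fun p _ => Finset.sum_nonneg fun t _ => Finset.sum_nonneg fun m _ => v.nonneg _)
          (Finset.mem_univ (i₀, j₀))
      have h1 : (1 : ℝ) ≤ ∑ t, v (eval (Sum.elim x' y') (G (i₀, j₀) t)) *
          v (eval (Sum.elim x' y') (F t)) := by
        calc (1 : ℝ) = v 1 := v.map_one.symm
          _ = v (∑ t, eval (Sum.elim x' y') (G (i₀, j₀) t) *
              eval (Sum.elim x' y') (F t)) := by rw [← hone]
          _ ≤ ∑ t, v (eval (Sum.elim x' y') (G (i₀, j₀) t) *
              eval (Sum.elim x' y') (F t)) := v.sum_le _ _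
          _ = _ := by simp only [v.map_mul]
      -- each `|F_t| < 1 / C`
      have h2 : ∀ t, v (eval (Sum.elim x' y') (G (i₀, j₀) t)) *
          v (eval (Sum.elim x' y') (F t)) ≤
          (∑ m ∈ (G (i₀, j₀) t).support, v (coeff m (G (i₀, j₀) t))) *
            v (eval (Sum.elim x' y') (F t)) := fun t =>
        mul_le_mul_of_nonneg_right (abv_eval_le_sum v _ _ hz') (v.nonneg _)
      by_cases hB0 : B v = 0
      · -- then all coefficient sums vanish
        have hall : ∀ t, (∑ m ∈ (G (i₀, j₀) t).support, v (coeff m (G (i₀, j₀) t))) = 0 := by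
          intro t
          have : (∑ m ∈ (G (i₀, j₀) t).support, v (coeff m (G (i₀, j₀) t))) ≤ 0 := by
            calc _ ≤ ∑ t : τ, ∑ m ∈ (G (i₀, j₀) t).support, v (coeff m (G (i₀, j₀) t)) :=
                  Finset.single_le_sum
                    (f := fun t : τ => ∑ m ∈ (G (i₀, j₀) t).support, v (coeff m (G (i₀, j₀) t)))
                    (fun t _ => hBnn t) (Finset.mem_univ t)
              _ ≤ B v := hsum
              _ = 0 := hB0
          exact le_antisymm this (hBnn t)
        have : (1 : ℝ) ≤ 0 := by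
          refine h1.trans ((Finset.sum_le_sum fun t _ => h2 t).trans ?_)
          simp [hall]
        linarith
      · have hBpos : 0 < B v := lt_of_le_of_ne
          (Finset.sum_nonneg fun p _ => Finset.sum_nonneg fun t _ =>
            Finset.sum_nonneg fun m _ => v.nonneg _) (Ne.symm hB0)
        have h3 : ∀ t, v (eval (Sum.elim x' y') (F t)) < 1 / (LocConst.ofFinset T B).C v := by
          intro t
          rw [lt_div_iff₀ hCpos, mul_comm]
          exact hcon t
        have h4 : (∑ t, v (eval (Sum.elim x' y') (G (i₀, j₀) t)) *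
            v (eval (Sum.elim x' y') (F t))) ≤
            (∑ t : τ, ∑ m ∈ (G (i₀, j₀) t).support, v (coeff m (G (i₀, j₀) t))) *
              (1 / (LocConst.ofFinset T B).C v) := by
          rw [Finset.sum_mul]
          refine Finset.sum_le_sum fun t _ => (h2 t).trans ?_
          exact mul_le_mul_of_nonneg_left (h3 t).le (hBnn t)
        -- strictness: need one strict inequality; use `B v < C v` is not available, so argue
        -- with `≤` and a strict term
        have h5 : (∑ t : τ, ∑ m ∈ (G (i₀, j₀) t).support, v (coeff m (G (i₀, j₀) t))) *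
            (1 / (LocConst.ofFinset T B).C v) ≤ 1 := by
          rw [mul_one_div, div_le_one hCpos]
          exact hsum.trans hBle
        -- so equality everywhere; derive a contradiction from strictness of `h3`
        have h6 : (∑ t, v (eval (Sum.elim x' y') (G (i₀, j₀) t)) *
            v (eval (Sum.elim x' y') (F t))) <
            (∑ t : τ, ∑ m ∈ (G (i₀, j₀) t).support, v (coeff m (G (i₀, j₀) t))) *
              (1 / (LocConst.ofFinset T B).C v) ∨
            (∑ t : τ, ∑ m ∈ (G (i₀, j₀) t).support, v (coeff m (G (i₀, j₀) t))) = 0 := by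
          by_cases hS : (∑ t : τ, ∑ m ∈ (G (i₀, j₀) t).support,
              v (coeff m (G (i₀, j₀) t))) = 0
          · exact Or.inr hS
          · left
            rw [Finset.sum_mul]
            have hex : ∃ t ∈ (Finset.univ : Finset τ),
                0 < ∑ m ∈ (G (i₀, j₀) t).support, v (coeff m (G (i₀, j₀) t)) := by
              by_contra hno
              simp only [not_exists, not_and, not_lt] at hno
              exact hS (Finset.sum_eq_zero fun t ht => le_antisymm (hno t ht) (hBnn t))
            obtain ⟨t₀, ht₀, hpos⟩ := hex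
            refine Finset.sum_lt_sum (fun t _ => (h2 t).trans
              (mul_le_mul_of_nonneg_left (h3 t).le (hBnn t))) ⟨t₀, ht₀, ?_⟩
            exact lt_of_le_of_lt (h2 t₀) (mul_lt_mul_of_pos_left (h3 t₀) hpos)
        rcases h6 with h6 | h6
        · linarith
        · have : (1 : ℝ) ≤ 0 := by
            refine h1.trans ((Finset.sum_le_sum fun t _ => h2 t).trans ?_)
            have hall : ∀ t, (∑ m ∈ (G (i₀, j₀) t).support, v (coeff m (G (i₀, j₀) t))) = 0 :=
              fun t => (Finset.sum_eq_zero_iff_of_nonneg fun t _ => hBnn t).1 h6 t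
                (Finset.mem_univ t)
            simp [hall]
          linarith
  obtain ⟨t, ht⟩ := key
  refine ⟨t, ?_⟩
  have hsc : eval (Sum.elim x' y') (F t) =
      ((x i₀)⁻¹) ^ d * ((y j₀)⁻¹) ^ e * eval (Sum.elim x y) (F t) := hF t x y _ _
  rw [hsc, v.map_mul, v.map_mul, v.map_pow, v.map_pow, map_inv₀, map_inv₀] at ht
  have hpos : 0 < v (x i₀) ^ d * v (y j₀) ^ e := mul_pos (pow_pos hvx0 d) (pow_pos hvy0 e)
  have : (LocConst.ofFinset T B).C v * (((v (x i₀))⁻¹ ^ d * (v (y j₀))⁻¹ ^ e) *
      v (eval (Sum.elim x y) (F t))) =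
      ((LocConst.ofFinset T B).C v * v (eval (Sum.elim x y) (F t))) /
        (v (x i₀) ^ d * v (y j₀) ^ e) := by
    rw [inv_pow, inv_pow]
    field_simp
  rw [this, le_div_iff₀ hpos, one_mul] at ht
  exact ht

end Main

end Fermat.Agent.S17.H71
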