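import Fermat.Agent.S17.Height.H16_MatSys

/-!
# S17, part H (heights): packages P4 of the matrix system (helper22)

* `stmt_M_siegel : H16.Stmt_M_siegel` : the Siegel lemma in a matrix system (from the sharp Siegel
  lemma `H16.Stmt_Siegel`, with `S = {p : maxMinor_p B ≠ 1}`), with the constant
  `(m₀ + 1) log (m₀ + 1) + locTotal L`, `L` the local constants of `vec₀_lev`.
* `stmt_M_finInt : H16.Stmt_M_finInt` : finitely many integral functions of bounded norm.
-/

set_option autoImplicit false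

open Matrix Module

namespace Fermat.Agent.S17.H22m

open Fermat.Agent.S17.H16 Fermat.Agent.S17.H35 Fermat.Agent.S17.H71

theorem absQ_none_castV {ι : Type*} (x : ι → ℚ) (i : ι) :
    absQ none (castV x i) = |((x i : ℚ) : ℝ)| := by
  unfold castV
  rw [eq_ratCast, absQ_none_ratCast]

theorem absQ_some_castV {ι : Type*} (p : Nat.Primes) (x : ι → ℚ) (i : ι) :
    absQ (some p) (castV x i) = ((padicNorm p (x i) : ℚ) : ℝ) := by
  unfold castV
  rw [eq_ratCast, absQ_some_ratCast]

/-- The height of an adelic function as a finite sum. -/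
theorem ht_eq_add_sum (a : Adl) (S' : Finset Nat.Primes)
    (h : ∀ p : Nat.Primes, a.f (some p) ≠ 1 → p ∈ S') :
    a.ht = Real.log (a.f none) + ∑ p ∈ S', Real.log (a.f (some p)) := by
  unfold Adl.ht
  rw [finsum_eq_sum_of_support_subset (s := Finset.insertNone S')]
  · rw [Finset.sum_insertNone]
  · intro w hw
    simp only [Function.mem_support] at hw
    cases w with
    | none => simp
    | some p =>
      have : a.f (some p) ≠ 1 := by
        intro h1
        apply hw
        rw [h1, Real.log_one]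
      simpa using h p this

/-- If all the finite components are `≤ 1`, the height is at most the archimedean term. -/
theorem ht_le_log_none (a : Adl) (h : ∀ p : Nat.Primes, a.f (some p) ≤ 1) :
    a.ht ≤ Real.log (a.f none) := by
  classical
  set F : Finset PlaceQ := a.fin.toFinset with hF
  have h1 := ht_eq_add_sum a F.eraseNone (by
    intro p hp
    rw [Finset.mem_eraseNone, hF, Set.Finite.mem_toFinset]
    exact hp)
  rw [h1]
  have h2 : ∑ p ∈ F.eraseNone, Real.log (a.f (some p)) ≤ 0 :=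
    Finset.sum_nonpos fun p _ => Real.log_nonpos (a.pos _).le (h p)
  linarith

section

variable {n r : ℕ}

theorem maxMinor_none_eq (B : Matrix (Fin r) (Fin n) ℚ) :
    maxMinor (absQ none) (castM B)
      = ⨆ J : Fin r → Fin n, ((|(B.submatrix id J).det| : ℚ) : ℝ) := by
  unfold maxMinor
  congr 1
  funext J
  rw [det_castM_submatrix, eq_ratCast, absQ_none_ratCast, Rat.cast_abs]

theorem maxMinor_some_eq (p : Nat.Primes) (B : Matrix (Fin r) (Fin n) ℚ) :
    maxMinor (absQ (some p)) (castM B)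
      = ⨆ J : Fin r → Fin n, ((padicNorm p (B.submatrix id J).det : ℚ) : ℝ) := by
  unfold maxMinor
  congr 1
  funext J
  rw [det_castM_submatrix, eq_ratCast, absQ_some_ratCast]

theorem castV_vecMul (c : Fin r → ℚ) (B : Matrix (Fin r) (Fin n) ℚ) :
    castV (c ᵥ* B) = castV c ᵥ* castM B := by
  funext j
  unfold castV castM
  exact RingHom.map_vecMul (algebraMap ℚ Qbar) B c j

/-- The sup-norm at a finite place of an integral vector is at most `1`. -/
theorem supNorm_some_le_one (p : Nat.Primes) (x : Fin n → ℚ)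
    (hx : ∀ j, ∃ z : ℤ, x j = (z : ℚ)) : supNorm (absQ (some p)) (castV x) ≤ 1 := by
  refine supNorm_le _ _ zero_le_one fun j => ?_
  obtain ⟨z, hz⟩ := hx j
  rw [absQ_some_castV, hz]
  have : Fact (p : ℕ).Prime := ⟨p.2⟩
  exact_mod_cast padicNorm.of_int z

/-- The archimedean sup-norm of a nonzero integral vector is at least `1`. -/
theorem one_le_supNorm_none (x : Fin n → ℚ) (hx0 : x ≠ 0)
    (hx : ∀ j, ∃ z : ℤ, x j = (z : ℚ)) : 1 ≤ supNorm (absQ none) (castV x) := by
  obtain ⟨j, hj⟩ : ∃ j, x j ≠ 0 := by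
    by_contra hcon
    push Not at hcon
    exact hx0 (funext hcon)
  obtain ⟨z, hz⟩ := hx j
  have hz0 : z ≠ 0 := by
    rintro rfl
    exact hj (by rw [hz]; simp)
  have h1 : (1 : ℝ) ≤ |((x j : ℚ) : ℝ)| := by
    rw [hz]
    have : (1 : ℤ) ≤ |z| := Int.one_le_abs hz0
    have h2 : ((1 : ℤ) : ℝ) ≤ ((|z| : ℤ) : ℝ) := by exact_mod_cast this
    rw [Int.cast_abs] at h2
    simpa using h2
  rw [← absQ_none_castV] at h1
  exact h1.trans (le_supNorm _ _ j)

end

/-- The Siegel lemma in the matrix system. -/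
theorem stmt_M_siegel : Stmt_M_siegel := by
  intro hSiegel J _ Dv _ Rv Pt _ S
  classical
  obtain ⟨L, hL⟩ := S.vec₀_lev
  have hlogm : 0 ≤ ((S.m₀ : ℝ) + 1) * Real.log ((S.m₀ : ℝ) + 1) :=
    mul_nonneg (by positivity) (Real.log_nonneg (by
      have : (0 : ℝ) ≤ (S.m₀ : ℝ) := Nat.cast_nonneg _
      linarith))
  refine ⟨((S.m₀ : ℝ) + 1) * Real.log ((S.m₀ : ℝ) + 1) + locTotal L, fun D hD => ?_⟩
  have hm₀ : S.m₀ ≤ S.Mtop := by
    have := S.hMtop
    omega
  obtain ⟨r, B, hB, hBW⟩ := S.W_rat S.m₀ D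
  have hfr : finrank Qbar (S.W S.m₀ D) = r := IsRatSub.finrank B hB hBW
  have hdim := S.W_dim S.m₀ D hD hm₀
  rw [hfr] at hdim
  have hr : 0 < r := by
    have h1 := S.hg
    omega
  have hrle : r ≤ S.m₀ + 1 := by omega
  have hrR : ((S.m₀ : ℝ) + 1 - S.g - S.deg D) = (r : ℝ) := by
    have : ((r + S.g + S.deg D : ℕ) : ℝ) = ((S.m₀ + 1 : ℕ) : ℝ) := by exact_mod_cast hdim
    push_cast at this
    linarith
  -- the set of primes
  set a : Adl := Adl.ofMat B hB with ha
  set S' : Finset Nat.Primes := (a.fin.toFinset).eraseNone with hS'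
  have hS'mem : ∀ p : Nat.Primes, a.f (some p) ≠ 1 → p ∈ S' := by
    intro p hp
    rw [hS', Finset.mem_eraseNone, Set.Finite.mem_toFinset]
    exact hp
  set Sn : Finset ℕ := S'.image (fun p : Nat.Primes => (p : ℕ)) with hSn
  have hSnprime : ∀ p ∈ Sn, p.Prime := by
    intro p hp
    rw [hSn, Finset.mem_image] at hp
    obtain ⟨q, -, rfl⟩ := hp
    exact q.2
  have hint : ∀ p : ℕ, p.Prime → p ∉ Sn → ∀ Jc : Fin r → Fin (S.n S.m₀),
      padicNorm p (B.submatrix id Jc).det ≤ 1 := by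
    intro p hp hpS Jc
    have h1 : a.f (some ⟨p, hp⟩) = 1 := by
      by_contra hne
      exact hpS (Finset.mem_image.mpr ⟨⟨p, hp⟩, hS'mem _ hne, rfl⟩)
    rw [ha, Adl.ofMat_f] at h1
    have h2 := le_maxMinor (absQ (some ⟨p, hp⟩)) (castM B) Jc
    rw [h1, det_castM_submatrix, eq_ratCast] at h2
    have h3 : absQ (some ⟨p, hp⟩) (((B.submatrix id Jc).det : ℚ) : Qbar)
        = ((padicNorm p (B.submatrix id Jc).det : ℚ) : ℝ) :=
      absQ_some_ratCast ⟨p, hp⟩ _
    have h4 : ((padicNorm p (B.submatrix id Jc).det : ℚ) : ℝ) ≤ 1 := by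
      rw [← h3]; exact h2
    exact_mod_cast h4
  obtain ⟨c, hc0, hcint, hcb⟩ := hSiegel r (S.n S.m₀) hr B hB Sn hSnprime hint
  set x : Fin (S.n S.m₀) → ℚ := c ᵥ* B with hx
  have hx0 : x ≠ 0 := by
    intro h0
    obtain ⟨Jc, hJc⟩ := hB
    apply hc0
    have h1 : c ᵥ* (B.submatrix id Jc) = 0 := by
      funext k
      have := congrFun h0 (Jc k)
      simpa [hx, Matrix.vecMul, dotProduct] using this
    exact Matrix.eq_zero_of_vecMul_eq_zero hJc h1
  have hxW : castV x ∈ S.W S.m₀ D := by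
    rw [← hBW, hx, castV_vecMul]
    exact vecMul_mem_rowSpan _ _
  obtain ⟨f, Y, hord, hvec, hZ⟩ := S.exists_Rv D x hD hx0 hxW
  have hIsInt : S.IsInt f := by
    intro i
    rw [hvec]
    exact hcint i
  have hs1 : 1 ≤ supNorm (absQ none) (castV x) := one_le_supNorm_none x hx0 hcint
  have hspos : 0 < supNorm (absQ none) (castV x) := lt_of_lt_of_le one_pos hs1
  have hlsup : S.lsup f = Real.log (supNorm (absQ none) (castV x)) := by
    unfold MatSys.lsup
    rw [hvec]
  refine ⟨f, Y, hZ, hord, hIsInt, ?_, ?_, ?_⟩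
  · -- the main inequality
    rw [hrR, hlsup]
    have hPhi : S.Phi S.m₀ D = PhiQ B := PhiW_eq B hB _ hBW
    have hPhi2 : PhiQ B = Real.log (a.f none) + ∑ p ∈ S', Real.log (a.f (some p)) := by
      rw [← Adl.ht_ofMat B hB]
      exact ht_eq_add_sum a S' hS'mem
    -- the bound for the sup-norm
    have : Nonempty (Fin (S.n S.m₀)) := by
      by_contra hne
      rw [not_nonempty_iff] at hne
      exact hx0 (funext fun j => (hne.false j).elim)
    obtain ⟨j₀, hj₀⟩ := exists_eq_supNorm (absQ none) (castV x)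
    have hb := hcb j₀
    rw [← absQ_none_castV x j₀, hj₀, ← maxMinor_none_eq B] at hb
    have hprod : ∏ p ∈ Sn, (⨆ Jc : Fin r → Fin (S.n S.m₀),
        ((padicNorm p (B.submatrix id Jc).det : ℚ) : ℝ)) = ∏ p ∈ S', a.f (some p) := by
      have hpi := Finset.prod_image (s := S') (g := fun p : Nat.Primes => (p : ℕ))
        (f := fun p : ℕ => (⨆ Jc : Fin r → Fin (S.n S.m₀),
          ((padicNorm p (B.submatrix id Jc).det : ℚ) : ℝ)))
        (fun p _ q _ h => Subtype.ext h)
      rw [hSn]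
      refine hpi.trans (Finset.prod_congr rfl fun p _ => ?_)
      rw [ha, Adl.ofMat_f, maxMinor_some_eq]
    rw [hprod] at hb
    have hMpos : 0 < maxMinor (absQ none) (castM B) := maxMinor_castM_pos B hB none
    have hPpos : 0 < ∏ p ∈ S', a.f (some p) := Finset.prod_pos fun p _ => a.pos _
    have hrpos : (0 : ℝ) < (r : ℝ) := by exact_mod_cast hr
    have hlog := Real.log_le_log (pow_pos hspos r) hb
    rw [Real.log_pow, Real.log_mul (pow_pos hrpos r).ne' (mul_pos hMpos hPpos).ne',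
      Real.log_mul hMpos.ne' hPpos.ne', Real.log_pow,
      Real.log_prod (fun p _ => (a.pos _).ne')] at hlog
    have hrlog : (r : ℝ) * Real.log (r : ℝ) ≤ ((S.m₀ : ℝ) + 1) * Real.log ((S.m₀ : ℝ) + 1) := by
      have h1 : (r : ℝ) ≤ (S.m₀ : ℝ) + 1 := by exact_mod_cast hrle
      have h2 : (1 : ℝ) ≤ (r : ℝ) := by exact_mod_cast hr
      have h3 : Real.log (r : ℝ) ≤ Real.log ((S.m₀ : ℝ) + 1) := Real.log_le_log hrpos h1
      exact mul_le_mul h1 h3 (Real.log_nonneg h2) (by linarith)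
    have hlt := locTotal_nonneg L
    rw [hPhi, hPhi2]
    have hanone : a.f none = maxMinor (absQ none) (castM B) := by rw [ha, Adl.ofMat_f]
    rw [hanone]
    linarith
  · -- the height
    have h1 : S.hgt f = (Adl.ofVec (S.vec f) (S.vec_ne f)).ht := rfl
    have hv0 : S.vec₀ f ≠ 0 := by rw [hvec]; exact hx0
    have h2 := Adl.ht_le_of_le (Adl.ofVec (S.vec f) (S.vec_ne f)) (Adl.ofVec (S.vec₀ f) hv0) L
      (fun w => by
        rw [Adl.ofVec_f, Adl.ofVec_f]
        exact hL w f hord)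
    have h3 : (Adl.ofVec (S.vec₀ f) hv0).ht ≤ Real.log ((Adl.ofVec (S.vec₀ f) hv0).f none) :=
      ht_le_log_none _ (fun p => by
        rw [Adl.ofVec_f]
        exact supNorm_some_le_one p _ (by rw [hvec]; exact hcint))
    rw [Adl.ofVec_f] at h3
    have h4 : Real.log (supNorm (absQ none) (castV (S.vec₀ f))) = S.lsup f := rfl
    rw [h4] at h3
    rw [h1]
    linarith
  · rw [hlsup]
    exact Real.log_nonneg hs1

/-- Finiteness of the integral functions of bounded norm. -/
theorem stmt_M_finInt : Stmt_M_finInt := by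
  intro J _ Dv _ Rv Pt _ S T
  classical
  -- the finite set of integral vectors of bounded sup-norm
  set Nb : ℕ := ⌈Real.exp T⌉₊ with hNb
  have hfin : {x : Fin (S.n S.m₀) → ℚ |
      ∃ z : Fin (S.n S.m₀) → ℤ, (∀ i, |z i| ≤ (Nb : ℤ)) ∧ ∀ i, x i = (z i : ℚ)}.Finite := by
    have h1 : {z : Fin (S.n S.m₀) → ℤ | ∀ i, |z i| ≤ (Nb : ℤ)}.Finite := by
      have : {z : Fin (S.n S.m₀) → ℤ | ∀ i, |z i| ≤ (Nb : ℤ)}
          = Set.pi Set.univ (fun _ : Fin (S.n S.m₀) => Set.Icc (-(Nb : ℤ)) (Nb : ℤ)) := by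
        ext z
        simp only [Set.mem_ofPred_eq, Set.mem_pi, Set.mem_univ, true_implies, Set.mem_Icc, abs_le]
      rw [this]
      exact Set.Finite.pi fun _ => Set.finite_Icc _ _
    refine (h1.image (fun z : Fin (S.n S.m₀) → ℤ => fun i => ((z i : ℤ) : ℚ))).subset ?_
    rintro x ⟨z, hz, hx⟩
    exact ⟨z, hz, (funext hx).symm⟩
  refine Set.Finite.of_finite_image (f := S.vec₀) (hfin.subset ?_) ?_
  · rintro _ ⟨f, ⟨hint, hord, hT⟩, rfl⟩
    choose z hz using hint
    refine ⟨z, fun i => ?_, hz⟩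
    have h1 : absQ none (castV (S.vec₀ f) i) ≤ supNorm (absQ none) (castV (S.vec₀ f)) :=
      le_supNorm _ _ i
    have h2 : supNorm (absQ none) (castV (S.vec₀ f)) ≤ Real.exp T := by
      rcases (supNorm_nonneg (absQ none) (castV (S.vec₀ f))).eq_or_lt with h0 | hpos
      · rw [← h0]; exact (Real.exp_pos T).le
      · have := Real.exp_le_exp.mpr hT
        unfold MatSys.lsup at this
        rwa [Real.exp_log hpos] at this
    rw [absQ_none_castV, hz i] at h1
    have h3 : |((z i : ℤ) : ℝ)| ≤ (Nb : ℝ) := by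
      have : ((( z i : ℤ) : ℚ) : ℝ) = ((z i : ℤ) : ℝ) := by push_cast; rfl
      rw [this] at h1
      exact (h1.trans h2).trans (Nat.le_ceil _)
    have h4 : ((|z i| : ℤ) : ℝ) ≤ ((Nb : ℤ) : ℝ) := by
      rw [Int.cast_abs]; exact_mod_cast h3
    exact_mod_cast h4
  · rintro f ⟨-, hf, -⟩ f' ⟨-, hf', -⟩ h
    exact S.vec₀_inj f f' hf hf' h

end Fermat.Agent.S17.H22m
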