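import Fermat.Agent.S17.Height.H16_ChainStmt
import Mathlib.LinearAlgebra.FiniteDimensional.Lemmas
import Mathlib.LinearAlgebra.Matrix.Nondegenerate
import Mathlib.LinearAlgebra.Dimension.Constructions

/-!
# S17, part H: the chain lemma (helper41)

`H41c.stmt_Chain : H16.Stmt_Chain`.  The primal step of `H16_OpNorm` is iterated along
`stackRows`; the row spaces of the partial stacks are identified with `kerUpTo E j` by a
dimension count.
-/

set_option autoImplicit false
set_option linter.unusedSectionVars false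

open Matrix

namespace Fermat.Agent.S17.H41c

open Fermat.Agent.S17.H71 Fermat.Agent.S17.H16

variable {K : Type*} [Field K]

/-- The constants `LocConst.card K N` are monotone in `N`. -/
theorem card_C_mono {M N : ℕ} (h : M ≤ N) (v : AbsoluteValue K ℝ) :
    (LocConst.card K M).C v ≤ (LocConst.card K N).C v := by
  classical
  by_cases hv : IsNonarchimedean v
  · rw [LocConst.card_eq_one M v hv, LocConst.card_eq_one N v hv]
  · have hM : (LocConst.card K M).C v = max 1 (M : ℝ) := by
      show (if IsNonarchimedean v ∧ ∀ c ∈ (∅ : Finset K), v c ≤ 1 then (1 : ℝ)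
        else max 1 (M : ℝ)) = _
      rw [if_neg fun h => hv h.1]
    have hN : (LocConst.card K N).C v = max 1 (N : ℝ) := by
      show (if IsNonarchimedean v ∧ ∀ c ∈ (∅ : Finset K), v c ≤ 1 then (1 : ℝ)
        else max 1 (N : ℝ)) = _
      rw [if_neg fun h => hv h.1]
    rw [hM, hN]
    exact max_le_max le_rfl (by exact_mod_cast h)

variable {ι : Type*} [Fintype ι] [DecidableEq ι] {r : ℕ}

/-! ### The rows of a stack -/

omit [Fintype ι] [DecidableEq ι] in
theorem stackRows_succ_zero (a : ℕ) (w : Fin (a + 1) → ι → K) (B : Matrix (Fin r) ι K) :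
    stackRows (a + 1) w B 0 = w 0 := rfl

omit [Fintype ι] [DecidableEq ι] in
theorem stackRows_succ_succ (a : ℕ) (w : Fin (a + 1) → ι → K) (B : Matrix (Fin r) ι K)
    (i : Fin (r + a)) :
    stackRows (a + 1) w B i.succ = stackRows a (Fin.tail w) B i := rfl

omit [DecidableEq ι] in
/-- A form killing the `w i` and the rows of `B` kills the rows of the stack. -/
theorem dot_stackRows_eq_zero (e : ι → K) :
    ∀ (a : ℕ) (w : Fin a → ι → K) (B : Matrix (Fin r) ι K), (∀ i, e ⬝ᵥ w i = 0) →
      (∀ k, e ⬝ᵥ B k = 0) → ∀ i, e ⬝ᵥ stackRows a w B i = 0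
  | 0, _, _, _, hB => hB
  | a + 1, w, B, hw, hB => by
      intro i
      refine Fin.cases ?_ (fun i' => ?_) i
      · rw [stackRows_succ_zero]
        exact hw 0
      · rw [stackRows_succ_succ]
        exact dot_stackRows_eq_zero e a (Fin.tail w) B (fun i => hw i.succ) hB i'

/-- The row spaces along the chain: `chainSp a w B j` is the span of `w j, …, w (a-1)` and the
rows of `B`. -/
noncomputable def chainSp :
    (a : ℕ) → (Fin a → ι → K) → Matrix (Fin r) ι K → Fin a → Submodule K (ι → K)
  | 0, _, _ => fun j => Fin.elim0 j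
  | a + 1, w, B =>
    Fin.cons (α := fun _ => Submodule K (ι → K)) (rowSpan (stackRows (a + 1) w B))
      (chainSp a (Fin.tail w) B)

omit [Fintype ι] [DecidableEq ι] in
theorem chainSp_succ_zero (a : ℕ) (w : Fin (a + 1) → ι → K) (B : Matrix (Fin r) ι K) :
    chainSp (a + 1) w B 0 = rowSpan (stackRows (a + 1) w B) := rfl

omit [Fintype ι] [DecidableEq ι] in
theorem chainSp_succ_succ (a : ℕ) (w : Fin (a + 1) → ι → K) (B : Matrix (Fin r) ι K)
    (j : Fin a) : chainSp (a + 1) w B j.succ = chainSp a (Fin.tail w) B j := rfl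

/-! ### The chain of primal steps -/

/-- The chain lemma in terms of the row spaces of the partial stacks. -/
theorem chain_aux (v : AbsoluteValue K ℝ) :
    ∀ (a : ℕ) (E w : Fin a → ι → K) (B : Matrix (Fin r) ι K),
      (∀ i j, E i ⬝ᵥ w j = if i = j then 1 else 0) → (∀ i k, E i ⬝ᵥ B k = 0) →
      0 < maxMinor v B →
      maxMinor v B ≤ maxMinor v (stackRows a w B) *
          ∏ j : Fin a, opNorm v (E j) (chainSp a w B j) ∧
        maxMinor v (stackRows a w B) * ∏ j : Fin a, opNorm v (E j) (chainSp a w B j) ≤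
          (LocConst.card K (r + a)).C v ^ (2 * a) * maxMinor v B := by
  intro a
  induction a with
  | zero =>
    intro E w B _ _ _
    rw [stackRows_zero, Finset.univ_eq_empty, Finset.prod_empty, mul_one, mul_zero, pow_zero,
      one_mul]
    exact ⟨le_rfl, le_rfl⟩
  | succ a ih =>
    intro E w B hdual hkill hB
    obtain ⟨ih1, ih2⟩ := ih (Fin.tail E) (Fin.tail w) B
      (fun i j => by
        have h := hdual i.succ j.succ
        simp only [Fin.succ_inj] at h
        exact h)
      (fun i k => hkill i.succ k) hB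
    set B' := stackRows a (Fin.tail w) B with hB'
    set P := ∏ j : Fin a, opNorm v (Fin.tail E j) (chainSp a (Fin.tail w) B j) with hP
    have hP0 : 0 ≤ P := Finset.prod_nonneg fun j _ => opNorm_nonneg _ _ _
    have hB'pos : 0 < maxMinor v B' := by
      rcases (maxMinor_nonneg v B').eq_or_lt with h0 | h0
      · rw [← h0, zero_mul] at ih1
        exact absurd ih1 (not_le.2 hB)
      · exact h0
    have hkill' : ∀ i, E 0 ⬝ᵥ B' i = 0 :=
      dot_stackRows_eq_zero (E 0) a (Fin.tail w) B
        (fun i => by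
          have h := hdual 0 i.succ
          rw [if_neg (Fin.succ_ne_zero i).symm] at h
          exact h) (hkill 0)
    have h00 : v (E 0 ⬝ᵥ w 0) = 1 := by rw [hdual 0 0, if_pos rfl, v.map_one]
    have hL := maxMinor_mul_abv_le v (E 0) (w 0) B' hkill' hB'pos
    have hU := maxMinor_consRow_mul_opNorm_le v (E 0) (w 0) B' hkill' hB'pos
    rw [h00, mul_one] at hL hU
    have hprod : ∏ j : Fin (a + 1), opNorm v (E j) (chainSp (a + 1) w B j) =
        opNorm v (E 0) (rowSpan (consRow (w 0) B')) * P := by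
      rw [Fin.prod_univ_succ]
      rfl
    have hstack : stackRows (a + 1) w B = consRow (w 0) B' := rfl
    rw [hprod, hstack]
    set M := consRow (w 0) B' with hM
    set o := opNorm v (E 0) (rowSpan M) with ho
    set C' := (LocConst.card K (r + a + 1)).C v with hC'
    have hC'1 : 1 ≤ C' := (LocConst.card K (r + a + 1)).one_le v
    have hCa : (LocConst.card K (r + a)).C v ≤ C' := card_C_mono (Nat.le_succ _) v
    have hCa1 : 1 ≤ (LocConst.card K (r + a)).C v := (LocConst.card K (r + a)).one_le v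
    constructor
    · calc maxMinor v B ≤ maxMinor v B' * P := ih1
        _ ≤ (maxMinor v M * o) * P := mul_le_mul_of_nonneg_right hL hP0
        _ = maxMinor v M * (o * P) := by ring
    · have h1 : (LocConst.card K (r + a)).C v ^ (2 * a) ≤ C' ^ (2 * a) :=
        pow_le_pow_left₀ (le_trans zero_le_one hCa1) hCa _
      calc maxMinor v M * (o * P) = (maxMinor v M * o) * P := by ring
        _ ≤ (C' ^ 2 * maxMinor v B') * P := mul_le_mul_of_nonneg_right hU hP0
        _ = C' ^ 2 * (maxMinor v B' * P) := by ring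
        _ ≤ C' ^ 2 * ((LocConst.card K (r + a)).C v ^ (2 * a) * maxMinor v B) :=
            mul_le_mul_of_nonneg_left ih2 (by positivity)
        _ ≤ C' ^ 2 * (C' ^ (2 * a) * maxMinor v B) :=
            mul_le_mul_of_nonneg_left
              (mul_le_mul_of_nonneg_right h1 (maxMinor_nonneg v B)) (by positivity)
        _ = C' ^ (2 * (a + 1)) * maxMinor v B := by ring

/-! ### Description of the row spaces -/

omit [DecidableEq ι] in
theorem vecMul_eq_sum (c : Fin r → K) (B : Matrix (Fin r) ι K) :
    c ᵥ* B = ∑ i, c i • B i := by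
  funext j
  simp [Matrix.vecMul, dotProduct, Finset.sum_apply]

/-- The row space of a stack. -/
theorem mem_rowSpan_stackRows :
    ∀ (a : ℕ) (w : Fin a → ι → K) (B : Matrix (Fin r) ι K) (f : ι → K),
      f ∈ rowSpan (stackRows a w B) ↔
        ∃ (c : Fin a → K) (d : Fin r → K), f = ∑ i, c i • w i + d ᵥ* B := by
  intro a
  induction a with
  | zero =>
    intro w B f
    rw [stackRows_zero, mem_rowSpan_iff]
    constructor
    · rintro ⟨d, rfl⟩
      exact ⟨Fin.elim0, d, by simp⟩
    · rintro ⟨c, d, rfl⟩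
      exact ⟨d, by simp⟩
  | succ a ih =>
    intro w B f
    have hstack : stackRows (a + 1) w B = consRow (w 0) (stackRows a (Fin.tail w) B) := rfl
    rw [hstack, mem_rowSpan_consRow_iff]
    constructor
    · rintro ⟨t, c', rfl⟩
      obtain ⟨c'', d, hc⟩ := (ih (Fin.tail w) B _).1 (vecMul_mem_rowSpan _ c')
      refine ⟨Fin.cons t c'', d, ?_⟩
      rw [hc, Fin.sum_univ_succ]
      simp only [Fin.cons_zero, Fin.cons_succ, Fin.tail]
      rw [add_assoc]
    · rintro ⟨c, d, rfl⟩
      have hmem : ∑ i : Fin a, c i.succ • Fin.tail w i + d ᵥ* B ∈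
          rowSpan (stackRows a (Fin.tail w) B) :=
        (ih (Fin.tail w) B _).2 ⟨fun i => c i.succ, d, rfl⟩
      obtain ⟨c', hc'⟩ := (mem_rowSpan_iff _ _).1 hmem
      refine ⟨c 0, c', ?_⟩
      rw [← hc', Fin.sum_univ_succ]
      simp only [Fin.tail]
      rw [add_assoc]

/-- The chain spaces: coefficients of `w i`, `i < j`, vanish. -/
theorem mem_chainSp :
    ∀ (a : ℕ) (w : Fin a → ι → K) (B : Matrix (Fin r) ι K) (j : Fin a) (f : ι → K),
      f ∈ chainSp a w B j ↔
        ∃ (c : Fin a → K) (d : Fin r → K), (∀ i : Fin a, i < j → c i = 0) ∧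
          f = ∑ i, c i • w i + d ᵥ* B := by
  intro a
  induction a with
  | zero => intro w B j; exact Fin.elim0 j
  | succ a ih =>
    intro w B j f
    refine Fin.cases ?_ (fun j' => ?_) j
    · rw [chainSp_succ_zero, mem_rowSpan_stackRows]
      constructor
      · rintro ⟨c, d, hf⟩
        exact ⟨c, d, fun i hi => absurd hi (Fin.not_lt_zero i), hf⟩
      · rintro ⟨c, d, -, hf⟩
        exact ⟨c, d, hf⟩
    · rw [chainSp_succ_succ, ih]
      constructor
      · rintro ⟨c', d, hc', rfl⟩
        refine ⟨Fin.cons 0 c', d, ?_, ?_⟩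
        · intro i
          refine Fin.cases ?_ (fun i' => ?_) i
          · intro _
            rfl
          · intro hi
            rw [Fin.cons_succ]
            exact hc' i' (Fin.succ_lt_succ_iff.1 hi)
        · rw [Fin.sum_univ_succ]
          simp only [Fin.cons_zero, Fin.cons_succ, Fin.tail, zero_smul, zero_add]
      · rintro ⟨c, d, hc, rfl⟩
        refine ⟨fun i => c i.succ, d, fun i hi => hc i.succ (Fin.succ_lt_succ_iff.2 hi), ?_⟩
        rw [Fin.sum_univ_succ, hc 0 (Fin.succ_pos j'), zero_smul, zero_add]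
        rfl

/-! ### The dimension count -/

/-- Rows of a matrix with a nonzero maximal minor are linearly independent. -/
theorem eq_zero_of_vecMul_eq_zero_of_maxMinor_pos (v : AbsoluteValue K ℝ)
    (B : Matrix (Fin r) ι K) (hB : 0 < maxMinor v B) (d : Fin r → K) (hd : d ᵥ* B = 0) :
    d = 0 := by
  obtain ⟨J, hJ⟩ := exists_eq_maxMinor v B hB
  have hdet : (B.submatrix id J).det ≠ 0 := by
    intro h0
    rw [h0, map_zero] at hJ
    exact hB.ne hJ
  refine Matrix.eq_zero_of_vecMul_eq_zero hdet ?_
  funext j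
  have h := congrFun hd (J j)
  simpa [Matrix.vecMul, dotProduct] using h

/-- Pairing a form with a combination of the `w i` and the rows of `B`. -/
theorem dot_combination {a : ℕ} (E w : Fin a → ι → K) (B : Matrix (Fin r) ι K)
    (hdual : ∀ i j, E i ⬝ᵥ w j = if i = j then 1 else 0) (hkill : ∀ i k, E i ⬝ᵥ B k = 0)
    (c : Fin a → K) (d : Fin r → K) (i₀ : Fin a) :
    E i₀ ⬝ᵥ (∑ i, c i • w i + d ᵥ* B) = c i₀ := by
  rw [dotProduct_add, dotProduct_vecMul_eq_zero (E i₀) B (hkill i₀) d, add_zero, dotProduct_sum]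
  simp only [dotProduct_smul, hdual, smul_eq_mul, mul_ite, mul_one, mul_zero]
  rw [Finset.sum_ite_eq Finset.univ i₀ c, if_pos (Finset.mem_univ _)]

/-- The `w i` and the rows of `B` span `Kⁿ` when `r + a = n`. -/
theorem exists_combination (v : AbsoluteValue K ℝ) {n a : ℕ} (E w : Fin a → Fin n → K)
    (B : Matrix (Fin r) (Fin n) K) (hn : r + a = n)
    (hdual : ∀ i j, E i ⬝ᵥ w j = if i = j then 1 else 0) (hkill : ∀ i k, E i ⬝ᵥ B k = 0)
    (hB : 0 < maxMinor v B) (f : Fin n → K) :
    ∃ (c : Fin a → K) (d : Fin r → K), f = ∑ i, c i • w i + d ᵥ* B := by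
  classical
  set g : Fin a ⊕ Fin r → (Fin n → K) := Sum.elim w (fun k => B k) with hg
  have hsum : ∀ c : Fin a ⊕ Fin r → K, ∑ i, c i • g i =
      ∑ i, c (Sum.inl i) • w i + (fun k => c (Sum.inr k)) ᵥ* B := by
    intro c
    rw [Fintype.sum_sum_type, vecMul_eq_sum]
    rfl
  have hli : LinearIndependent K g := by
    rw [Fintype.linearIndependent_iff]
    intro c hc
    rw [hsum] at hc
    have hl : ∀ i, c (Sum.inl i) = 0 := by
      intro i₀
      have h := dot_combination E w B hdual hkill (fun i => c (Sum.inl i))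
        (fun k => c (Sum.inr k)) i₀
      rw [hc, dotProduct_zero] at h
      exact h.symm
    have hr : (fun k => c (Sum.inr k)) = 0 := by
      refine eq_zero_of_vecMul_eq_zero_of_maxMinor_pos v B hB _ ?_
      simpa [hl] using hc
    rintro (i | k)
    · exact hl i
    · exact congrFun hr k
  have hcard : Fintype.card (Fin a ⊕ Fin r) = Module.finrank K (Fin n → K) := by
    rw [Fintype.card_sum, Fintype.card_fin, Fintype.card_fin, Module.finrank_fin_fun]
    omega
  have htop := hli.span_eq_top_of_card_eq_finrank' hcard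
  have hf : f ∈ Submodule.span K (Set.range g) := by rw [htop]; exact Submodule.mem_top
  obtain ⟨c, hc⟩ := (Submodule.mem_span_range_iff_exists_fun K).1 hf
  refine ⟨fun i => c (Sum.inl i), fun k => c (Sum.inr k), ?_⟩
  rw [← hc, hsum]

/-- The chain spaces are the kernels `kerUpTo E j` when `r + a = n`. -/
theorem chainSp_eq_kerUpTo (v : AbsoluteValue K ℝ) {n a : ℕ} (E w : Fin a → Fin n → K)
    (B : Matrix (Fin r) (Fin n) K) (hn : r + a = n)
    (hdual : ∀ i j, E i ⬝ᵥ w j = if i = j then 1 else 0) (hkill : ∀ i k, E i ⬝ᵥ B k = 0)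
    (hB : 0 < maxMinor v B) (j : Fin a) : chainSp a w B j = kerUpTo E (j : ℕ) := by
  ext f
  rw [mem_chainSp, mem_kerUpTo]
  constructor
  · rintro ⟨c, d, hc, rfl⟩ i hi
    rw [dot_combination E w B hdual hkill]
    exact hc i (Fin.lt_def.2 hi)
  · intro hf
    obtain ⟨c, d, rfl⟩ := exists_combination v E w B hn hdual hkill hB f
    refine ⟨c, d, fun i hi => ?_, rfl⟩
    have h := hf i (Fin.lt_def.1 hi)
    rwa [dot_combination E w B hdual hkill] at h

/-! ### The chain lemma -/

/-- **CHAIN**: the chain lemma. -/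
theorem stmt_Chain : Stmt_Chain := by
  intro K _ n
  refine ⟨(LocConst.card K n).pow (2 * n), ?_⟩
  intro v a r E w B hn hdual hkill hB
  obtain ⟨h1, h2⟩ := chain_aux v a E w B hdual hkill hB
  have hprod : ∏ j : Fin a, opNorm v (E j) (chainSp a w B j) =
      ∏ j : Fin a, opNorm v (E j) (kerUpTo E (j : ℕ)) :=
    Finset.prod_congr rfl fun j _ => by
      rw [chainSp_eq_kerUpTo v E w B hn hdual hkill hB j]
  rw [hprod] at h1 h2
  refine ⟨h1, h2.trans ?_⟩
  refine mul_le_mul_of_nonneg_right ?_ (maxMinor_nonneg v B)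
  show (LocConst.card K (r + a)).C v ^ (2 * a) ≤ (LocConst.card K n).C v ^ (2 * n)
  rw [hn]
  exact pow_le_pow_right₀ ((LocConst.card K n).one_le v) (by omega)

end Fermat.Agent.S17.H41c
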