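import Fermat.Agent.S17.Height.H16_MatSys

/-!
# S17, part H (heights): `Stmt_M_zero` and `Stmt_M_scal` (helper41)

* `H41c.stmt_M_zero : H16.Stmt_M_zero` : the covolume of the full space is `0`;
* `H41c.stmt_M_scal : H16.Stmt_M_scal` : the scaling property of the covolume.
-/

set_option autoImplicit false
set_option linter.unusedSectionVars false

open Matrix Module

namespace Fermat.Agent.S17.H41c

open Fermat.Agent.S17.H35 Fermat.Agent.S17.H71 Fermat.Agent.S17.H16

/-! ### The identity matrix -/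

section One

variable {K : Type*} [Field K] {n : ℕ}

/-- The minors of the identity matrix have absolute value `≤ 1`. -/
theorem abv_det_one_submatrix_le (v : AbsoluteValue K ℝ) (J : Fin n → Fin n) :
    v ((1 : Matrix (Fin n) (Fin n) K).submatrix id J).det ≤ 1 := by
  by_cases hJ : Function.Injective J
  · have hbij : Function.Bijective J := Finite.injective_iff_bijective.1 hJ
    set σ : Equiv.Perm (Fin n) := Equiv.ofBijective J hbij with hσ
    have h1 : ((1 : Matrix (Fin n) (Fin n) K).submatrix id J) =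
        ((1 : Matrix (Fin n) (Fin n) K).submatrix σ id)ᵀ := by
      ext i j
      simp [Matrix.one_apply, hσ, eq_comm]
    rw [h1, Matrix.det_transpose, Matrix.det_permute, Matrix.det_one, mul_one]
    rcases Int.units_eq_one_or (Equiv.Perm.sign σ) with h | h
    · rw [h]; simp
    · rw [h]; simp
  · have hex : ∃ j j', j ≠ j' ∧ J j = J j' := by
      by_contra hcon
      push Not at hcon
      exact hJ fun j j' h => by
        by_contra hne
        exact hcon j j' hne h
    obtain ⟨j, j', hne, hjj⟩ := hex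
    rw [Matrix.det_zero_of_column_eq hne (fun k => by
      show (1 : Matrix (Fin n) (Fin n) K) k (J j) = (1 : Matrix (Fin n) (Fin n) K) k (J j')
      rw [hjj]), map_zero]
    exact zero_le_one

/-- The maximal minor of the identity matrix is `1`. -/
theorem maxMinor_one (v : AbsoluteValue K ℝ) :
    maxMinor v (1 : Matrix (Fin n) (Fin n) K) = 1 := by
  refine le_antisymm (maxMinor_le v _ zero_le_one fun J => abv_det_one_submatrix_le v J) ?_
  have h := le_maxMinor v (1 : Matrix (Fin n) (Fin n) K) id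
  have h1 : ((1 : Matrix (Fin n) (Fin n) K).submatrix id id) = 1 := by
    ext i j; rfl
  rwa [h1, Matrix.det_one, map_one] at h

end One

theorem castM_one {n : ℕ} : castM (1 : Matrix (Fin n) (Fin n) ℚ) = 1 := by
  unfold castM
  exact Matrix.map_one _ (map_zero _) (map_one _)

theorem fullRank_one {n : ℕ} : FullRank (1 : Matrix (Fin n) (Fin n) ℚ) := by
  refine ⟨id, ?_⟩
  have h1 : ((1 : Matrix (Fin n) (Fin n) ℚ).submatrix id id) = 1 := by
    ext i j; rfl
  rw [h1, Matrix.det_one]
  exact one_ne_zero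

theorem rowSpan_one {n : ℕ} : rowSpan (castM (1 : Matrix (Fin n) (Fin n) ℚ)) = ⊤ := by
  rw [castM_one, eq_top_iff]
  intro f _
  rw [mem_rowSpan_iff]
  exact ⟨f, (Matrix.vecMul_one f).symm⟩

theorem PhiQ_one {n : ℕ} : PhiQ (1 : Matrix (Fin n) (Fin n) ℚ) = 0 := by
  unfold PhiQ
  have : ∀ w : PlaceQ,
      Real.log (maxMinor (absQ w) (castM (1 : Matrix (Fin n) (Fin n) ℚ))) = 0 := fun w => by
    rw [castM_one, maxMinor_one, Real.log_one]
  simp only [this]
  exact finsum_zero

/-- **P1**: `Φ m 0 = 0`. -/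
theorem stmt_M_zero : Stmt_M_zero := by
  intro J _ Dv _ Rv Pt _ S m
  show PhiW (S.W m 0) = 0
  rw [S.W_zero, PhiW_eq (1 : Matrix (Fin (S.n m)) (Fin (S.n m)) ℚ) fullRank_one ⊤ rowSpan_one]
  exact PhiQ_one

/-! ### Scaling -/

section Scal

variable {ι : Type*} [Fintype ι] [DecidableEq ι] {ι' : Type*} [Fintype ι'] [DecidableEq ι']

theorem castM_mul_right {r k : ℕ} (B : Matrix (Fin r) (Fin k) ℚ) (T : Matrix (Fin k) ι ℚ) :
    castM (B * T) = castM B * castM T := by
  unfold castM
  rw [Matrix.map_mul]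

/-- A rational matrix with a positive maximal minor at one place has full rank. -/
theorem fullRank_of_maxMinor_pos {r : ℕ} (B : Matrix (Fin r) ι ℚ) (w : PlaceQ)
    (h : 0 < maxMinor (absQ w) (castM B)) : FullRank B := by
  obtain ⟨J, hJ⟩ := exists_eq_maxMinor (absQ w) (castM B) h
  refine ⟨J, fun h0 => ?_⟩
  rw [det_castM_submatrix, h0, map_zero, map_zero] at hJ
  exact h.ne hJ

/-- The row space of a product. -/
theorem mem_rowSpan_mul {r k : ℕ} (B : Matrix (Fin r) (Fin k) Qbar) (T : Matrix (Fin k) ι Qbar)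
    (y : ι → Qbar) : y ∈ rowSpan (B * T) ↔ ∃ x ∈ rowSpan B, x ᵥ* T = y := by
  rw [mem_rowSpan_iff]
  constructor
  · rintro ⟨c, rfl⟩
    exact ⟨c ᵥ* B, vecMul_mem_rowSpan B c, Matrix.vecMul_vecMul c B T⟩
  · rintro ⟨x, hx, rfl⟩
    obtain ⟨c, rfl⟩ := (mem_rowSpan_iff B x).1 hx
    exact ⟨c, Matrix.vecMul_vecMul c B T⟩

end Scal

/-- **P2**: the scaling property of the covolume. -/
theorem stmt_M_scal : Stmt_M_scal := by
  intro J _ Dv _ Rv Pt _ S
  obtain ⟨L, hL⟩ := S.mult
  set N : ℕ := S.Mtop + 1 with hN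
  set L' : LocConst Qbar := ((LocConst.card Qbar N).mul L).pow N with hL'
  refine ⟨locTotal L', ?_⟩
  intro m D u hD hm
  have hmtop : m ≤ S.Mtop := le_trans (Nat.le_add_right _ _) hm
  -- a rational basis of `W m D`
  obtain ⟨r, B, hB, hBW⟩ := S.W_rat m D
  have hfin : finrank Qbar (S.W m D) = r := IsRatSub.finrank B hB hBW
  have hdim := S.W_dim m D hD hmtop
  rw [hfin] at hdim
  have hrN : r ≤ N := by omega
  have hr : (r : ℝ) = (m : ℝ) + 1 - S.g - S.deg D := by
    have : (r : ℝ) + S.g + S.deg D = (m : ℝ) + 1 := by exact_mod_cast hdim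
    linarith
  -- the transformed basis
  set T := S.mulM m u with hT
  set B' : Matrix (Fin r) (Fin (S.n (m + S.ord u))) ℚ := B * T with hB'def
  have hcast : castM B' = castM B * castM T := castM_mul_right B T
  -- local data
  have hupos : ∀ w : PlaceQ, 0 < supNorm (absQ w) (castV (S.vec u)) := fun w =>
    (Adl.ofVec (S.vec u) (S.vec_ne u)).pos w
  have hBpos : ∀ w : PlaceQ, 0 < maxMinor (absQ w) (castM B) := maxMinor_castM_pos B hB
  have hlow : ∀ w : PlaceQ,
      (supNorm (absQ w) (castV (S.vec u)) / L.C (absQ w)) ^ r * maxMinor (absQ w) (castM B) ≤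
        ((LocConst.card Qbar N).C (absQ w)) ^ r * maxMinor (absQ w) (castM B') := by
    intro w
    rw [hcast]
    refine le_maxMinor_mul_right (absQ w) N (castM T) _ (div_pos (hupos w) (L.pos _)) r hrN
      (castM B) (fun x _ => ?_) (hBpos w)
    rw [div_mul_eq_mul_div, div_le_iff₀ (L.pos _), mul_comm _ (L.C (absQ w))]
    exact (hL w m u hm x).1
  have hupp : ∀ w : PlaceQ,
      maxMinor (absQ w) (castM B') ≤
        ((LocConst.card Qbar N).C (absQ w) *
          (L.C (absQ w) * supNorm (absQ w) (castV (S.vec u)))) ^ r *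
            maxMinor (absQ w) (castM B) := by
    intro w
    rw [hcast]
    refine maxMinor_mul_right_le (absQ w) N (castM T) _
      (mul_nonneg (L.pos _).le (hupos w).le) r hrN (castM B) (fun x _ => ?_) (hBpos w)
    rw [mul_assoc]
    exact (hL w m u hm x).2
  -- the transformed basis has full rank and spans `W (m + ord u) (D + Z u)`
  have hB'pos : ∀ w : PlaceQ, 0 < maxMinor (absQ w) (castM B') := by
    intro w
    have h1 : 0 < (supNorm (absQ w) (castV (S.vec u)) / L.C (absQ w)) ^ r *
        maxMinor (absQ w) (castM B) :=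
      mul_pos (pow_pos (div_pos (hupos w) (L.pos _)) r) (hBpos w)
    have h2 := lt_of_lt_of_le h1 (hlow w)
    rcases (maxMinor_nonneg (absQ w) (castM B')).eq_or_lt with h0 | h0
    · rw [← h0, mul_zero] at h2
      exact absurd h2 (lt_irrefl _)
    · exact h0
  have hB' : FullRank B' := fullRank_of_maxMinor_pos B' none (hB'pos none)
  have hBW' : rowSpan (castM B') = S.W (m + S.ord u) (D + S.Z u) := by
    ext y
    rw [hcast, mem_rowSpan_mul, S.W_mul m D u hD hm y, hBW]
  have e1 : S.Phi m D = PhiQ B := PhiW_eq B hB _ hBW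
  have e2 : S.Phi (m + S.ord u) (D + S.Z u) = PhiQ B' := PhiW_eq B' hB' _ hBW'
  -- the adelic comparison
  set a : Adl := Adl.ofMat B' hB' with ha
  set b : Adl := (Adl.ofMat B hB).mul ((Adl.ofVec (S.vec u) (S.vec_ne u)).pow r) with hb
  have hbht : b.ht = PhiQ B + r * hgtQ (S.vec u) := by
    rw [hb, Adl.ht_mul, Adl.ht_pow, Adl.ht_ofMat, Adl.ht_ofVec]
  have haht : a.ht = PhiQ B' := Adl.ht_ofMat B' hB'
  have hCL1 : ∀ w : PlaceQ, 1 ≤ (LocConst.card Qbar N).C (absQ w) * L.C (absQ w) := fun w =>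
    ((LocConst.card Qbar N).mul L).one_le (absQ w)
  have hL'w : ∀ w : PlaceQ, L'.C (absQ w) =
      ((LocConst.card Qbar N).C (absQ w) * L.C (absQ w)) ^ N := fun w => rfl
  have hpowle : ∀ w : PlaceQ, ((LocConst.card Qbar N).C (absQ w) * L.C (absQ w)) ^ r ≤
      L'.C (absQ w) := fun w => by
    rw [hL'w]
    exact pow_le_pow_right₀ (hCL1 w) hrN
  have h₁ : ∀ w, a.f w ≤ L'.C (absQ w) * b.f w := by
    intro w
    rw [ha, hb, Adl.ofMat_f, Adl.mul_f, Adl.pow_f, Adl.ofMat_f, Adl.ofVec_f]
    calc maxMinor (absQ w) (castM B')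
        ≤ ((LocConst.card Qbar N).C (absQ w) *
            (L.C (absQ w) * supNorm (absQ w) (castV (S.vec u)))) ^ r *
              maxMinor (absQ w) (castM B) := hupp w
      _ = ((LocConst.card Qbar N).C (absQ w) * L.C (absQ w)) ^ r *
            (maxMinor (absQ w) (castM B) * supNorm (absQ w) (castV (S.vec u)) ^ r) := by
          rw [← mul_assoc, mul_pow]
          ring
      _ ≤ L'.C (absQ w) *
            (maxMinor (absQ w) (castM B) * supNorm (absQ w) (castV (S.vec u)) ^ r) :=
          mul_le_mul_of_nonneg_right (hpowle w)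
            (mul_nonneg (hBpos w).le (pow_nonneg (hupos w).le r))
  have h₂ : ∀ w, b.f w ≤ L'.C (absQ w) * a.f w := by
    intro w
    rw [ha, hb, Adl.ofMat_f, Adl.mul_f, Adl.pow_f, Adl.ofMat_f, Adl.ofVec_f]
    have hLpos := L.pos (absQ w)
    have h1 := hlow w
    rw [div_pow, div_mul_eq_mul_div, div_le_iff₀ (pow_pos hLpos r)] at h1
    calc maxMinor (absQ w) (castM B) * supNorm (absQ w) (castV (S.vec u)) ^ r
        = supNorm (absQ w) (castV (S.vec u)) ^ r * maxMinor (absQ w) (castM B) := mul_comm _ _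
      _ ≤ (LocConst.card Qbar N).C (absQ w) ^ r * maxMinor (absQ w) (castM B') *
            L.C (absQ w) ^ r := h1
      _ = ((LocConst.card Qbar N).C (absQ w) * L.C (absQ w)) ^ r *
            maxMinor (absQ w) (castM B') := by
          rw [mul_pow]
          ring
      _ ≤ L'.C (absQ w) * maxMinor (absQ w) (castM B') :=
          mul_le_mul_of_nonneg_right (hpowle w) (hB'pos w).le
  have hmain := Adl.abs_ht_sub_le a b L' h₁ h₂
  rw [haht, hbht] at hmain
  have hgt : S.hgt u = hgtQ (S.vec u) := rfl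
  rw [e1, e2, hgt, ← hr]
  have heq : PhiQ B' - PhiQ B - (r : ℝ) * hgtQ (S.vec u) =
      PhiQ B' - (PhiQ B + r * hgtQ (S.vec u)) := by ring
  rw [heq]
  exact hmain

end Fermat.Agent.S17.H41c
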