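import Fermat.Agent.S17.Height.H16_MatSys

/-!
# S17, part H (heights), package P3 (helper70): `Stmt_M_addH` and `Stmt_M_Hpos`

The step lemma: for a matrix system `S`, the difference `Φ (m+1) D - Φ m D` is the height of an
adelic function `a` with `a_w * opNorm_w (lead (m+1)) (W (m+1) D) ≍ 1` locally, with a uniform
family of local constants. Then `addH` follows from `la_lead` and `Hpos` from
`opNorm ≤ opNorm on ⊤`.
-/

set_option autoImplicit false

open Matrix Module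

namespace Fermat.Agent.S17.H70

open Fermat.Agent.S17.H16 Fermat.Agent.S17.H35 Fermat.Agent.S17.H71

section general

variable {K : Type*} [Field K]
variable {ι : Type*} [Fintype ι] {ι' : Type*} [Fintype ι']

/-- `‖x T‖ ≤ card * elems * ‖x‖`. -/
theorem supNorm_vecMul_le (v : AbsoluteValue K ℝ) (T : Matrix ι ι' K) (E : Finset K)
    (hE : ∀ i j, T i j ∈ E) (N : ℕ) (hN : Fintype.card ι ≤ N) (x : ι → K) :
    supNorm v (x ᵥ* T) ≤ (LocConst.card K N).C v * ((LocConst.elems E).C v * supNorm v x) := by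
  have hC := (LocConst.card K N).pos v
  have hEl := (LocConst.elems E).pos v
  refine supNorm_le v _ (mul_nonneg hC.le (mul_nonneg hEl.le (supNorm_nonneg v x))) fun j => ?_
  have h1 : (x ᵥ* T) j = ∑ i, x i * T i j := rfl
  rw [h1]
  refine abv_sum_le_card v Finset.univ _ N (by simpa using hN) _
    (mul_nonneg hEl.le (supNorm_nonneg v x)) fun i _ => ?_
  rw [v.map_mul, mul_comm]
  exact mul_le_mul (LocConst.abv_le_elems E v (hE i j)) (le_supNorm v x i) (v.nonneg _) hEl.le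

end general

section localStep

variable {K : Type*} [Field K] {r n n' : ℕ}

/-- The local step: the covolumes of `B₀` and of `b :: B₀ T`, where `T` has a left inverse `R`
and the linear form `e` kills the rows of `B₀ T`. -/
theorem local_step (v : AbsoluteValue K ℝ) (B₀ : Matrix (Fin r) (Fin n) K)
    (hB₀ : 0 < maxMinor v B₀) (T : Matrix (Fin n) (Fin n') K) (R : Matrix (Fin n') (Fin n) K)
    (hTR : T * R = 1) (e b : Fin n' → K) (he : ∀ i, e ⬝ᵥ (B₀ * T) i = 0)
    (N : ℕ) (hn : n ≤ N) (hn' : n' ≤ N) (hr : r + 1 ≤ N) (E : Finset K)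
    (hET : ∀ i j, T i j ∈ E) (hER : ∀ i j, R i j ∈ E) :
    maxMinor v B₀ * v (e ⬝ᵥ b) ≤
        ((LocConst.card K N).C v * ((LocConst.card K N).C v * (LocConst.elems E).C v)) ^ N *
          (maxMinor v (consRow b (B₀ * T)) * opNorm v e (rowSpan (consRow b (B₀ * T)))) ∧
      maxMinor v (consRow b (B₀ * T)) * opNorm v e (rowSpan (consRow b (B₀ * T))) ≤
        (LocConst.card K N).C v ^ 2 *
          (((LocConst.card K N).C v * ((LocConst.card K N).C v * (LocConst.elems E).C v)) ^ N *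
            (maxMinor v B₀ * v (e ⬝ᵥ b))) := by
  set X := (LocConst.card K N).C v with hX
  set Y := (LocConst.elems E).C v with hY
  have hX1 : 1 ≤ X := (LocConst.card K N).one_le v
  have hY1 : 1 ≤ Y := (LocConst.elems E).one_le v
  have hXpos : 0 < X := lt_of_lt_of_le one_pos hX1
  have hYpos : 0 < Y := lt_of_lt_of_le one_pos hY1
  set c₂ := X * Y with hc₂
  have hc₂pos : 0 < c₂ := mul_pos hXpos hYpos
  have hc₂1 : 1 ≤ c₂ := by nlinarith
  have hXc : 1 ≤ X * c₂ := by nlinarith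
  have hrN : r ≤ N := by omega
  -- the two Lipschitz bounds
  have hup : ∀ x : Fin n → K, supNorm v (x ᵥ* T) ≤ c₂ * supNorm v x := fun x => by
    have := supNorm_vecMul_le v T E hET N (by simpa using hn) x
    rw [hc₂, mul_assoc]
    exact this
  have hlow : ∀ x : Fin n → K, c₂⁻¹ * supNorm v x ≤ supNorm v (x ᵥ* T) := fun x => by
    have h1 := supNorm_vecMul_le v R E hER N (by simpa using hn') (x ᵥ* T)
    rw [Matrix.vecMul_vecMul, hTR, Matrix.vecMul_one] at h1
    rw [inv_mul_le_iff₀ hc₂pos, hc₂, mul_assoc]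
    exact h1
  -- scaling
  have hs1 := maxMinor_mul_right_le v N T c₂ hc₂pos.le r hrN B₀ (fun x _ => hup x) hB₀
  have hs2 := le_maxMinor_mul_right v N T c₂⁻¹ (inv_pos.2 hc₂pos) r hrN B₀
    (fun x _ => hlow x) hB₀
  have hBT : 0 < maxMinor v (B₀ * T) := by
    have h0 : 0 < c₂⁻¹ ^ r * maxMinor v B₀ := mul_pos (pow_pos (inv_pos.2 hc₂pos) r) hB₀
    have h1 : 0 < X ^ r * maxMinor v (B₀ * T) := lt_of_lt_of_le h0 hs2
    rcases (maxMinor_nonneg v (B₀ * T)).eq_or_lt with h' | h'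
    · rw [← h', mul_zero] at h1
      exact absurd h1 (lt_irrefl _)
    · exact h'
  have hpowle : (X * c₂) ^ r ≤ (X * c₂) ^ N := pow_le_pow_right₀ hXc hrN
  have hs2' : maxMinor v B₀ ≤ (X * c₂) ^ N * maxMinor v (B₀ * T) := by
    have h1 : maxMinor v B₀ ≤ (X * c₂) ^ r * maxMinor v (B₀ * T) := by
      have h2 : c₂ ^ r * (c₂⁻¹ ^ r * maxMinor v B₀) ≤ c₂ ^ r * (X ^ r * maxMinor v (B₀ * T)) :=
        mul_le_mul_of_nonneg_left hs2 (pow_pos hc₂pos r).le
      rw [← mul_assoc, ← mul_pow, mul_inv_cancel₀ hc₂pos.ne', one_pow, one_mul] at h2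
      calc maxMinor v B₀ ≤ c₂ ^ r * (X ^ r * maxMinor v (B₀ * T)) := h2
        _ = (X * c₂) ^ r * maxMinor v (B₀ * T) := by rw [mul_pow]; ring
    exact h1.trans (mul_le_mul_of_nonneg_right hpowle hBT.le)
  have hs1' : maxMinor v (B₀ * T) ≤ (X * c₂) ^ N * maxMinor v B₀ :=
    hs1.trans (mul_le_mul_of_nonneg_right hpowle hB₀.le)
  -- primal step
  have hp1 := maxMinor_mul_abv_le v e b (B₀ * T) he hBT
  have hp2 := maxMinor_consRow_mul_opNorm_le v e b (B₀ * T) he hBT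
  have hcard : (LocConst.card K (r + 1)).C v ≤ X := card_C_mono hr v
  have hcpos := (LocConst.card K (r + 1)).pos v
  constructor
  · calc maxMinor v B₀ * v (e ⬝ᵥ b)
        ≤ ((X * c₂) ^ N * maxMinor v (B₀ * T)) * v (e ⬝ᵥ b) :=
          mul_le_mul_of_nonneg_right hs2' (v.nonneg _)
      _ = (X * c₂) ^ N * (maxMinor v (B₀ * T) * v (e ⬝ᵥ b)) := by ring
      _ ≤ (X * c₂) ^ N * (maxMinor v (consRow b (B₀ * T)) *
            opNorm v e (rowSpan (consRow b (B₀ * T)))) :=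
          mul_le_mul_of_nonneg_left hp1 (pow_nonneg (le_trans zero_le_one hXc) _)
  · calc maxMinor v (consRow b (B₀ * T)) * opNorm v e (rowSpan (consRow b (B₀ * T)))
        ≤ (LocConst.card K (r + 1)).C v ^ 2 * (maxMinor v (B₀ * T) * v (e ⬝ᵥ b)) := hp2
      _ ≤ X ^ 2 * (maxMinor v (B₀ * T) * v (e ⬝ᵥ b)) :=
          mul_le_mul_of_nonneg_right (pow_le_pow_left₀ hcpos.le hcard 2)
            (mul_nonneg hBT.le (v.nonneg _))
      _ ≤ X ^ 2 * (((X * c₂) ^ N * maxMinor v B₀) * v (e ⬝ᵥ b)) :=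
          mul_le_mul_of_nonneg_left (mul_le_mul_of_nonneg_right hs1' (v.nonneg _))
            (pow_nonneg hXpos.le 2)
      _ = X ^ 2 * ((X * c₂) ^ N * (maxMinor v B₀ * v (e ⬝ᵥ b))) := by ring

end localStep

section casts

variable {r n n' : ℕ}

theorem castM_mul' (B : Matrix (Fin r) (Fin n) ℚ) (T : Matrix (Fin n) (Fin n') ℚ) :
    castM (B * T) = castM B * castM T := by
  unfold castM
  rw [Matrix.map_mul]

theorem castM_consRow (b : Fin n → ℚ) (B : Matrix (Fin r) (Fin n) ℚ) :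
    castM (consRow b B) = consRow (castV b) (castM B) := by
  ext i j
  refine Fin.cases ?_ (fun i => ?_) i
  · rfl
  · rfl

theorem castV_dotProduct (e b : Fin n → ℚ) :
    castV e ⬝ᵥ castV b = algebraMap ℚ Qbar (e ⬝ᵥ b) := by
  unfold castV dotProduct
  rw [map_sum]
  refine Finset.sum_congr rfl fun i _ => ?_
  rw [map_mul]

theorem castM_row (B : Matrix (Fin r) (Fin n) ℚ) (i : Fin r) : castM B i = castV (B i) := rfl

theorem mul_row (A : Matrix (Fin r) (Fin n) Qbar) (T : Matrix (Fin n) (Fin n') Qbar)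
    (i : Fin r) : (A * T) i = A i ᵥ* T := by
  funext j
  rfl

theorem fullRank_of_maxMinor_pos (M : Matrix (Fin r) (Fin n) ℚ) (w : PlaceQ)
    (h : 0 < maxMinor (absQ w) (castM M)) : FullRank M := by
  obtain ⟨J, hJ⟩ := exists_eq_maxMinor (absQ w) (castM M) h
  refine ⟨J, ?_⟩
  intro h0
  rw [det_castM_submatrix, h0, map_zero, map_zero] at hJ
  rw [← hJ] at h
  exact lt_irrefl _ h

end casts

section step

variable {J : Type} [AddCommGroup J] {Dv : Type} [AddCommMonoid Dv] {Rv : Type}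
  {Pt : Type} [DecidableEq Pt] (S : MatSys J Dv Rv Pt)

/-- A uniform bound for the dimensions `n m`, `m ≤ Mtop + 1`. -/
def dimBound : ℕ := ∑ m ∈ Finset.range (S.Mtop + 2), S.n m

theorem n_le_dimBound {m : ℕ} (hm : m ≤ S.Mtop + 1) : S.n m ≤ dimBound S :=
  Finset.single_le_sum (f := fun m => S.n m) (fun _ _ => Nat.zero_le _)
    (Finset.mem_range.2 (by omega))

open Classical in
/-- The entries of the matrices `inc m`, `incR m`, `m ≤ Mtop`. -/
noncomputable def incEntries : Finset Qbar :=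
  (Finset.range (S.Mtop + 1)).biUnion fun m =>
    (Finset.univ.image fun ij : Fin (S.n m) × Fin (S.n (m + 1)) => castM (S.inc m) ij.1 ij.2) ∪
    (Finset.univ.image fun ij : Fin (S.n (m + 1)) × Fin (S.n m) => castM (S.incR m) ij.1 ij.2)

open Classical in
theorem inc_mem_incEntries {m : ℕ} (hm : m ≤ S.Mtop) (i : Fin (S.n m))
    (j : Fin (S.n (m + 1))) : castM (S.inc m) i j ∈ incEntries S := by
  unfold incEntries
  rw [Finset.mem_biUnion]
  refine ⟨m, Finset.mem_range.2 (by omega), Finset.mem_union_left _ ?_⟩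
  exact Finset.mem_image.2 ⟨(i, j), Finset.mem_univ _, rfl⟩

open Classical in
theorem incR_mem_incEntries {m : ℕ} (hm : m ≤ S.Mtop) (i : Fin (S.n (m + 1)))
    (j : Fin (S.n m)) : castM (S.incR m) i j ∈ incEntries S := by
  unfold incEntries
  rw [Finset.mem_biUnion]
  refine ⟨m, Finset.mem_range.2 (by omega), Finset.mem_union_right _ ?_⟩
  exact Finset.mem_image.2 ⟨(i, j), Finset.mem_univ _, rfl⟩

/-- The level constant. -/
noncomputable def Llev : LocConst Qbar :=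
  ((LocConst.card Qbar (dimBound S)).mul
    ((LocConst.card Qbar (dimBound S)).mul (LocConst.elems (incEntries S)))).pow (dimBound S)

/-- The constant of the step lemma. -/
noncomputable def Lstep : LocConst Qbar :=
  ((LocConst.card Qbar (dimBound S)).pow 2).mul (Llev S)

theorem Llev_C (v : AbsoluteValue Qbar ℝ) :
    (Llev S).C v = ((LocConst.card Qbar (dimBound S)).C v *
      ((LocConst.card Qbar (dimBound S)).C v * (LocConst.elems (incEntries S)).C v)) ^
        (dimBound S) := rfl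

theorem Lstep_C (v : AbsoluteValue Qbar ℝ) :
    (Lstep S).C v = (LocConst.card Qbar (dimBound S)).C v ^ 2 * (Llev S).C v := rfl

theorem Llev_le_Lstep (v : AbsoluteValue Qbar ℝ) : (Llev S).C v ≤ (Lstep S).C v :=
  LocConst.le_mul_right _ _ v

theorem castM_inc_mul_incR (m : ℕ) : castM (S.inc m) * castM (S.incR m) = 1 := by
  rw [← castM_mul', S.inc_incR]
  ext i j
  unfold castM
  rw [Matrix.map_apply, Matrix.one_apply, Matrix.one_apply]
  split_ifs <;> simp

end step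

section stepThm

variable {J : Type} [AddCommGroup J] {Dv : Type} [AddCommMonoid Dv] {Rv : Type}
  {Pt : Type} [DecidableEq Pt] (S : MatSys J Dv Rv Pt)

/-- **The step lemma.** -/
theorem step (m : ℕ) (D : Dv) (hD : S.deg D + S.c₀ ≤ m) (hm : m + 1 ≤ S.Mtop) :
    ∃ a : Adl, a.ht = S.Phi (m + 1) D - S.Phi m D ∧ ∀ w : PlaceQ,
      1 ≤ (Lstep S).C (absQ w) *
        (a.f w * opNorm (absQ w) (castV (S.lead (m + 1))) (S.W (m + 1) D)) ∧
      a.f w * opNorm (absQ w) (castV (S.lead (m + 1))) (S.W (m + 1) D) ≤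
        (Lstep S).C (absQ w) := by
  obtain ⟨r, B₀, hB₀, hW₀⟩ := S.W_rat m D
  obtain ⟨r', B₁, hB₁, hW₁⟩ := S.W_rat (m + 1) D
  have hr : finrank Qbar (S.W m D) = r := IsRatSub.finrank B₀ hB₀ hW₀
  have hr' : finrank Qbar (S.W (m + 1) D) = r' := IsRatSub.finrank B₁ hB₁ hW₁
  have hd0 := S.W_dim m D hD (by omega)
  have hd1 := S.W_dim (m + 1) D (by omega) hm
  have hrr : r' = r + 1 := by omega
  set ℓ : Fin (S.n (m + 1)) → Qbar := castV (S.lead (m + 1)) with hℓ
  -- a rational vector of `W (m+1) D` not killed by the leading form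
  have hex : ∃ i, ℓ ⬝ᵥ castM B₁ i ≠ 0 := by
    by_contra hcon
    push Not at hcon
    have hle : S.W (m + 1) D ≤ (S.W m D).map (Matrix.vecMulLinear (castM (S.inc m))) := by
      intro y hy
      have hy0 : ℓ ⬝ᵥ y = 0 := by
        rw [← hW₁] at hy
        obtain ⟨c, rfl⟩ := (mem_rowSpan_iff _ _).1 hy
        exact dotProduct_vecMul_eq_zero _ _ hcon c
      obtain ⟨x, hx, hxy⟩ := (S.W_inc m D hm y).1 ⟨hy, hy0⟩
      exact ⟨x, hx, hxy⟩
    have h1 := Submodule.finrank_mono hle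
    have h2 := Submodule.finrank_map_le (Matrix.vecMulLinear (castM (S.inc m))) (S.W m D)
    omega
  obtain ⟨i₀, hi₀⟩ := hex
  set b : Fin (S.n (m + 1)) → ℚ := B₁ i₀ with hb
  have hbW : castV b ∈ S.W (m + 1) D := by
    rw [← hW₁]
    exact row_mem_rowSpan (castM B₁) i₀
  have hℓb : ℓ ⬝ᵥ castV b ≠ 0 := hi₀
  set B' : Matrix (Fin r) (Fin (S.n (m + 1))) ℚ := B₀ * S.inc m with hB'
  set M : Matrix (Fin (r + 1)) (Fin (S.n (m + 1))) ℚ := consRow b B' with hM
  have hcastB' : castM B' = castM B₀ * castM (S.inc m) := castM_mul' _ _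
  have hcastM : castM M = consRow (castV b) (castM B₀ * castM (S.inc m)) := by
    rw [hM, castM_consRow, hcastB']
  -- the rows of `B'`
  have hrow : ∀ i, (castM B₀ * castM (S.inc m)) i ∈ S.W (m + 1) D ∧
      ℓ ⬝ᵥ (castM B₀ * castM (S.inc m)) i = 0 := fun i => by
    have hx : castM B₀ i ∈ S.W m D := by
      rw [← hW₀]
      exact row_mem_rowSpan _ i
    rw [mul_row]
    exact (S.W_inc m D hm _).2 ⟨_, hx, rfl⟩
  -- the local step at every place
  have hn : S.n m ≤ dimBound S := n_le_dimBound S (by omega)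
  have hn' : S.n (m + 1) ≤ dimBound S := n_le_dimBound S (by omega)
  have hrN : r + 1 ≤ dimBound S := by
    have h1 : finrank Qbar (S.W (m + 1) D) ≤ finrank Qbar (Fin (S.n (m + 1)) → Qbar) :=
      Submodule.finrank_le _
    rw [Module.finrank_fin_fun] at h1
    omega
  have hloc := fun w : PlaceQ =>
    local_step (absQ w) (castM B₀) (maxMinor_castM_pos B₀ hB₀ w) (castM (S.inc m))
      (castM (S.incR m)) (castM_inc_mul_incR S m) ℓ (castV b) (fun i => (hrow i).2)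
      (dimBound S) hn hn' hrN (incEntries S)
      (fun i j => inc_mem_incEntries S (by omega) i j)
      (fun i j => incR_mem_incEntries S (by omega) i j)
  -- `M` has full rank
  have hMpos : ∀ w : PlaceQ, 0 < maxMinor (absQ w) (castM M) := fun w => by
    have h1 := (hloc w).1
    rw [← hcastM] at h1
    have h2 : 0 < maxMinor (absQ w) (castM B₀) * absQ w (ℓ ⬝ᵥ castV b) :=
      mul_pos (maxMinor_castM_pos B₀ hB₀ w) ((absQ w).pos hℓb)
    have h3 := lt_of_lt_of_le h2 h1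
    by_contra hcon
    have h4 : maxMinor (absQ w) (castM M) = 0 :=
      le_antisymm (not_lt.1 hcon) (maxMinor_nonneg _ _)
    rw [h4, zero_mul, mul_zero] at h3
    exact lt_irrefl _ h3
  have hMfull : FullRank M := fullRank_of_maxMinor_pos M none (hMpos none)
  have hMW : rowSpan (castM M) = S.W (m + 1) D := by
    have hle : rowSpan (castM M) ≤ S.W (m + 1) D := by
      unfold rowSpan
      refine Submodule.span_le.2 ?_
      rintro _ ⟨i, rfl⟩
      show castM M i ∈ S.W (m + 1) D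
      rw [hcastM]
      refine Fin.cases ?_ (fun i => ?_) i
      · exact hbW
      · exact (hrow i).1
    refine Submodule.eq_of_le_of_finrank_eq hle ?_
    rw [hMfull.finrank_rowSpan, hr', hrr]
  -- the adelic function
  have hc : ((S.lead (m + 1) ⬝ᵥ b : ℚ) : Qbar) ≠ 0 := by
    have := castV_dotProduct (S.lead (m + 1)) b
    rw [this] at hℓb
    exact hℓb
  refine ⟨((Adl.ofMat M hMfull).mul (Adl.ofMat B₀ hB₀).inv).mul
    (Adl.ofAbs ((S.lead (m + 1) ⬝ᵥ b : ℚ) : Qbar) hc).inv, ?_, fun w => ?_⟩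
  · rw [Adl.ht_mul, Adl.ht_mul, Adl.ht_inv, Adl.ht_inv, Adl.ht_ofAbs_ratCast, Adl.ht_ofMat,
      Adl.ht_ofMat]
    unfold MatSys.Phi
    rw [PhiW_eq M hMfull _ hMW, PhiW_eq B₀ hB₀ _ hW₀]
    ring
  · have h1 := (hloc w).1
    have h2 := (hloc w).2
    rw [← hcastM, hMW] at h1 h2
    have hcd : absQ w (ℓ ⬝ᵥ castV b) = absQ w ((S.lead (m + 1) ⬝ᵥ b : ℚ) : Qbar) := by
      rw [hℓ, castV_dotProduct]
      rfl
    rw [hcd] at h1 h2
    simp only [Adl.mul_f, Adl.inv_f, Adl.ofMat_f, Adl.ofAbs_f]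
    set mM := maxMinor (absQ w) (castM M)
    set m0 := maxMinor (absQ w) (castM B₀)
    set cb := absQ w ((S.lead (m + 1) ⬝ᵥ b : ℚ) : Qbar)
    set op := opNorm (absQ w) ℓ (S.W (m + 1) D)
    have hm0 : 0 < m0 := maxMinor_castM_pos B₀ hB₀ w
    have hcb : 0 < cb := (absQ w).pos hc
    have hX1 : 1 ≤ (LocConst.card Qbar (dimBound S)).C (absQ w) ^ 2 :=
      one_le_pow₀ ((LocConst.card Qbar (dimBound S)).one_le _)
    have hLlev := (Llev S).pos (absQ w)
    rw [← Llev_C] at h1 h2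
    have e : mM * m0⁻¹ * cb⁻¹ * op = (mM * op) / (m0 * cb) := by
      field_simp
    rw [e]
    constructor
    · rw [← mul_div_assoc, one_le_div (mul_pos hm0 hcb)]
      calc m0 * cb ≤ (Llev S).C (absQ w) * (mM * op) := h1
        _ ≤ (Lstep S).C (absQ w) * (mM * op) :=
          mul_le_mul_of_nonneg_right (Llev_le_Lstep S _)
            (mul_nonneg (maxMinor_nonneg _ _) (opNorm_nonneg _ _ _))
    · rw [div_le_iff₀ (mul_pos hm0 hcb), Lstep_C, mul_assoc]
      exact h2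

end stepThm

section hpos

variable {J : Type} [AddCommGroup J] {Dv : Type} [AddCommMonoid Dv] {Rv : Type}
  {Pt : Type} [DecidableEq Pt] (S : MatSys J Dv Rv Pt)

open Classical in
/-- The entries of the leading forms `lead m`, `m ≤ Mtop + 1`. -/
noncomputable def leadEntries : Finset Qbar :=
  (Finset.range (S.Mtop + 2)).biUnion fun m =>
    Finset.univ.image fun i : Fin (S.n m) => castV (S.lead m) i

open Classical in
theorem lead_mem_leadEntries {m : ℕ} (hm : m ≤ S.Mtop + 1) (i : Fin (S.n m)) :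
    castV (S.lead m) i ∈ leadEntries S := by
  unfold leadEntries
  rw [Finset.mem_biUnion]
  exact ⟨m, Finset.mem_range.2 (by omega), Finset.mem_image.2 ⟨i, Finset.mem_univ _, rfl⟩⟩

/-- The constant bounding the leading forms. -/
noncomputable def Llead : LocConst Qbar :=
  (LocConst.card Qbar (dimBound S)).mul (LocConst.elems (leadEntries S))

theorem opNorm_lead_le (w : PlaceQ) {m : ℕ} (hm : m ≤ S.Mtop + 1)
    (W : Submodule Qbar (Fin (S.n m) → Qbar)) :
    opNorm (absQ w) (castV (S.lead m)) W ≤ (Llead S).C (absQ w) := by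
  have h1 := opNorm_mono (absQ w) (castV (S.lead m)) (le_top : W ≤ ⊤)
  have h2 := opNorm_top_le (absQ w) (castV (S.lead m))
  have h3 : supNorm (absQ w) (castV (S.lead m)) ≤ (LocConst.elems (leadEntries S)).C (absQ w) :=
    supNorm_le _ _ ((LocConst.elems (leadEntries S)).pos _).le fun i =>
      LocConst.abv_le_elems _ _ (lead_mem_leadEntries S hm i)
  have h4 : (LocConst.card Qbar (Fintype.card (Fin (S.n m)))).C (absQ w) ≤
      (LocConst.card Qbar (dimBound S)).C (absQ w) :=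
    card_C_mono (by simpa using n_le_dimBound S hm) _
  calc opNorm (absQ w) (castV (S.lead m)) W
      ≤ (LocConst.card Qbar (Fintype.card (Fin (S.n m)))).C (absQ w) *
          supNorm (absQ w) (castV (S.lead m)) := h1.trans h2
    _ ≤ (LocConst.card Qbar (dimBound S)).C (absQ w) *
          (LocConst.elems (leadEntries S)).C (absQ w) :=
        mul_le_mul h4 h3 (supNorm_nonneg _ _) ((LocConst.card Qbar (dimBound S)).pos _).le

/-- **`Stmt_M_Hpos`.** -/
theorem stmt_M_Hpos : Stmt_M_Hpos := by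
  intro J _ Dv _ Rv Pt _ S
  refine ⟨locTotal ((Lstep S).mul (Llead S)), fun m D hD hm => ?_⟩
  obtain ⟨a, ha, hloc⟩ := step S m D hD hm
  rw [← ha]
  have h := Adl.ht_le_of_le Adl.one a ((Lstep S).mul (Llead S)) fun w => by
    have h1 := (hloc w).1
    have h2 := opNorm_lead_le S w (m := m + 1) (by omega) (S.W (m + 1) D)
    have hL := (Lstep S).pos (absQ w)
    rw [Adl.one_f]
    show (1 : ℝ) ≤ (Lstep S).C (absQ w) * (Llead S).C (absQ w) * a.f w
    calc (1 : ℝ) ≤ (Lstep S).C (absQ w) *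
          (a.f w * opNorm (absQ w) (castV (S.lead (m + 1))) (S.W (m + 1) D)) := h1
      _ ≤ (Lstep S).C (absQ w) * (a.f w * (Llead S).C (absQ w)) :=
          mul_le_mul_of_nonneg_left (mul_le_mul_of_nonneg_left h2 (a.pos w).le) hL.le
      _ = (Lstep S).C (absQ w) * (Llead S).C (absQ w) * a.f w := by ring
  rw [Adl.ht_one] at h
  linarith

/-- The algebra of the additivity. -/
theorem addH_alg (a₁ a₂ a₃ o₁ o₂ o₃ L Λ : ℝ) (ha₁ : 0 < a₁) (ha₂ : 0 < a₂) (ha₃ : 0 < a₃)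
    (_ho₁ : 0 ≤ o₁) (_ho₂ : 0 ≤ o₂) (ho₃ : 0 ≤ o₃) (hL : 1 ≤ L) (hΛ : 1 ≤ Λ)
    (l₁ : 1 ≤ L * (a₁ * o₁)) (u₁ : a₁ * o₁ ≤ L)
    (l₂ : 1 ≤ L * (a₂ * o₂)) (u₂ : a₂ * o₂ ≤ L)
    (l₃ : 1 ≤ L * (a₃ * o₃)) (u₃ : a₃ * o₃ ≤ L)
    (h₁ : o₁ ≤ Λ * (o₂ * o₃)) (h₂ : o₂ * o₃ ≤ Λ * o₁) :
    a₁ ≤ L ^ 3 * Λ * (a₂ * a₃) ∧ a₂ * a₃ ≤ L ^ 3 * Λ * a₁ := by
  have hLpos : 0 < L := lt_of_lt_of_le one_pos hL
  have hΛpos : 0 < Λ := lt_of_lt_of_le one_pos hΛ
  constructor
  · -- `a₁ (o₂ o₃) ≤ Λ L`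
    have e1 : a₁ * (o₂ * o₃) ≤ Λ * L := by
      calc a₁ * (o₂ * o₃) ≤ a₁ * (Λ * o₁) := mul_le_mul_of_nonneg_left h₂ ha₁.le
        _ = Λ * (a₁ * o₁) := by ring
        _ ≤ Λ * L := mul_le_mul_of_nonneg_left u₁ hΛpos.le
    have e2 : 1 ≤ (L * (a₂ * o₂)) * (L * (a₃ * o₃)) := by
      calc (1 : ℝ) = 1 * 1 := by ring
        _ ≤ (L * (a₂ * o₂)) * (L * (a₃ * o₃)) :=
          mul_le_mul l₂ l₃ zero_le_one (le_trans zero_le_one l₂)
    calc a₁ = a₁ * 1 := by ring
      _ ≤ a₁ * ((L * (a₂ * o₂)) * (L * (a₃ * o₃))) := mul_le_mul_of_nonneg_left e2 ha₁.le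
      _ = L ^ 2 * (a₂ * a₃) * (a₁ * (o₂ * o₃)) := by ring
      _ ≤ L ^ 2 * (a₂ * a₃) * (Λ * L) :=
          mul_le_mul_of_nonneg_left e1
            (mul_nonneg (pow_nonneg hLpos.le 2) (mul_pos ha₂ ha₃).le)
      _ = L ^ 3 * Λ * (a₂ * a₃) := by ring
  · have e1 : (a₂ * o₂) * (a₃ * o₃) ≤ L * L :=
      mul_le_mul u₂ u₃ (mul_nonneg ha₃.le ho₃) hLpos.le
    calc a₂ * a₃ = a₂ * a₃ * 1 := by ring
      _ ≤ a₂ * a₃ * (L * (a₁ * o₁)) := mul_le_mul_of_nonneg_left l₁ (mul_pos ha₂ ha₃).le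
      _ ≤ a₂ * a₃ * (L * (a₁ * (Λ * (o₂ * o₃)))) := by
          refine mul_le_mul_of_nonneg_left ?_ (mul_pos ha₂ ha₃).le
          exact mul_le_mul_of_nonneg_left (mul_le_mul_of_nonneg_left h₁ ha₁.le) hLpos.le
      _ = L * Λ * a₁ * ((a₂ * o₂) * (a₃ * o₃)) := by ring
      _ ≤ L * Λ * a₁ * (L * L) :=
          mul_le_mul_of_nonneg_left e1 (mul_nonneg (mul_nonneg hLpos.le hΛpos.le) ha₁.le)
      _ = L ^ 3 * Λ * a₁ := by ring

end hpos

section addH

/-- **`Stmt_M_addH`.** -/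
theorem stmt_M_addH : Stmt_M_addH := by
  intro J _ Dv _ Rv Pt _ S
  obtain ⟨Lla, hla⟩ := S.la_lead
  refine ⟨locTotal (((Lstep S).pow 3).mul Lla), fun m k D D' hD hgap hmk => ?_⟩
  have hD' : S.deg D' + S.c₀ ≤ k := by omega
  have hDD' : S.deg (D + D') + S.c₀ ≤ m + k + 1 := by
    rw [map_add]
    omega
  obtain ⟨a₁, ha₁, hl₁⟩ := step S (m + k + 1) (D + D') hDD' (by omega)
  obtain ⟨a₂, ha₂, hl₂⟩ := step S m D hD (by omega)
  obtain ⟨a₃, ha₃, hl₃⟩ := step S k D' hD' (by omega)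
  have key : ∀ w : PlaceQ, a₁.f w ≤ (((Lstep S).pow 3).mul Lla).C (absQ w) * (a₂.mul a₃).f w ∧
      (a₂.mul a₃).f w ≤ (((Lstep S).pow 3).mul Lla).C (absQ w) * a₁.f w := fun w => by
    have h := hla w m k D D' hD hgap hmk
    exact addH_alg (a₁.f w) (a₂.f w) (a₃.f w) _ _ _ ((Lstep S).C (absQ w)) (Lla.C (absQ w))
      (a₁.pos w) (a₂.pos w) (a₃.pos w) (opNorm_nonneg _ _ _) (opNorm_nonneg _ _ _)
      (opNorm_nonneg _ _ _) ((Lstep S).one_le _) (Lla.one_le _)
      (hl₁ w).1 (hl₁ w).2 (hl₂ w).1 (hl₂ w).2 (hl₃ w).1 (hl₃ w).2 h.1 h.2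
  have h := Adl.abs_ht_sub_le a₁ (a₂.mul a₃) _ (fun w => (key w).1) (fun w => (key w).2)
  rw [Adl.ht_mul, ha₁, ha₂, ha₃] at h
  have e : S.Phi (m + k + 2) (D + D') - S.Phi (m + k + 1) (D + D') - (S.Phi (m + 1) D - S.Phi m D)
      - (S.Phi (k + 1) D' - S.Phi k D') =
      S.Phi (m + k + 1 + 1) (D + D') - S.Phi (m + k + 1) (D + D') -
        (S.Phi (m + 1) D - S.Phi m D + (S.Phi (k + 1) D' - S.Phi k D')) := by
    ring
  rw [e]
  exact h

end addH

end Fermat.Agent.S17.H70
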