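import Fermat.Agent.S17.Height.H16_CubeStmt
import Fermat.Agent.S17.Height.H35_DescLin

/-!
# S17, part H: `Stmt_CubeG` (helper77)

If `Gal(ℚ̄/ℚ)` permutes the forms `E_j`, `B` is a rational matrix of full rank killed by the `E_j`
and the `w_j` are dual to the `E_j` (`r + a = n`), then the determinant `c` of the square matrix
with rows `w_j`, `B` is nonzero, `c² ∈ ℚ`, and `maxMinor v (rows w, B) = v c` for every `v`.

Proof: with `X` = rows `w, B` and `Y` = rows `E, B`:
`X Yᵗ = [[1, *], [0, B Bᵗ]]`, `Y Yᵗ = [[E Eᵗ, 0], [0, B Bᵗ]]`, so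
`c * det Y = det (B Bᵗ)`, `(det Y)² = det (E Eᵗ) * det (B Bᵗ)`, hence `c² det (E Eᵗ) = det (B Bᵗ)`;
`det (B Bᵗ) ∈ ℚˣ` (`B Bᵗ` is injective: sums of squares in `ℚ`), `det (E Eᵗ)` is Galois invariant.
-/

set_option autoImplicit false

open Matrix

namespace Fermat.Agent.S17.H77

open Fermat.Agent.S17.H16 Fermat.Agent.S17.H35 Fermat.Agent.S17.H71

/-! ### `maxMinor` of a square matrix -/

section Square

variable {K : Type*} [Field K] {m : ℕ}

theorem abv_sign (v : AbsoluteValue K ℝ) (π : Equiv.Perm (Fin m)) :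
    v (((Equiv.Perm.sign π : ℤˣ) : ℤ) : K) = 1 := by
  rcases Int.units_eq_one_or (Equiv.Perm.sign π) with h | h
  · rw [h]; simp
  · rw [h]; simp

theorem maxMinor_square (v : AbsoluteValue K ℝ) (A : Matrix (Fin m) (Fin m) K) :
    maxMinor v A = v A.det := by
  apply le_antisymm
  · apply maxMinor_le v A (v.nonneg _)
    intro J
    by_cases hJ : Function.Injective J
    · have hb : Function.Bijective J := Finite.injective_iff_bijective.mp hJ
      have e1 : A.submatrix id J = A.submatrix id (Equiv.ofBijective J hb) := rfl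
      rw [e1, Matrix.det_permute', v.map_mul, abv_sign, one_mul]
    · have : ∃ i j, J i = J j ∧ i ≠ j := by
        by_contra hcon
        apply hJ
        intro i j hij
        by_contra hne
        exact hcon ⟨i, j, hij, hne⟩
      obtain ⟨i, j, hij, hne⟩ := this
      rw [Matrix.det_zero_of_column_eq hne (fun k => by simp [hij])]
      simp
  · have := le_maxMinor v A id
    simpa using this

end Square

/-! ### the rows of `stackRows` -/

section Rows

variable {K : Type*} {ι : Type*} {r : ℕ}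

theorem stackRows_of_lt : ∀ (a : ℕ) (w : Fin a → ι → K) (B : Matrix (Fin r) ι K)
    (i : Fin (r + a)) (h : (i : ℕ) < a), stackRows a w B i = w ⟨i, h⟩
  | 0, _, _, _, h => absurd h (Nat.not_lt_zero _)
  | a + 1, w, B, i, h => by
    induction i using Fin.cases with
    | zero => rfl
    | succ i' =>
      have h' : (i' : ℕ) < a := by
        have : ((i'.succ : Fin (r + a + 1)) : ℕ) = i' + 1 := rfl
        omega
      show stackRows a (Fin.tail w) B i' = _
      rw [stackRows_of_lt a (Fin.tail w) B i' h']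
      rfl

theorem stackRows_of_ge : ∀ (a : ℕ) (w : Fin a → ι → K) (B : Matrix (Fin r) ι K)
    (i : Fin (r + a)) (h : a ≤ (i : ℕ)),
    stackRows a w B i = B ⟨(i : ℕ) - a, by have := i.2; omega⟩
  | 0, _, _, _, _ => rfl
  | a + 1, w, B, i, h => by
    induction i using Fin.cases with
    | zero => exact absurd h (by simp)
    | succ i' =>
      have h' : a ≤ (i' : ℕ) := by
        have : ((i'.succ : Fin (r + a + 1)) : ℕ) = i' + 1 := rfl
        omega
      show stackRows a (Fin.tail w) B i' = _
      rw [stackRows_of_ge a (Fin.tail w) B i' h']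
      congr 1
      apply Fin.ext
      show (i' : ℕ) - a = (i' : ℕ) + 1 - (a + 1)
      omega

/-- The bijection `Fin a ⊕ Fin r ≃ Fin (r + a)`: first the `w`-rows, then the `B`-rows. -/
def rowEquiv (a r : ℕ) : Fin a ⊕ Fin r ≃ Fin (r + a) :=
  finSumFinEquiv.trans (finCongr (Nat.add_comm a r))

@[simp] theorem rowEquiv_inl_val (a r : ℕ) (j : Fin a) : ((rowEquiv a r (Sum.inl j) : Fin (r + a)) : ℕ) = j := by
  simp [rowEquiv]

@[simp] theorem rowEquiv_inr_val (a r : ℕ) (k : Fin r) :
    ((rowEquiv a r (Sum.inr k) : Fin (r + a)) : ℕ) = a + k := by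
  simp [rowEquiv, Nat.add_comm]

theorem stackRows_rowEquiv_inl (a : ℕ) (w : Fin a → ι → K) (B : Matrix (Fin r) ι K) (j : Fin a) :
    stackRows a w B (rowEquiv a r (Sum.inl j)) = w j := by
  rw [stackRows_of_lt a w B _ (by rw [rowEquiv_inl_val]; exact j.2)]
  exact congrArg w (Fin.ext (rowEquiv_inl_val a r j))

theorem stackRows_rowEquiv_inr (a : ℕ) (w : Fin a → ι → K) (B : Matrix (Fin r) ι K) (k : Fin r) :
    stackRows a w B (rowEquiv a r (Sum.inr k)) = B k := by
  rw [stackRows_of_ge a w B _ (by rw [rowEquiv_inr_val]; omega)]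
  refine congrArg B (Fin.ext ?_)
  show ((rowEquiv a r (Sum.inr k) : Fin (r + a)) : ℕ) - a = k
  rw [rowEquiv_inr_val]
  omega

end Rows

/-! ### the Gram computations -/

section Gram

variable {K : Type*} [Field K] {a r : ℕ}

/-- The square matrix with rows `u` (first) and `B`, indexed by `Fin a ⊕ Fin r` on both sides. -/
def sq (u : Fin a → Fin (r + a) → K) (B : Matrix (Fin r) (Fin (r + a)) K) :
    Matrix (Fin a ⊕ Fin r) (Fin a ⊕ Fin r) K :=
  Matrix.of fun s t => Sum.elim u B s (rowEquiv a r t)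

theorem det_stackRows (u : Fin a → Fin (r + a) → K) (B : Matrix (Fin r) (Fin (r + a)) K) :
    (stackRows a u B).det = (sq u B).det := by
  rw [← Matrix.det_submatrix_equiv_self (rowEquiv a r) (stackRows a u B)]
  congr 1
  ext s t
  rcases s with j | k
  · show stackRows a u B (rowEquiv a r (Sum.inl j)) (rowEquiv a r t) = u j (rowEquiv a r t)
    rw [stackRows_rowEquiv_inl]
  · show stackRows a u B (rowEquiv a r (Sum.inr k)) (rowEquiv a r t) = B k (rowEquiv a r t)
    rw [stackRows_rowEquiv_inr]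

theorem sq_mul_transpose (u u' : Fin a → Fin (r + a) → K)
    (B B' : Matrix (Fin r) (Fin (r + a)) K) :
    sq u B * (sq u' B')ᵀ = Matrix.fromBlocks (Matrix.of fun i j => u i ⬝ᵥ u' j)
      (Matrix.of fun i k => u i ⬝ᵥ B' k) (Matrix.of fun k j => B k ⬝ᵥ u' j)
      (Matrix.of fun k l => B k ⬝ᵥ B' l) := by
  ext s t
  rw [Matrix.mul_apply]
  have key : ∀ (x y : Fin (r + a) → K),
      ∑ z : Fin a ⊕ Fin r, x (rowEquiv a r z) * y (rowEquiv a r z) = x ⬝ᵥ y := by
    intro x y
    exact Equiv.sum_comp (rowEquiv a r) (fun i => x i * y i)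
  rcases s with i | k <;> rcases t with j | l
  · exact key (u i) (u' j)
  · exact key (u i) (B' l)
  · exact key (B k) (u' j)
  · exact key (B k) (B' l)

end Gram

/-! ### the Gram matrix of a rational matrix of full rank -/

section Rat

variable {ι : Type*} [Fintype ι] {r : ℕ}

theorem det_gram_ne_zero (B : Matrix (Fin r) ι ℚ) (hB : FullRank B) : (B * Bᵀ).det ≠ 0 := by
  intro h0
  obtain ⟨x, hx, hx0⟩ := Matrix.exists_vecMul_eq_zero_iff.mpr h0
  have h1 : (x ᵥ* B) ⬝ᵥ (x ᵥ* B) = 0 := by
    have h : (x ᵥ* (B * Bᵀ)) ⬝ᵥ x = 0 := by rw [hx0, zero_dotProduct]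
    rw [← Matrix.vecMul_vecMul, ← Matrix.dotProduct_mulVec, Matrix.mulVec_transpose] at h
    exact h
  have h2 : x ᵥ* B = 0 := dotProduct_self_eq_zero.mp h1
  obtain ⟨J, hJ⟩ := hB
  have h3 : x ᵥ* (B.submatrix id J) = 0 := by
    ext j
    have := congrFun h2 (J j)
    simpa [Matrix.vecMul, dotProduct] using this
  exact hJ (Matrix.exists_vecMul_eq_zero_iff.mp ⟨x, hx, h3⟩)

end Rat

/-! ### the statement -/

theorem stmt_CubeG : Stmt_CubeG := by
  intro a r n E w B hn hB hdual hkill hgal
  subst hn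
  -- the Gram matrices
  have hXY : sq w (castM B) * (sq E (castM B))ᵀ = Matrix.fromBlocks (1 : Matrix (Fin a) (Fin a) Qbar)
      (Matrix.of fun i k => w i ⬝ᵥ castM B k) 0 (Matrix.of fun k l => castM B k ⬝ᵥ castM B l) := by
    rw [sq_mul_transpose]
    congr 1
    · ext i j
      show w i ⬝ᵥ E j = (1 : Matrix (Fin a) (Fin a) Qbar) i j
      rw [dotProduct_comm, hdual j i, Matrix.one_apply]
      by_cases h : i = j
      · subst h; simp
      · rw [if_neg h, if_neg (fun h' => h h'.symm)]
    · ext k j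
      show castM B k ⬝ᵥ E j = 0
      rw [dotProduct_comm, hkill j k]
  have hYY : sq E (castM B) * (sq E (castM B))ᵀ = Matrix.fromBlocks
      (Matrix.of fun i j => E i ⬝ᵥ E j) 0 0 (Matrix.of fun k l => castM B k ⬝ᵥ castM B l) := by
    rw [sq_mul_transpose]
    congr 1
    · ext i k
      show E i ⬝ᵥ castM B k = 0
      exact hkill i k
    · ext k j
      show castM B k ⬝ᵥ E j = 0
      rw [dotProduct_comm, hkill j k]
  set Gb : Matrix (Fin r) (Fin r) Qbar := Matrix.of fun k l => castM B k ⬝ᵥ castM B l with hGb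
  set Ge : Matrix (Fin a) (Fin a) Qbar := Matrix.of fun i j => E i ⬝ᵥ E j with hGe
  have d1 : (sq w (castM B)).det * (sq E (castM B)).det = Gb.det := by
    have := congrArg Matrix.det hXY
    rw [Matrix.det_mul, Matrix.det_transpose, Matrix.det_fromBlocks_zero₂₁, Matrix.det_one,
      one_mul] at this
    exact this
  have d2 : (sq E (castM B)).det * (sq E (castM B)).det = Ge.det * Gb.det := by
    have := congrArg Matrix.det hYY
    rw [Matrix.det_mul, Matrix.det_transpose, Matrix.det_fromBlocks_zero₂₁] at this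
    exact this
  -- `det (B Bᵗ)` is a nonzero rational number
  have hGbQ : Gb.det = algebraMap ℚ Qbar (B * Bᵀ).det := by
    have : Gb = (B * Bᵀ).map (algebraMap ℚ Qbar) := by
      ext k l
      show castM B k ⬝ᵥ castM B l = algebraMap ℚ Qbar ((B * Bᵀ) k l)
      rw [Matrix.mul_apply, map_sum]
      refine Finset.sum_congr rfl fun i _ => ?_
      rw [map_mul]
      rfl
    rw [this]
    exact (RingHom.map_det _ _).symm
  have hGb0 : Gb.det ≠ 0 := by
    rw [hGbQ]
    exact (map_ne_zero _).mpr (det_gram_ne_zero B hB)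
  -- `det (E Eᵗ)` is Galois invariant, hence rational
  have hGeQ : ∃ y : ℚ, Ge.det = algebraMap ℚ Qbar y := by
    have hfix : ∀ σ : GQ, σ Ge.det = Ge.det := by
      intro σ
      obtain ⟨π, hπ⟩ := hgal σ
      have e1 : σ Ge.det = (Ge.map σ).det := by
        have := RingHom.map_det (σ : Qbar →+* Qbar) Ge
        exact this
      have e2 : Ge.map σ = Ge.submatrix π π := by
        ext i j
        show σ (E i ⬝ᵥ E j) = E (π i) ⬝ᵥ E (π j)
        unfold dotProduct
        rw [map_sum]
        refine Finset.sum_congr rfl fun k _ => ?_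
        rw [map_mul, hπ, hπ]
      rw [e1, e2, Matrix.det_submatrix_equiv_self]
    obtain ⟨y, hy⟩ := qbar_rational_of_fixed Ge.det hfix
    exact ⟨y, hy.symm⟩
  obtain ⟨y, hy⟩ := hGeQ
  have hc : (stackRows a w (castM B)).det = (sq w (castM B)).det := det_stackRows w (castM B)
  have hY0 : (sq E (castM B)).det ≠ 0 := by
    intro h
    rw [h, mul_zero] at d1
    exact hGb0 d1.symm
  have hGe0 : Ge.det ≠ 0 := by
    intro h
    rw [h, zero_mul] at d2
    exact hY0 (mul_self_eq_zero.mp d2)
  have hy0 : y ≠ 0 := by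
    intro h
    rw [h, map_zero] at hy
    exact hGe0 hy
  refine ⟨(stackRows a w (castM B)).det, ?_, ⟨(B * Bᵀ).det / y, ?_⟩, fun v => maxMinor_square v _⟩
  · rw [hc]
    intro h
    rw [h, zero_mul] at d1
    exact hGb0 d1.symm
  · rw [hc]
    have key : (sq w (castM B)).det ^ 2 * Ge.det = Gb.det := by
      have h1 : ((sq w (castM B)).det ^ 2 * Ge.det) * Gb.det = Gb.det * Gb.det := by
        calc ((sq w (castM B)).det ^ 2 * Ge.det) * Gb.det
            = (sq w (castM B)).det ^ 2 * (Ge.det * Gb.det) := by ring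
          _ = (sq w (castM B)).det ^ 2 * ((sq E (castM B)).det * (sq E (castM B)).det) := by
              rw [d2]
          _ = ((sq w (castM B)).det * (sq E (castM B)).det) *
                ((sq w (castM B)).det * (sq E (castM B)).det) := by ring
          _ = Gb.det * Gb.det := by rw [d1]
      exact mul_right_cancel₀ hGb0 h1
    have : (sq w (castM B)).det ^ 2 = Gb.det / Ge.det := by
      rw [eq_div_iff hGe0, key]
    rw [this, hGbQ, hy]
    rw [← map_div₀]
    exact (eq_ratCast (algebraMap ℚ Qbar) _)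

end Fermat.Agent.S17.H77
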