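import Fermat.Agent.S17.Height.H16_CubeStmt

/-!
# S17, part H, package CUBE-L (helper93): local additivity implies the cube relation

`stmt_CubeL : H16.Stmt_CubeL`.

With `X(p)` the chain product, `Y(p; q) = ∏_j opNorm q_j (S_p ∪ S_q^{<j})`,
`T(S; q) = ∏_j opNorm q_j S`, `U(q) = ∏_j opNorm q_j ⊤`:
`X(p ++ q) = X(p) Y(p; q)` (exactly), `Y(p; q) U(q) ≍ T(S_p; q) X(q)` and
`T(S ∪ S'; q) U(q) ≍ T(S; q) T(S'; q)` (local additivity, `C ^ b`), hence
`X(123) X(1) X(2) X(3) U(3)² ≍ X(12) X(1) X(2) X(3)² T(1;3) T(2;3) ≍ X(12) X(13) X(23) U(3)²`.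
-/

set_option autoImplicit false

open Matrix

namespace Fermat.Agent.S17.H93

open Fermat.Agent.S17.H16 Fermat.Agent.S17.H35 Fermat.Agent.S17.H71

/-! ### Two-sided comparison -/

/-- `x` and `y` are comparable with the constant `c`. -/
def Near (c x y : ℝ) : Prop := x ≤ c * y ∧ y ≤ c * x

theorem Near.symm {c x y : ℝ} (h : Near c x y) : Near c y x := ⟨h.2, h.1⟩

theorem Near.of_eq {x y : ℝ} (h : x = y) : Near 1 x y := by
  subst h
  exact ⟨by rw [one_mul], by rw [one_mul]⟩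

theorem Near.mul {c c' x y x' y' : ℝ} (hc : 0 ≤ c) (hx : 0 ≤ x) (hy : 0 ≤ y)
    (hx' : 0 ≤ x') (hy' : 0 ≤ y') (h : Near c x y) (h' : Near c' x' y') :
    Near (c * c') (x * x') (y * y') := by
  constructor
  · calc x * x' ≤ (c * y) * (c' * y') :=
        mul_le_mul h.1 h'.1 hx' (le_trans hx h.1)
      _ = c * c' * (y * y') := by ring
  · calc y * y' ≤ (c * x) * (c' * x') :=
        mul_le_mul h.2 h'.2 hy' (le_trans hy h.2)
      _ = c * c' * (x * x') := by ring

theorem Near.trans {c c' x y z : ℝ} (hc : 0 ≤ c) (hc' : 0 ≤ c') (h : Near c x y)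
    (h' : Near c' y z) : Near (c * c') x z := by
  constructor
  · calc x ≤ c * y := h.1
      _ ≤ c * (c' * z) := mul_le_mul_of_nonneg_left h'.1 hc
      _ = c * c' * z := by ring
  · calc z ≤ c' * y := h'.2
      _ ≤ c' * (c * x) := mul_le_mul_of_nonneg_left h.2 hc'
      _ = c * c' * x := by ring

theorem Near.mono {c c' x y : ℝ} (hcc : c ≤ c') (hx : 0 ≤ x) (hy : 0 ≤ y) (h : Near c x y) :
    Near c' x y :=
  ⟨h.1.trans (mul_le_mul_of_nonneg_right hcc hy), h.2.trans (mul_le_mul_of_nonneg_right hcc hx)⟩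

theorem Near.mul_left {c x y : ℝ} (z : ℝ) (hz : 0 ≤ z) (h : Near c x y) :
    Near c (z * x) (z * y) := by
  constructor
  · calc z * x ≤ z * (c * y) := mul_le_mul_of_nonneg_left h.1 hz
      _ = c * (z * y) := by ring
  · calc z * y ≤ z * (c * x) := mul_le_mul_of_nonneg_left h.2 hz
      _ = c * (z * x) := by ring

theorem Near.of_mul_right {c x y u : ℝ} (hu : 0 < u) (h : Near c (x * u) (y * u)) :
    Near c x y := by
  constructor
  · have h1 : x * u ≤ (c * y) * u := by rw [mul_assoc]; exact h.1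
    exact le_of_mul_le_mul_right h1 hu
  · have h1 : y * u ≤ (c * x) * u := by rw [mul_assoc]; exact h.2
    exact le_of_mul_le_mul_right h1 hu

theorem Near.prod {ι : Type*} (s : Finset ι) {c : ℝ} (hc : 0 ≤ c) (x y : ι → ℝ)
    (hx : ∀ i ∈ s, 0 ≤ x i) (hy : ∀ i ∈ s, 0 ≤ y i) (h : ∀ i ∈ s, Near c (x i) (y i)) :
    Near (c ^ s.card) (∏ i ∈ s, x i) (∏ i ∈ s, y i) := by
  constructor
  · calc ∏ i ∈ s, x i ≤ ∏ i ∈ s, c * y i :=
        Finset.prod_le_prod hx fun i hi => (h i hi).1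
      _ = c ^ s.card * ∏ i ∈ s, y i := by rw [Finset.prod_mul_distrib, Finset.prod_const]
  · calc ∏ i ∈ s, y i ≤ ∏ i ∈ s, c * x i :=
        Finset.prod_le_prod hy fun i hi => (h i hi).2
      _ = c ^ s.card * ∏ i ∈ s, x i := by rw [Finset.prod_mul_distrib, Finset.prod_const]

/-- The real-number algebra of the cube relation. -/
theorem near_cube_algebra {c X1 X2 X3 X12 Y13 Y23 Y123 T1 T2 T12 U : ℝ} (hc : 0 ≤ c)
    (hX1 : 0 ≤ X1) (hX2 : 0 ≤ X2) (hX3 : 0 ≤ X3) (hX12 : 0 ≤ X12) (hY13 : 0 ≤ Y13)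
    (hY23 : 0 ≤ Y23) (hY123 : 0 ≤ Y123) (hT1 : 0 ≤ T1) (hT2 : 0 ≤ T2) (hT12 : 0 ≤ T12)
    (hU : 0 < U)
    (n13 : Near c (Y13 * U) (T1 * X3)) (n23 : Near c (Y23 * U) (T2 * X3))
    (n123 : Near c (Y123 * U) (T12 * X3)) (nT : Near c (T12 * U) (T1 * T2)) :
    Near (c * c * (c * c)) ((X12 * Y123) * (X1 * X2 * X3)) (X12 * (X1 * Y13) * (X2 * Y23)) := by
  have hU0 : 0 ≤ U := hU.le
  have hcc : 0 ≤ c * c := mul_nonneg hc hc
  -- the middle term
  set M : ℝ := X12 * X1 * X2 * X3 * (T1 * T2 * X3) with hM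
  -- the left side
  have hA1 : Near c ((Y123 * U) * U) ((T12 * X3) * U) := by
    have := Near.mul hc (mul_nonneg hY123 hU0) (mul_nonneg hT12 hX3) hU0 hU0 n123
      (Near.of_eq (rfl : U = U))
    rwa [mul_one] at this
  have hA2 : Near c ((T12 * X3) * U) (T1 * T2 * X3) := by
    have := Near.mul hc (mul_nonneg hT12 hU0) (mul_nonneg hT1 hT2) hX3 hX3 nT
      (Near.of_eq (rfl : X3 = X3))
    rw [mul_one] at this
    have e : T12 * X3 * U = T12 * U * X3 := by ring
    rwa [e]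
  have hA3 : Near (c * c) ((Y123 * U) * U) (T1 * T2 * X3) := Near.trans hc hc hA1 hA2
  have hA : Near (c * c) ((X12 * Y123) * (X1 * X2 * X3) * (U * U)) M := by
    have := Near.mul_left (X12 * X1 * X2 * X3)
      (mul_nonneg (mul_nonneg (mul_nonneg hX12 hX1) hX2) hX3) hA3
    have e : (X12 * Y123) * (X1 * X2 * X3) * (U * U) = X12 * X1 * X2 * X3 * ((Y123 * U) * U) := by
      ring
    rwa [e]
  -- the right side
  have hB1 : Near (c * c) ((Y13 * U) * (Y23 * U)) ((T1 * X3) * (T2 * X3)) :=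
    Near.mul hc (mul_nonneg hY13 hU0) (mul_nonneg hT1 hX3) (mul_nonneg hY23 hU0)
      (mul_nonneg hT2 hX3) n13 n23
  have hB : Near (c * c) (X12 * (X1 * Y13) * (X2 * Y23) * (U * U)) M := by
    have := Near.mul_left (X12 * X1 * X2) (mul_nonneg (mul_nonneg hX12 hX1) hX2) hB1
    have e : X12 * (X1 * Y13) * (X2 * Y23) * (U * U) = X12 * X1 * X2 * ((Y13 * U) * (Y23 * U)) := by
      ring
    have e' : X12 * X1 * X2 * ((T1 * X3) * (T2 * X3)) = M := by
      rw [hM]; ring
    rwa [e, ← e']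
  exact Near.of_mul_right (mul_pos hU hU) (Near.trans hcc hcc hA hB.symm)

/-! ### The points of a family -/

section Pts

variable {Pt : Type} [DecidableEq Pt]

/-- The points of the family with index `< j`. -/
def ptsLt {a : ℕ} (p : Fin a → Pt) (j : ℕ) : Finset Pt :=
  (Finset.univ.filter fun i : Fin a => (i : ℕ) < j).image p

theorem mem_ptsLt {a : ℕ} (p : Fin a → Pt) (j : ℕ) (Q : Pt) :
    Q ∈ ptsLt p j ↔ ∃ i : Fin a, (i : ℕ) < j ∧ p i = Q := by
  unfold ptsLt
  simp only [Finset.mem_image, Finset.mem_filter, Finset.mem_univ, true_and]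

theorem card_ptsLt_le {a : ℕ} (p : Fin a → Pt) (j : ℕ) : (ptsLt p j).card ≤ j := by
  unfold ptsLt
  refine Finset.card_image_le.trans ?_
  have h : (Finset.univ.filter fun i : Fin a => (i : ℕ) < j).card ≤ (Finset.range j).card := by
    refine Finset.card_le_card_of_injOn (fun i : Fin a => (i : ℕ)) ?_ ?_
    · intro i hi
      have hi' := (Finset.mem_filter.mp (Finset.mem_coe.mp hi)).2
      exact Finset.mem_coe.mpr (Finset.mem_range.mpr hi')
    · intro i _ i' _ h
      exact Fin.ext h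
  rwa [Finset.card_range] at h

theorem ptsLt_append_left {a b : ℕ} (p : Fin a → Pt) (q : Fin b → Pt) (j : ℕ) (hj : j ≤ a) :
    ptsLt (Fin.append p q) j = ptsLt p j := by
  ext Q
  rw [mem_ptsLt, mem_ptsLt]
  constructor
  · rintro ⟨k, hk, hQ⟩
    have hka : (k : ℕ) < a := lt_of_lt_of_le hk hj
    refine ⟨⟨k, hka⟩, hk, ?_⟩
    have hkk : k = Fin.castAdd b ⟨k, hka⟩ := Fin.ext rfl
    rw [hkk, Fin.append_left] at hQ
    exact hQ
  · rintro ⟨i, hi, hQ⟩
    refine ⟨Fin.castAdd b i, hi, ?_⟩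
    rw [Fin.append_left]
    exact hQ

theorem ptsLt_append_right {a b : ℕ} (p : Fin a → Pt) (q : Fin b → Pt) (j : ℕ) :
    ptsLt (Fin.append p q) (a + j) = ptsLt p a ∪ ptsLt q j := by
  ext Q
  rw [Finset.mem_union, mem_ptsLt, mem_ptsLt, mem_ptsLt]
  constructor
  · rintro ⟨k, hk, hQ⟩
    by_cases hka : (k : ℕ) < a
    · left
      refine ⟨⟨k, hka⟩, hka, ?_⟩
      have hkk : k = Fin.castAdd b ⟨k, hka⟩ := Fin.ext rfl
      rw [hkk, Fin.append_left] at hQ
      exact hQ
    · right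
      have hkb : (k : ℕ) - a < b := by
        have := k.2
        omega
      refine ⟨⟨(k : ℕ) - a, hkb⟩, ?_, ?_⟩
      · change (k : ℕ) - a < j
        omega
      · have hkk : k = Fin.natAdd a ⟨(k : ℕ) - a, hkb⟩ := by
          apply Fin.ext
          rw [Fin.coe_natAdd]
          change (k : ℕ) = a + ((k : ℕ) - a)
          omega
        rw [hkk, Fin.append_right] at hQ
        exact hQ
  · rintro (⟨i, _, hQ⟩ | ⟨i, hi, hQ⟩)
    · refine ⟨Fin.castAdd b i, ?_, ?_⟩
      · rw [Fin.coe_castAdd]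
        have := i.2
        omega
      · rw [Fin.append_left]
        exact hQ
    · refine ⟨Fin.natAdd a i, ?_, ?_⟩
      · rw [Fin.coe_natAdd]
        omega
      · rw [Fin.append_right]
        exact hQ

/-- Injectivity of an appended family. -/
theorem injective_append_iff {a b : ℕ} (p : Fin a → Pt) (q : Fin b → Pt) :
    Function.Injective (Fin.append p q) ↔
      Function.Injective p ∧ Function.Injective q ∧ ∀ i j, p i ≠ q j := by
  constructor
  · intro h
    refine ⟨fun i i' hii => ?_, fun j j' hjj => ?_, fun i j hij => ?_⟩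
    · have := h (a₁ := Fin.castAdd b i) (a₂ := Fin.castAdd b i')
        (by rw [Fin.append_left, Fin.append_left]; exact hii)
      exact Fin.castAdd_injective a b this
    · have := h (a₁ := Fin.natAdd a j) (a₂ := Fin.natAdd a j')
        (by rw [Fin.append_right, Fin.append_right]; exact hjj)
      exact Fin.natAdd_injective b a this
    · have := h (a₁ := Fin.castAdd b i) (a₂ := Fin.natAdd a j)
        (by rw [Fin.append_left, Fin.append_right]; exact hij)
      have h1 := congrArg Fin.val this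
      rw [Fin.coe_castAdd, Fin.coe_natAdd] at h1
      have := i.2
      omega
  · rintro ⟨hp, hq, hpq⟩ k k' hkk
    induction k using Fin.addCases with
    | left i =>
      induction k' using Fin.addCases with
      | left i' =>
        rw [Fin.append_left, Fin.append_left] at hkk
        rw [hp hkk]
      | right j' =>
        rw [Fin.append_left, Fin.append_right] at hkk
        exact absurd hkk (hpq i j')
    | right j =>
      induction k' using Fin.addCases with
      | left i' =>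
        rw [Fin.append_right, Fin.append_left] at hkk
        exact absurd hkk.symm (hpq i' j)
      | right j' =>
        rw [Fin.append_right, Fin.append_right] at hkk
        rw [hq hkk]

end Pts

/-! ### Chain products -/

section Chain

variable {K : Type} [Field K] {n : ℕ} {Pt : Type} [DecidableEq Pt]

theorem kerUpTo_eq_kerPts (ev : Pt → Fin n → K) {a : ℕ} (p : Fin a → Pt) (j : ℕ) :
    kerUpTo (fun i => ev (p i)) j = kerPts ev (ptsLt p j) := by
  ext f
  rw [mem_kerUpTo, mem_kerPts]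
  constructor
  · intro h Q hQ
    obtain ⟨i, hi, rfl⟩ := (mem_ptsLt p j Q).mp hQ
    exact h i hi
  · intro h i hi
    exact h (p i) ((mem_ptsLt p j _).mpr ⟨i, hi, rfl⟩)

theorem kerPts_empty (ev : Pt → Fin n → K) : kerPts ev ∅ = ⊤ := by
  ext f
  rw [mem_kerPts]
  simp

theorem chainProd_eq (v : AbsoluteValue K ℝ) (ev : Pt → Fin n → K) {a : ℕ} (p : Fin a → Pt) :
    chainProd v ev p = ∏ j : Fin a, opNorm v (ev (p j)) (kerPts ev (ptsLt p j)) := by
  unfold chainProd
  refine Finset.prod_congr rfl fun j _ => ?_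
  rw [kerUpTo_eq_kerPts]

/-- `Y(p; q)`. -/
noncomputable def prodY (v : AbsoluteValue K ℝ) (ev : Pt → Fin n → K) {a b : ℕ} (p : Fin a → Pt)
    (q : Fin b → Pt) : ℝ :=
  ∏ j : Fin b, opNorm v (ev (q j)) (kerPts ev (ptsLt p a ∪ ptsLt q j))

/-- `T(S; q)`. -/
noncomputable def prodT (v : AbsoluteValue K ℝ) (ev : Pt → Fin n → K) (S : Finset Pt) {b : ℕ}
    (q : Fin b → Pt) : ℝ :=
  ∏ j : Fin b, opNorm v (ev (q j)) (kerPts ev S)

/-- `U(q)`. -/
noncomputable def prodU (v : AbsoluteValue K ℝ) (ev : Pt → Fin n → K) {b : ℕ}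
    (q : Fin b → Pt) : ℝ :=
  ∏ j : Fin b, opNorm v (ev (q j)) ⊤

theorem chainProd_nonneg (v : AbsoluteValue K ℝ) (ev : Pt → Fin n → K) {a : ℕ}
    (p : Fin a → Pt) : 0 ≤ chainProd v ev p :=
  Finset.prod_nonneg fun _ _ => opNorm_nonneg v _ _

theorem prodY_nonneg (v : AbsoluteValue K ℝ) (ev : Pt → Fin n → K) {a b : ℕ} (p : Fin a → Pt)
    (q : Fin b → Pt) : 0 ≤ prodY v ev p q :=
  Finset.prod_nonneg fun _ _ => opNorm_nonneg v _ _

theorem prodT_nonneg (v : AbsoluteValue K ℝ) (ev : Pt → Fin n → K) (S : Finset Pt) {b : ℕ}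
    (q : Fin b → Pt) : 0 ≤ prodT v ev S q :=
  Finset.prod_nonneg fun _ _ => opNorm_nonneg v _ _

theorem prodU_nonneg (v : AbsoluteValue K ℝ) (ev : Pt → Fin n → K) {b : ℕ}
    (q : Fin b → Pt) : 0 ≤ prodU v ev q :=
  Finset.prod_nonneg fun _ _ => opNorm_nonneg v _ _

theorem chainProd_append (v : AbsoluteValue K ℝ) (ev : Pt → Fin n → K) {a b : ℕ}
    (p : Fin a → Pt) (q : Fin b → Pt) :
    chainProd v ev (Fin.append p q) = chainProd v ev p * prodY v ev p q := by
  rw [chainProd_eq, chainProd_eq, Fin.prod_univ_add]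
  unfold prodY
  congr 1
  · refine Finset.prod_congr rfl fun i _ => ?_
    rw [Fin.append_left, Fin.coe_castAdd, ptsLt_append_left p q _ i.2.le]
  · refine Finset.prod_congr rfl fun j _ => ?_
    rw [Fin.append_right, Fin.coe_natAdd, ptsLt_append_right]

/-- The hypothesis of local additivity, in terms of `Near`. -/
def HasLA (v : AbsoluteValue K ℝ) (ev : Pt → Fin n → K) (C : ℝ) (N : ℕ) : Prop :=
  ∀ (S S' : Finset Pt) (Q : Pt), Disjoint S S' → Q ∉ S → Q ∉ S' → (S ∪ S').card + 1 ≤ N →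
    Near C (opNorm v (ev Q) (kerPts ev (S ∪ S')) * opNorm v (ev Q) ⊤)
      (opNorm v (ev Q) (kerPts ev S) * opNorm v (ev Q) (kerPts ev S'))

/-- `Y(p; q) U(q) ≍ T(S_p; q) X(q)`. -/
theorem near_prodY (v : AbsoluteValue K ℝ) (ev : Pt → Fin n → K) {C : ℝ} {N : ℕ} (hC : 1 ≤ C)
    (hLA : HasLA v ev C N) {a b : ℕ} (p : Fin a → Pt) (q : Fin b → Pt) (hab : a + b ≤ N)
    (hinj : Function.Injective (Fin.append p q)) :
    Near (C ^ b) (prodY v ev p q * prodU v ev q)
      (prodT v ev (ptsLt p a) q * chainProd v ev q) := by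
  obtain ⟨_, hq, hpq⟩ := (injective_append_iff p q).mp hinj
  have hC0 : (0 : ℝ) ≤ C := zero_le_one.trans hC
  rw [chainProd_eq]
  unfold prodY prodU prodT
  rw [← Finset.prod_mul_distrib, ← Finset.prod_mul_distrib]
  have h := Near.prod (Finset.univ : Finset (Fin b)) hC0
    (fun j => opNorm v (ev (q j)) (kerPts ev (ptsLt p a ∪ ptsLt q j)) * opNorm v (ev (q j)) ⊤)
    (fun j => opNorm v (ev (q j)) (kerPts ev (ptsLt p a)) *
      opNorm v (ev (q j)) (kerPts ev (ptsLt q j)))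
    (fun j _ => mul_nonneg (opNorm_nonneg v _ _) (opNorm_nonneg v _ _))
    (fun j _ => mul_nonneg (opNorm_nonneg v _ _) (opNorm_nonneg v _ _))
    (fun j _ => by
      refine hLA (ptsLt p a) (ptsLt q j) (q j) ?_ ?_ ?_ ?_
      · rw [Finset.disjoint_left]
        intro Q hQ hQ'
        obtain ⟨i, _, rfl⟩ := (mem_ptsLt p a Q).mp hQ
        obtain ⟨i', _, hi'⟩ := (mem_ptsLt q j _).mp hQ'
        exact hpq i i' hi'.symm
      · intro hQ
        obtain ⟨i, _, hi⟩ := (mem_ptsLt p a _).mp hQ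
        exact hpq i j hi
      · intro hQ
        obtain ⟨i', hi'j, hi'⟩ := (mem_ptsLt q j _).mp hQ
        have := hq hi'
        rw [this] at hi'j
        exact lt_irrefl _ hi'j
      · have h1 := Finset.card_union_le (ptsLt p a) (ptsLt q j)
        have h2 := card_ptsLt_le p a
        have h3 := card_ptsLt_le q j
        have h4 := j.2
        omega)
  rw [Finset.card_univ, Fintype.card_fin] at h
  exact h

/-- `T(S ∪ S'; q) U(q) ≍ T(S; q) T(S'; q)`. -/
theorem near_prodT (v : AbsoluteValue K ℝ) (ev : Pt → Fin n → K) {C : ℝ} {N : ℕ} (hC : 1 ≤ C)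
    (hLA : HasLA v ev C N) (S S' : Finset Pt) (hSS : Disjoint S S') {b : ℕ} (q : Fin b → Pt)
    (hqS : ∀ j, q j ∉ S) (hqS' : ∀ j, q j ∉ S') (hcard : 0 < b → (S ∪ S').card + 1 ≤ N) :
    Near (C ^ b) (prodT v ev (S ∪ S') q * prodU v ev q)
      (prodT v ev S q * prodT v ev S' q) := by
  have hC0 : (0 : ℝ) ≤ C := zero_le_one.trans hC
  unfold prodU prodT
  rw [← Finset.prod_mul_distrib, ← Finset.prod_mul_distrib]
  have h := Near.prod (Finset.univ : Finset (Fin b)) hC0
    (fun j => opNorm v (ev (q j)) (kerPts ev (S ∪ S')) * opNorm v (ev (q j)) ⊤)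
    (fun j => opNorm v (ev (q j)) (kerPts ev S) * opNorm v (ev (q j)) (kerPts ev S'))
    (fun j _ => mul_nonneg (opNorm_nonneg v _ _) (opNorm_nonneg v _ _))
    (fun j _ => mul_nonneg (opNorm_nonneg v _ _) (opNorm_nonneg v _ _))
    (fun j _ => hLA S S' (q j) hSS (hqS j) (hqS' j) (hcard (Nat.pos_of_ne_zero (by
      rintro rfl
      exact j.elim0))))
  rw [Finset.card_univ, Fintype.card_fin] at h
  exact h

/-- The cube relation for the chain products. -/
theorem cubeL_main (v : AbsoluteValue K ℝ) (ev : Pt → Fin n → K) {C : ℝ} {N : ℕ} (hC : 1 ≤ C)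
    (hLA : HasLA v ev C N)
    (hpos : ∀ (S : Finset Pt) (Q : Pt), Q ∉ S → S.card + 1 ≤ N →
      0 < opNorm v (ev Q) (kerPts ev S))
    {a₁ a₂ a₃ : ℕ} (p₁ : Fin a₁ → Pt) (p₂ : Fin a₂ → Pt) (p₃ : Fin a₃ → Pt)
    (hN : a₁ + a₂ + a₃ ≤ N)
    (hinj : Function.Injective (Fin.append (Fin.append p₁ p₂) p₃)) :
    Near (C ^ (4 * N))
      (chainProd v ev (Fin.append (Fin.append p₁ p₂) p₃) *
        (chainProd v ev p₁ * chainProd v ev p₂ * chainProd v ev p₃))
      (chainProd v ev (Fin.append p₁ p₂) * chainProd v ev (Fin.append p₁ p₃) *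
        chainProd v ev (Fin.append p₂ p₃)) := by
  have hC0 : (0 : ℝ) ≤ C := zero_le_one.trans hC
  obtain ⟨h12inj, h3inj, h12_3⟩ := (injective_append_iff _ p₃).mp hinj
  obtain ⟨h1inj, h2inj, h1_2⟩ := (injective_append_iff p₁ p₂).mp h12inj
  have h1_3 : ∀ i j, p₁ i ≠ p₃ j := fun i j => by
    have := h12_3 (Fin.castAdd a₂ i) j
    rwa [Fin.append_left] at this
  have h2_3 : ∀ i j, p₂ i ≠ p₃ j := fun i j => by
    have := h12_3 (Fin.natAdd a₁ i) j
    rwa [Fin.append_right] at this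
  have h13inj : Function.Injective (Fin.append p₁ p₃) :=
    (injective_append_iff _ _).mpr ⟨h1inj, h3inj, h1_3⟩
  have h23inj : Function.Injective (Fin.append p₂ p₃) :=
    (injective_append_iff _ _).mpr ⟨h2inj, h3inj, h2_3⟩
  have hS12 : ptsLt (Fin.append p₁ p₂) (a₁ + a₂) = ptsLt p₁ a₁ ∪ ptsLt p₂ a₂ :=
    ptsLt_append_right p₁ p₂ a₂
  -- positivity of `U`
  have hU : 0 < prodU v ev p₃ := by
    unfold prodU
    refine Finset.prod_pos fun j _ => ?_
    have h1 : 1 ≤ N := by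
      have := j.2
      omega
    have := hpos ∅ (p₃ j) (Finset.notMem_empty _) (by rw [Finset.card_empty]; omega)
    rwa [kerPts_empty] at this
  -- the four comparisons
  have n13 := near_prodY v ev hC hLA p₁ p₃ (by omega) h13inj
  have n23 := near_prodY v ev hC hLA p₂ p₃ (by omega) h23inj
  have n123 := near_prodY v ev hC hLA (Fin.append p₁ p₂) p₃ hN hinj
  have nT : Near (C ^ a₃) (prodT v ev (ptsLt (Fin.append p₁ p₂) (a₁ + a₂)) p₃ * prodU v ev p₃)
      (prodT v ev (ptsLt p₁ a₁) p₃ * prodT v ev (ptsLt p₂ a₂) p₃) := by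
    rw [hS12]
    refine near_prodT v ev hC hLA _ _ ?_ p₃ ?_ ?_ ?_
    · rw [Finset.disjoint_left]
      intro Q hQ hQ'
      obtain ⟨i, _, rfl⟩ := (mem_ptsLt p₁ a₁ Q).mp hQ
      obtain ⟨i', _, hi'⟩ := (mem_ptsLt p₂ a₂ _).mp hQ'
      exact h1_2 i i' hi'.symm
    · intro j hQ
      obtain ⟨i, _, hi⟩ := (mem_ptsLt p₁ a₁ _).mp hQ
      exact h1_3 i j hi
    · intro j hQ
      obtain ⟨i, _, hi⟩ := (mem_ptsLt p₂ a₂ _).mp hQ
      exact h2_3 i j hi
    · intro h3
      have h1 := Finset.card_union_le (ptsLt p₁ a₁) (ptsLt p₂ a₂)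
      have h2 := card_ptsLt_le p₁ a₁
      have h3' := card_ptsLt_le p₂ a₂
      omega
  have key := near_cube_algebra (pow_nonneg hC0 a₃) (chainProd_nonneg v ev p₁)
    (chainProd_nonneg v ev p₂) (chainProd_nonneg v ev p₃)
    (chainProd_nonneg v ev (Fin.append p₁ p₂)) (prodY_nonneg v ev p₁ p₃)
    (prodY_nonneg v ev p₂ p₃) (prodY_nonneg v ev (Fin.append p₁ p₂) p₃)
    (prodT_nonneg v ev _ p₃) (prodT_nonneg v ev _ p₃) (prodT_nonneg v ev _ p₃) hU
    n13 n23 n123 nT
  rw [chainProd_append v ev (Fin.append p₁ p₂) p₃, chainProd_append v ev p₁ p₃,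
    chainProd_append v ev p₂ p₃]
  refine Near.mono ?_ ?_ ?_ key
  · have e : C ^ a₃ * C ^ a₃ * (C ^ a₃ * C ^ a₃) = C ^ (4 * a₃) := by
      rw [← pow_add, ← pow_add]
      congr 1
      omega
    rw [e]
    exact pow_le_pow_right₀ hC (by omega)
  · exact mul_nonneg (mul_nonneg (chainProd_nonneg v ev _) (prodY_nonneg v ev _ _))
      (mul_nonneg (mul_nonneg (chainProd_nonneg v ev _) (chainProd_nonneg v ev _))
        (chainProd_nonneg v ev _))
  · exact mul_nonneg (mul_nonneg (chainProd_nonneg v ev _)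
      (mul_nonneg (chainProd_nonneg v ev _) (prodY_nonneg v ev _ _)))
      (mul_nonneg (chainProd_nonneg v ev _) (prodY_nonneg v ev _ _))

end Chain

/-- **CUBE-L**: `H16.Stmt_CubeL`. -/
theorem stmt_CubeL : Stmt_CubeL := by
  intro K _ n Pt _ ev v C N hC hLA hpos a₁ a₂ a₃ p₁ p₂ p₃ hN hinj
  have hLA' : HasLA v ev C N := fun S S' Q hSS hQ hQ' hcard => hLA S S' Q hSS hQ hQ' hcard
  exact cubeL_main v ev hC hLA' hpos p₁ p₂ p₃ hN hinj

end Fermat.Agent.S17.H93
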