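import Fermat.Agent.S17.Height.H16_SiegelStmt
import Mathlib.NumberTheory.Padics.PadicNorm
import Mathlib.LinearAlgebra.Matrix.Determinant.Basic
import Mathlib.LinearAlgebra.Matrix.NonsingularInverse
import Mathlib.LinearAlgebra.Matrix.Nondegenerate
import Mathlib.LinearAlgebra.FreeModule.Finite.CardQuotient
import Mathlib.Analysis.SpecialFunctions.Pow.Real
import Mathlib.Tactic

/-!
# S17, part H: the sharp Siegel lemma (helper97)

`stmt_Siegel : Fermat.Agent.S17.H16.Stmt_Siegel`.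

Route (docstring of `H16_SiegelStmt`): normalise `B` by the archimedean maximal minor `J₀`,
`N₀ = (B_{J₀})⁻¹ B` has entries of absolute value `≤ 1` (Cramer); the lattice
`L = {c ∈ ℤ^r : c N₀ ∈ ℤ^n}` contains, for every prime `p`, the row lattice of an integral
matrix `T_p` with `|det T_p|_p = |det B_{J₀}|_p / max_J |det B_J|_p`
(`local_bound`, index via `Submodule.natAbs_det_equiv`); the product formula
(`prod_padicNorm_mul_abs`) gives `[ℤ^r : L] ≤ |det B_{J₀}| ∏_{p ∈ S} max_J |det B_J|_p`;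
pigeonhole (`exists_small_mem`).
-/

set_option autoImplicit false

open Matrix

namespace Fermat.Agent.S17.H97

variable {r n : ℕ}

/-- Cramer: the entries of `(B_J)⁻¹ B` are ratios of minors. -/
theorem cramer_entry (B : Matrix (Fin r) (Fin n) ℚ) (J : Fin r → Fin n)
    (hJ : (B.submatrix id J).det ≠ 0) (i : Fin r) (j : Fin n) :
    ((B.submatrix id J)⁻¹ * B) i j =
      (B.submatrix id (Function.update J i j)).det / (B.submatrix id J).det := by
  set A := B.submatrix id J with hA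
  have h1 : (A⁻¹ * B) i j = (A⁻¹ *ᵥ (fun k => B k j)) i := by
    simp [Matrix.mul_apply, Matrix.mulVec, dotProduct]
  have h2 : A⁻¹ = (A.det)⁻¹ • A.adjugate := by
    rw [Matrix.inv_def, Ring.inverse_eq_inv']
  have h3 : A.updateCol i (fun k => B k j) = B.submatrix id (Function.update J i j) := by
    ext k l
    simp only [Matrix.updateCol_apply, Matrix.submatrix_apply, id, Function.update_apply, hA]
    split_ifs <;> rfl
  rw [h1, h2, Matrix.smul_mulVec, ← Matrix.cramer_eq_adjugate_mulVec, Pi.smul_apply,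
    Matrix.cramer_apply, h3, smul_eq_mul]
  field_simp

theorem submatrix_inv_mul (G : Matrix (Fin r) (Fin r) ℚ) (B : Matrix (Fin r) (Fin n) ℚ)
    (J : Fin r → Fin n) : (G * B).submatrix id J = G * B.submatrix id J := by
  ext i j
  simp [Matrix.mul_apply]

theorem not_dvd_den_of_padicNorm_le_one (p : ℕ) [Fact p.Prime] (q : ℚ)
    (h : padicNorm p q ≤ 1) : ¬ p ∣ q.den := by
  intro hd
  have hp : p.Prime := Fact.out
  have hnum : ¬ (p : ℤ) ∣ q.num := by
    intro hn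
    have h1 : p ∣ q.num.natAbs := Int.natCast_dvd.mp hn
    have h2 := Nat.eq_one_of_dvd_coprimes q.reduced h1 hd
    exact hp.one_lt.ne' h2
  have e1 : padicNorm p (q.num : ℚ) = 1 := (padicNorm.int_eq_one_iff _).2 hnum
  have e2 : padicNorm p (q.den : ℚ) < 1 := (padicNorm.nat_lt_one_iff _).2 hd
  have e0 : 0 < padicNorm p (q.den : ℚ) :=
    lt_of_le_of_ne (padicNorm.nonneg _)
      (Ne.symm (padicNorm.nonzero (by exact_mod_cast q.den_nz)))
  have e3 : padicNorm p q = padicNorm p q.num / padicNorm p q.den := by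
    conv_lhs => rw [← Rat.num_div_den q]
    rw [padicNorm.div]
  rw [e3, e1, div_le_one e0] at h
  exact absurd h (not_le.mpr e2)

/-- Clearing denominators prime to `p`. -/
theorem exists_clear_den (p : ℕ) [Fact p.Prime] (N : Matrix (Fin r) (Fin n) ℚ)
    (hN : ∀ i j, padicNorm p (N i j) ≤ 1) :
    ∃ t : ℕ, t ≠ 0 ∧ ¬ p ∣ t ∧ ∀ i j, ∃ z : ℤ, (t : ℚ) * N i j = z := by
  have hp : p.Prime := Fact.out
  refine ⟨∏ i, ∏ j, (N i j).den, ?_, ?_, ?_⟩
  · exact Finset.prod_ne_zero_iff.mpr fun i _ =>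
      Finset.prod_ne_zero_iff.mpr fun j _ => (N i j).den_nz
  · intro hd
    obtain ⟨i, -, hi⟩ := (hp.prime.dvd_finsetProd_iff _).1 hd
    obtain ⟨j, -, hj⟩ := (hp.prime.dvd_finsetProd_iff _).1 hi
    exact not_dvd_den_of_padicNorm_le_one p (N i j) (hN i j) hj
  · intro i j
    have h1 : (N i j).den ∣ ∏ i, ∏ j, (N i j).den :=
      (Finset.dvd_prod_of_mem (fun j => (N i j).den) (Finset.mem_univ j)).trans
        (Finset.dvd_prod_of_mem (fun i => ∏ j, (N i j).den) (Finset.mem_univ i))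
    obtain ⟨k, hk⟩ := h1
    refine ⟨k * (N i j).num, ?_⟩
    rw [hk]
    push_cast
    have : ((N i j).den : ℚ) * N i j = (N i j).num := by
      rw [mul_comm]; exact Rat.mul_den_eq_num _
    calc ((N i j).den : ℚ) * (k : ℚ) * N i j = (k : ℚ) * (((N i j).den : ℚ) * N i j) := by ring
      _ = _ := by rw [this]

/-- The index of a subgroup of `ℤ^r` containing the row lattice of an integral matrix `T`
divides `|det T|`. -/
theorem index_dvd_det (T : Matrix (Fin r) (Fin r) ℤ) (hT : T.det ≠ 0)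
    (L : AddSubgroup (Fin r → ℤ)) (hL : ∀ c : Fin r → ℤ, c ᵥ* T ∈ L) :
    L.index ∣ T.det.natAbs := by
  classical
  let f : (Fin r → ℤ) →ₗ[ℤ] (Fin r → ℤ) := Matrix.toLin' Tᵀ
  have hf : ∀ c, f c = c ᵥ* T := fun c => by
    simp [f, Matrix.toLin'_apply, Matrix.mulVec_transpose]
  have hinj : Function.Injective f := by
    rw [← LinearMap.ker_eq_bot, LinearMap.ker_eq_bot']
    intro c hc
    rw [hf] at hc
    exact Matrix.eq_zero_of_vecMul_eq_zero hT hc
  let N : Submodule ℤ (Fin r → ℤ) := LinearMap.range f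
  let e : (Fin r → ℤ) ≃ₗ[ℤ] N := LinearEquiv.ofInjective f hinj
  have h1 := Submodule.natAbs_det_equiv N e
  have h2 : (N.subtype ∘ₗ AddMonoidHom.toIntLinearMap ((e : (Fin r → ℤ) →+ N))) = f := by
    ext x
    rfl
  rw [h2] at h1
  have h3 : LinearMap.det f = T.det := by
    simp [f, LinearMap.det_toLin', Matrix.det_transpose]
  rw [h3] at h1
  have h4 : N.toAddSubgroup ≤ L := by
    rintro x ⟨c, rfl⟩
    rw [hf]
    exact hL c
  have h5 : N.toAddSubgroup.index = T.det.natAbs := by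
    rw [h1]
    rfl
  rw [← h5]
  exact AddSubgroup.index_dvd_of_le h4

theorem padicNorm_natCast_eq (p : ℕ) (hp : p.Prime) (m : ℕ) (hm : m ≠ 0) :
    padicNorm p (m : ℚ) = ((p : ℚ) ^ (m.factorization p))⁻¹ := by
  have : Fact p.Prime := ⟨hp⟩
  rw [padicNorm.eq_zpow_of_nonzero (by exact_mod_cast hm), padicValRat.of_nat,
    Nat.factorization_def m hp, zpow_neg, zpow_natCast]

/-- The product formula for a positive integer. -/
theorem prod_padicNorm_natCast (m : ℕ) (hm : m ≠ 0) (T : Finset ℕ) (hT : ∀ p ∈ T, p.Prime)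
    (hsub : m.primeFactors ⊆ T) :
    (∏ p ∈ T, padicNorm p (m : ℚ)) * (m : ℚ) = 1 := by
  have h1 : ∏ p ∈ T, padicNorm p (m : ℚ) = ∏ p ∈ m.primeFactors, padicNorm p (m : ℚ) := by
    symm
    apply Finset.prod_subset hsub
    intro p hpT hp
    have hpp := hT p hpT
    have : Fact p.Prime := ⟨hpp⟩
    rw [padicNorm.nat_eq_one_iff]
    intro hd
    exact hp (Nat.mem_primeFactors.mpr ⟨hpp, hd, hm⟩)
  have h2 : ∏ p ∈ m.primeFactors, padicNorm p (m : ℚ)
      = (∏ p ∈ m.primeFactors, (p : ℚ) ^ (m.factorization p))⁻¹ := by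
    rw [← Finset.prod_inv_distrib]
    exact Finset.prod_congr rfl fun p hp =>
      padicNorm_natCast_eq p (Nat.prime_of_mem_primeFactors hp) m hm
  have h3 : (∏ p ∈ m.primeFactors, (p : ℚ) ^ (m.factorization p)) = (m : ℚ) := by
    have := Nat.prod_factorization_pow_eq_self hm
    conv_rhs => rw [← this]
    rw [Finsupp.prod, Nat.support_factorization]
    push_cast
    rfl
  rw [h1, h2, h3]
  exact inv_mul_cancel₀ (by exact_mod_cast hm)

/-- The product formula on `ℚˣ`, finite form. -/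
theorem prod_padicNorm_mul_abs (x : ℚ) (hx : x ≠ 0) (T : Finset ℕ) (hT : ∀ p ∈ T, p.Prime)
    (h1 : x.num.natAbs.primeFactors ⊆ T) (h2 : x.den.primeFactors ⊆ T) :
    (∏ p ∈ T, padicNorm p x) * |x| = 1 := by
  have hnum : x.num.natAbs ≠ 0 := Int.natAbs_ne_zero.mpr (Rat.num_ne_zero.mpr hx)
  have hden : (x.den : ℚ) ≠ 0 := by exact_mod_cast x.den_nz
  have e1 := prod_padicNorm_natCast x.num.natAbs hnum T hT h1
  have e2 := prod_padicNorm_natCast x.den x.den_nz T hT h2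
  have e3 : ∀ p ∈ T, padicNorm p x
      = padicNorm p (x.num.natAbs : ℚ) / padicNorm p (x.den : ℚ) := by
    intro p hp
    have : Fact p.Prime := ⟨hT p hp⟩
    have hna : padicNorm p (x.num.natAbs : ℚ) = padicNorm p (x.num : ℚ) := by
      rcases Int.natAbs_eq x.num with h | h
      · conv_rhs => rw [h]
        simp
      · conv_rhs => rw [h]
        rw [Int.cast_neg, padicNorm.neg]
        simp
    rw [hna, ← padicNorm.div, Rat.num_div_den]
  have e4 : |x| = (x.num.natAbs : ℚ) / (x.den : ℚ) := by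
    conv_lhs => rw [← Rat.num_div_den x]
    rw [abs_div, Nat.abs_cast, Nat.cast_natAbs, Int.cast_abs]
  rw [Finset.prod_congr rfl e3, Finset.prod_div_distrib, e4]
  have hd0 : (∏ p ∈ T, padicNorm p (x.den : ℚ)) ≠ 0 := by
    intro h0
    rw [h0, zero_mul] at e2
    exact zero_ne_one e2
  field_simp
  have e1' := e1
  have e2' := e2
  calc (∏ p ∈ T, padicNorm p (x.num.natAbs : ℚ)) * (x.num.natAbs : ℚ)
      = 1 := e1
    _ = (∏ p ∈ T, padicNorm p (x.den : ℚ)) * (x.den : ℚ) := e2.symm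
    _ = _ := by ring

/-- Global bound from local bounds (product formula). -/
theorem abs_le_of_padicNorm_inv_le (x : ℚ) (hx : x ≠ 0) (S : Finset ℕ)
    (hS : ∀ p ∈ S, p.Prime) (E : ℕ → ℝ)
    (hE : ∀ p ∈ S, ((padicNorm p x⁻¹ : ℚ) : ℝ) ≤ E p)
    (hout : ∀ p : ℕ, p.Prime → p ∉ S → padicNorm p x⁻¹ ≤ 1) :
    ((|x| : ℚ) : ℝ) ≤ ∏ p ∈ S, E p := by
  classical
  have hxi : x⁻¹ ≠ 0 := inv_ne_zero hx
  set T : Finset ℕ := S ∪ (x⁻¹.num.natAbs.primeFactors ∪ x⁻¹.den.primeFactors) with hTdef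
  have hT : ∀ p ∈ T, p.Prime := by
    intro p hp
    rw [hTdef, Finset.mem_union, Finset.mem_union] at hp
    rcases hp with hp | hp | hp
    · exact hS p hp
    · exact Nat.prime_of_mem_primeFactors hp
    · exact Nat.prime_of_mem_primeFactors hp
  have hpf := prod_padicNorm_mul_abs x⁻¹ hxi T hT
    (fun p hp => Finset.mem_union_right _ (Finset.mem_union_left _ hp))
    (fun p hp => Finset.mem_union_right _ (Finset.mem_union_right _ hp))
  have habs : |x| = ∏ p ∈ T, padicNorm p x⁻¹ := by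
    have hx0 : |x| ≠ 0 := abs_ne_zero.mpr hx
    rw [abs_inv] at hpf
    exact ((mul_inv_eq_one₀ hx0).1 hpf).symm
  rw [habs]
  push_cast
  have hST : S ⊆ T := Finset.subset_union_left
  rw [← Finset.prod_sdiff hST]
  have h1 : ∏ p ∈ T \ S, ((padicNorm p x⁻¹ : ℚ) : ℝ) ≤ 1 := by
    apply Finset.prod_le_one
    · intro p _
      exact_mod_cast padicNorm.nonneg _
    · intro p hp
      rw [Finset.mem_sdiff] at hp
      exact_mod_cast hout p (hT p hp.1) hp.2
  have h2 : ∏ p ∈ S, ((padicNorm p x⁻¹ : ℚ) : ℝ) ≤ ∏ p ∈ S, E p := by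
    apply Finset.prod_le_prod
    · intro p _
      exact_mod_cast padicNorm.nonneg _
    · exact hE
  have h3 : 0 ≤ ∏ p ∈ S, ((padicNorm p x⁻¹ : ℚ) : ℝ) :=
    Finset.prod_nonneg fun p _ => by exact_mod_cast padicNorm.nonneg _
  calc (∏ p ∈ T \ S, ((padicNorm p x⁻¹ : ℚ) : ℝ)) * ∏ p ∈ S, ((padicNorm p x⁻¹ : ℚ) : ℝ)
      ≤ 1 * ∏ p ∈ S, ((padicNorm p x⁻¹ : ℚ) : ℝ) := mul_le_mul_of_nonneg_right h1 h3
    _ = ∏ p ∈ S, ((padicNorm p x⁻¹ : ℚ) : ℝ) := one_mul _
    _ ≤ _ := h2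

/-- The lattice of integral vectors `c` with `c N` integral. -/
def intLattice (N : Matrix (Fin r) (Fin n) ℚ) : AddSubgroup (Fin r → ℤ) where
  carrier := {c | ∀ j, ∃ z : ℤ, ((fun i => ((c i : ℤ) : ℚ)) ᵥ* N) j = z}
  zero_mem' := fun j => ⟨0, by simp [Matrix.vecMul, dotProduct]⟩
  add_mem' := by
    intro a b ha hb j
    obtain ⟨z1, h1⟩ := ha j
    obtain ⟨z2, h2⟩ := hb j
    refine ⟨z1 + z2, ?_⟩
    have : (fun i => (((a + b) i : ℤ) : ℚ)) = (fun i => ((a i : ℤ) : ℚ)) + fun i => ((b i : ℤ) : ℚ) := by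
      funext i; simp
    rw [this, Matrix.add_vecMul, Pi.add_apply, h1, h2]
    push_cast; rfl
  neg_mem' := by
    intro a ha j
    obtain ⟨z1, h1⟩ := ha j
    refine ⟨-z1, ?_⟩
    have : (fun i => (((-a) i : ℤ) : ℚ)) = -(fun i => ((a i : ℤ) : ℚ)) := by
      funext i; simp
    rw [this, Matrix.neg_vecMul, Pi.neg_apply, h1]
    push_cast; rfl

theorem mem_intLattice (N : Matrix (Fin r) (Fin n) ℚ) (c : Fin r → ℤ) :
    c ∈ intLattice N ↔ ∀ j, ∃ z : ℤ, ((fun i => ((c i : ℤ) : ℚ)) ᵥ* N) j = z := Iff.rfl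

theorem padicNorm_pos (p : ℕ) [Fact p.Prime] {q : ℚ} (hq : q ≠ 0) : 0 < padicNorm p q :=
  lt_of_le_of_ne (padicNorm.nonneg _) (Ne.symm (padicNorm.nonzero hq))

/-- The local bound on the index of `intLattice ((B_{J₀})⁻¹ B)`. -/
theorem local_bound (B : Matrix (Fin r) (Fin n) ℚ) (J₀ : Fin r → Fin n)
    (h0 : (B.submatrix id J₀).det ≠ 0) (p : ℕ) [Fact p.Prime] (Jp : Fin r → Fin n)
    (hJp : ∀ J, padicNorm p (B.submatrix id J).det ≤ padicNorm p (B.submatrix id Jp).det) :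
    (intLattice ((B.submatrix id J₀)⁻¹ * B)).index ≠ 0 ∧
      padicNorm p ((B.submatrix id J₀).det /
        ((intLattice ((B.submatrix id J₀)⁻¹ * B)).index : ℚ))
        ≤ padicNorm p (B.submatrix id Jp).det := by
  classical
  set A₀ := B.submatrix id J₀ with hA₀
  set Ap := B.submatrix id Jp with hAp
  set L := intLattice (A₀⁻¹ * B) with hL
  have hp0 : Ap.det ≠ 0 := by
    intro h
    have h1 := hJp J₀
    rw [h, padicNorm.zero] at h1
    exact absurd (padicNorm_pos p h0) (not_lt.mpr h1)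
  have hent : ∀ i j, padicNorm p ((Ap⁻¹ * B) i j) ≤ 1 := by
    intro i j
    rw [hAp, cramer_entry B Jp hp0 i j, padicNorm.div, div_le_one (padicNorm_pos p hp0)]
    exact hJp _
  obtain ⟨t, ht0, hpt, hz⟩ := exists_clear_den p (Ap⁻¹ * B) hent
  choose Z hZ using hz
  let Tp : Matrix (Fin r) (Fin r) ℤ := Matrix.of fun i k => Z i (J₀ k)
  have hTp : Tp.map (Int.cast : ℤ → ℚ) = (t : ℚ) • (Ap⁻¹ * A₀) := by
    ext i k
    simp only [Matrix.map_apply, Matrix.of_apply, Matrix.smul_apply, smul_eq_mul, Tp]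
    rw [← hZ i (J₀ k), hA₀, ← submatrix_inv_mul]
    rfl
  have hA₀u : IsUnit A₀.det := isUnit_iff_ne_zero.mpr h0
  have hdetQ : ((Tp.det : ℤ) : ℚ) = (t : ℚ) ^ r * (Ap.det⁻¹ * A₀.det) := by
    have h1 : ((Tp.det : ℤ) : ℚ) = (Tp.map (Int.cast : ℤ → ℚ)).det := by
      have := RingHom.map_det (Int.castRingHom ℚ) Tp
      simpa using this
    rw [h1, hTp, Matrix.det_smul, Matrix.det_mul, Matrix.det_nonsing_inv,
      Ring.inverse_eq_inv', Fintype.card_fin]
  have htQ : (t : ℚ) ≠ 0 := by exact_mod_cast ht0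
  have hdet : Tp.det ≠ 0 := by
    intro h
    rw [h, Int.cast_zero] at hdetQ
    have : (t : ℚ) ^ r * (Ap.det⁻¹ * A₀.det) ≠ 0 :=
      mul_ne_zero (pow_ne_zero _ htQ) (mul_ne_zero (inv_ne_zero hp0) h0)
    exact this hdetQ.symm
  have hmem : ∀ c : Fin r → ℤ, c ᵥ* Tp ∈ L := by
    intro c j
    refine ⟨(c ᵥ* (Matrix.of Z : Matrix (Fin r) (Fin n) ℤ)) j, ?_⟩
    have e1 : (fun i => (((c ᵥ* Tp) i : ℤ) : ℚ))
        = (fun i => ((c i : ℤ) : ℚ)) ᵥ* (Tp.map (Int.cast : ℤ → ℚ)) := by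
      funext k
      simp [Matrix.vecMul, dotProduct]
    have e2 : ((t : ℚ) • (Ap⁻¹ * A₀)) * (A₀⁻¹ * B) = (t : ℚ) • (Ap⁻¹ * B) := by
      rw [Matrix.smul_mul, Matrix.mul_assoc, ← Matrix.mul_assoc A₀ A₀⁻¹ B,
        Matrix.mul_nonsing_inv A₀ hA₀u, Matrix.one_mul]
    have e3 : (t : ℚ) • (Ap⁻¹ * B) = (Matrix.of Z : Matrix (Fin r) (Fin n) ℤ).map
        (Int.cast : ℤ → ℚ) := by
      ext i k
      simp only [Matrix.map_apply, Matrix.of_apply, Matrix.smul_apply, smul_eq_mul]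
      exact hZ i k
    rw [e1, hTp, Matrix.vecMul_vecMul, e2, e3]
    simp [Matrix.vecMul, dotProduct]
  have hdvd := index_dvd_det Tp hdet L hmem
  have hidx : L.index ≠ 0 := by
    intro h
    rw [h, zero_dvd_iff] at hdvd
    exact hdet (Int.natAbs_eq_zero.mp hdvd)
  refine ⟨hidx, ?_⟩
  have hidxQ : (L.index : ℚ) ≠ 0 := by exact_mod_cast hidx
  -- `|det Tp|_p ≤ |index|_p`
  have h1 : padicNorm p ((Tp.det : ℤ) : ℚ) ≤ padicNorm p (L.index : ℚ) := by
    obtain ⟨k, hk⟩ := hdvd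
    have h2 : padicNorm p ((Tp.det : ℤ) : ℚ) = padicNorm p ((Tp.det.natAbs : ℕ) : ℚ) := by
      rcases Int.natAbs_eq Tp.det with h | h
      · conv_lhs => rw [h]
        simp
      · conv_lhs => rw [h]
        rw [Int.cast_neg, padicNorm.neg]
        simp
    rw [h2, hk, Nat.cast_mul, padicNorm.mul]
    calc padicNorm p (L.index : ℚ) * padicNorm p (k : ℚ)
        ≤ padicNorm p (L.index : ℚ) * 1 :=
          mul_le_mul_of_nonneg_left (padicNorm.of_nat k) (padicNorm.nonneg _)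
      _ = _ := mul_one _
  have h3 : padicNorm p ((Tp.det : ℤ) : ℚ) = padicNorm p A₀.det / padicNorm p Ap.det := by
    rw [hdetQ, padicNorm.mul, padicNorm.mul]
    have ht1 : padicNorm p ((t : ℚ) ^ r) = 1 := by
      have : ((t : ℚ) ^ r) = ((t ^ r : ℕ) : ℚ) := by push_cast; rfl
      rw [this, padicNorm.nat_eq_one_iff]
      intro hd
      exact hpt ((Fact.out : p.Prime).dvd_of_dvd_pow hd)
    have hinv : padicNorm p (Ap.det⁻¹) = (padicNorm p Ap.det)⁻¹ := by
      have := padicNorm.div (p := p) 1 Ap.det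
      rw [one_div, padicNorm.one, one_div] at this
      exact this
    rw [ht1, one_mul, hinv]
    field_simp
  rw [h3] at h1
  rw [padicNorm.div]
  have hpi := padicNorm_pos p hidxQ
  have hpp := padicNorm_pos p hp0
  rw [div_le_iff₀ hpi]
  rw [div_le_iff₀ hpp] at h1
  linarith

/-- Pigeonhole: a subgroup of finite index `m` of `ℤ^r` contains a nonzero vector with entries
bounded by `K`, where `K ^ r ≤ m`. -/
theorem exists_small_mem (L : AddSubgroup (Fin r → ℤ)) (hr : 0 < r) (hidx : L.index ≠ 0) :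
    ∃ K : ℕ, K ^ r ≤ L.index ∧ ∃ c ∈ L, c ≠ 0 ∧ ∀ i, |c i| ≤ (K : ℤ) := by
  classical
  set m := L.index with hm
  set K := Nat.findGreatest (fun k => k ^ r ≤ m) m with hKdef
  have hK1 : K ^ r ≤ m :=
    Nat.findGreatest_spec (P := fun k => k ^ r ≤ m) (Nat.zero_le m)
      (by simp [zero_pow hr.ne'])
  have hK2 : m < (K + 1) ^ r := by
    by_contra hcon
    rw [not_lt] at hcon
    have h1 : K + 1 ≤ m := (Nat.le_self_pow hr.ne' (K + 1)).trans hcon
    have h2 := Nat.le_findGreatest (P := fun k => k ^ r ≤ m) h1 hcon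
    omega
  refine ⟨K, hK1, ?_⟩
  have hfi : L.FiniteIndex := ⟨hidx⟩
  have hfin : Finite ((Fin r → ℤ) ⧸ L) := AddSubgroup.finite_quotient_of_finiteIndex
  let _ : Fintype ((Fin r → ℤ) ⧸ L) := Fintype.ofFinite _
  let f : (Fin r → Fin (K + 1)) → (Fin r → ℤ) ⧸ L :=
    fun a => QuotientAddGroup.mk (fun i => ((a i : ℕ) : ℤ))
  have hcard : Fintype.card ((Fin r → ℤ) ⧸ L) < Fintype.card (Fin r → Fin (K + 1)) := by
    have h1 : Nat.card ((Fin r → ℤ) ⧸ L) = m := rfl
    have h2 : Fintype.card (Fin r → Fin (K + 1)) = (K + 1) ^ r := by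
      simp
    rw [← Nat.card_eq_fintype_card, h1, h2]
    exact hK2
  obtain ⟨a, b, hab, hf⟩ := Fintype.exists_ne_map_eq_of_card_lt f hcard
  have hmem : (-(fun i => ((a i : ℕ) : ℤ)) + fun i => ((b i : ℕ) : ℤ)) ∈ L :=
    QuotientAddGroup.eq.mp hf
  refine ⟨_, hmem, ?_, ?_⟩
  · intro h0
    apply hab
    funext i
    have := congrFun h0 i
    simp only [Pi.add_apply, Pi.neg_apply, Pi.zero_apply] at this
    apply Fin.ext
    omega
  · intro i
    simp only [Pi.add_apply, Pi.neg_apply]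
    have h1 := (a i).isLt
    have h2 := (b i).isLt
    rw [abs_le]
    constructor <;> omega

/-- **The sharp Siegel lemma.** -/
theorem stmt_Siegel : Fermat.Agent.S17.H16.Stmt_Siegel := by
  intro r n hr B hB S hS hout
  classical
  obtain ⟨J, hJ⟩ := hB
  have hne : Nonempty (Fin r → Fin n) := ⟨J⟩
  -- the archimedean maximal minor
  obtain ⟨J₀, hJ₀⟩ := Finite.exists_max (fun J : Fin r → Fin n => |(B.submatrix id J).det|)
  have h0 : (B.submatrix id J₀).det ≠ 0 := by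
    intro h
    have h1 := hJ₀ J
    simp only [h, abs_zero] at h1
    exact hJ (abs_eq_zero.mp (le_antisymm h1 (abs_nonneg _)))
  -- the `p`-adic maximal minors
  have hex : ∀ p : ℕ, ∃ Jp : Fin r → Fin n,
      ∀ J, padicNorm p (B.submatrix id J).det ≤ padicNorm p (B.submatrix id Jp).det :=
    fun p => Finite.exists_max (fun J : Fin r → Fin n => padicNorm p (B.submatrix id J).det)
  choose Jp hJp using hex
  set A₀ := B.submatrix id J₀ with hA₀
  set L := intLattice (A₀⁻¹ * B) with hL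
  have hidx : L.index ≠ 0 := by
    have : Fact (Nat.Prime 2) := ⟨Nat.prime_two⟩
    exact (local_bound B J₀ h0 2 (Jp 2) (hJp 2)).1
  have hidxQ : (L.index : ℚ) ≠ 0 := by exact_mod_cast hidx
  -- the global bound on the index
  have hsupA : (((|A₀.det| : ℚ)) : ℝ)
      ≤ ⨆ J : Fin r → Fin n, ((|(B.submatrix id J).det| : ℚ) : ℝ) :=
    le_ciSup (f := fun J : Fin r → Fin n => ((|(B.submatrix id J).det| : ℚ) : ℝ))
      (Finite.bddAbove_range _) J₀
  have hsupP : ∀ p : ℕ, ((padicNorm p (B.submatrix id (Jp p)).det : ℚ) : ℝ)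
      ≤ ⨆ J : Fin r → Fin n, ((padicNorm p (B.submatrix id J).det : ℚ) : ℝ) := fun p =>
    le_ciSup (f := fun J : Fin r → Fin n => ((padicNorm p (B.submatrix id J).det : ℚ) : ℝ))
      (Finite.bddAbove_range _) (Jp p)
  have hM : (L.index : ℝ) ≤ ((|A₀.det| : ℚ) : ℝ) *
      ∏ p ∈ S, ((padicNorm p (B.submatrix id (Jp p)).det : ℚ) : ℝ) := by
    have hx : (L.index : ℚ) / A₀.det ≠ 0 := div_ne_zero hidxQ h0
    have hxinv : ((L.index : ℚ) / A₀.det)⁻¹ = A₀.det / (L.index : ℚ) := inv_div _ _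
    have hloc : ∀ p : ℕ, p.Prime → padicNorm p (((L.index : ℚ) / A₀.det)⁻¹)
        ≤ padicNorm p (B.submatrix id (Jp p)).det := by
      intro p hp
      have : Fact p.Prime := ⟨hp⟩
      rw [hxinv]
      exact (local_bound B J₀ h0 p (Jp p) (hJp p)).2
    have h1 := abs_le_of_padicNorm_inv_le ((L.index : ℚ) / A₀.det) hx S hS
      (fun p => ((padicNorm p (B.submatrix id (Jp p)).det : ℚ) : ℝ))
      (fun p hp => by exact_mod_cast hloc p (hS p hp))
      (fun p hp hpS => (hloc p hp).trans (hout p hp hpS (Jp p)))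
    have h2 : ((|(L.index : ℚ) / A₀.det| : ℚ) : ℝ) = (L.index : ℝ) / ((|A₀.det| : ℚ) : ℝ) := by
      rw [abs_div, Nat.abs_cast]
      push_cast
      rfl
    rw [h2] at h1
    have hpos : (0 : ℝ) < ((|A₀.det| : ℚ) : ℝ) := by
      exact_mod_cast abs_pos.mpr h0
    rw [div_le_iff₀ hpos] at h1
    linarith [h1, mul_comm (∏ p ∈ S, ((padicNorm p (B.submatrix id (Jp p)).det : ℚ) : ℝ))
      ((|A₀.det| : ℚ) : ℝ)]
  have hM' : (L.index : ℝ) ≤ (⨆ J : Fin r → Fin n, ((|(B.submatrix id J).det| : ℚ) : ℝ)) *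
      ∏ p ∈ S, ⨆ J : Fin r → Fin n, ((padicNorm p (B.submatrix id J).det : ℚ) : ℝ) := by
    refine hM.trans (mul_le_mul hsupA ?_ ?_ ?_)
    · exact Finset.prod_le_prod (fun p _ => by exact_mod_cast padicNorm.nonneg _)
        (fun p _ => hsupP p)
    · exact Finset.prod_nonneg fun p _ => by exact_mod_cast padicNorm.nonneg _
    · exact le_trans (by exact_mod_cast abs_nonneg _) hsupA
  -- pigeonhole
  obtain ⟨K, hK, c, hcL, hc0, hcK⟩ := exists_small_mem L hr hidx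
  -- the entries of `N₀` are bounded by `1`
  have hN₀ : ∀ i j, |(A₀⁻¹ * B) i j| ≤ 1 := by
    intro i j
    rw [hA₀, cramer_entry B J₀ h0 i j, abs_div, div_le_one (abs_pos.mpr h0)]
    exact hJ₀ _
  have hA₀u : IsUnit A₀.det := isUnit_iff_ne_zero.mpr h0
  have hvec : ((fun i => ((c i : ℤ) : ℚ)) ᵥ* A₀⁻¹) ᵥ* B
      = (fun i => ((c i : ℤ) : ℚ)) ᵥ* (A₀⁻¹ * B) := Matrix.vecMul_vecMul _ _ _
  refine ⟨(fun i => ((c i : ℤ) : ℚ)) ᵥ* A₀⁻¹, ?_, ?_, ?_⟩
  · intro h
    apply hc0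
    have h1 : ((fun i => ((c i : ℤ) : ℚ)) ᵥ* A₀⁻¹) ᵥ* A₀ = 0 := by rw [h, Matrix.zero_vecMul]
    rw [Matrix.vecMul_vecMul, Matrix.nonsing_inv_mul A₀ hA₀u, Matrix.vecMul_one] at h1
    funext i
    have := congrFun h1 i
    simpa using this
  · intro j
    rw [hvec]
    exact hcL j
  · intro j
    rw [hvec]
    have hb : |((fun i => ((c i : ℤ) : ℚ)) ᵥ* (A₀⁻¹ * B)) j| ≤ (r : ℚ) * (K : ℚ) := by
      simp only [Matrix.vecMul, dotProduct]
      calc |∑ i, ((c i : ℤ) : ℚ) * (A₀⁻¹ * B) i j|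
          ≤ ∑ i, |((c i : ℤ) : ℚ) * (A₀⁻¹ * B) i j| := Finset.abs_sum_le_sum_abs _ _
        _ ≤ ∑ _i : Fin r, (K : ℚ) := by
            apply Finset.sum_le_sum
            intro i _
            rw [abs_mul]
            have h1 : |((c i : ℤ) : ℚ)| ≤ (K : ℚ) := by
              have := hcK i
              exact_mod_cast this
            calc |((c i : ℤ) : ℚ)| * |(A₀⁻¹ * B) i j| ≤ (K : ℚ) * 1 :=
                  mul_le_mul h1 (hN₀ i j) (abs_nonneg _) (by positivity)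
              _ = K := mul_one _
        _ = (r : ℚ) * (K : ℚ) := by simp
    have hb' : |((((fun i => ((c i : ℤ) : ℚ)) ᵥ* (A₀⁻¹ * B)) j : ℚ) : ℝ)| ≤ (r : ℝ) * (K : ℝ) := by
      have : ((|((fun i => ((c i : ℤ) : ℚ)) ᵥ* (A₀⁻¹ * B)) j| : ℚ) : ℝ) ≤ (((r : ℚ) * (K : ℚ) : ℚ) : ℝ) := by
        exact_mod_cast hb
      simpa using this
    calc |((((fun i => ((c i : ℤ) : ℚ)) ᵥ* (A₀⁻¹ * B)) j : ℚ) : ℝ)| ^ r
        ≤ ((r : ℝ) * (K : ℝ)) ^ r := pow_le_pow_left₀ (abs_nonneg _) hb' r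
      _ = (r : ℝ) ^ r * ((K ^ r : ℕ) : ℝ) := by push_cast; rw [mul_pow]
      _ ≤ (r : ℝ) ^ r * (L.index : ℝ) := by
          apply mul_le_mul_of_nonneg_left _ (by positivity)
          exact_mod_cast hK
      _ ≤ _ := mul_le_mul_of_nonneg_left hM' (by positivity)

end Fermat.Agent.S17.H97
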