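import Fermat.Agent.S17.Height.H16_MCube
import Fermat.Agent.S17.Height.H41_MScal
import Fermat.Agent.S17.Height.H41_Chain
import Fermat.Agent.S17.Height.H22_MSiegel
import Fermat.Agent.S17.Height.H70_MAddH
import Fermat.Agent.S17.Height.H77_CubeG
import Fermat.Agent.S17.Height.H93_CubeL
import Fermat.Agent.S17.Height.H97_Siegel

/-!
# S17, part H (heights): the height statement from a matrix system (helper16)

All the pure (linear algebra / adelic) packages are proved:

* `Stmt_M_zero`, `Stmt_M_scal` (helper41), `Stmt_M_addH`, `Stmt_M_Hpos` (helper70),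
  `Stmt_M_cube` (helper16, from `Stmt_CubeL` (helper93) and `Stmt_CubeG` (helper77)),
  `Stmt_M_siegel`, `Stmt_M_finInt` (helper22), `Stmt_Siegel` (helper97), `Stmt_Chain` (helper41).

Hence a matrix system on `J₀(N)(ℚ)` gives the height statement `Stmt_height N 2`, without any
further hypothesis.
-/

set_option autoImplicit false

namespace Fermat.Agent.S17.H16

/-- **The height statement from a matrix system**: `Stmt_height N 2` holds as soon as there is
a matrix system on `J₀(N)(ℚ)`. -/
theorem stmt_height_of_matSys_final (N : ℕ)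
    {Dv : Type} [AddCommMonoid Dv] {Rv : Type} {Pt : Type} [DecidableEq Pt]
    (S : MatSys (JQ N) Dv Rv Pt) : Stmt_height N 2 :=
  stmt_height_of_matSys Fermat.Agent.S17.H41c.stmt_M_zero Fermat.Agent.S17.H41c.stmt_M_scal
    Fermat.Agent.S17.H70.stmt_M_addH Fermat.Agent.S17.H70.stmt_M_Hpos
    (stmt_M_cube Fermat.Agent.S17.H93.stmt_CubeL Fermat.Agent.S17.H77.stmt_CubeG)
    Fermat.Agent.S17.H22m.stmt_M_siegel Fermat.Agent.S17.H22m.stmt_M_finInt
    Fermat.Agent.S17.H97.stmt_Siegel Fermat.Agent.S17.H41c.stmt_Chain N S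

end Fermat.Agent.S17.H16
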