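import Fermat.Agent.S17.Height.H16_OpNorm

/-!
# S17, part H: the chain lemma (statement)

Let `E_0, …, E_{a-1}` be linear forms on `Kⁿ`, `B` an `r × n` matrix of full rank whose rows are
killed by all `E_i`, and `w_0, …, w_{a-1}` vectors dual to the forms (`E_i ⬝ w_j = δ_ij`), with
`r + a = n`.  Let `M = stackRows a w B` be the matrix with rows `w_0, …, w_{a-1}, B` and
`W_j = kerUpTo E j = {f : E_i ⬝ f = 0 for i < j}`.  Then, up to a local constant depending only on
`n`,

  `maxMinor B ≍ maxMinor M * ∏_j opNorm (E_j) W_j`.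

(Proof: iterate the primal step `maxMinor_mul_abv_le` / `maxMinor_consRow_mul_opNorm_le` along
`B^{(j)} = rows w_j, …, w_{a-1}, B`, whose row space is `W_j` because the rows of `M` are a basis
of `Kⁿ`: `maxMinor B^{(j+1)} ≤ maxMinor B^{(j)} * opNorm (E_j) W_j ≤ C² maxMinor B^{(j+1)}`.)
-/

set_option autoImplicit false

open Matrix

namespace Fermat.Agent.S17.H16

open Fermat.Agent.S17.H71

variable {K : Type*} [Field K] {ι : Type*} [Fintype ι] [DecidableEq ι] {r : ℕ}

/-- The matrix with rows `w 0, …, w (a-1)` followed by the rows of `B`. -/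
def stackRows : (a : ℕ) → (Fin a → ι → K) → Matrix (Fin r) ι K → Matrix (Fin (r + a)) ι K
  | 0, _, B => B
  | a + 1, w, B => consRow (w 0) (stackRows a (Fin.tail w) B)

omit [Fintype ι] [DecidableEq ι] in
theorem stackRows_zero (w : Fin 0 → ι → K) (B : Matrix (Fin r) ι K) : stackRows 0 w B = B := rfl

omit [Fintype ι] [DecidableEq ι] in
theorem stackRows_succ (a : ℕ) (w : Fin (a + 1) → ι → K) (B : Matrix (Fin r) ι K) :
    stackRows (a + 1) w B = consRow (w 0) (stackRows a (Fin.tail w) B) := rfl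

/-- The vectors killed by the forms `E i`, `i < j`. -/
def kerUpTo {a : ℕ} (E : Fin a → ι → K) (j : ℕ) : Submodule K (ι → K) where
  carrier := {f | ∀ i : Fin a, (i : ℕ) < j → E i ⬝ᵥ f = 0}
  add_mem' := by
    intro f g hf hg i hi
    rw [dotProduct_add, hf i hi, hg i hi, add_zero]
  zero_mem' := by
    intro i _
    rw [dotProduct_zero]
  smul_mem' := by
    intro c f hf i hi
    rw [dotProduct_smul, hf i hi, smul_zero]

theorem mem_kerUpTo {a : ℕ} (E : Fin a → ι → K) (j : ℕ) (f : ι → K) :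
    f ∈ kerUpTo E j ↔ ∀ i : Fin a, (i : ℕ) < j → E i ⬝ᵥ f = 0 := Iff.rfl

/-- The chain lemma. -/
def Stmt_Chain : Prop :=
  ∀ (K : Type) [Field K] (n : ℕ), ∃ L : LocConst K,
    ∀ (v : AbsoluteValue K ℝ) (a r : ℕ) (E w : Fin a → Fin n → K) (B : Matrix (Fin r) (Fin n) K),
      r + a = n →
      (∀ i j, E i ⬝ᵥ w j = if i = j then 1 else 0) →
      (∀ i k, E i ⬝ᵥ B k = 0) →
      0 < maxMinor v B →
      maxMinor v B ≤ maxMinor v (stackRows a w B) * ∏ j : Fin a, opNorm v (E j) (kerUpTo E j) ∧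
      maxMinor v (stackRows a w B) * ∏ j : Fin a, opNorm v (E j) (kerUpTo E j) ≤
        L.C v * maxMinor v B

end Fermat.Agent.S17.H16
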