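import Fermat.Agent.S17.Height.H71_BF
import Mathlib.LinearAlgebra.Matrix.Rank
import Mathlib.LinearAlgebra.Matrix.NonsingularInverse
import Mathlib.LinearAlgebra.Dimension.Constructions
import Mathlib.LinearAlgebra.FiniteDimensional.Lemmas

/-!
# S17, part H: minors and linear independence; closed cones

* `exists_minor_ne_zero`: `k` linearly independent vectors of `γ → K` have a nonzero `k × k` minor;
* `linearIndependent_of_minor_ne_zero`: the converse;
* `finrank_span_le_iff_minors`: a finite family spans a space of dimension `≤ ρ` iff all its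
  `(ρ+1) × (ρ+1)` minors vanish;
* `IsClosedCone`: zero loci of ideals that are stable under scaling, with the constructions needed
  for the Pluecker families.
-/

set_option autoImplicit false

open MvPolynomial Module

namespace Fermat.Agent.S17.H71

variable {K : Type*} [Field K]

section Minor

variable {γ : Type*} [Fintype γ] [DecidableEq γ]

/-- The minor of the vectors `x` in the columns `cols`. -/
def minorOf {k : ℕ} (x : Fin k → γ → K) (cols : Fin k → γ) : K :=
  (Matrix.of fun i j => x i (cols j)).det

theorem linearIndependent_of_minor_ne_zero {k : ℕ} (x : Fin k → γ → K) (cols : Fin k → γ)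
    (h : minorOf x cols ≠ 0) : LinearIndependent K x := by
  set A : Matrix (Fin k) (Fin k) K := Matrix.of fun i j => x i (cols j) with hA
  have hunit : IsUnit A := (Matrix.isUnit_iff_isUnit_det A).2 (isUnit_iff_ne_zero.2 h)
  have hrows : LinearIndependent K A.row := Matrix.linearIndependent_rows_iff_isUnit.2 hunit
  let f : (γ → K) →ₗ[K] (Fin k → K) := LinearMap.funLeft K K cols
  refine LinearIndependent.of_comp f ?_
  have hfx : (⇑f ∘ x) = A.row := by
    funext i j
    rfl
  rw [hfx]
  exact hrows

theorem exists_minor_ne_zero {k : ℕ} (x : Fin k → γ → K) (h : LinearIndependent K x) :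
    ∃ cols : Fin k → γ, minorOf x cols ≠ 0 := by
  classical
  set X : Matrix (Fin k) γ K := Matrix.of x with hX
  have hXrow : X.row = x := rfl
  have hrank : X.rank = k := by
    have := LinearIndependent.rank_matrix (M := X) (by rw [hXrow]; exact h)
    simpa using this
  have hcols : finrank K (Submodule.span K (Set.range X.col)) = k := by
    rw [← Matrix.rank_eq_finrank_span_cols]
    exact hrank
  obtain ⟨κ, a, ha, hspan, hli⟩ := exists_linearIndependent' K X.col
  haveI : Finite κ := Finite.of_injective a ha
  letI : Fintype κ := Fintype.ofFinite κ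
  have hcard : Fintype.card κ = k := by
    rw [← hcols, ← hspan]
    exact (finrank_span_eq_card hli).symm
  let e : Fin k ≃ κ := (Fintype.equivFinOfCardEq hcard).symm
  refine ⟨a ∘ e, ?_⟩
  set A : Matrix (Fin k) (Fin k) K := Matrix.of fun i j => x i ((a ∘ e) j) with hA
  have hcolsA : LinearIndependent K A.col := by
    have hAcol : A.col = (X.col ∘ a) ∘ e := by
      funext j i
      rfl
    rw [hAcol]
    exact hli.comp e e.injective
  have hunit : IsUnit A := Matrix.linearIndependent_cols_iff_isUnit.1 hcolsA
  exact ((Matrix.isUnit_iff_isUnit_det A).1 hunit).ne_zero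

/-- A finite family spans a space of dimension `≤ ρ` iff all `(ρ+1)`-minors vanish. -/
theorem finrank_span_le_iff_minors {σ : Type*} [Finite σ] (u : σ → γ → K) (ρ : ℕ) :
    finrank K (Submodule.span K (Set.range u)) ≤ ρ ↔
      ∀ (sel : Fin (ρ + 1) → σ) (cols : Fin (ρ + 1) → γ),
        minorOf (fun k => u (sel k)) cols = 0 := by
  classical
  constructor
  · intro h sel cols
    by_contra hne
    have hli := linearIndependent_of_minor_ne_zero _ cols hne
    have h1 : finrank K (Submodule.span K (Set.range fun k => u (sel k))) = ρ + 1 := by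
      simpa using finrank_span_eq_card hli
    have h2 : Submodule.span K (Set.range fun k => u (sel k)) ≤
        Submodule.span K (Set.range u) :=
      Submodule.span_mono (by rintro _ ⟨k, rfl⟩; exact ⟨sel k, rfl⟩)
    have h3 := Submodule.finrank_mono h2
    omega
  · intro h
    by_contra hcon
    rw [not_le] at hcon
    obtain ⟨κ, a, ha, hspan, hli⟩ := exists_linearIndependent' K u
    haveI : Finite κ := Finite.of_injective a ha
    letI : Fintype κ := Fintype.ofFinite κ
    have hcard : Fintype.card κ = finrank K (Submodule.span K (Set.range u)) := by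
      rw [← hspan]
      exact (finrank_span_eq_card hli).symm
    have hle : ρ + 1 ≤ Fintype.card κ := by omega
    -- an injection `Fin (ρ+1) → κ`
    obtain ⟨emb⟩ : Nonempty (Fin (ρ + 1) ↪ κ) :=
      Function.Embedding.nonempty_of_card_le (by simpa using hle)
    have hli' : LinearIndependent K fun k => u (a (emb k)) :=
      hli.comp emb emb.injective
    obtain ⟨cols, hcols⟩ := exists_minor_ne_zero _ hli'
    exact hcols (h (fun k => a (emb k)) cols)

end Minor

section ClosedCone

variable {π : Type*}

/-- Zero loci of ideals that are stable under scaling. -/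
def IsClosedCone (Y : Set (π → K)) : Prop :=
  (∃ I : Ideal (MvPolynomial π K), Y = zeroLocus K I) ∧ ∀ p ∈ Y, ∀ a : K, a • p ∈ Y

theorem zeroLocus_span_eq (S : Set (MvPolynomial π K)) :
    zeroLocus K (Ideal.span S) = {z | ∀ f ∈ S, eval z f = 0} := by
  ext z
  constructor
  · intro hz f hf
    simpa using hz f (Ideal.subset_span hf)
  · intro hz f hf
    refine Submodule.span_induction (p := fun f _ => aeval z f = 0) ?_ ?_ ?_ ?_ hf
    · intro g hg
      simpa using hz g hg
    · simp
    · intro g₁ g₂ _ _ h₁ h₂
      rw [map_add, h₁, h₂, add_zero]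
    · intro c g _ hg
      rw [smul_eq_mul, map_mul, hg, mul_zero]

theorem IsClosedCone.inter {Y Y' : Set (π → K)} (h : IsClosedCone Y) (h' : IsClosedCone Y') :
    IsClosedCone (Y ∩ Y') := by
  obtain ⟨⟨I, hI⟩, hc⟩ := h
  obtain ⟨⟨I', hI'⟩, hc'⟩ := h'
  refine ⟨⟨I ⊔ I', ?_⟩, fun p hp a => ⟨hc p hp.1 a, hc' p hp.2 a⟩⟩
  ext z
  rw [hI, hI']
  constructor
  · rintro ⟨h1, h2⟩ f hf
    obtain ⟨g, hg, g', hg', rfl⟩ := Submodule.mem_sup.1 hf
    rw [map_add, h1 g hg, h2 g' hg', add_zero]
  · intro hz
    exact ⟨fun f hf => hz f (Ideal.mem_sup_left hf), fun f hf => hz f (Ideal.mem_sup_right hf)⟩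

/-- The zero set of a family of polynomials, each of which is homogeneous in the sense that its
zero set is stable under scaling, is a closed cone. -/
theorem isClosedCone_of_family {τ : Type*} (f : τ → MvPolynomial π K)
    (hf : ∀ t (p : π → K) (a : K), eval p (f t) = 0 → eval (a • p) (f t) = 0) :
    IsClosedCone {p : π → K | ∀ t, eval p (f t) = 0} := by
  refine ⟨⟨Ideal.span (Set.range f), ?_⟩, fun p hp a t => hf t p a (hp t)⟩
  rw [zeroLocus_span_eq]
  ext z
  constructor
  · rintro h _ ⟨t, rfl⟩
    exact h t
  · intro h t
    exact h _ ⟨t, rfl⟩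

end ClosedCone

end Fermat.Agent.S17.H71
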