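import Fermat.Agent.S17.Height.H16_Adelic
import Fermat.Agent.S17.Height.H71_Minor

/-!
# S17, part H (heights): the covolume height of a rational subspace (helper16)

* `exists_rat_change`: two rational matrices of full rank with the same row space over `ℚ̄` differ
  by an invertible rational matrix.
* `PhiW W`: the covolume height `PhiQ B` of any rational basis matrix `B` of the subspace `W`
  of `ℚ̄ⁿ` (`PhiW_eq`).
-/

set_option autoImplicit false

open Matrix Module

namespace Fermat.Agent.S17.H16

open Fermat.Agent.S17.H35 Fermat.Agent.S17.H71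

variable {ι : Type*} [Fintype ι] [DecidableEq ι]

theorem castM_apply {r : ℕ} (B : Matrix (Fin r) ι ℚ) (i : Fin r) (j : ι) :
    castM B i j = algebraMap ℚ Qbar (B i j) := rfl

theorem castM_injective {r : ℕ} : Function.Injective (castM (ι := ι) (r := r)) := by
  intro B B' h
  ext i j
  have := congrFun (congrFun h i) j
  rw [castM_apply, castM_apply] at this
  exact (algebraMap ℚ Qbar).injective this

theorem FullRank.linearIndependent {r : ℕ} {B : Matrix (Fin r) ι ℚ} (hB : FullRank B) :
    LinearIndependent Qbar (fun i : Fin r => castM B i) := by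
  obtain ⟨J, hJ⟩ := hB.exists_cast
  exact linearIndependent_of_minor_ne_zero (fun i => castM B i) J hJ

theorem FullRank.finrank_rowSpan {r : ℕ} {B : Matrix (Fin r) ι ℚ} (hB : FullRank B) :
    finrank Qbar (rowSpan (castM B)) = r := by
  unfold rowSpan
  rw [finrank_span_eq_card hB.linearIndependent, Fintype.card_fin]

/-- Two rational matrices of full rank with the same row space differ by an invertible rational
matrix. -/
theorem exists_rat_change {r : ℕ} (B B' : Matrix (Fin r) ι ℚ) (hB : FullRank B)
    (hB' : FullRank B') (h : rowSpan (castM B) = rowSpan (castM B')) :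
    ∃ T : Matrix (Fin r) (Fin r) ℚ, T.det ≠ 0 ∧ B' = T * B := by
  obtain ⟨J, hJ⟩ := hB
  have hunit : IsUnit (B.submatrix id J).det := isUnit_iff_ne_zero.2 hJ
  -- the change of basis over `ℚ̄`
  have hex : ∀ i : Fin r, ∃ c : Fin r → Qbar, castM B' i = c ᵥ* castM B := fun i => by
    have : castM B' i ∈ rowSpan (castM B) := by
      rw [h]
      exact row_mem_rowSpan _ i
    exact (mem_rowSpan_iff _ _).1 this
  choose c hc using hex
  set T' : Matrix (Fin r) (Fin r) Qbar := Matrix.of c with hT'
  have hmul : castM B' = T' * castM B := by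
    ext i j
    have := congrFun (hc i) j
    rw [this]
    rfl
  set T : Matrix (Fin r) (Fin r) ℚ := B'.submatrix id J * (B.submatrix id J)⁻¹ with hT
  have hsub : (castM B').submatrix id J = T' * (castM B).submatrix id J := by
    rw [hmul]
    ext i j
    simp [Matrix.mul_apply]
  have hcastsub : ∀ A : Matrix (Fin r) ι ℚ,
      (castM A).submatrix id J = (A.submatrix id J).map (algebraMap ℚ Qbar) := fun A => rfl
  have hTT' : T.map (algebraMap ℚ Qbar) = T' := by
    have hunit' : IsUnit ((B.submatrix id J).map (algebraMap ℚ Qbar)).det := by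
      rw [← RingHom.mapMatrix_apply, ← RingHom.map_det]
      exact isUnit_iff_ne_zero.2 ((map_ne_zero _).2 hJ)
    have e1 : T.map (algebraMap ℚ Qbar) * (B.submatrix id J).map (algebraMap ℚ Qbar) =
        (B'.submatrix id J).map (algebraMap ℚ Qbar) := by
      rw [← Matrix.map_mul, hT, Matrix.nonsing_inv_mul_cancel_right _ _ hunit]
    have e2 : T' * (B.submatrix id J).map (algebraMap ℚ Qbar) =
        (B'.submatrix id J).map (algebraMap ℚ Qbar) := by
      rw [← hcastsub, ← hcastsub, hsub]
    have e3 := e1.trans e2.symm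
    have := congrArg (fun M => M * ((B.submatrix id J).map (algebraMap ℚ Qbar))⁻¹) e3
    simpa [Matrix.mul_nonsing_inv_cancel_right _ _ hunit'] using this
  have hB'eq : B' = T * B := by
    apply castM_injective
    rw [castM_mul, hTT', hmul]
  refine ⟨T, ?_, hB'eq⟩
  intro hdet
  obtain ⟨J', hJ'⟩ := hB'
  apply hJ'
  have : B'.submatrix id J' = T * B.submatrix id J' := by
    rw [hB'eq]
    ext i j
    simp [Matrix.mul_apply]
  rw [this, Matrix.det_mul, hdet, zero_mul]

/-- Local form of the invariance of the covolume. -/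
theorem exists_locPhi_eq {r : ℕ} (B B' : Matrix (Fin r) ι ℚ) (hB : FullRank B)
    (hB' : FullRank B') (h : rowSpan (castM B) = rowSpan (castM B')) :
    ∃ t : ℚ, t ≠ 0 ∧ ∀ w : PlaceQ,
      maxMinor (absQ w) (castM B') = absQ w (t : Qbar) * maxMinor (absQ w) (castM B) := by
  obtain ⟨T, hT, hBT⟩ := exists_rat_change B B' hB hB' h
  refine ⟨T.det, hT, fun w => ?_⟩
  rw [hBT, maxMinor_castM_mul]

/-- The covolume height depends only on the row space. -/
theorem PhiQ_eq_of_rowSpan_eq {r : ℕ} (B B' : Matrix (Fin r) ι ℚ) (hB : FullRank B)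
    (hB' : FullRank B') (h : rowSpan (castM B) = rowSpan (castM B')) : PhiQ B' = PhiQ B := by
  obtain ⟨t, ht, hloc⟩ := exists_locPhi_eq B B' hB hB' h
  have ht' : (t : Qbar) ≠ 0 := by exact_mod_cast ht
  have e : Adl.ofMat B' hB' = (Adl.ofAbs (t : Qbar) ht').mul (Adl.ofMat B hB) := by
    have hf : (Adl.ofMat B' hB').f = ((Adl.ofAbs (t : Qbar) ht').mul (Adl.ofMat B hB)).f := by
      funext w
      rw [Adl.ofMat_f, Adl.mul_f, Adl.ofAbs_f, Adl.ofMat_f, hloc w]
    cases hA : Adl.ofMat B' hB'
    cases hA' : (Adl.ofAbs (t : Qbar) ht').mul (Adl.ofMat B hB)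
    rw [hA, hA'] at hf
    simp only at hf
    subst hf
    rfl
  rw [← Adl.ht_ofMat B' hB', e, Adl.ht_mul, Adl.ht_ofAbs_ratCast, zero_add, Adl.ht_ofMat]

/-- The covolume height depends only on the row space (different numbers of rows). -/
theorem PhiQ_eq_of_rowSpan_eq' {r r' : ℕ} (B : Matrix (Fin r) ι ℚ) (B' : Matrix (Fin r') ι ℚ)
    (hB : FullRank B) (hB' : FullRank B') (h : rowSpan (castM B) = rowSpan (castM B')) :
    PhiQ B' = PhiQ B := by
  have hr : r = r' := by
    rw [← hB.finrank_rowSpan, ← hB'.finrank_rowSpan, h]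
  subst hr
  exact PhiQ_eq_of_rowSpan_eq B B' hB hB' h

/-- A subspace of `ℚ̄ⁿ` is rational if it has a rational basis matrix. -/
def IsRatSub (W : Submodule Qbar (ι → Qbar)) : Prop :=
  ∃ (r : ℕ) (B : Matrix (Fin r) ι ℚ), FullRank B ∧ rowSpan (castM B) = W

open Classical in
/-- The covolume height of a rational subspace. -/
noncomputable def PhiW (W : Submodule Qbar (ι → Qbar)) : ℝ :=
  if h : IsRatSub W then PhiQ h.choose_spec.choose else 0

theorem PhiW_eq {r : ℕ} (B : Matrix (Fin r) ι ℚ) (hB : FullRank B)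
    (W : Submodule Qbar (ι → Qbar)) (h : rowSpan (castM B) = W) : PhiW W = PhiQ B := by
  have hW : IsRatSub W := ⟨r, B, hB, h⟩
  unfold PhiW
  rw [dif_pos hW]
  obtain ⟨h1, h2⟩ := hW.choose_spec.choose_spec
  exact PhiQ_eq_of_rowSpan_eq' B _ hB h1 (h.trans h2.symm)

theorem IsRatSub.finrank {W : Submodule Qbar (ι → Qbar)} {r : ℕ} (B : Matrix (Fin r) ι ℚ)
    (hB : FullRank B) (h : rowSpan (castM B) = W) : finrank Qbar W = r := by
  rw [← h, hB.finrank_rowSpan]

end Fermat.Agent.S17.H16
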