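import Fermat.Agent.S17.Height.H16_OpNorm

/-!
# S17, part H (heights): the scaling lemma (helper16)

If the linear map `x ↦ x ᵥ* T` satisfies `c₁ ‖x‖ ≤ ‖x T‖ ≤ c₂ ‖x‖` on the row space of the
`r × n` matrix `B`, then

  `(c₁ / C) ^ r * maxMinor B ≤ maxMinor (B * T) ≤ (C c₂) ^ r * maxMinor B`,

where `C` is the local constant of sums of `N ≥ r` terms (`C = 1` at nonarchimedean places).
-/

set_option autoImplicit false

open Matrix

namespace Fermat.Agent.S17.H16

open Fermat.Agent.S17.H71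

variable {K : Type*} [Field K]

theorem card_C_mono {N N' : ℕ} (h : N ≤ N') (v : AbsoluteValue K ℝ) :
    (LocConst.card K N).C v ≤ (LocConst.card K N').C v := by
  classical
  by_cases hv : IsNonarchimedean v
  · rw [LocConst.card_eq_one N v hv, LocConst.card_eq_one N' v hv]
  · have h1 : (LocConst.card K N).C v = max 1 (N : ℝ) := by
      show (if IsNonarchimedean v ∧ ∀ c ∈ (∅ : Finset K), v c ≤ 1 then (1 : ℝ)
        else max 1 (N : ℝ)) = _
      rw [if_neg fun h => hv h.1]
    have h2 : (LocConst.card K N').C v = max 1 (N' : ℝ) := by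
      show (if IsNonarchimedean v ∧ ∀ c ∈ (∅ : Finset K), v c ≤ 1 then (1 : ℝ)
        else max 1 (N' : ℝ)) = _
      rw [if_neg fun h => hv h.1]
    rw [h1, h2]
    exact max_le_max le_rfl (by exact_mod_cast h)

variable {ι : Type*} [Fintype ι] [DecidableEq ι] {ι' : Type*} [Fintype ι'] [DecidableEq ι']

omit [Fintype ι] [DecidableEq ι] in
theorem consRow_head_tail {r : ℕ} (M : Matrix (Fin (r + 1)) ι K) :
    consRow (M 0) (fun i => M i.succ) = M := by
  ext i j
  refine Fin.cases ?_ (fun i => ?_) i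
  · rfl
  · rfl

omit [DecidableEq ι] in
theorem consRow_mul {r : ℕ} (w : ι → K) (B : Matrix (Fin r) ι K) (T : Matrix ι ι' K) :
    consRow w B * T = consRow (w ᵥ* T) (B * T) := by
  ext i j
  refine Fin.cases ?_ (fun i => ?_) i
  · rfl
  · rfl

omit [Fintype ι] in
theorem maxMinor_fin_zero (v : AbsoluteValue K ℝ) (B : Matrix (Fin 0) ι K) :
    maxMinor v B = 1 := by
  unfold maxMinor
  have : ∀ J : Fin 0 → ι, v (B.submatrix id J).det = 1 := fun J => by
    rw [Matrix.det_isEmpty, map_one]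
  simp only [this]
  exact ciSup_const

theorem maxMinor_tail_pos {r : ℕ} (v : AbsoluteValue K ℝ) (w : ι → K) (B : Matrix (Fin r) ι K)
    (h : 0 < maxMinor v (consRow w B)) : 0 < maxMinor v B := by
  rcases (maxMinor_nonneg v B).eq_or_lt with h0 | h0
  · have := maxMinor_consRow_le v w B
    rw [← h0, mul_zero, mul_zero] at this
    exact absurd h (not_lt.2 this)
  · exact h0

omit [DecidableEq ι] [DecidableEq ι'] in
theorem sub_vecMul_vecMul {r : ℕ} (w : ι → K) (c : Fin r → K) (B : Matrix (Fin r) ι K)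
    (T : Matrix ι ι' K) : w ᵥ* T - c ᵥ* (B * T) = (w - c ᵥ* B) ᵥ* T := by
  rw [Matrix.sub_vecMul, Matrix.vecMul_vecMul]

theorem sub_vecMul_mem_rowSpan {r : ℕ} (w : ι → K) (c : Fin r → K) (B : Matrix (Fin r) ι K) :
    w - c ᵥ* B ∈ rowSpan (consRow w B) :=
  Submodule.sub_mem _ (mem_rowSpan_consRow w B)
    (rowSpan_le_consRow w B (vecMul_mem_rowSpan B c))

/-- **Scaling lemma, upper bound.** -/
theorem maxMinor_mul_right_le (v : AbsoluteValue K ℝ) (N : ℕ) (T : Matrix ι ι' K) (c₂ : ℝ)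
    (hc₂ : 0 ≤ c₂) :
    ∀ (r : ℕ), r ≤ N → ∀ B : Matrix (Fin r) ι K,
      (∀ x ∈ rowSpan B, supNorm v (x ᵥ* T) ≤ c₂ * supNorm v x) → 0 < maxMinor v B →
      maxMinor v (B * T) ≤ ((LocConst.card K N).C v * c₂) ^ r * maxMinor v B := by
  have hCpos := (LocConst.card K N).pos v
  intro r
  induction r with
  | zero =>
    intro _ B _ _
    rw [maxMinor_fin_zero, maxMinor_fin_zero, pow_zero, one_mul]
  | succ r ih =>
    intro hr M hM hpos
    rw [← consRow_head_tail M] at hM hpos ⊢
    set w := M 0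
    set B : Matrix (Fin r) ι K := fun i => M i.succ
    have hB := maxMinor_tail_pos v w B hpos
    have ihB := ih (by omega) B (fun x hx => hM x (rowSpan_le_consRow w B hx)) hB
    obtain ⟨c, hc⟩ := exists_maxMinor_mul_supNorm_le v w B hB
    have h1 := maxMinor_consRow_le_dist v (w ᵥ* T) (B * T) c
    rw [sub_vecMul_vecMul] at h1
    have h2 := hM _ (sub_vecMul_mem_rowSpan w c B)
    have h3 := card_C_mono (K := K) hr v
    have hC1 := (LocConst.card K (r + 1)).pos v
    rw [consRow_mul]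
    set C := (LocConst.card K N).C v
    set d := supNorm v (w - c ᵥ* B)
    have hd : 0 ≤ d := supNorm_nonneg v _
    calc maxMinor v (consRow (w ᵥ* T) (B * T))
        ≤ (LocConst.card K (r + 1)).C v *
            (supNorm v ((w - c ᵥ* B) ᵥ* T) * maxMinor v (B * T)) := h1
      _ ≤ C * ((c₂ * d) * ((C * c₂) ^ r * maxMinor v B)) := by
          refine mul_le_mul h3 ?_ ?_ hCpos.le
          · exact mul_le_mul h2 ihB (maxMinor_nonneg v _) (mul_nonneg hc₂ hd)
          · exact mul_nonneg (supNorm_nonneg v _) (maxMinor_nonneg v _)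
      _ = (C * c₂) ^ (r + 1) * (maxMinor v B * d) := by ring
      _ ≤ (C * c₂) ^ (r + 1) * maxMinor v (consRow w B) :=
          mul_le_mul_of_nonneg_left hc (pow_nonneg (mul_nonneg hCpos.le hc₂) _)

/-- **Scaling lemma, lower bound.** -/
theorem le_maxMinor_mul_right (v : AbsoluteValue K ℝ) (N : ℕ) (T : Matrix ι ι' K) (c₁ : ℝ)
    (hc₁ : 0 < c₁) :
    ∀ (r : ℕ), r ≤ N → ∀ B : Matrix (Fin r) ι K,
      (∀ x ∈ rowSpan B, c₁ * supNorm v x ≤ supNorm v (x ᵥ* T)) → 0 < maxMinor v B →
      c₁ ^ r * maxMinor v B ≤ ((LocConst.card K N).C v) ^ r * maxMinor v (B * T) := by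
  have hCpos := (LocConst.card K N).pos v
  intro r
  induction r with
  | zero =>
    intro _ B _ _
    rw [maxMinor_fin_zero, maxMinor_fin_zero, pow_zero, pow_zero]
  | succ r ih =>
    intro hr M hM hpos
    rw [← consRow_head_tail M] at hM hpos ⊢
    set w := M 0
    set B : Matrix (Fin r) ι K := fun i => M i.succ
    have hB := maxMinor_tail_pos v w B hpos
    have ihB := ih (by omega) B (fun x hx => hM x (rowSpan_le_consRow w B hx)) hB
    set C := (LocConst.card K N).C v
    have hBT : 0 < maxMinor v (B * T) := by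
      have h0 : 0 < c₁ ^ r * maxMinor v B := mul_pos (pow_pos hc₁ r) hB
      have h1 : 0 < C ^ r * maxMinor v (B * T) := lt_of_lt_of_le h0 ihB
      rcases (maxMinor_nonneg v (B * T)).eq_or_lt with h' | h'
      · rw [← h', mul_zero] at h1
        exact absurd h1 (lt_irrefl _)
      · exact h'
    obtain ⟨c, hc⟩ := exists_maxMinor_mul_supNorm_le v (w ᵥ* T) (B * T) hBT
    rw [sub_vecMul_vecMul] at hc
    have h2 := hM _ (sub_vecMul_mem_rowSpan w c B)
    have h3 := card_C_mono (K := K) hr v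
    have h4 := maxMinor_consRow_le_dist v w B c
    rw [consRow_mul]
    set d := supNorm v (w - c ᵥ* B)
    have hd : 0 ≤ d := supNorm_nonneg v _
    calc c₁ ^ (r + 1) * maxMinor v (consRow w B)
        ≤ c₁ ^ (r + 1) * ((LocConst.card K (r + 1)).C v * (d * maxMinor v B)) :=
          mul_le_mul_of_nonneg_left h4 (pow_pos hc₁ _).le
      _ ≤ c₁ ^ (r + 1) * (C * (d * maxMinor v B)) := by
          refine mul_le_mul_of_nonneg_left ?_ (pow_pos hc₁ _).le
          exact mul_le_mul_of_nonneg_right h3 (mul_nonneg hd hB.le)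
      _ = C * ((c₁ * d) * (c₁ ^ r * maxMinor v B)) := by ring
      _ ≤ C * (supNorm v ((w - c ᵥ* B) ᵥ* T) * (C ^ r * maxMinor v (B * T))) := by
          refine mul_le_mul_of_nonneg_left ?_ hCpos.le
          exact mul_le_mul h2 ihB (mul_nonneg (pow_pos hc₁ _).le hB.le) (supNorm_nonneg v _)
      _ = C ^ (r + 1) * (maxMinor v (B * T) * supNorm v ((w - c ᵥ* B) ᵥ* T)) := by ring
      _ ≤ C ^ (r + 1) * maxMinor v (consRow (w ᵥ* T) (B * T)) :=
          mul_le_mul_of_nonneg_left hc (pow_pos hCpos _).le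

end Fermat.Agent.S17.H16
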