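import Mathlib.NumberTheory.Padics.PadicNorm
import Mathlib.LinearAlgebra.Matrix.Determinant.Basic
import Mathlib.Analysis.SpecialFunctions.Pow.Real
import Mathlib.Tactic

/-!
# S17, part H: the sharp Siegel lemma (statement)

`Stmt_Siegel`: a rational subspace of `ℚ^n` of dimension `r`, given by a basis matrix `B`,
contains a nonzero integral vector `x` with
`max_j |x_j|^r ≤ r^r * (max_J |det B_J|) * ∏_{p ∈ S} max_J |det B_J|_p`,
where `S` is any finite set of primes outside of which all minors of `B` are `p`-integral.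

(Proof: normalise `B` by its archimedean maximal minor, `B' = B_{J₀}⁻¹ B`, entries `|b'| ≤ 1`;
`L = {c ∈ ℤ^r : c B' ∈ ℤ^n}` has index `≤ ∏_p max_J |det B'_J|_p` in `ℤ^r`
(for each `p` the lattice `ℤ^r T_p ⊆ L`, `T_p = t (B'_{J_p})⁻¹` with `J_p` the `p`-adic maximal
minor and `t` prime to `p`, has index `|det T_p|` of `p`-adic valuation `e_p`); pigeonhole.)
-/

set_option autoImplicit false

open Matrix

namespace Fermat.Agent.S17.H16

/-- The sharp Siegel lemma. -/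
def Stmt_Siegel : Prop :=
  ∀ (r n : ℕ) (_ : 0 < r) (B : Matrix (Fin r) (Fin n) ℚ),
    (∃ J : Fin r → Fin n, (B.submatrix id J).det ≠ 0) →
    ∀ (S : Finset ℕ), (∀ p ∈ S, p.Prime) →
      (∀ p : ℕ, p.Prime → p ∉ S → ∀ J : Fin r → Fin n,
        padicNorm p (B.submatrix id J).det ≤ 1) →
      ∃ c : Fin r → ℚ, c ≠ 0 ∧ (∀ j, ∃ z : ℤ, (c ᵥ* B) j = (z : ℚ)) ∧
        ∀ j, (|(c ᵥ* B) j| : ℝ) ^ r ≤
          (r : ℝ) ^ r * ((⨆ J : Fin r → Fin n, ((|(B.submatrix id J).det| : ℚ) : ℝ)) *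
            ∏ p ∈ S, ⨆ J : Fin r → Fin n, ((padicNorm p (B.submatrix id J).det : ℚ) : ℝ))

end Fermat.Agent.S17.H16
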