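import Fermat.Agent.S17.Height.H16_PhiSys
import Fermat.Agent.S17.Height.H16_PhiW
import Fermat.Agent.S17.Height.H16_Scaling
import Fermat.Agent.S17.Height.H16_ChainStmt
import Fermat.Agent.S17.Height.H16_SiegelStmt

/-!
# S17, part H (heights): the matrix system (helper16)

`MatSys J Dv Rv Pt` is the concrete linear-algebra data from which the axiomatic `Φ`-calculus
`PhiSys J Dv Rv` is built:

* coordinates `Fin (n m) → ℚ̄` on `L(m∞)` in a rational basis, for every level `m`;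
* the subspaces `W m D` (coordinates of `L(m∞ - D)`), rational, of the expected dimension;
* rational functions `u : Rv` with their coordinate vectors `vec u` at the level `ord u`, the
  matrices `mulM m u` of the multiplication by `u` from level `m` to level `m + ord u`, and the
  local multiplicativity of the norms (`mult`);
* the inclusions `inc m` of level `m` into level `m + 1`, the leading forms `lead m`, and the
  local additivity for the leading forms (`la_lead`), for levels with a gap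
  `m - deg D + c₀ ≤ k - deg D'` (this is the range of the base-point-free pencil trick);
* the points `P : Pt` with their evaluation vectors `ev P` at the level `m₀`, the Galois action,
  and the local additivity for the evaluation forms (`la_ev`).

The statements `Stmt_M_*` are the axioms of `PhiSys` for the covolume function
`MatSys.Phi S m D = PhiW (S.W m D)`; `MatSys.toPhiSys` assembles them.
-/

set_option autoImplicit false

open Matrix Module

namespace Fermat.Agent.S17.H16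

open Fermat.Agent.S17.H35 Fermat.Agent.S17.H71

/-- The common kernel of the evaluation forms at the points of `S`. -/
def kerPts {K : Type*} [Field K] {Pt : Type} {ι : Type*} [Fintype ι] (ev : Pt → ι → K)
    (S : Finset Pt) : Submodule K (ι → K) where
  carrier := {f | ∀ P ∈ S, ev P ⬝ᵥ f = 0}
  add_mem' := by
    intro f g hf hg P hP
    rw [dotProduct_add, hf P hP, hg P hP, add_zero]
  zero_mem' := by
    intro P _
    rw [dotProduct_zero]
  smul_mem' := by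
    intro c f hf P hP
    rw [dotProduct_smul, hf P hP, smul_zero]

theorem mem_kerPts {K : Type*} [Field K] {Pt : Type} {ι : Type*} [Fintype ι] (ev : Pt → ι → K)
    (S : Finset Pt) (f : ι → K) : f ∈ kerPts ev S ↔ ∀ P ∈ S, ev P ⬝ᵥ f = 0 := Iff.rfl

/-- The matrix system. -/
structure MatSys (J : Type) [AddCommGroup J] (Dv : Type) [AddCommMonoid Dv] (Rv : Type)
    (Pt : Type) [DecidableEq Pt] where
  /-- degree of a rational effective divisor -/
  deg : Dv →+ ℕ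
  /-- the class of `D - deg D ∞` -/
  cl : Dv →+ J
  /-- the exact pole order at `∞` -/
  ord : Rv → ℕ
  /-- the divisor of zeros -/
  Z : Rv → Dv
  /-- reduced divisors -/
  Red : Dv → Prop
  /-- disjoint supports -/
  Disj : Dv → Dv → Prop
  /-- the genus -/
  g : ℕ
  /-- the good range: `deg D + c₀ ≤ m` -/
  c₀ : ℕ
  /-- the degree of the basic representatives -/
  a₀ : ℕ
  /-- the basic level -/
  m₀ : ℕ
  /-- the level of the auxiliary functions -/
  k₀ : ℕ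
  /-- the top level -/
  Mtop : ℕ
  hg : g ≤ c₀
  hc₀ : c₀ ≤ a₀
  ha₀ : 3 * a₀ + c₀ ≤ m₀
  hMtop : 8 * m₀ + 2 * k₀ + 4 * c₀ + 8 ≤ Mtop
  deg_Z : ∀ u, deg (Z u) = ord u
  cl_Z : ∀ u, cl (Z u) = 0
  fin_le : ∀ E : Dv, {Y : Dv | ∃ Y', E = Y + Y'}.Finite
  h90 : ∀ A A', cl A = cl A' → deg A' ≤ deg A → deg A + c₀ ≤ m₀ →
    ∃ (u u' : Rv) (Z₀ : Dv), Z u = A + Z₀ ∧ Z u' = A' + Z₀ ∧ ord u' = k₀
  move : ∀ (x : J) (L : List Dv), ∃ A, Red A ∧ deg A = a₀ ∧ cl A = x ∧
    ∀ B ∈ L, Disj A B ∧ Disj B A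
  /-- the dimension of `L(m∞)` -/
  n : ℕ → ℕ
  /-- the coordinates of `L(m∞ - D)` -/
  W : (m : ℕ) → Dv → Submodule Qbar (Fin (n m) → Qbar)
  W_rat : ∀ m D, IsRatSub (W m D)
  W_dim : ∀ m D, deg D + c₀ ≤ m → m ≤ Mtop → finrank Qbar (W m D) + g + deg D = m + 1
  W_zero : ∀ m, W m 0 = ⊤
  /-- the coordinates of a rational function at the level of its pole order -/
  vec : (u : Rv) → Fin (n (ord u)) → ℚ
  vec_ne : ∀ u, vec u ≠ 0
  /-- the matrix of the multiplication by `u` from level `m` to level `m + ord u` -/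
  mulM : (m : ℕ) → (u : Rv) → Matrix (Fin (n m)) (Fin (n (m + ord u))) ℚ
  W_mul : ∀ m D u, deg D + c₀ ≤ m → m + ord u ≤ Mtop → ∀ y : Fin (n (m + ord u)) → Qbar,
    y ∈ W (m + ord u) (D + Z u) ↔ ∃ x ∈ W m D, x ᵥ* castM (mulM m u) = y
  mult : ∃ L : LocConst Qbar, ∀ (w : PlaceQ) (m : ℕ) (u : Rv), m + ord u ≤ Mtop →
    ∀ x : Fin (n m) → Qbar,
      supNorm (absQ w) (castV (vec u)) * supNorm (absQ w) x ≤
        L.C (absQ w) * supNorm (absQ w) (x ᵥ* castM (mulM m u)) ∧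
      supNorm (absQ w) (x ᵥ* castM (mulM m u)) ≤
        L.C (absQ w) * (supNorm (absQ w) (castV (vec u)) * supNorm (absQ w) x)
  /-- the matrix of the inclusion of level `m` into level `m + 1` -/
  inc : (m : ℕ) → Matrix (Fin (n m)) (Fin (n (m + 1))) ℚ
  /-- a left inverse of the inclusion -/
  incR : (m : ℕ) → Matrix (Fin (n (m + 1))) (Fin (n m)) ℚ
  inc_incR : ∀ m, inc m * incR m = 1
  /-- the leading coefficient at `∞`, as a linear form on level `m` -/
  lead : (m : ℕ) → Fin (n m) → ℚ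
  W_inc : ∀ m D, m + 1 ≤ Mtop → ∀ y : Fin (n (m + 1)) → Qbar,
    (y ∈ W (m + 1) D ∧ castV (lead (m + 1)) ⬝ᵥ y = 0) ↔ ∃ x ∈ W m D, x ᵥ* castM (inc m) = y
  la_lead : ∃ L : LocConst Qbar, ∀ (w : PlaceQ) (m k : ℕ) (D D' : Dv),
    deg D + c₀ ≤ m → m + deg D' + c₀ ≤ k + deg D → m + k + 2 ≤ Mtop →
    opNorm (absQ w) (castV (lead (m + k + 2))) (W (m + k + 2) (D + D')) ≤
      L.C (absQ w) * (opNorm (absQ w) (castV (lead (m + 1))) (W (m + 1) D) *
        opNorm (absQ w) (castV (lead (k + 1))) (W (k + 1) D')) ∧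
    opNorm (absQ w) (castV (lead (m + 1))) (W (m + 1) D) *
        opNorm (absQ w) (castV (lead (k + 1))) (W (k + 1) D') ≤
      L.C (absQ w) * opNorm (absQ w) (castV (lead (m + k + 2))) (W (m + k + 2) (D + D'))
  /-- the coordinates at the level `m₀` of a rational function of pole order `≤ m₀` -/
  vec₀ : Rv → Fin (n m₀) → ℚ
  vec₀_inj : ∀ f f', ord f ≤ m₀ → ord f' ≤ m₀ → vec₀ f = vec₀ f' → f = f'
  vec₀_lev : ∃ L : LocConst Qbar, ∀ (w : PlaceQ) (f : Rv), ord f ≤ m₀ →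
    supNorm (absQ w) (castV (vec f)) ≤ L.C (absQ w) * supNorm (absQ w) (castV (vec₀ f))
  exists_Rv : ∀ (D : Dv) (x : Fin (n m₀) → ℚ), deg D + c₀ ≤ m₀ → x ≠ 0 → castV x ∈ W m₀ D →
    ∃ (f : Rv) (Y : Dv), ord f ≤ m₀ ∧ vec₀ f = x ∧ Z f = D + Y
  /-- the evaluation vector of a point, at the level `m₀` -/
  ev : Pt → Fin (n m₀) → Qbar
  /-- the support of a divisor -/
  supp : Dv → Finset Pt
  /-- the Galois action on the points -/
  gal : GQ → Pt → Pt
  ev_gal : ∀ (σ : GQ) (P : Pt) (i : Fin (n m₀)), ev (gal σ P) i = σ (ev P i)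
  gal_supp : ∀ (σ : GQ) (D : Dv) (P : Pt), P ∈ supp D → gal σ P ∈ supp D
  supp_add : ∀ A A', Red A → Red A' → Disj A A' →
    Red (A + A') ∧ supp (A + A') = supp A ∪ supp A'
  disj_add : ∀ A A' B, Disj A B → Disj A' B → Disj (A + A') B
  supp_disj : ∀ A B, Disj A B → Disjoint (supp A) (supp B)
  card_supp : ∀ D, Red D → (supp D).card = deg D
  W_red : ∀ D, Red D → deg D + c₀ ≤ m₀ → W m₀ D = kerPts ev (supp D)
  ev_indep : ∀ S : Finset Pt, S.card + c₀ ≤ m₀ →
    finrank Qbar (kerPts ev S) + S.card = n m₀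
  la_ev : ∃ L : LocConst Qbar, ∀ (w : PlaceQ) (S S' : Finset Pt) (Q : Pt),
    Disjoint S S' → Q ∉ S → Q ∉ S' → (S ∪ S').card + 1 + c₀ ≤ m₀ →
    opNorm (absQ w) (ev Q) (kerPts ev (S ∪ S')) * opNorm (absQ w) (ev Q) ⊤ ≤
      L.C (absQ w) * (opNorm (absQ w) (ev Q) (kerPts ev S) *
        opNorm (absQ w) (ev Q) (kerPts ev S')) ∧
    opNorm (absQ w) (ev Q) (kerPts ev S) * opNorm (absQ w) (ev Q) (kerPts ev S') ≤
      L.C (absQ w) * (opNorm (absQ w) (ev Q) (kerPts ev (S ∪ S')) *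
        opNorm (absQ w) (ev Q) ⊤)

namespace MatSys

variable {J : Type} [AddCommGroup J] {Dv : Type} [AddCommMonoid Dv] {Rv : Type}
  {Pt : Type} [DecidableEq Pt] (S : MatSys J Dv Rv Pt)

/-- The covolume function. -/
noncomputable def Phi (m : ℕ) (D : Dv) : ℝ := PhiW (S.W m D)

/-- The height of a rational function. -/
noncomputable def hgt (u : Rv) : ℝ := hgtQ (S.vec u)

/-- The logarithm of the archimedean norm at the level `m₀`. -/
noncomputable def lsup (f : Rv) : ℝ := Real.log (supNorm (absQ none) (castV (S.vec₀ f)))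

/-- Integrality of the coordinates at the level `m₀`. -/
def IsInt (f : Rv) : Prop := ∀ i, ∃ z : ℤ, S.vec₀ f i = (z : ℚ)

end MatSys

/-- `Φ m 0 = 0`. -/
def Stmt_M_zero : Prop :=
  ∀ (J : Type) [AddCommGroup J] (Dv : Type) [AddCommMonoid Dv] (Rv : Type) (Pt : Type)
    [DecidableEq Pt] (S : MatSys J Dv Rv Pt) (m : ℕ), S.Phi m 0 = 0

/-- The scaling property of the covolume. -/
def Stmt_M_scal : Prop :=
  ∀ (J : Type) [AddCommGroup J] (Dv : Type) [AddCommMonoid Dv] (Rv : Type) (Pt : Type)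
    [DecidableEq Pt] (S : MatSys J Dv Rv Pt), ∃ C : ℝ, ∀ (m : ℕ) (D : Dv) (u : Rv),
      S.deg D + S.c₀ ≤ m → m + S.ord u ≤ S.Mtop →
      |S.Phi (m + S.ord u) (D + S.Z u) - S.Phi m D
        - ((m : ℝ) + 1 - S.g - S.deg D) * S.hgt u| ≤ C

/-- The additivity of the proximity to `∞` (for levels with a gap:
`m - deg D + c₀ ≤ k - deg D'`). -/
def Stmt_M_addH : Prop :=
  ∀ (J : Type) [AddCommGroup J] (Dv : Type) [AddCommMonoid Dv] (Rv : Type) (Pt : Type)
    [DecidableEq Pt] (S : MatSys J Dv Rv Pt), ∃ C : ℝ, ∀ (m k : ℕ) (D D' : Dv),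
      S.deg D + S.c₀ ≤ m → m + S.deg D' + S.c₀ ≤ k + S.deg D → m + k + 2 ≤ S.Mtop →
      |(S.Phi (m + k + 2) (D + D') - S.Phi (m + k + 1) (D + D')) - (S.Phi (m + 1) D - S.Phi m D)
        - (S.Phi (k + 1) D' - S.Phi k D')| ≤ C

/-- The positivity of the proximity to `∞`. -/
def Stmt_M_Hpos : Prop :=
  ∀ (J : Type) [AddCommGroup J] (Dv : Type) [AddCommMonoid Dv] (Rv : Type) (Pt : Type)
    [DecidableEq Pt] (S : MatSys J Dv Rv Pt), ∃ C : ℝ, ∀ (m : ℕ) (D : Dv),
      S.deg D + S.c₀ ≤ m → m + 1 ≤ S.Mtop → -C ≤ S.Phi (m + 1) D - S.Phi m D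

/-- The cube inequality of the covolume. -/
def Stmt_M_cube : Prop :=
  Stmt_Chain →
  ∀ (J : Type) [AddCommGroup J] (Dv : Type) [AddCommMonoid Dv] (Rv : Type) (Pt : Type)
    [DecidableEq Pt] (S : MatSys J Dv Rv Pt), ∃ C : ℝ, ∀ (A A' B : Dv),
      S.Red A → S.Red A' → S.Red B → S.deg A = S.a₀ → S.deg A' = S.a₀ → S.deg B = S.a₀ →
      S.Disj A A' → S.Disj A B → S.Disj A' B →
      |S.Phi S.m₀ (A + A' + B) - S.Phi S.m₀ (A + A') - S.Phi S.m₀ (A + B) - S.Phi S.m₀ (A' + B)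
        + S.Phi S.m₀ A + S.Phi S.m₀ A' + S.Phi S.m₀ B| ≤ C

/-- The Siegel lemma in the matrix system. -/
def Stmt_M_siegel : Prop :=
  Stmt_Siegel →
  ∀ (J : Type) [AddCommGroup J] (Dv : Type) [AddCommMonoid Dv] (Rv : Type) (Pt : Type)
    [DecidableEq Pt] (S : MatSys J Dv Rv Pt), ∃ C : ℝ, ∀ (D : Dv), S.deg D + S.c₀ ≤ S.m₀ →
      ∃ (f : Rv) (Y : Dv), S.Z f = D + Y ∧ S.ord f ≤ S.m₀ ∧ S.IsInt f ∧
        ((S.m₀ : ℝ) + 1 - S.g - S.deg D) * S.lsup f ≤ S.Phi S.m₀ D + C ∧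
        S.hgt f ≤ S.lsup f + C ∧ 0 ≤ S.lsup f

/-- Finiteness of the integral functions of bounded norm. -/
def Stmt_M_finInt : Prop :=
  ∀ (J : Type) [AddCommGroup J] (Dv : Type) [AddCommMonoid Dv] (Rv : Type) (Pt : Type)
    [DecidableEq Pt] (S : MatSys J Dv Rv Pt) (T : ℝ),
    {f : Rv | S.IsInt f ∧ S.ord f ≤ S.m₀ ∧ S.lsup f ≤ T}.Finite

/-- The `Φ`-calculus of a matrix system. -/
theorem MatSys.exists_phiSys (h0 : Stmt_M_zero) (h1 : Stmt_M_scal) (h2 : Stmt_M_addH)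
    (h3 : Stmt_M_Hpos) (h4 : Stmt_M_cube) (h5 : Stmt_M_siegel) (h6 : Stmt_M_finInt)
    (hS : Stmt_Siegel) (hC : Stmt_Chain)
    {J : Type} [AddCommGroup J] {Dv : Type} [AddCommMonoid Dv] {Rv : Type}
    {Pt : Type} [DecidableEq Pt] (S : MatSys J Dv Rv Pt) : Nonempty (PhiSys J Dv Rv) := by
  obtain ⟨C1, hC1⟩ := h1 J Dv Rv Pt S
  obtain ⟨C2, hC2⟩ := h2 J Dv Rv Pt S
  obtain ⟨C3, hC3⟩ := h3 J Dv Rv Pt S
  obtain ⟨C4, hC4⟩ := h4 hC J Dv Rv Pt S
  obtain ⟨C5, hC5⟩ := h5 hS J Dv Rv Pt S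
  set C : ℝ := max (max (max (max C1 C2) C3) C4) (max C5 0) with hCdef
  have l1 : C1 ≤ C := le_trans (le_trans (le_trans (le_max_left _ _) (le_max_left _ _))
    (le_max_left _ _)) (le_max_left _ _)
  have l2 : C2 ≤ C := le_trans (le_trans (le_trans (le_max_right _ _) (le_max_left _ _))
    (le_max_left _ _)) (le_max_left _ _)
  have l3 : C3 ≤ C := le_trans (le_trans (le_max_right _ _) (le_max_left _ _))
    (le_max_left _ _)
  have l4 : C4 ≤ C := le_trans (le_max_right _ _) (le_max_left _ _)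
  have l5 : C5 ≤ C := le_trans (le_max_left _ _) (le_max_right _ _)
  have l0 : 0 ≤ C := le_trans (le_max_right _ _) (le_max_right _ _)
  exact ⟨{
    deg := S.deg
    cl := S.cl
    ord := S.ord
    Z := S.Z
    hgt := S.hgt
    lsup := S.lsup
    Int := S.IsInt
    Φ := S.Phi
    Red := S.Red
    Disj := S.Disj
    g := S.g
    c₀ := S.c₀
    a₀ := S.a₀
    m₀ := S.m₀
    k₀ := S.k₀
    Mtop := S.Mtop
    C := C
    hg := S.hg
    hc₀ := S.hc₀
    ha₀ := S.ha₀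
    hMtop := S.hMtop
    deg_Z := S.deg_Z
    cl_Z := S.cl_Z
    Φ0 := fun m _ _ => by rw [h0 J Dv Rv Pt S m, abs_zero]; exact l0
    scal := fun m D u hD hm => (hC1 m D u hD hm).trans l1
    addH := fun m k D D' hD hD' hm => (hC2 m k D D' hD hD' hm).trans l2
    Hpos := fun m D hD hm => by
      have := hC3 m D hD hm
      linarith
    cube := fun A A' B hA hA' hB dA dA' dB d1 d2 d3 =>
      (hC4 A A' B hA hA' hB dA dA' dB d1 d2 d3).trans l4
    siegel := fun D hD => by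
      obtain ⟨f, Y, e1, e2, e3, e4, e5, e6⟩ := hC5 D hD
      exact ⟨f, Y, e1, e2, e3, by linarith, by linarith, e6⟩
    fin_int := fun T => h6 J Dv Rv Pt S T
    fin_le := S.fin_le
    h90 := S.h90
    move := S.move }⟩

/-- `Stmt_height N 2` from a matrix system on `J₀(N)(ℚ)`. -/
theorem stmt_height_of_matSys (h0 : Stmt_M_zero) (h1 : Stmt_M_scal) (h2 : Stmt_M_addH)
    (h3 : Stmt_M_Hpos) (h4 : Stmt_M_cube) (h5 : Stmt_M_siegel) (h6 : Stmt_M_finInt)
    (hS : Stmt_Siegel) (hC : Stmt_Chain) (N : ℕ)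
    {Dv : Type} [AddCommMonoid Dv] {Rv : Type} {Pt : Type} [DecidableEq Pt]
    (S : MatSys (JQ N) Dv Rv Pt) : Stmt_height N 2 := by
  obtain ⟨P⟩ := MatSys.exists_phiSys h0 h1 h2 h3 h4 h5 h6 hS hC S
  exact stmt_height_of_phiSys N P

end Fermat.Agent.S17.H16
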