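import Fermat.Agent.S17.Height.H35_GeoData
import Fermat.Agent.S17.Height.H16_MatSys

/-!
# S17 part H, FIN leaves G-W and G-vec0 (helper41)

For the concrete data of `H35_GeoData` (helper35):

* `Wlev_rat`   : `Wlev N m D` is a rational subspace (`H16.IsRatSub`);
* `Wlev_dim`   : `finrank (Wlev N m D) + genusN N + dvDeg N D = m + 1` when `cRie N ≤ m - deg D`;
* `Wlev_zero`  : `Wlev N m 0 = ⊤`;
* `vec0_inj`   : a function of pole order `≤ m₀` is determined by its coordinates at level `m₀`;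
* `exists_Rv_of_mem_Wlev` : a nonzero rational vector of `Wlev N m₀ D` is the coordinate vector of
  a function `f : Rv N` with `rvZ f = D + Y`.
-/

set_option autoImplicit false

noncomputable section

open ModularCurve AlgebraicCurve Module

namespace Fermat.Agent.S17.H41g

open Fermat.Agent.RED.H42 Fermat.Agent.S17 Fermat.Agent.RED.KD.H22 Fermat.Agent.S24
open Fermat.Agent.S17.H71 Fermat.Agent.S17.H35 Fermat.Agent.S17.H16

local notation "L" => riemannRochSpace

variable (N : ℕ) [NeZero N]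

/-- The divisor `m∞ - D` is stable. -/
theorem smul_mInf_sub (m : ℕ) (D : Dv N) (σ : GQ) :
    galN N σ • (mInf N m - D.1) = mInf N m - D.1 := by
  rw [smul_sub, D.stable σ, (ratCtxMod N).smul_kP]

/-- `L(m∞ - D) ≤ L(m∞)`. -/
theorem L_mInf_sub_le (m : ℕ) (D : Dv N) : L (mInf N m - D.1) ≤ L (mInf N m) :=
  L_mono (sub_le_self _ D.nonneg)

/-- The Galois action on a combination of the rational basis. -/
theorem smul_coordMap (m : ℕ) (σ : GQ) (w : Fin (nLev N m) → Kbar) :
    galN N σ • coordMap (eLev N m) w = coordMap (eLev N m) (fun i => σ (w i)) := by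
  rw [coordMap_apply, coordMap_apply, Finset.smul_sum]
  refine Finset.sum_congr rfl fun i _ => ?_
  rw [smul_smul_semilinear, baseHom_apply, baseAut_galN, eLev_fixed N m i σ]

/-- **W_rat.** -/
theorem Wlev_rat (m : ℕ) (D : Dv N) : IsRatSub (Wlev N m D) := by
  obtain ⟨r, B, hB, hspan⟩ := stmt_DescLin (nLev N m) (Wlev N m D) (by
    intro σ w hw
    show coordMap (eLev N m) (fun i => σ (w i)) ∈ L (mInf N m - D.1)
    rw [← smul_coordMap]
    exact smul_mem_L_of_stable (smul_mInf_sub N m D) σ hw)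
  exact ⟨r, B, hB, hspan⟩

/-- The degree of `m∞ - D`. -/
theorem degree_mInf_sub (m : ℕ) (D : Dv N) :
    Divisor.degree (mInf N m - D.1) = (m : ℤ) - (dvDeg N D : ℤ) := by
  rw [map_sub, dvDeg_cast, mInf_eq, Divisor.degree_single, (hypMod N).deg_one]
  simp

/-- **W_dim.** -/
theorem Wlev_dim (c₀ : ℕ) (hc : cRie N ≤ (c₀ : ℤ)) (m : ℕ) (D : Dv N)
    (hD : dvDeg N D + c₀ ≤ m) :
    finrank Kbar (Wlev N m D) + genusN N + dvDeg N D = m + 1 := by
  have h1 : finrank Kbar (Wlev N m D) = finrank Kbar (L (mInf N m - D.1)) :=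
    finrank_coordSub (eLev N m) (L_mInf_sub_le N m D)
  have h2 := (geoN N).riemann (mInf N m - D.1) (by
    rw [degree_mInf_sub]
    have : ((dvDeg N D + c₀ : ℕ) : ℤ) ≤ (m : ℤ) := by exact_mod_cast hD
    push_cast at this
    omega)
  rw [degree_mInf_sub] at h2
  rw [h1]
  omega

/-- **W_zero.** -/
theorem Wlev_zero (m : ℕ) : Wlev N m 0 = ⊤ := by
  unfold Wlev
  rw [Dv.coe_zero, sub_zero]
  exact coordSub_top (eLev N m)

variable {N}

/-- **vec₀_inj.** -/
theorem vec0_inj (m₀ : ℕ) (f f' : Rv N) (hf : rvOrd f ≤ m₀) (hf' : rvOrd f' ≤ m₀)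
    (h : vec0 m₀ f = vec0 m₀ f') : f = f' := by
  apply Subtype.ext
  rw [← sum_ratCoord N m₀ (f.mem_L hf) f.fixed, ← sum_ratCoord N m₀ (f'.mem_L hf') f'.fixed]
  refine Finset.sum_congr rfl fun i _ => ?_
  have := congrFun h i
  unfold vec0 at this
  rw [this]

/-- A rational combination of the rational basis is fixed. -/
theorem coordMap_castV_fixed (m : ℕ) (x : Fin (nLev N m) → ℚ) :
    coordMap (eLev N m) (castV x) ∈ fixedFun (galN N) := by
  intro σ
  rw [smul_coordMap]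
  congr 1
  funext i
  exact σ.commutes (x i)

theorem castV_ne_zero {ι : Type*} {x : ι → ℚ} (hx : x ≠ 0) : (castV x : ι → Qbar) ≠ 0 := by
  intro h
  apply hx
  funext i
  have := congrFun h i
  exact (algebraMap ℚ Qbar).injective (by rw [Pi.zero_apply, map_zero]; exact this)

/-- **exists_Rv.** -/
theorem exists_Rv_of_mem_Wlev (m₀ : ℕ) (D : Dv N) (x : Fin (nLev N m₀) → ℚ) (hx : x ≠ 0)
    (hxW : castV x ∈ Wlev N m₀ D) :
    ∃ (f : Rv N) (Y : Dv N), rvOrd f ≤ m₀ ∧ vec0 m₀ f = x ∧ rvZ f = D + Y := by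
  set f₀ : FN N := coordMap (eLev N m₀) (castV x) with hf₀
  have hmem : f₀ ∈ L (mInf N m₀ - D.1) := hxW
  have hmem' : f₀ ∈ L (mInf N m₀) := L_mInf_sub_le N m₀ D hmem
  have hne : f₀ ≠ 0 := by
    intro h0
    apply castV_ne_zero hx
    apply coordMap_injective (eLev N m₀)
    rw [map_zero]
    exact h0
  have hfix : f₀ ∈ fixedFun (galN N) := coordMap_castV_fixed m₀ x
  have hord : ∀ v : Place Kbar (FN N), -(mInf N m₀ - D.1) v ≤ v.ord f₀ :=
    fun v => neg_le_ord_of_mem hmem hne v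
  have hord' : ∀ v : Place Kbar (FN N), v ≠ cuspInf N → D.1 v ≤ v.ord f₀ := by
    intro v hv
    have h1 := hord v
    rw [Finsupp.sub_apply, (ratCtxMod N).kP_apply_of_ne _ hv] at h1
    omega
  have hreg : ∀ v : Place Kbar (FN N), v ≠ cuspInf N → 0 ≤ v.ord f₀ :=
    fun v hv => le_trans (D.apply_nonneg v) (hord' v hv)
  let f : Rv N := ⟨f₀, hne, hfix, hreg⟩
  have hfo : rvOrd f ≤ m₀ := by
    have h1 := hord (cuspInf N)
    rw [Finsupp.sub_apply, D.apply_cusp] at h1
    have h2 : (ratCtxMod N).kP (m₀ : ℤ) (cuspInf N) = m₀ := (ratCtxMod N).kP_apply_self _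
    rw [h2] at h1
    have h3 := rvOrd_cast f
    have h4 : (cuspInf N).ord f.1 = (cuspInf N).ord f₀ := rfl
    omega
  -- the divisor `Y`
  have hYnn : (0 : Divisor Kbar (FN N)) ≤ f.zdiv - D.1 := by
    rw [Finsupp.le_def]
    intro v
    rw [Finsupp.sub_apply]
    by_cases hv : v = cuspInf N
    · rw [hv, f.zdiv_apply_cusp, D.apply_cusp]
      rfl
    · rw [f.zdiv_apply_of_ne hv]
      have := hord' v hv
      show (0 : ℤ) ≤ v.ord f₀ - D.1 v
      omega
  let Y : Dv N := ⟨f.zdiv - D.1, hYnn, by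
    rw [Finsupp.sub_apply, f.zdiv_apply_cusp, D.apply_cusp, sub_zero], fun σ => by
    rw [smul_sub, f.smul_zdiv σ, D.stable σ]⟩
  refine ⟨f, Y, hfo, ?_, ?_⟩
  · funext i
    apply (algebraMap ℚ Kbar).injective
    show algebraMap ℚ Kbar (ratCoord N m₀ f₀ i) = _
    rw [ratCoord_spec N m₀ hmem' hfix i]
    have h1 : (⟨f₀, hmem'⟩ : L (mInf N m₀)) = (eLev N m₀).equivFun.symm (castV x) := by
      apply Subtype.ext
      rfl
    rw [h1]
    have h2 := (eLev N m₀).equivFun.apply_symm_apply (castV x)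
    have h3 := congrFun h2 i
    rw [Module.Basis.equivFun_apply] at h3
    exact h3
  · apply Subtype.ext
    show f.zdiv = D.1 + (f.zdiv - D.1)
    abel

end Fermat.Agent.S17.H41g
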