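import Fermat.Agent.S17.Height.H35_GeoData

/-!
# S17 part H (helper35): the field `h90` of the matrix system

`geo_h90`: if `A`, `A'` are `G_ℚ`-stable effective divisors avoiding `∞` with
`[A - deg A ∞] = [A' - deg A' ∞]` and `cRie N + deg A' + 1 ≤ k₀`, then there are `G_ℚ`-fixed
functions `u`, `u'`, regular outside `∞`, with `Z u = A + Z₀`, `Z u' = A' + Z₀` and
`ord u' = k₀`.
-/

set_option autoImplicit false

noncomputable section

open ModularCurve AlgebraicCurve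

namespace Fermat.Agent.S17.H35

open Fermat.Agent.RED.H42 Fermat.Agent.S17 Fermat.Agent.RED.KD.H22 Fermat.Agent.S24

local notation "L" => riemannRochSpace

variable {N : ℕ} [NeZero N]

theorem riemannBoundN (N : ℕ) [NeZero N] : RiemannBound Kbar (FN N) (genusN N) (cRie N) :=
  ⟨(geoN N).c_nonneg, (geoN N).riemann⟩

theorem mInf_apply_cusp (m : ℕ) : mInf N m (cuspInf N) = m := (ratCtxMod N).kP_apply_self _

theorem mInf_apply_of_ne (m : ℕ) {v : Place Kbar (FN N)} (hv : v ≠ cuspInf N) :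
    mInf N m v = 0 := (ratCtxMod N).kP_apply_of_ne _ hv

theorem smul_mInf (m : ℕ) (σ : GQ) : galN N σ • mInf N m = mInf N m := (ratCtxMod N).smul_kP _ σ

theorem degree_mInf (m : ℕ) : Divisor.degree (mInf N m) = m := by
  rw [mInf_eq, Divisor.degree_single, (hypMod N).deg_one]
  simp

theorem smul_mInf_sub (m : ℕ) (D : Dv N) (σ : GQ) :
    galN N σ • (mInf N m - D.1) = mInf N m - D.1 := by
  rw [smul_sub, smul_mInf, D.stable]

theorem degree_mInf_sub (m : ℕ) (D : Dv N) :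
    Divisor.degree (mInf N m - D.1) = (m : ℤ) - dvDeg N D := by
  rw [map_sub, degree_mInf, dvDeg_cast]

/-- A nonzero fixed function of `L(m∞ - D)` as an element of `Rv`. -/
def rvOfMem {m : ℕ} {D : Dv N} {f : FN N} (hf : f ∈ L (mInf N m - D.1)) (hf0 : f ≠ 0)
    (hfix : f ∈ fixedFun (galN N)) : Rv N :=
  ⟨f, hf0, hfix, fun v hv => by
    have h1 := neg_le_ord_of_mem hf hf0 v
    rw [Finsupp.sub_apply, mInf_apply_of_ne m hv] at h1
    have h2 := D.apply_nonneg v
    omega⟩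

@[simp] theorem rvOfMem_coe {m : ℕ} {D : Dv N} {f : FN N} (hf : f ∈ L (mInf N m - D.1))
    (hf0 : f ≠ 0) (hfix : f ∈ fixedFun (galN N)) : (rvOfMem hf hf0 hfix).1 = f := rfl

theorem rvOrd_rvOfMem_le {m : ℕ} {D : Dv N} {f : FN N} (hf : f ∈ L (mInf N m - D.1))
    (hf0 : f ≠ 0) (hfix : f ∈ fixedFun (galN N)) : rvOrd (rvOfMem hf hf0 hfix) ≤ m := by
  have h1 := neg_le_ord_of_mem hf hf0 (cuspInf N)
  rw [Finsupp.sub_apply, mInf_apply_cusp, D.apply_cusp] at h1
  have h2 := rvOrd_cast (rvOfMem hf hf0 hfix)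
  rw [rvOfMem_coe] at h2
  omega

/-- The divisor of zeros of a function of `L(m∞ - D)` is `D + Y`. -/
theorem exists_rvZ_eq_add {m : ℕ} {D : Dv N} {f : FN N} (hf : f ∈ L (mInf N m - D.1))
    (hf0 : f ≠ 0) (hfix : f ∈ fixedFun (galN N)) :
    ∃ Y : Dv N, rvZ (rvOfMem hf hf0 hfix) = D + Y := by
  set u := rvOfMem hf hf0 hfix with hu
  have hge : ∀ v : Place Kbar (FN N), D.1 v ≤ u.zdiv v := by
    intro v
    by_cases hv : v = cuspInf N
    · rw [hv, u.zdiv_apply_cusp, D.apply_cusp]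
    · rw [u.zdiv_apply_of_ne hv]
      have h1 := neg_le_ord_of_mem hf hf0 v
      rw [Finsupp.sub_apply, mInf_apply_of_ne m hv] at h1
      show D.1 v ≤ v.ord f
      omega
  refine ⟨⟨u.zdiv - D.1, ?_, ?_, ?_⟩, ?_⟩
  · rw [Finsupp.le_def]
    intro v
    rw [Finsupp.sub_apply]
    have := hge v
    simpa using this
  · rw [Finsupp.sub_apply, u.zdiv_apply_cusp, D.apply_cusp, sub_zero]
  · intro σ
    rw [smul_sub, u.smul_zdiv, D.stable]
  · apply Subtype.ext
    show u.zdiv = D.1 + (u.zdiv - D.1)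
    abel

/-- **h90**. -/
theorem geo_h90 (k₀ : ℕ) (A A' : Dv N) (hcl : dvCl N A = dvCl N A')
    (hk : cRie N + dvDeg N A' + 1 ≤ k₀) :
    ∃ (u u' : Rv N) (Z₀ : Dv N), rvZ u = A + Z₀ ∧ rvZ u' = A' + Z₀ ∧ rvOrd u' = k₀ := by
  -- the function `u'`
  have hdeg : cRie N + 1 ≤ Divisor.degree (mInf N k₀ - A'.1) := by
    rw [degree_mInf_sub]
    omega
  obtain ⟨f, hf, hf0, hford⟩ := L_bpf (hypMod N) (riemannBoundN N) hdeg (cuspInf N)
  obtain ⟨e, hefix, heL, he0, heord⟩ := exists_fixed_exact (openSysMod N)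
    (smul_mInf_sub k₀ A') (cuspInf N) hf hf0 hford
  rw [Finsupp.sub_apply, mInf_apply_cusp, A'.apply_cusp, sub_zero] at heord
  set u' := rvOfMem heL he0 hefix with hu'
  obtain ⟨Z₀, hZ₀⟩ := exists_rvZ_eq_add heL he0 hefix
  have hord' : rvOrd u' = k₀ := by
    have h2 := rvOrd_cast u'
    rw [hu', rvOfMem_coe, heord, neg_neg] at h2
    exact_mod_cast h2
  -- the function `w` with divisor `A - A' - (deg A - deg A') ∞`
  have hprin := (dvCl_eq_iff A' A).1 hcl.symm
  have hstab : ∀ σ : GQ, galN N σ • ((dvZero A : Divisor Kbar (FN N)) - (dvZero A' : Divisor Kbar (FN N)))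
      = (dvZero A : Divisor Kbar (FN N)) - (dvZero A' : Divisor Kbar (FN N)) := by
    intro σ
    have h1 := congrArg Subtype.val (smul_dvZero A σ)
    have h2 := congrArg Subtype.val (smul_dvZero A' σ)
    rw [SemilinearAut.coe_degZeroSMulHom] at h1 h2
    rw [smul_sub, h1, h2]
  obtain ⟨w, hw0, hword, -, hwfix⟩ := h90_mod N hstab hprin
  have hword' : ∀ v : Place Kbar (FN N), v ≠ cuspInf N → v.ord w = A.1 v - A'.1 v := by
    intro v hv
    rw [hword v]
    show ((A.1 - Finsupp.single (cuspInf N) (Divisor.degree A.1))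
      - (A'.1 - Finsupp.single (cuspInf N) (Divisor.degree A'.1))) v = _
    simp only [Finsupp.sub_apply, Finsupp.single_eq_of_ne hv, sub_zero]
  have hZ₀v : ∀ v : Place Kbar (FN N), v ≠ cuspInf N → v.ord e = A'.1 v + Z₀.1 v := by
    intro v hv
    have h1 := congrArg (fun D : Dv N => D.1 v) hZ₀
    simp only [rvZ_coe, Dv.coe_add, Finsupp.add_apply] at h1
    rw [← h1, Rv.zdiv_apply_of_ne _ hv]
    rfl
  have hew0 : e * w ≠ 0 := mul_ne_zero he0 hw0
  have hewreg : ∀ v : Place Kbar (FN N), v ≠ cuspInf N → 0 ≤ v.ord (e * w) := by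
    intro v hv
    rw [v.ord_mul he0 hw0, hword' v hv, hZ₀v v hv]
    have h1 := A.apply_nonneg v
    have h2 := Z₀.apply_nonneg v
    omega
  refine ⟨⟨e * w, hew0, mul_mem_fixedFun hefix hwfix, hewreg⟩, u', Z₀, ?_, hZ₀, hord'⟩
  apply Subtype.ext
  ext v
  rw [rvZ_coe, Dv.coe_add, Finsupp.add_apply]
  by_cases hv : v = cuspInf N
  · rw [hv, Rv.zdiv_apply_cusp, A.apply_cusp, Z₀.apply_cusp, add_zero]
  · rw [Rv.zdiv_apply_of_ne _ hv]
    show v.ord (e * w) = _
    rw [v.ord_mul he0 hw0, hword' v hv, hZ₀v v hv]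
    ring

end Fermat.Agent.S17.H35
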