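import Fermat.Agent.S17.Height.H71_Plk
import Mathlib.Algebra.Algebra.Operations

/-!
# S17, part H: coordinates on finite-dimensional subspaces of a field extension

For subspaces `V₁`, `V₂`, `V₃` of a `K`-algebra `F` with `V₁ * V₂ ≤ V₃` and bases `e₁`, `e₂`,
`e₃`, the structure constants `structConst e₁ e₂ e₃ h` of the multiplication, the coordinate
maps `coordMap e : (α → K) →ₗ[K] F`, and the compatibility of `prodSpan` with the product of
subspaces of `F`.
-/

set_option autoImplicit false

open Module

namespace Fermat.Agent.S17.H71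

variable {K F : Type*} [Field K] [Field F] [Algebra K F]

section One

variable {α : Type*} [Fintype α] {V : Submodule K F}

/-- From coordinates to functions. -/
noncomputable def coordMap (e : Basis α K V) : (α → K) →ₗ[K] F :=
  V.subtype ∘ₗ e.equivFun.symm.toLinearMap

theorem coordMap_apply (e : Basis α K V) (x : α → K) :
    coordMap e x = ∑ i, x i • (e i : F) := by
  unfold coordMap
  rw [LinearMap.comp_apply, LinearEquiv.coe_toLinearMap, Basis.equivFun_symm_apply]
  simp

theorem coordMap_mem (e : Basis α K V) (x : α → K) : coordMap e x ∈ V := by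
  unfold coordMap
  rw [LinearMap.comp_apply]
  exact (e.equivFun.symm x).2

theorem coordMap_injective (e : Basis α K V) : Function.Injective (coordMap e) := by
  unfold coordMap
  exact (Submodule.injective_subtype V).comp e.equivFun.symm.injective

theorem coordMap_repr (e : Basis α K V) (f : V) : coordMap e (e.equivFun f) = (f : F) := by
  unfold coordMap
  rw [LinearMap.comp_apply, LinearEquiv.coe_toLinearMap, LinearEquiv.symm_apply_apply]
  rfl

theorem range_coordMap (e : Basis α K V) : LinearMap.range (coordMap e) = V := by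
  ext f
  constructor
  · rintro ⟨x, rfl⟩
    exact coordMap_mem e x
  · intro hf
    exact ⟨e.equivFun ⟨f, hf⟩, coordMap_repr e ⟨f, hf⟩⟩

/-- The coordinates of a subspace. -/
noncomputable def coordSub (e : Basis α K V) (W : Submodule K F) : Submodule K (α → K) :=
  W.comap (coordMap e)

theorem mem_coordSub (e : Basis α K V) (W : Submodule K F) (x : α → K) :
    x ∈ coordSub e W ↔ coordMap e x ∈ W := Iff.rfl

theorem map_coordSub (e : Basis α K V) {W : Submodule K F} (hW : W ≤ V) :
    (coordSub e W).map (coordMap e) = W := by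
  unfold coordSub
  rw [Submodule.map_comap_eq, range_coordMap]
  exact inf_eq_right.2 hW

theorem coordSub_map (e : Basis α K V) (U : Submodule K (α → K)) :
    coordSub e (U.map (coordMap e)) = U := by
  unfold coordSub
  exact Submodule.comap_map_eq_of_injective (coordMap_injective e) U

theorem finrank_map_coordMap (e : Basis α K V) (U : Submodule K (α → K)) :
    finrank K (U.map (coordMap e)) = finrank K U :=
  (LinearEquiv.finrank_eq (Submodule.equivMapOfInjective (coordMap e)
    (coordMap_injective e) U)).symm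

theorem finrank_coordSub (e : Basis α K V) {W : Submodule K F} (hW : W ≤ V) :
    finrank K (coordSub e W) = finrank K W := by
  conv_rhs => rw [← map_coordSub e hW]
  exact (finrank_map_coordMap e _).symm

theorem coordSub_top (e : Basis α K V) : coordSub e V = ⊤ := by
  ext x
  simp only [mem_coordSub, Submodule.mem_top, iff_true]
  exact coordMap_mem e x

end One

section Three

variable {α β γ : Type*} [Fintype α] [Fintype β] [Fintype γ]
variable {V₁ V₂ V₃ : Submodule K F}

/-- The structure constants of the multiplication `V₁ × V₂ → V₃`. -/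
noncomputable def structConst (e₁ : Basis α K V₁) (e₂ : Basis β K V₂) (e₃ : Basis γ K V₃)
    (h : V₁ * V₂ ≤ V₃) (i : α) (j : β) (k : γ) : K :=
  e₃.equivFun ⟨(e₁ i : F) * (e₂ j : F), h (Submodule.mul_mem_mul (e₁ i).2 (e₂ j).2)⟩ k

theorem coordMap_prodVec (e₁ : Basis α K V₁) (e₂ : Basis β K V₂) (e₃ : Basis γ K V₃)
    (h : V₁ * V₂ ≤ V₃) (x : α → K) (y : β → K) :
    coordMap e₃ (prodVec (structConst e₁ e₂ e₃ h) x y) = coordMap e₁ x * coordMap e₂ y := by
  have hb : ∀ i j, (e₁ i : F) * (e₂ j : F) =
      ∑ k, structConst e₁ e₂ e₃ h i j k • (e₃ k : F) := by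
    intro i j
    have := coordMap_repr e₃ ⟨(e₁ i : F) * (e₂ j : F),
      h (Submodule.mul_mem_mul (e₁ i).2 (e₂ j).2)⟩
    rw [coordMap_apply] at this
    exact this.symm
  rw [coordMap_apply e₁, coordMap_apply e₂, coordMap_apply e₃, Finset.sum_mul_sum]
  simp only [prodVec, Finset.sum_smul]
  rw [Finset.sum_comm]
  refine Finset.sum_congr rfl fun i _ => ?_
  rw [Finset.sum_comm]
  refine Finset.sum_congr rfl fun j _ => ?_
  rw [smul_mul_smul_comm, hb, Finset.smul_sum]
  refine Finset.sum_congr rfl fun k _ => ?_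
  rw [smul_smul]
  congr 1
  ring

theorem map_prodSpan (e₁ : Basis α K V₁) (e₂ : Basis β K V₂) (e₃ : Basis γ K V₃)
    (h : V₁ * V₂ ≤ V₃) (U : Submodule K (α → K)) (U' : Submodule K (β → K)) :
    (prodSpan (structConst e₁ e₂ e₃ h) U U').map (coordMap e₃) =
      U.map (coordMap e₁) * U'.map (coordMap e₂) := by
  apply le_antisymm
  · rw [Submodule.map_le_iff_le_comap]
    unfold prodSpan
    rw [Submodule.map₂_le]
    intro x hx y hy
    rw [Submodule.mem_comap, prodBil_apply, coordMap_prodVec]
    exact Submodule.mul_mem_mul (Submodule.mem_map_of_mem hx) (Submodule.mem_map_of_mem hy)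
  · rw [Submodule.mul_le]
    rintro _ ⟨x, hx, rfl⟩ _ ⟨y, hy, rfl⟩
    rw [← coordMap_prodVec e₁ e₂ e₃ h]
    exact Submodule.mem_map_of_mem (prodVec_mem_prodSpan _ hx hy)

theorem finrank_prodSpan (e₁ : Basis α K V₁) (e₂ : Basis β K V₂) (e₃ : Basis γ K V₃)
    (h : V₁ * V₂ ≤ V₃) (U : Submodule K (α → K)) (U' : Submodule K (β → K)) :
    finrank K (prodSpan (structConst e₁ e₂ e₃ h) U U') =
      finrank K (U.map (coordMap e₁) * U'.map (coordMap e₂) : Submodule K F) := by
  rw [← map_prodSpan e₁ e₂ e₃ h, finrank_map_coordMap]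

theorem prodSpan_coordSub (e₁ : Basis α K V₁) (e₂ : Basis β K V₂) (e₃ : Basis γ K V₃)
    (h : V₁ * V₂ ≤ V₃) {W : Submodule K F} {W' : Submodule K F} (hW : W ≤ V₁) (hW' : W' ≤ V₂) :
    prodSpan (structConst e₁ e₂ e₃ h) (coordSub e₁ W) (coordSub e₂ W') =
      coordSub e₃ (W * W') := by
  rw [← coordSub_map e₃ (prodSpan _ _ _), map_prodSpan, map_coordSub e₁ hW,
    map_coordSub e₂ hW']

end Three

end Fermat.Agent.S17.H71
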