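import Fermat.Agent.S17.Height.H71_LAL
import Fermat.Agent.S17.Height.H71_Coord
import Fermat.Agent.S17.Height.H35_PencilFF

/-!
# S17, part H: the local package (LA), (MULT) for a function field with `Geo K F g c`

* `la_geo`: two-level multiplicativity of the norms of multiplicative linear forms:
  `opNorm ε₃ (L(D₁ + D₂ - (A + B))) ≍ opNorm ε₁ (L(D₁ - A)) * opNorm ε₂ (L(D₂ - B))`,
  in coordinates with respect to arbitrary bases of `L(D₁)`, `L(D₂)`, `L(D₁ + D₂)`, uniformly in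
  the effective divisors `A`, `B` of degrees `a`, `b`, in the forms and in the absolute value.
* `mult_geo`: `‖f g‖_v ≍ ‖f‖_v ‖g‖_v` in coordinates.
-/

set_option autoImplicit false

noncomputable section

open AlgebraicCurve Module Matrix

namespace Fermat.Agent.S17.H71

open Fermat.Agent.S17.H16 Fermat.Agent.S17.H35 Fermat.Agent.RED.H42

local notation "L" => riemannRochSpace

local notation "deg" => Divisor.degree

variable {K F : Type} [Field K] [Field F] [Algebra K F]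

theorem L_mul_le (D E : Divisor K F) : L D * L E ≤ L (D + E) := by
  rw [Submodule.mul_le]
  intro f hf g hg
  exact mul_mem_L_add hf hg

theorem L_sub_le {D A : Divisor K F} (hA : 0 ≤ A) : L (D - A) ≤ L D :=
  L_mono (sub_le_self D hA)

section Family

variable {g : ℕ} {c : ℤ} (hG : Geo K F g c)
variable {α τ α' : Type*} [Fintype α] [Fintype τ] [Fintype α']
variable {D M : Divisor K F} (e : Basis α K (L D)) (eM : Basis τ K (L M))
  (e' : Basis α' K (L (M + D)))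

include hG

/-- The coordinates of `L(D - A)` belong to the Pluecker family. -/
theorem fam_mem (a : ℕ) (hD : c + g + a ≤ deg D) (hM : 0 ≤ deg M) {A : Divisor K F}
    (hA : 0 ≤ A) (hdeg : deg A = a) :
    finrank K (coordSub e (L (D - A))) = (deg D + 1 - g - a).toNat ∧
    finrank K (prodSpan (structConst eM e e' (L_mul_le M D)) ⊤ (coordSub e (L (D - A)))) ≤
      (deg D + deg M + 1 - g - a).toNat := by
  have hc := hG.c_nonneg
  constructor
  · rw [finrank_coordSub e (L_sub_le hA)]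
    have := hG.riemann (D - A) (by rw [map_sub, hdeg]; omega)
    rw [map_sub, hdeg] at this
    omega
  · rw [← coordSub_top eM, prodSpan_coordSub eM e e' (L_mul_le M D) le_rfl (L_sub_le hA),
      finrank_coordSub e' ((mul_le_mul' le_rfl (L_sub_le hA)).trans (L_mul_le M D))]
    have h1 : L M * L (D - A) ≤ L (M + D - A) := by
      have := L_mul_le M (D - A)
      rwa [← add_sub_assoc] at this
    haveI := hG.finite (M + D - A)
    have h2 := Submodule.finrank_mono h1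
    have h3 := hG.riemann (M + D - A) (by rw [map_sub, map_add, hdeg]; omega)
    rw [map_sub, map_add, hdeg] at h3
    omega

/-- Every member of the Pluecker family is some `L(D - A)`. -/
theorem fam_of (a : ℕ) (hD : c + g + a ≤ deg D) (hM : c + deg D ≤ deg M)
    (U : Submodule K (α → K)) (hU : finrank K U = (deg D + 1 - g - a).toNat)
    (hUρ : finrank K (prodSpan (structConst eM e e' (L_mul_le M D)) ⊤ U) ≤
      (deg D + deg M + 1 - g - a).toNat) :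
    ∃ A : Divisor K F, 0 ≤ A ∧ deg A = a ∧ U.map (coordMap e) = L (D - A) := by
  have hc := hG.c_nonneg
  have hle : U.map (coordMap e) ≤ L D := by
    rintro _ ⟨x, -, rfl⟩
    exact coordMap_mem e x
  have hfin : (finrank K (U.map (coordMap e)) : ℤ) = deg D + 1 - g - a := by
    rw [finrank_map_coordMap, hU]
    omega
  have hmul : (finrank K (U.map (coordMap e) * L M : Submodule K F) : ℤ) ≤
      deg D + deg M + 1 - g - a := by
    have h1 : (U.map (coordMap e) * L M : Submodule K F) =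
        (prodSpan (structConst eM e e' (L_mul_le M D)) ⊤ U).map (coordMap e') := by
      rw [map_prodSpan, Submodule.map_top, range_coordMap, mul_comm]
    rw [h1, finrank_map_coordMap]
    omega
  exact hG.a4 D M (U.map (coordMap e)) a hle hfin hD hM hmul

end Family

section Mult

variable {α β γ : Type*} [Fintype α] [Fintype β] [Fintype γ]
variable {V₁ V₂ V₃ : Submodule K F}

theorem equivFun_mul (e₁ : Basis α K V₁) (e₂ : Basis β K V₂) (e₃ : Basis γ K V₃)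
    (h : V₁ * V₂ ≤ V₃) (f : V₁) (g : V₂) :
    e₃.equivFun ⟨(f : F) * (g : F), h (Submodule.mul_mem_mul f.2 g.2)⟩ =
      prodVec (structConst e₁ e₂ e₃ h) (e₁.equivFun f) (e₂.equivFun g) := by
  apply coordMap_injective e₃
  rw [coordMap_repr, coordMap_prodVec, coordMap_repr, coordMap_repr]

variable [IsAlgClosed K]

/-- **(MULT)** in coordinates: `‖f g‖_v ≍ ‖f‖_v ‖g‖_v`. -/
theorem mult_geo (e₁ : Basis α K V₁) (e₂ : Basis β K V₂) (e₃ : Basis γ K V₃)
    (h : V₁ * V₂ ≤ V₃) :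
    ∃ Lc : LocConst K, ∀ (v : AbsoluteValue K ℝ) (x : α → K) (y : β → K),
      supNorm v x * supNorm v y ≤ Lc.C v * supNorm v (prodVec (structConst e₁ e₂ e₃ h) x y) ∧
      supNorm v (prodVec (structConst e₁ e₂ e₃ h) x y) ≤
        Lc.C v * (supNorm v x * supNorm v y) := by
  classical
  refine mult_linear (structConst e₁ e₂ e₃ h) fun x y hxy => ?_
  have h1 := coordMap_prodVec e₁ e₂ e₃ h x y
  rw [hxy, map_zero] at h1
  rcases mul_eq_zero.1 h1.symm with h2 | h2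
  · left
    exact coordMap_injective e₁ (by rw [h2, map_zero])
  · right
    exact coordMap_injective e₂ (by rw [h2, map_zero])

end Mult

section TwoLevel

variable {g : ℕ} {c : ℤ} (hG : Geo K F g c) [IsAlgClosed K]
variable {α β γ : Type*} [Fintype α] [Fintype β] [Fintype γ]
variable (D₁ D₂ : Divisor K F)

include hG

/-- **(LA), two-level form**: multiplicativity of the norms of multiplicative linear forms,
uniformly in the effective divisors `A`, `B` of degrees `a`, `b`. -/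
theorem la_geo (a b : ℕ) (h1 : c + g + a + 1 ≤ deg D₁) (h2 : c + deg D₁ + b ≤ deg D₂ + a)
    (e₁ : Basis α K (L D₁)) (e₂ : Basis β K (L D₂)) (e₃ : Basis γ K (L (D₁ + D₂))) :
    ∃ Lc : LocConst K, ∀ (v : AbsoluteValue K ℝ) (ε₁ : α → K) (ε₂ : β → K) (ε₃ : γ → K),
      (∀ x y, ε₃ ⬝ᵥ prodVec (structConst e₁ e₂ e₃ (L_mul_le D₁ D₂)) x y =
        (ε₁ ⬝ᵥ x) * (ε₂ ⬝ᵥ y)) →
      ∀ A B : Divisor K F, 0 ≤ A → deg A = a → 0 ≤ B → deg B = b →
        opNorm v ε₃ (coordSub e₃ (L (D₁ + D₂ - (A + B)))) ≤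
          Lc.C v * (opNorm v ε₁ (coordSub e₁ (L (D₁ - A))) *
            opNorm v ε₂ (coordSub e₂ (L (D₂ - B)))) ∧
        opNorm v ε₁ (coordSub e₁ (L (D₁ - A))) * opNorm v ε₂ (coordSub e₂ (L (D₂ - B))) ≤
          Lc.C v * opNorm v ε₃ (coordSub e₃ (L (D₁ + D₂ - (A + B)))) := by
  classical
  have hc := hG.c_nonneg
  obtain ⟨M, hMdef⟩ : ∃ M : Divisor K F, M = D₁ + D₂ := ⟨_, rfl⟩
  have hdM : deg M = deg D₁ + deg D₂ := by rw [hMdef]; exact map_add _ _ _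
  haveI := hG.finite M
  haveI := hG.finite (M + D₁)
  haveI := hG.finite (M + D₂)
  let eM := Module.finBasis K (L M)
  let e₁' := Module.finBasis K (L (M + D₁))
  let e₂' := Module.finBasis K (L (M + D₂))
  have hdim : ∀ (U : Submodule K (α → K)) (U' : Submodule K (β → K)),
      finrank K U = (deg D₁ + 1 - g - a).toNat →
      finrank K (prodSpan (structConst eM e₁ e₁' (L_mul_le M D₁)) ⊤ U) ≤
        (deg D₁ + deg M + 1 - g - a).toNat →
      finrank K U' = (deg D₂ + 1 - g - b).toNat →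
      finrank K (prodSpan (structConst eM e₂ e₂' (L_mul_le M D₂)) ⊤ U') ≤
        (deg D₂ + deg M + 1 - g - b).toNat →
      finrank K (prodSpan (structConst e₁ e₂ e₃ (L_mul_le D₁ D₂)) U U') =
        (deg D₁ + deg D₂ + 1 - g - a - b).toNat := by
    intro U U' hU hUρ hU' hUρ'
    obtain ⟨A, hA, hdA, hUA⟩ := fam_of hG e₁ eM e₁' a (by omega) (by omega) U hU hUρ
    obtain ⟨B, hB, hdB, hUB⟩ := fam_of hG e₂ eM e₂' b (by omega) (by omega) U' hU' hUρ'
    rw [finrank_prodSpan, hUA, hUB,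
      hG.a3 (D₁ - A) (D₂ - B) (by rw [map_sub, hdA]; omega)
        (by rw [map_sub, map_sub, hdA, hdB]; omega)]
    have := hG.riemann (D₁ - A + (D₂ - B))
      (by rw [map_add, map_sub, map_sub, hdA, hdB]; omega)
    rw [map_add, map_sub, map_sub, hdA, hdB] at this
    omega
  obtain ⟨Lc, hLc⟩ := la_linear (structConst e₁ e₂ e₃ (L_mul_le D₁ D₂))
    (structConst eM e₁ e₁' (L_mul_le M D₁)) (structConst eM e₂ e₂' (L_mul_le M D₂))
    _ _ _ _ _ hdim
  refine ⟨Lc, fun v ε₁ ε₂ ε₃ hε A B hA hdA hB hdB => ?_⟩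
  obtain ⟨m1, m2⟩ := fam_mem hG e₁ eM e₁' a (by omega) (by omega) hA hdA
  obtain ⟨m3, m4⟩ := fam_mem hG e₂ eM e₂' b (by omega) (by omega) hB hdB
  have key := hLc v ε₁ ε₂ ε₃ hε _ _ m1 m2 m3 m4
  have hprod : prodSpan (structConst e₁ e₂ e₃ (L_mul_le D₁ D₂)) (coordSub e₁ (L (D₁ - A)))
      (coordSub e₂ (L (D₂ - B))) = coordSub e₃ (L (D₁ + D₂ - (A + B))) := by
    rw [prodSpan_coordSub e₁ e₂ e₃ (L_mul_le D₁ D₂) (L_sub_le hA) (L_sub_le hB),
      hG.a3 (D₁ - A) (D₂ - B) (by rw [map_sub, hdA]; omega)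
        (by rw [map_sub, map_sub, hdA, hdB]; omega)]
    congr 2
    abel
  rw [hprod] at key
  exact key

end TwoLevel

section Forms

variable {α β γ : Type*} [Fintype α] [Fintype β] [Fintype γ]
variable {V₁ V₂ V₃ : Submodule K F}

/-- The coordinate vector of a linear form. -/
def formVec {V : Submodule K F} (e : Basis α K V) (φ : V →ₗ[K] K) : α → K :=
  fun i => φ (e i)

theorem formVec_dotProduct {V : Submodule K F} (e : Basis α K V) (φ : V →ₗ[K] K)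
    (x : α → K) : formVec e φ ⬝ᵥ x = φ (e.equivFun.symm x) := by
  rw [Basis.equivFun_symm_apply, map_sum]
  unfold formVec dotProduct
  refine Finset.sum_congr rfl fun i _ => ?_
  rw [map_smul, smul_eq_mul, mul_comm]

theorem formVec_dotProduct_equivFun {V : Submodule K F} (e : Basis α K V) (φ : V →ₗ[K] K)
    (f : V) : formVec e φ ⬝ᵥ e.equivFun f = φ f := by
  rw [formVec_dotProduct, LinearEquiv.symm_apply_apply]

/-- Multiplicative forms are multiplicative in coordinates. -/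
theorem formVec_mul (e₁ : Basis α K V₁) (e₂ : Basis β K V₂) (e₃ : Basis γ K V₃)
    (h : V₁ * V₂ ≤ V₃) (φ₁ : V₁ →ₗ[K] K) (φ₂ : V₂ →ₗ[K] K) (φ₃ : V₃ →ₗ[K] K)
    (hφ : ∀ (f : V₁) (g : V₂),
      φ₃ ⟨(f : F) * (g : F), h (Submodule.mul_mem_mul f.2 g.2)⟩ = φ₁ f * φ₂ g)
    (x : α → K) (y : β → K) :
    formVec e₃ φ₃ ⬝ᵥ prodVec (structConst e₁ e₂ e₃ h) x y =
      (formVec e₁ φ₁ ⬝ᵥ x) * (formVec e₂ φ₂ ⬝ᵥ y) := by
  have h1 := equivFun_mul e₁ e₂ e₃ h (e₁.equivFun.symm x) (e₂.equivFun.symm y)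
  rw [LinearEquiv.apply_symm_apply, LinearEquiv.apply_symm_apply] at h1
  rw [← h1, formVec_dotProduct_equivFun, hφ, formVec_dotProduct, formVec_dotProduct]

end Forms

section OneLevel

variable {g : ℕ} {c : ℤ} (hG : Geo K F g c) [IsAlgClosed K]
variable {α : Type*} [Fintype α]
variable (D₀ E : Divisor K F)

include hG

/-- **(LA), one-level form.** For forms `φ₀, φ₁, φ₂, φ₃` on `L(D₀)`, `L(E)`, `L(D₀ + E)`,
`L(D₀ + (D₀ + E))` which are multiplicative, with `φ₁ ≠ 0`: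
`‖φ₀|L(D₀ - (A + B))‖ ‖φ₀|L(D₀)‖ ≍ ‖φ₀|L(D₀ - A)‖ ‖φ₀|L(D₀ - B)‖`, uniformly in the forms, in
the effective divisors `A`, `B` of degrees `a`, `b`, and in the absolute value. -/
theorem la_one (a b : ℕ) (h1 : c + g + a + b + 1 ≤ deg D₀) (h2 : c + deg D₀ ≤ deg E)
    (e₀ : Basis α K (L D₀)) :
    ∃ Lc : LocConst K, ∀ (v : AbsoluteValue K ℝ) (φ₀ : L D₀ →ₗ[K] K) (φ₁ : L E →ₗ[K] K)
      (φ₂ : L (D₀ + E) →ₗ[K] K) (φ₃ : L (D₀ + (D₀ + E)) →ₗ[K] K),
      (∀ (f : L D₀) (k : L E),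
        φ₂ ⟨(f : F) * (k : F), mul_mem_L_add f.2 k.2⟩ = φ₀ f * φ₁ k) →
      (∀ (f : L D₀) (k : L (D₀ + E)),
        φ₃ ⟨(f : F) * (k : F), mul_mem_L_add f.2 k.2⟩ = φ₀ f * φ₂ k) →
      φ₁ ≠ 0 →
      ∀ A B : Divisor K F, 0 ≤ A → deg A = a → 0 ≤ B → deg B = b →
        opNorm v (formVec e₀ φ₀) (coordSub e₀ (L (D₀ - (A + B)))) * opNorm v (formVec e₀ φ₀) ⊤ ≤
          Lc.C v * (opNorm v (formVec e₀ φ₀) (coordSub e₀ (L (D₀ - A))) *
            opNorm v (formVec e₀ φ₀) (coordSub e₀ (L (D₀ - B)))) ∧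
        opNorm v (formVec e₀ φ₀) (coordSub e₀ (L (D₀ - A))) *
            opNorm v (formVec e₀ φ₀) (coordSub e₀ (L (D₀ - B))) ≤
          Lc.C v * (opNorm v (formVec e₀ φ₀) (coordSub e₀ (L (D₀ - (A + B)))) *
            opNorm v (formVec e₀ φ₀) ⊤) := by
  classical
  have hc := hG.c_nonneg
  haveI := hG.finite E
  haveI := hG.finite (D₀ + E)
  haveI := hG.finite (D₀ + (D₀ + E))
  let e₁ := Module.finBasis K (L E)
  let e₂ := Module.finBasis K (L (D₀ + E))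
  let e₃ := Module.finBasis K (L (D₀ + (D₀ + E)))
  have hdE : deg (D₀ + E) = deg D₀ + deg E := map_add _ _ _
  obtain ⟨C₁, hC₁⟩ := la_geo hG D₀ (D₀ + E) a b (by omega) (by omega) e₀ e₂ e₃
  obtain ⟨C₂, hC₂⟩ := la_geo hG D₀ (D₀ + E) (a + b) 0 (by push_cast; omega)
    (by push_cast; omega) e₀ e₂ e₃
  obtain ⟨C₃, hC₃⟩ := la_geo hG D₀ E b 0 (by omega) (by push_cast; omega) e₀ e₁ e₂
  obtain ⟨C₄, hC₄⟩ := la_geo hG D₀ E 0 0 (by push_cast; omega) (by push_cast; omega) e₀ e₁ e₂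
  refine ⟨((C₁.mul C₂).mul C₃).mul C₄, ?_⟩
  intro v φ₀ φ₁ φ₂ φ₃ hφ₂ hφ₃ hφ₁ A B hA hdA hB hdB
  have hm₂ := formVec_mul e₀ e₁ e₂ (L_mul_le D₀ E) φ₀ φ₁ φ₂ hφ₂
  have hm₃ := formVec_mul e₀ e₂ e₃ (L_mul_le D₀ (D₀ + E)) φ₀ φ₂ φ₃ hφ₃
  have hz : (0 : Divisor K F) ≤ 0 := le_rfl
  have hdz : deg (0 : Divisor K F) = ((0 : ℕ) : ℤ) := by simp
  have hAB : (0 : Divisor K F) ≤ A + B := add_nonneg hA hB
  have hdAB : deg (A + B) = ((a + b : ℕ) : ℤ) := by
    rw [map_add, hdA, hdB]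
    push_cast
    rfl
  obtain ⟨i1, i1'⟩ := hC₁ v _ _ _ hm₃ A B hA hdA hB hdB
  obtain ⟨i2, i2'⟩ := hC₂ v _ _ _ hm₃ (A + B) 0 hAB hdAB hz hdz
  obtain ⟨i3, i3'⟩ := hC₃ v _ _ _ hm₂ B 0 hB hdB hz hdz
  obtain ⟨i4, i4'⟩ := hC₄ v _ _ _ hm₂ 0 0 hz hdz hz hdz
  simp only [add_zero, sub_zero, coordSub_top] at i2 i2' i3 i3' i4 i4'
  -- abbreviations
  set N₀ := opNorm v (formVec e₀ φ₀) (⊤ : Submodule K (α → K)) with hN₀
  set N₁ := opNorm v (formVec e₁ φ₁) (⊤ : Submodule K (_ → K)) with hN₁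
  set N₂ := opNorm v (formVec e₂ φ₂) (⊤ : Submodule K (_ → K)) with hN₂
  set NA := opNorm v (formVec e₀ φ₀) (coordSub e₀ (L (D₀ - A))) with hNA
  set NB := opNorm v (formVec e₀ φ₀) (coordSub e₀ (L (D₀ - B))) with hNB
  set NAB := opNorm v (formVec e₀ φ₀) (coordSub e₀ (L (D₀ - (A + B)))) with hNAB
  set N₂B := opNorm v (formVec e₂ φ₂) (coordSub e₂ (L (D₀ + E - B))) with hN₂B
  set N₃ := opNorm v (formVec e₃ φ₃) (coordSub e₃ (L (D₀ + (D₀ + E) - (A + B)))) with hN₃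
  have p₀ : 0 ≤ N₀ := opNorm_nonneg _ _ _
  have p₂ : 0 ≤ N₂ := opNorm_nonneg _ _ _
  have pA : 0 ≤ NA := opNorm_nonneg _ _ _
  have pB : 0 ≤ NB := opNorm_nonneg _ _ _
  have pAB : 0 ≤ NAB := opNorm_nonneg _ _ _
  have p₂B : 0 ≤ N₂B := opNorm_nonneg _ _ _
  have p₃ : 0 ≤ N₃ := opNorm_nonneg _ _ _
  have c1 := C₁.pos v
  have c2 := C₂.pos v
  have c3 := C₃.pos v
  have c4 := C₄.pos v
  have o1 := C₁.one_le v
  have o2 := C₂.one_le v
  have o3 := C₃.one_le v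
  have o4 := C₄.one_le v
  have p₁ : 0 < N₁ := by
    obtain ⟨k, hk⟩ : ∃ k : L E, φ₁ k ≠ 0 := by
      by_contra hcon
      simp only [not_exists, not_not] at hcon
      exact hφ₁ (LinearMap.ext hcon)
    refine opNorm_pos v _ ⊤ (f := e₁.equivFun k) Submodule.mem_top ?_
    rw [formVec_dotProduct_equivFun]
    exact hk
  have hCC : (((C₁.mul C₂).mul C₃).mul C₄).C v = C₁.C v * C₂.C v * C₃.C v * C₄.C v := rfl
  rw [hCC]
  constructor
  · -- NAB * N₀ ≤ C * (NA * NB)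
    have s1 : NAB * N₂ ≤ C₂.C v * N₃ := i2'
    have s2 : N₃ ≤ C₁.C v * (NA * N₂B) := i1
    have s3 : N₂B ≤ C₃.C v * (NB * N₁) := i3
    have s4 : N₀ * N₁ ≤ C₄.C v * N₂ := i4'
    have t1 : NAB * (N₀ * N₁) ≤ C₄.C v * (C₂.C v * (C₁.C v * (NA * (C₃.C v * (NB * N₁))))) :=
      calc NAB * (N₀ * N₁) ≤ NAB * (C₄.C v * N₂) := mul_le_mul_of_nonneg_left s4 pAB
        _ = C₄.C v * (NAB * N₂) := by ring
        _ ≤ C₄.C v * (C₂.C v * N₃) := mul_le_mul_of_nonneg_left s1 c4.le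
        _ ≤ C₄.C v * (C₂.C v * (C₁.C v * (NA * N₂B))) := by gcongr
        _ ≤ C₄.C v * (C₂.C v * (C₁.C v * (NA * (C₃.C v * (NB * N₁))))) := by gcongr
    have t2 : (NAB * N₀) * N₁ ≤ (C₁.C v * C₂.C v * C₃.C v * C₄.C v * (NA * NB)) * N₁ := by
      calc (NAB * N₀) * N₁ = NAB * (N₀ * N₁) := by ring
        _ ≤ _ := t1
        _ = _ := by ring
    exact le_of_mul_le_mul_right t2 p₁
  · -- NA * NB ≤ C * (NAB * N₀)
    have s1 : NA * N₂B ≤ C₁.C v * N₃ := i1'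
    have s2 : N₃ ≤ C₂.C v * (NAB * N₂) := i2
    have s3 : NB * N₁ ≤ C₃.C v * N₂B := i3'
    have s4 : N₂ ≤ C₄.C v * (N₀ * N₁) := i4
    have t1 : NA * (NB * N₁) ≤ C₃.C v * (C₁.C v * (C₂.C v * (NAB * (C₄.C v * (N₀ * N₁))))) :=
      calc NA * (NB * N₁) ≤ NA * (C₃.C v * N₂B) := mul_le_mul_of_nonneg_left s3 pA
        _ = C₃.C v * (NA * N₂B) := by ring
        _ ≤ C₃.C v * (C₁.C v * N₃) := mul_le_mul_of_nonneg_left s1 c3.le
        _ ≤ C₃.C v * (C₁.C v * (C₂.C v * (NAB * N₂))) := by gcongr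
        _ ≤ C₃.C v * (C₁.C v * (C₂.C v * (NAB * (C₄.C v * (N₀ * N₁))))) := by gcongr
    have t2 : (NA * NB) * N₁ ≤ (C₁.C v * C₂.C v * C₃.C v * C₄.C v * (NAB * N₀)) * N₁ := by
      calc (NA * NB) * N₁ = NA * (NB * N₁) := by ring
        _ ≤ _ := t1
        _ = _ := by ring
    exact le_of_mul_le_mul_right t2 p₁

end OneLevel

end Fermat.Agent.S17.H71
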