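import Fermat.Agent.S17.Height.H35_GeoMul
import Fermat.Agent.S17.Height.H71_LOC

/-!
# S17 part H (helper35): the leading forms at `∞`

* `qCoeff m f`: the coefficient of `q^(-m)` in the `q`-expansion of `f`;
* `leadForm m : L(m∞) →ₗ[ℚ̄] ℚ̄`;
* `qCoeff_mul`: multiplicativity across the levels;
* `qCoeff_eFun`: `qCoeff m (eFun N i) = [poleOrd i = m]`, hence `formVec_leadForm`:
  `formVec (eLev N m) (leadForm m) = castV (leadVec N m)`;
* `leadVec_mul`: the multiplicativity of the leading forms in coordinates;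
* `qCoeff_eq_zero_iff`: the kernel of the leading form on `L((m+1)∞)` is `L(m∞)`.
-/

set_option autoImplicit false

noncomputable section

open ModularCurve AlgebraicCurve Matrix HahnSeries

namespace Fermat.Agent.S17.H35

open Fermat.Agent.RED.H42 Fermat.Agent.S17 Fermat.Agent.RED.KD.H22 Fermat.Agent.S24
open Fermat.Agent.S17.H71 Fermat.Agent.S17.H16

local notation "L" => riemannRochSpace

variable {N : ℕ} [NeZero N]

/-- The coefficient of `q^(-m)`. -/
def qCoeff (m : ℕ) (f : FN N) : Kbar := (f : LaurentSeries Kbar).coeff (-(m : ℤ))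

omit [NeZero N] in
theorem qCoeff_add (m : ℕ) (f g : FN N) : qCoeff m (f + g) = qCoeff m f + qCoeff m g := by
  unfold qCoeff
  rw [AddMemClass.coe_add, HahnSeries.coeff_add]

omit [NeZero N] in
theorem qCoeff_smul (m : ℕ) (c : Kbar) (f : FN N) : qCoeff m (c • f) = c * qCoeff m f := by
  unfold qCoeff
  have h : ((c • f : FN N) : LaurentSeries Kbar)
      = HahnSeries.single 0 c * (f : LaurentSeries Kbar) := by
    rw [Algebra.smul_def, MulMemClass.coe_mul, ← algebraMap_laurentSeries_eq_single]
    rfl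
  rw [h, HahnSeries.coeff_single_zero_mul]

omit [NeZero N] in
theorem qCoeff_zero (m : ℕ) : qCoeff m (0 : FN N) = 0 := by
  unfold qCoeff
  rw [ZeroMemClass.coe_zero, HahnSeries.coeff_zero]

omit [NeZero N] in
theorem qCoeff_sum {ι : Type*} (s : Finset ι) (m : ℕ) (f : ι → FN N) :
    qCoeff m (∑ i ∈ s, f i) = ∑ i ∈ s, qCoeff m (f i) := by
  classical
  induction s using Finset.induction_on with
  | empty => simp [qCoeff_zero]
  | insert i s hi ih => rw [Finset.sum_insert hi, Finset.sum_insert hi, qCoeff_add, ih]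

/-- The `q`-order of a function of `L(m∞)`. -/
theorem neg_le_order_of_mem {m : ℕ} {f : FN N} (hf : f ∈ L (mInf N m)) (hf0 : f ≠ 0) :
    -(m : ℤ) ≤ (f : LaurentSeries Kbar).order := by
  have h := neg_le_ord_of_mem hf hf0 (cuspInf N)
  rwa [mInf_apply_cusp, ord_cuspInf N f hf0] at h

theorem mem_L_mInf_of_order {m : ℕ} {f : FN N} (hreg : ∀ v : Place Kbar (FN N), v ≠ cuspInf N →
    0 ≤ v.ord f) (hf0 : f ≠ 0) (h : -(m : ℤ) ≤ (f : LaurentSeries Kbar).order) :
    f ∈ L (mInf N m) := by
  apply mem_L_of_neg_le_ord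
  intro v
  by_cases hv : v = cuspInf N
  · rw [hv, mInf_apply_cusp, ord_cuspInf N f hf0]
    exact h
  · rw [mInf_apply_of_ne m hv]
    have := hreg v hv
    omega

/-- The leading form of the level `m`. -/
def leadForm (m : ℕ) : L (mInf N m) →ₗ[Kbar] Kbar where
  toFun f := qCoeff m f.1
  map_add' f g := qCoeff_add m f.1 g.1
  map_smul' c f := by
    rw [RingHom.id_apply, smul_eq_mul]
    exact qCoeff_smul m c f.1

@[simp] theorem leadForm_apply (m : ℕ) (f : L (mInf N m)) : leadForm m f = qCoeff m f.1 := rfl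

/-- Multiplicativity of the leading coefficients. -/
theorem qCoeff_mul {m k : ℕ} {f g : FN N} (hf : f ∈ L (mInf N m)) (hg : g ∈ L (mInf N k)) :
    qCoeff (m + k) (f * g) = qCoeff m f * qCoeff k g := by
  classical
  by_cases hf0 : f = 0
  · rw [hf0, zero_mul, qCoeff_zero, qCoeff_zero, zero_mul]
  by_cases hg0 : g = 0
  · rw [hg0, mul_zero, qCoeff_zero, qCoeff_zero, mul_zero]
  have h1 := neg_le_order_of_mem hf hf0
  have h2 := neg_le_order_of_mem hg hg0
  unfold qCoeff
  rw [MulMemClass.coe_mul, HahnSeries.coeff_mul]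
  rw [Finset.sum_eq_single (-(m : ℤ), -(k : ℤ))]
  · rintro ⟨i, j⟩ hij hne
    rw [Finset.mem_antidiagonal] at hij
    obtain ⟨hi, hj, hsum⟩ := hij
    exfalso
    have hi' : (f : LaurentSeries Kbar).order ≤ i := HahnSeries.order_le_of_coeff_ne_zero hi
    have hj' : (g : LaurentSeries Kbar).order ≤ j := HahnSeries.order_le_of_coeff_ne_zero hj
    simp only at hsum
    push_cast at hsum
    apply hne
    have e1 : i = -(m : ℤ) := by omega
    have e2 : j = -(k : ℤ) := by omega
    rw [e1, e2]
  · intro hnot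
    rw [Finset.mem_antidiagonal] at hnot
    by_contra hcon
    apply hnot
    refine ⟨?_, ?_, ?_⟩
    · intro h0
      apply hcon
      simp only at h0 ⊢
      rw [h0, zero_mul]
    · intro h0
      apply hcon
      simp only at h0 ⊢
      rw [h0, mul_zero]
    · simp only
      push_cast
      ring

/-- The `q^(-m)`-coefficients of the basis functions. -/
theorem qCoeff_eFun (m : ℕ) (i : Fin (nLev N m)) :
    qCoeff m (eFun N i) = if (ratCtxMod N).poleOrd i = m then 1 else 0 := by
  have hi : (i : ℕ) < (ratCtxMod N).ratDim m := i.2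
  have h0 : eFun N i ≠ 0 := (ratCtxMod N).ratSeq_ne_zero hi
  have hord : (cuspInf N).ord (eFun N i) = -((ratCtxMod N).poleOrd i : ℤ) :=
    (ratCtxMod N).ord_ratSeq hi
  rw [ord_cuspInf N _ h0] at hord
  have hlc : ((eFun N i : FN N) : LaurentSeries Kbar).leadingCoeff = 1 :=
    (ratCtxMod N).lc_ratSeq hi
  have hle := (ratCtxMod N).poleOrd_le hi
  unfold qCoeff
  split_ifs with h
  · rw [HahnSeries.leadingCoeff_eq, hord, h] at hlc
    exact hlc
  · apply HahnSeries.coeff_eq_zero_of_lt_order
    rw [hord]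
    have : (ratCtxMod N).poleOrd i < m := lt_of_le_of_ne hle h
    omega

theorem formVec_leadForm (m : ℕ) : formVec (eLev N m) (leadForm m) = castV (leadVec N m) := by
  funext i
  unfold formVec castV leadVec
  rw [leadForm_apply, eLev_apply, qCoeff_eFun]
  split_ifs <;> simp

/-- The leading form in coordinates. -/
theorem leadVec_dotProduct (m : ℕ) (x : Fin (nLev N m) → Kbar) :
    castV (leadVec N m) ⬝ᵥ x = qCoeff m (coordMap (eLev N m) x) := by
  rw [← formVec_leadForm, formVec_dotProduct, leadForm_apply]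
  rfl

/-- **Multiplicativity of the leading forms in coordinates** (input of `la_lead`). -/
theorem leadVec_mul (m k : ℕ) (h : L (mInf N m) * L (mInf N k) ≤ L (mInf N (m + k)))
    (x : Fin (nLev N m) → Kbar) (y : Fin (nLev N k) → Kbar) :
    castV (leadVec N (m + k)) ⬝ᵥ
        prodVec (structConst (eLev N m) (eLev N k) (eLev N (m + k)) h) x y
      = (castV (leadVec N m) ⬝ᵥ x) * (castV (leadVec N k) ⬝ᵥ y) := by
  rw [leadVec_dotProduct, leadVec_dotProduct, leadVec_dotProduct, coordMap_prodVec]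
  exact qCoeff_mul (coordMap_mem _ x) (coordMap_mem _ y)

theorem L_mInf_mul_le (m k : ℕ) : L (mInf N m) * L (mInf N k) ≤ L (mInf N (m + k)) := by
  rw [Submodule.mul_le]
  intro f hf g hg
  have h := mul_mem_L_add hf hg
  have h2 : mInf N m + mInf N k = mInf N (m + k) := by
    show (ratCtxMod N).kP _ + (ratCtxMod N).kP _ = (ratCtxMod N).kP _
    unfold RatCtx.kP
    rw [← Finsupp.single_add]
    push_cast
    rfl
  rwa [h2] at h

/-- The kernel of the leading form on `L((m+1)∞)` is `L(m∞)`. -/
theorem qCoeff_eq_zero_iff {m : ℕ} {f : FN N} (hf : f ∈ L (mInf N (m + 1))) :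
    qCoeff (m + 1) f = 0 ↔ f ∈ L (mInf N m) := by
  by_cases hf0 : f = 0
  · rw [hf0, qCoeff_zero]
    simp
  have h1 := neg_le_order_of_mem hf hf0
  have hsub : mInf N (m + 1) - Finsupp.single (cuspInf N) 1 = mInf N m := by
    have := (ratCtxMod N).kP_sub_single (((m + 1 : ℕ)) : ℤ)
    rw [ratCtxMod_P] at this
    rw [this]
    congr 1
    push_cast
    ring
  have h2 := mem_L_sub_single_iff hf hf0 (cuspInf N)
  rw [hsub, mInf_apply_cusp, ord_cuspInf N f hf0] at h2
  rw [h2]
  unfold qCoeff
  constructor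
  · intro h hord
    rw [← hord] at h
    exact hf0 (Subtype.ext (HahnSeries.coeff_order_eq_zero.mp h))
  · intro h
    apply HahnSeries.coeff_eq_zero_of_lt_order
    omega

end Fermat.Agent.S17.H35
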