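import Fermat.Agent.S17.Height.H16_MaxMinor
import Mathlib.LinearAlgebra.Span.Basic

/-!
# S17, part H: the norm of a linear form on a subspace, and the distance to its kernel (helper16)

`opNorm v e W = sup_{f ∈ W} |e ⬝ f|_v / |f|_v` for a vector `e` (a linear form via the dot
product) and a subspace `W` of `K^ι`, with respect to the sup-norm.

* `le_opNorm`, `opNorm_le`, `opNorm_mono`;
* `opNorm_mul_supNorm_sub_ge` / `exists_opNorm_mul_supNorm_le`: the distance of `w` to the kernel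
  of `e` on `span (B, w)` is `|e ⬝ w| / opNorm`;
* `maxMinor_consRow_opNorm_le`, `maxMinor_mul_abv_le`: the primal step
  `maxMinor (w :: B) * opNorm e (span (w :: B)) ≍ maxMinor B * |e ⬝ w|` when `e` kills the rows
  of `B`.
-/

set_option autoImplicit false

open Matrix

namespace Fermat.Agent.S17.H16

open Fermat.Agent.S17.H71

variable {K : Type*} [Field K] {ι : Type*} [Fintype ι]

/-- The dot product is bounded by the sup-norms. -/
theorem abv_dotProduct_le (v : AbsoluteValue K ℝ) (e f : ι → K) :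
    v (e ⬝ᵥ f) ≤ (LocConst.card K (Fintype.card ι)).C v * (supNorm v e * supNorm v f) := by
  unfold dotProduct
  refine abv_sum_univ_le_card v _ _ (mul_nonneg (supNorm_nonneg v e) (supNorm_nonneg v f))
    fun i => ?_
  rw [v.map_mul]
  exact mul_le_mul (le_supNorm v e i) (le_supNorm v f i) (v.nonneg _) (supNorm_nonneg v e)

/-- The norm of the linear form `e ⬝ ·` restricted to the subspace `W`. -/
noncomputable def opNorm (v : AbsoluteValue K ℝ) (e : ι → K) (W : Submodule K (ι → K)) : ℝ :=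
  ⨆ f : W, v (e ⬝ᵥ (f : ι → K)) / supNorm v (f : ι → K)

theorem opNorm_bddAbove (v : AbsoluteValue K ℝ) (e : ι → K) (W : Submodule K (ι → K)) :
    BddAbove (Set.range fun f : W => v (e ⬝ᵥ (f : ι → K)) / supNorm v (f : ι → K)) := by
  refine ⟨(LocConst.card K (Fintype.card ι)).C v * supNorm v e, ?_⟩
  rintro _ ⟨f, rfl⟩
  show v (e ⬝ᵥ (f : ι → K)) / supNorm v (f : ι → K) ≤ _
  rcases (supNorm_nonneg v (f : ι → K)).eq_or_lt with h0 | hpos
  · rw [← h0, div_zero]
    exact mul_nonneg ((LocConst.card K (Fintype.card ι)).pos v).le (supNorm_nonneg v e)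
  · rw [div_le_iff₀ hpos, mul_assoc]
    exact abv_dotProduct_le v e _

theorem opNorm_nonneg (v : AbsoluteValue K ℝ) (e : ι → K) (W : Submodule K (ι → K)) :
    0 ≤ opNorm v e W :=
  Real.iSup_nonneg fun _ => div_nonneg (v.nonneg _) (supNorm_nonneg v _)

theorem le_opNorm (v : AbsoluteValue K ℝ) (e : ι → K) (W : Submodule K (ι → K)) {f : ι → K}
    (hf : f ∈ W) : v (e ⬝ᵥ f) ≤ opNorm v e W * supNorm v f := by
  rcases (supNorm_nonneg v f).eq_or_lt with h0 | hpos
  · have : f = 0 := (supNorm_eq_zero_iff v f).mp h0.symm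
    subst this
    simp [← h0]
  · rw [← div_le_iff₀ hpos]
    exact le_ciSup (opNorm_bddAbove v e W) (⟨f, hf⟩ : W)

theorem opNorm_le (v : AbsoluteValue K ℝ) (e : ι → K) (W : Submodule K (ι → K)) {t : ℝ}
    (ht : 0 ≤ t) (h : ∀ f ∈ W, v (e ⬝ᵥ f) ≤ t * supNorm v f) : opNorm v e W ≤ t := by
  refine Real.iSup_le (fun f => ?_) ht
  rcases (supNorm_nonneg v (f : ι → K)).eq_or_lt with h0 | hpos
  · rw [← h0, div_zero]
    exact ht
  · rw [div_le_iff₀ hpos]
    exact h _ f.2

theorem opNorm_mono (v : AbsoluteValue K ℝ) (e : ι → K) {W W' : Submodule K (ι → K)}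
    (h : W ≤ W') : opNorm v e W ≤ opNorm v e W' :=
  opNorm_le v e W (opNorm_nonneg v e W') fun _ hf => le_opNorm v e W' (h hf)

theorem opNorm_pos (v : AbsoluteValue K ℝ) (e : ι → K) (W : Submodule K (ι → K)) {f : ι → K}
    (hf : f ∈ W) (hef : e ⬝ᵥ f ≠ 0) : 0 < opNorm v e W := by
  have h1 := le_opNorm v e W hf
  have h2 : 0 < v (e ⬝ᵥ f) := v.pos hef
  by_contra hne
  have h3 : opNorm v e W = 0 := le_antisymm (not_lt.mp hne) (opNorm_nonneg v e W)
  rw [h3, zero_mul] at h1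
  exact (h2.trans_le h1).false

/-- On the top space, the norm of `e ⬝ ·` is comparable to the sup-norm of `e`. -/
theorem supNorm_le_opNorm_top [DecidableEq ι] (v : AbsoluteValue K ℝ) (e : ι → K) :
    supNorm v e ≤ opNorm v e ⊤ := by
  refine supNorm_le v e (opNorm_nonneg v e ⊤) fun i => ?_
  have h := le_opNorm v e ⊤ (f := Pi.single i 1) Submodule.mem_top
  have h1 : e ⬝ᵥ (Pi.single i (1 : K)) = e i := by simp
  have h2 : supNorm v (Pi.single i (1 : K) : ι → K) ≤ 1 :=
    supNorm_le v _ zero_le_one fun j => by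
      by_cases hj : j = i
      · subst hj; simp
      · simp [Pi.single_eq_of_ne hj]
  rw [h1] at h
  calc v (e i) ≤ opNorm v e ⊤ * supNorm v (Pi.single i (1 : K) : ι → K) := h
    _ ≤ opNorm v e ⊤ * 1 := mul_le_mul_of_nonneg_left h2 (opNorm_nonneg v e ⊤)
    _ = opNorm v e ⊤ := mul_one _

theorem opNorm_top_le (v : AbsoluteValue K ℝ) (e : ι → K) :
    opNorm v e ⊤ ≤ (LocConst.card K (Fintype.card ι)).C v * supNorm v e :=
  opNorm_le v e ⊤ (mul_nonneg ((LocConst.card K (Fintype.card ι)).pos v).le (supNorm_nonneg v e))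
    fun f _ => by
      rw [mul_assoc]
      exact abv_dotProduct_le v e f

section Step

variable [DecidableEq ι] {r : ℕ}

/-- The row space of a matrix. -/
def rowSpan (B : Matrix (Fin r) ι K) : Submodule K (ι → K) :=
  Submodule.span K (Set.range fun i : Fin r => B i)

theorem row_mem_rowSpan (B : Matrix (Fin r) ι K) (i : Fin r) : B i ∈ rowSpan B :=
  Submodule.subset_span ⟨i, rfl⟩

theorem vecMul_mem_rowSpan (B : Matrix (Fin r) ι K) (c : Fin r → K) : c ᵥ* B ∈ rowSpan B := by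
  have : c ᵥ* B = ∑ i, c i • B i := by
    funext j
    simp [Matrix.vecMul, dotProduct, Finset.sum_apply]
  rw [this]
  exact Submodule.sum_mem _ fun i _ => Submodule.smul_mem _ _ (row_mem_rowSpan B i)

theorem mem_rowSpan_iff (B : Matrix (Fin r) ι K) (f : ι → K) :
    f ∈ rowSpan B ↔ ∃ c : Fin r → K, f = c ᵥ* B := by
  constructor
  · intro hf
    unfold rowSpan at hf
    rw [Submodule.mem_span_range_iff_exists_fun] at hf
    obtain ⟨c, hc⟩ := hf
    refine ⟨c, ?_⟩
    rw [← hc]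
    funext j
    simp [Matrix.vecMul, dotProduct, Finset.sum_apply]
  · rintro ⟨c, rfl⟩
    exact vecMul_mem_rowSpan B c

theorem rowSpan_le_consRow (w : ι → K) (B : Matrix (Fin r) ι K) :
    rowSpan B ≤ rowSpan (consRow w B) := by
  refine Submodule.span_le.mpr ?_
  rintro _ ⟨i, rfl⟩
  exact row_mem_rowSpan (consRow w B) i.succ

theorem mem_rowSpan_consRow (w : ι → K) (B : Matrix (Fin r) ι K) : w ∈ rowSpan (consRow w B) :=
  row_mem_rowSpan (consRow w B) 0

theorem mem_rowSpan_consRow_iff (w : ι → K) (B : Matrix (Fin r) ι K) (f : ι → K) :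
    f ∈ rowSpan (consRow w B) ↔ ∃ (t : K) (c : Fin r → K), f = t • w + c ᵥ* B := by
  rw [mem_rowSpan_iff]
  constructor
  · rintro ⟨c, rfl⟩
    refine ⟨c 0, fun i => c i.succ, ?_⟩
    funext j
    simp [Matrix.vecMul, dotProduct, Fin.sum_univ_succ]
  · rintro ⟨t, c, rfl⟩
    refine ⟨Fin.cons t c, ?_⟩
    funext j
    simp [Matrix.vecMul, dotProduct, Fin.sum_univ_succ]

/-- If `e` kills the rows of `B`, it kills the row space. -/
theorem dotProduct_vecMul_eq_zero (e : ι → K) (B : Matrix (Fin r) ι K)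
    (he : ∀ i, e ⬝ᵥ B i = 0) (c : Fin r → K) : e ⬝ᵥ (c ᵥ* B) = 0 := by
  have : c ᵥ* B = ∑ i, c i • B i := by
    funext j
    simp [Matrix.vecMul, dotProduct, Finset.sum_apply]
  rw [this, dotProduct_sum]
  refine Finset.sum_eq_zero fun i _ => ?_
  rw [dotProduct_smul, he i, smul_zero]

/-- Distance to the kernel, first half: for every `c`, `|e ⬝ w| ≤ opNorm * |w - c B|`. -/
theorem abv_dotProduct_le_opNorm_mul (v : AbsoluteValue K ℝ) (e w : ι → K)
    (B : Matrix (Fin r) ι K) (he : ∀ i, e ⬝ᵥ B i = 0) (c : Fin r → K) :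
    v (e ⬝ᵥ w) ≤ opNorm v e (rowSpan (consRow w B)) * supNorm v (w - c ᵥ* B) := by
  have hmem : w - c ᵥ* B ∈ rowSpan (consRow w B) :=
    Submodule.sub_mem _ (mem_rowSpan_consRow w B)
      (rowSpan_le_consRow w B (vecMul_mem_rowSpan B c))
  have h := le_opNorm v e _ hmem
  rwa [dotProduct_sub, dotProduct_vecMul_eq_zero e B he c, sub_zero] at h

/-- Distance to the kernel, second half: `opNorm * |w - c B| ≤ C |e ⬝ w|` as soon as `w - c B`
is (almost) a closest point: it suffices that `|w - c B| ≤ κ |w - c' B|` for all `c'`. -/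
theorem opNorm_mul_supNorm_le (v : AbsoluteValue K ℝ) (e w : ι → K)
    (B : Matrix (Fin r) ι K) (he : ∀ i, e ⬝ᵥ B i = 0) (c : Fin r → K) (κ : ℝ) (hκ : 0 ≤ κ)
    (hmin : ∀ c' : Fin r → K, supNorm v (w - c ᵥ* B) ≤ κ * supNorm v (w - c' ᵥ* B)) :
    opNorm v e (rowSpan (consRow w B)) * supNorm v (w - c ᵥ* B) ≤ κ * v (e ⬝ᵥ w) := by
  have hd := supNorm_nonneg v (w - c ᵥ* B)
  rcases hd.eq_or_lt with h0 | hpos
  · rw [← h0, mul_zero]
    exact mul_nonneg hκ (v.nonneg _)
  rw [← le_div_iff₀ hpos]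
  refine opNorm_le v e _ (div_nonneg (mul_nonneg hκ (v.nonneg _)) hd) fun f hf => ?_
  obtain ⟨t, c₁, rfl⟩ := (mem_rowSpan_consRow_iff w B f).mp hf
  rw [dotProduct_add, dotProduct_smul, dotProduct_vecMul_eq_zero e B he c₁, add_zero,
    smul_eq_mul, v.map_mul]
  by_cases ht : t = 0
  · subst ht
    rw [map_zero, zero_mul]
    exact mul_nonneg (div_nonneg (mul_nonneg hκ (v.nonneg _)) hd) (supNorm_nonneg v _)
  -- `t • w + c₁ B = t • (w - c' B)` with `c' = -t⁻¹ c₁`
  have hf' : t • w + c₁ ᵥ* B = t • (w - (-(t⁻¹ • c₁)) ᵥ* B) := by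
    rw [Matrix.neg_vecMul, sub_neg_eq_add, smul_add, Matrix.smul_vecMul, smul_smul,
      mul_inv_cancel₀ ht, one_smul]
  rw [hf', supNorm_smul]
  have h1 := hmin (-(t⁻¹ • c₁))
  have h2 : 0 ≤ supNorm v (w - (-(t⁻¹ • c₁)) ᵥ* B) := supNorm_nonneg v _
  rw [div_mul_eq_mul_div, le_div_iff₀ hpos]
  calc v t * v (e ⬝ᵥ w) * supNorm v (w - c ᵥ* B)
      ≤ v t * v (e ⬝ᵥ w) * (κ * supNorm v (w - (-(t⁻¹ • c₁)) ᵥ* B)) :=
        mul_le_mul_of_nonneg_left h1 (mul_nonneg (v.nonneg _) (v.nonneg _))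
    _ = κ * v (e ⬝ᵥ w) * (v t * supNorm v (w - (-(t⁻¹ • c₁)) ᵥ* B)) := by ring

/-- **Primal step, upper bound**: `maxMinor (w :: B) * opNorm ≤ C * maxMinor B * |e ⬝ w|`. -/
theorem maxMinor_consRow_mul_opNorm_le (v : AbsoluteValue K ℝ) (e w : ι → K)
    (B : Matrix (Fin r) ι K) (he : ∀ i, e ⬝ᵥ B i = 0) (hB : 0 < maxMinor v B) :
    maxMinor v (consRow w B) * opNorm v e (rowSpan (consRow w B)) ≤
      ((LocConst.card K (r + 1)).C v) ^ 2 * (maxMinor v B * v (e ⬝ᵥ w)) := by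
  set C := (LocConst.card K (r + 1)).C v with hC
  have hCpos : 0 < C := (LocConst.card K (r + 1)).pos v
  obtain ⟨c, hc⟩ := exists_maxMinor_mul_supNorm_le v w B hB
  -- `w - c B` is almost a closest point
  have hmin : ∀ c' : Fin r → K, supNorm v (w - c ᵥ* B) ≤ C * supNorm v (w - c' ᵥ* B) := by
    intro c'
    have h1 := maxMinor_consRow_le_dist v w B c'
    have h2 : maxMinor v B * supNorm v (w - c ᵥ* B) ≤
        maxMinor v B * (C * supNorm v (w - c' ᵥ* B)) := by
      calc maxMinor v B * supNorm v (w - c ᵥ* B) ≤ maxMinor v (consRow w B) := hc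
        _ ≤ C * (supNorm v (w - c' ᵥ* B) * maxMinor v B) := h1
        _ = maxMinor v B * (C * supNorm v (w - c' ᵥ* B)) := by ring
    exact le_of_mul_le_mul_left h2 hB
  have h3 := opNorm_mul_supNorm_le v e w B he c C hCpos.le hmin
  have h4 := maxMinor_consRow_le_dist v w B c
  calc maxMinor v (consRow w B) * opNorm v e (rowSpan (consRow w B))
      ≤ C * (supNorm v (w - c ᵥ* B) * maxMinor v B) * opNorm v e (rowSpan (consRow w B)) :=
        mul_le_mul_of_nonneg_right h4 (opNorm_nonneg v e _)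
    _ = C * maxMinor v B * (opNorm v e (rowSpan (consRow w B)) * supNorm v (w - c ᵥ* B)) := by
        ring
    _ ≤ C * maxMinor v B * (C * v (e ⬝ᵥ w)) :=
        mul_le_mul_of_nonneg_left h3 (mul_nonneg hCpos.le hB.le)
    _ = C ^ 2 * (maxMinor v B * v (e ⬝ᵥ w)) := by ring

/-- **Primal step, lower bound**: `maxMinor B * |e ⬝ w| ≤ maxMinor (w :: B) * opNorm`. -/
theorem maxMinor_mul_abv_le (v : AbsoluteValue K ℝ) (e w : ι → K)
    (B : Matrix (Fin r) ι K) (he : ∀ i, e ⬝ᵥ B i = 0) (hB : 0 < maxMinor v B) :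
    maxMinor v B * v (e ⬝ᵥ w) ≤
      maxMinor v (consRow w B) * opNorm v e (rowSpan (consRow w B)) := by
  obtain ⟨c, hc⟩ := exists_maxMinor_mul_supNorm_le v w B hB
  have h1 := abv_dotProduct_le_opNorm_mul v e w B he c
  calc maxMinor v B * v (e ⬝ᵥ w)
      ≤ maxMinor v B * (opNorm v e (rowSpan (consRow w B)) * supNorm v (w - c ᵥ* B)) :=
        mul_le_mul_of_nonneg_left h1 hB.le
    _ = maxMinor v B * supNorm v (w - c ᵥ* B) * opNorm v e (rowSpan (consRow w B)) := by ring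
    _ ≤ maxMinor v (consRow w B) * opNorm v e (rowSpan (consRow w B)) :=
        mul_le_mul_of_nonneg_right hc (opNorm_nonneg v e _)

end Step

end Fermat.Agent.S17.H16
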