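import Fermat.Agent.S17.Height.H35_AbsVal
import Fermat.Agent.S17.Height.H16_OpNorm

/-!
# S17, part H (heights): the adelic calculus (helper16)

* `Adl`: positive functions on the places of `ℚ` which are `1` at almost all places, with the
  height `Adl.ht a = ∑_w log a_w`; products, inverses, powers.
* `Adl.ofLoc L` (a family of local constants), `Adl.ofAbs c` (`w ↦ |c|_w`, of height `0` if a power
  of `c` is rational), `Adl.ofSup x` (`w ↦ max_j |x_j|_w`).
* `Adl.ht_le_of_le`, `Adl.abs_ht_sub_le`: the local-global principle.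
* `PhiQ B`: the covolume height of a rational matrix `B` of full rank;
  `locPhi_eq_of_rowSpan_eq`: it depends only on the row space.
-/

set_option autoImplicit false

open Matrix

namespace Fermat.Agent.S17.H16

open Fermat.Agent.S17.H35 Fermat.Agent.S17.H71

/-- A positive function on the places of `ℚ`, equal to `1` at almost all places. -/
structure Adl where
  /-- the local values -/
  f : PlaceQ → ℝ
  pos : ∀ w, 0 < f w
  fin : {w : PlaceQ | f w ≠ 1}.Finite

namespace Adl

/-- The height. -/
noncomputable def ht (a : Adl) : ℝ := ∑ᶠ w : PlaceQ, Real.log (a.f w)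

theorem support_finite (a : Adl) :
    (Function.support fun w : PlaceQ => Real.log (a.f w)).Finite := by
  refine a.fin.subset fun w hw => ?_
  simp only [Function.mem_support] at hw
  simp only [Set.mem_setOf_eq]
  intro h
  apply hw
  rw [h, Real.log_one]

/-- The constant function `1`. -/
def one : Adl where
  f _ := 1
  pos _ := one_pos
  fin := by simp

/-- The product. -/
def mul (a b : Adl) : Adl where
  f w := a.f w * b.f w
  pos w := mul_pos (a.pos w) (b.pos w)
  fin := by
    refine (a.fin.union b.fin).subset fun w hw => ?_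
    simp only [Set.mem_setOf_eq] at hw
    by_contra hcon
    simp only [Set.mem_union, Set.mem_setOf_eq, not_or, not_not] at hcon
    apply hw
    rw [hcon.1, hcon.2, mul_one]

/-- The inverse. -/
noncomputable def inv (a : Adl) : Adl where
  f w := (a.f w)⁻¹
  pos w := inv_pos.2 (a.pos w)
  fin := by
    refine a.fin.subset fun w hw => ?_
    simp only [Set.mem_setOf_eq] at hw ⊢
    intro h
    apply hw
    rw [h, inv_one]

/-- The powers. -/
def pow (a : Adl) (n : ℕ) : Adl where
  f w := a.f w ^ n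
  pos w := pow_pos (a.pos w) n
  fin := by
    refine a.fin.subset fun w hw => ?_
    simp only [Set.mem_setOf_eq] at hw ⊢
    intro h
    apply hw
    rw [h, one_pow]

@[simp] theorem one_f (w : PlaceQ) : one.f w = 1 := rfl
@[simp] theorem mul_f (a b : Adl) (w : PlaceQ) : (a.mul b).f w = a.f w * b.f w := rfl
@[simp] theorem inv_f (a : Adl) (w : PlaceQ) : a.inv.f w = (a.f w)⁻¹ := rfl
@[simp] theorem pow_f (a : Adl) (n : ℕ) (w : PlaceQ) : (a.pow n).f w = a.f w ^ n := rfl

theorem ht_one : one.ht = 0 := by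
  unfold ht
  simp

theorem ht_mul (a b : Adl) : (a.mul b).ht = a.ht + b.ht := by
  unfold ht
  rw [← finsum_add_distrib a.support_finite b.support_finite]
  refine finsum_congr fun w => ?_
  rw [mul_f, Real.log_mul (a.pos w).ne' (b.pos w).ne']

theorem ht_inv (a : Adl) : a.inv.ht = -a.ht := by
  unfold ht
  rw [← finsum_neg_distrib]
  refine finsum_congr fun w => ?_
  rw [inv_f, Real.log_inv]

theorem ht_pow (a : Adl) (n : ℕ) : (a.pow n).ht = n * a.ht := by
  unfold ht
  rw [mul_finsum (fun w : PlaceQ => Real.log (a.f w)) (n : ℝ)]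
  refine finsum_congr fun w => ?_
  rw [pow_f, Real.log_pow]

/-- A family of local constants. -/
noncomputable def ofLoc (L : LocConst Qbar) : Adl where
  f w := L.C (absQ w)
  pos w := L.pos _
  fin := locConst_finite_ne_one L

@[simp] theorem ofLoc_f (L : LocConst Qbar) (w : PlaceQ) : (ofLoc L).f w = L.C (absQ w) := rfl

theorem ht_ofLoc (L : LocConst Qbar) : (ofLoc L).ht = locTotal L := rfl

/-- The absolute values of a nonzero algebraic number. -/
noncomputable def ofAbs (c : Qbar) (hc : c ≠ 0) : Adl where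
  f w := absQ w c
  pos w := (absQ w).pos hc
  fin := finite_absQ_ne_one hc

@[simp] theorem ofAbs_f (c : Qbar) (hc : c ≠ 0) (w : PlaceQ) : (ofAbs c hc).f w = absQ w c := rfl

theorem ht_ofAbs_of_pow (c : Qbar) (hc : c ≠ 0) {k : ℕ} (hk : k ≠ 0) {x : ℚ}
    (hx : c ^ k = (x : Qbar)) : (ofAbs c hc).ht = 0 := by
  have hx0 : x ≠ 0 := by
    rintro rfl
    rw [Rat.cast_zero] at hx
    exact hc (pow_eq_zero_iff hk |>.1 hx)
  exact finsum_log_absQ_eq_zero_of_pow hk hx0 hx

theorem ht_ofAbs_ratCast (x : ℚ) (hx : (x : Qbar) ≠ 0) : (ofAbs (x : Qbar) hx).ht = 0 :=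
  ht_ofAbs_of_pow _ hx one_ne_zero (pow_one _)

/-- The maximum of the absolute values of finitely many algebraic numbers, not all zero. -/
noncomputable def ofSup {σ : Type*} [Finite σ] (x : σ → Qbar) (hx : ∃ j, x j ≠ 0) : Adl where
  f w := ⨆ j, absQ w (x j)
  pos w := by
    obtain ⟨j, hj⟩ := hx
    exact lt_of_lt_of_le ((absQ w).pos hj)
      (le_ciSup (f := fun j => absQ w (x j)) (Set.finite_range _).bddAbove j)
  fin := by
    classical
    haveI := Fintype.ofFinite σ
    obtain ⟨j₀, hj₀⟩ := hx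
    have h1 : {w : PlaceQ | ∃ j, x j ≠ 0 ∧ absQ w (x j) ≠ 1}.Finite := by
      have : {w : PlaceQ | ∃ j, x j ≠ 0 ∧ absQ w (x j) ≠ 1} =
          ⋃ j ∈ (Finset.univ.filter fun j => x j ≠ 0), {w : PlaceQ | absQ w (x j) ≠ 1} := by
        ext w
        simp
      rw [this]
      exact Finset.finite_toSet _ |>.biUnion fun j hj =>
        finite_absQ_ne_one (by simpa using hj)
    refine h1.subset fun w hw => ?_
    simp only [Set.mem_setOf_eq] at hw ⊢
    by_contra hcon
    push Not at hcon
    apply hw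
    haveI : Nonempty σ := ⟨j₀⟩
    refine le_antisymm (ciSup_le fun j => ?_) ?_
    · by_cases hj : x j = 0
      · rw [hj, map_zero]
        exact zero_le_one
      · exact (hcon j hj).le
    · rw [← hcon j₀ hj₀]
      exact le_ciSup (Set.finite_range fun j => absQ w (x j)).bddAbove j₀

@[simp] theorem ofSup_f {σ : Type*} [Finite σ] (x : σ → Qbar) (hx : ∃ j, x j ≠ 0) (w : PlaceQ) :
    (ofSup x hx).f w = ⨆ j, absQ w (x j) := rfl

/-- The local-global principle, one direction. -/
theorem ht_le_of_le (a b : Adl) (L : LocConst Qbar)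
    (h : ∀ w, a.f w ≤ L.C (absQ w) * b.f w) : a.ht ≤ b.ht + locTotal L := by
  rw [← ht_ofLoc, ← ht_mul]
  unfold ht
  refine finsum_le_finsum' a.support_finite (b.mul (ofLoc L)).support_finite fun w => ?_
  refine Real.log_le_log (a.pos w) ?_
  rw [mul_f, ofLoc_f, mul_comm]
  exact h w

/-- The local-global principle. -/
theorem abs_ht_sub_le (a b : Adl) (L : LocConst Qbar)
    (h₁ : ∀ w, a.f w ≤ L.C (absQ w) * b.f w) (h₂ : ∀ w, b.f w ≤ L.C (absQ w) * a.f w) :
    |a.ht - b.ht| ≤ locTotal L := by
  have e1 := ht_le_of_le a b L h₁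
  have e2 := ht_le_of_le b a L h₂
  rw [abs_le]
  constructor <;> linarith

end Adl

theorem locTotal_mul (L M : LocConst Qbar) : locTotal (L.mul M) = locTotal L + locTotal M := by
  rw [← Adl.ht_ofLoc, ← Adl.ht_ofLoc, ← Adl.ht_ofLoc, ← Adl.ht_mul]
  rfl

theorem locTotal_pow (L : LocConst Qbar) (n : ℕ) : locTotal (L.pow n) = n * locTotal L := by
  rw [← Adl.ht_ofLoc, ← Adl.ht_ofLoc, ← Adl.ht_pow]
  rfl

section Mat

variable {ι : Type*} [Fintype ι] [DecidableEq ι] {r : ℕ}

/-- A rational matrix as a matrix over `ℚ̄`. -/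
noncomputable def castM (B : Matrix (Fin r) ι ℚ) : Matrix (Fin r) ι Qbar := B.map (algebraMap ℚ Qbar)

/-- A rational vector as a vector over `ℚ̄`. -/
noncomputable def castV (u : ι → ℚ) : ι → Qbar := fun i => algebraMap ℚ Qbar (u i)

/-- Full rank: some maximal minor is nonzero. -/
def FullRank (B : Matrix (Fin r) ι ℚ) : Prop := ∃ J : Fin r → ι, (B.submatrix id J).det ≠ 0

theorem det_castM_submatrix (B : Matrix (Fin r) ι ℚ) (J : Fin r → ι) :
    ((castM B).submatrix id J).det = algebraMap ℚ Qbar (B.submatrix id J).det := by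
  unfold castM
  rw [RingHom.map_det]
  rfl

theorem FullRank.exists_cast {B : Matrix (Fin r) ι ℚ} (hB : FullRank B) :
    ∃ J : Fin r → ι, ((castM B).submatrix id J).det ≠ 0 := by
  obtain ⟨J, hJ⟩ := hB
  refine ⟨J, ?_⟩
  rw [det_castM_submatrix]
  exact (map_ne_zero _).2 hJ

/-- The local covolumes of a rational matrix of full rank. -/
noncomputable def Adl.ofMat (B : Matrix (Fin r) ι ℚ) (hB : FullRank B) : Adl :=
  Adl.ofSup (fun J : Fin r → ι => ((castM B).submatrix id J).det) hB.exists_cast

theorem Adl.ofMat_f (B : Matrix (Fin r) ι ℚ) (hB : FullRank B) (w : PlaceQ) :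
    (Adl.ofMat B hB).f w = maxMinor (absQ w) (castM B) := rfl

/-- The covolume height of a rational matrix. -/
noncomputable def PhiQ (B : Matrix (Fin r) ι ℚ) : ℝ :=
  ∑ᶠ w : PlaceQ, Real.log (maxMinor (absQ w) (castM B))

theorem Adl.ht_ofMat (B : Matrix (Fin r) ι ℚ) (hB : FullRank B) :
    (Adl.ofMat B hB).ht = PhiQ B := rfl

theorem maxMinor_castM_pos (B : Matrix (Fin r) ι ℚ) (hB : FullRank B) (w : PlaceQ) :
    0 < maxMinor (absQ w) (castM B) :=
  (Adl.ofMat B hB).pos w

/-- The local heights of a nonzero rational vector. -/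
noncomputable def Adl.ofVec (u : ι → ℚ) (hu : u ≠ 0) : Adl :=
  Adl.ofSup (castV u) (by
    by_contra hcon
    push Not at hcon
    apply hu
    funext i
    have := hcon i
    unfold castV at this
    exact (map_eq_zero _).1 this)

theorem Adl.ofVec_f (u : ι → ℚ) (hu : u ≠ 0) (w : PlaceQ) :
    (Adl.ofVec u hu).f w = supNorm (absQ w) (castV u) := rfl

/-- The height of a rational vector. -/
noncomputable def hgtQ (u : ι → ℚ) : ℝ := ∑ᶠ w : PlaceQ, Real.log (supNorm (absQ w) (castV u))

theorem Adl.ht_ofVec (u : ι → ℚ) (hu : u ≠ 0) : (Adl.ofVec u hu).ht = hgtQ u := rfl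

theorem castM_mul (T : Matrix (Fin r) (Fin r) ℚ) (B : Matrix (Fin r) ι ℚ) :
    castM (T * B) = (T.map (algebraMap ℚ Qbar)) * castM B := by
  unfold castM
  rw [Matrix.map_mul]

/-- Change of basis by a rational matrix. -/
theorem maxMinor_castM_mul (T : Matrix (Fin r) (Fin r) ℚ) (B : Matrix (Fin r) ι ℚ) (w : PlaceQ) :
    maxMinor (absQ w) (castM (T * B)) =
      absQ w ((T.det : ℚ) : Qbar) * maxMinor (absQ w) (castM B) := by
  rw [castM_mul, maxMinor_mul_left]
  congr 2
  have := RingHom.map_det (algebraMap ℚ Qbar) T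
  rw [← RingHom.mapMatrix_apply] 
  exact this.symm

end Mat

end Fermat.Agent.S17.H16
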