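import Fermat.Agent.S17.Height.H35_Pencil

/-!
# S17 part H, leaf (F2) (helper35): multiplication by a function on Riemann-Roch spaces

For `ψ ≠ 0` with divisor `E` (`E v = v.ord ψ`): `ψ · L(D) = L(D - E)`.
With `D = m∞ - A` and `ψ ∈ L(k∞)`, `Z(ψ) = E + k∞ ≥ 0`, this is
`ψ · L(m∞ - A) = L((m + k)∞ - A - Z(ψ))`.
-/

set_option autoImplicit false

noncomputable section

open AlgebraicCurve WithZero

namespace Fermat.Agent.S17.H35

open Fermat.Agent.RED.H42

variable {K F : Type*} [Field K] [Field F] [Algebra K F]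

local notation "L" => riemannRochSpace

/-- `f ∈ L(D) ↔ ψ f ∈ L(D - div ψ)`. -/
theorem mul_mem_L_sub_iff {ψ : F} (hψ : ψ ≠ 0) {E : Divisor K F}
    (hE : ∀ v : Place K F, E v = v.ord ψ) (D : Divisor K F) (f : F) :
    ψ * f ∈ L (D - E) ↔ f ∈ L D := by
  rw [mem_riemannRochSpace_iff, mem_riemannRochSpace_iff]
  refine forall_congr' fun v => ?_
  by_cases hf : f = 0
  · simp [hf]
  · have hψf : ψ * f ≠ 0 := mul_ne_zero hψ hf
    rw [or_iff_right hψf, or_iff_right hf, v.ord_mul hψ hf, Finsupp.sub_apply, hE v]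
    constructor <;> intro h <;> omega

/-- **(F2)** `ψ · L(D) = L(D - div ψ)`. -/
theorem map_mulLeft_L_eq {ψ : F} (hψ : ψ ≠ 0) {E : Divisor K F}
    (hE : ∀ v : Place K F, E v = v.ord ψ) (D : Divisor K F) :
    (L D).map (LinearMap.mulLeft K ψ) = L (D - E) := by
  ext g
  constructor
  · rintro ⟨f, hf, rfl⟩
    exact (mul_mem_L_sub_iff hψ hE D f).mpr hf
  · intro hg
    refine ⟨ψ⁻¹ * g, ?_, ?_⟩
    · have h1 : ψ * (ψ⁻¹ * g) = g := by field_simp
      have h2 : ψ * (ψ⁻¹ * g) ∈ L (D - E) := by rw [h1]; exact hg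
      exact (mul_mem_L_sub_iff hψ hE D _).mp h2
    · show ψ * (ψ⁻¹ * g) = g
      field_simp

/-- **(F2)**, concrete form: for `ψ ∈ L(k∞)` with zero divisor `Z` (`Z = div ψ + k∞`),
`ψ · L(m∞ - A) = L((m + k)∞ - A - Z)`. -/
theorem map_mulLeft_L_eq' {ψ : F} (hψ : ψ ≠ 0) (P : Place K F) (k m : ℤ) {Z : Divisor K F}
    (hZ : ∀ v : Place K F, Z v = v.ord ψ + (Finsupp.single P k : Divisor K F) v)
    (A : Divisor K F) :
    (L (Finsupp.single P m - A)).map (LinearMap.mulLeft K ψ)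
      = L (Finsupp.single P (m + k) - A - Z) := by
  have hE : ∀ v : Place K F, (Z - Finsupp.single P k : Divisor K F) v = v.ord ψ := by
    intro v
    rw [Finsupp.sub_apply, hZ v]
    ring
  rw [map_mulLeft_L_eq hψ hE]
  congr 1
  rw [Finsupp.single_add]
  abel

/-- The zero divisor of `ψ ∈ L(k∞)` exists, is effective and has degree `k`. -/
theorem exists_zeroDivisor (H : Hyp K F) {ψ : F} (hψ : ψ ≠ 0) (P : Place K F) (k : ℤ)
    (hmem : ψ ∈ L (Finsupp.single P k : Divisor K F)) :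
    ∃ Z : Divisor K F, 0 ≤ Z ∧ Divisor.degree Z = k ∧
      ∀ v : Place K F, Z v = v.ord ψ + (Finsupp.single P k : Divisor K F) v := by
  obtain ⟨E, hE, hE0⟩ := H.principal ψ hψ
  refine ⟨E + Finsupp.single P k, ?_, ?_, ?_⟩
  · rw [Finsupp.le_def]
    intro v
    have := neg_le_ord_of_mem hmem hψ v
    rw [Finsupp.add_apply, hE v]
    simp only [Finsupp.coe_zero, Pi.zero_apply]
    omega
  · rw [map_add, hE0, Divisor.degree_single, H.deg_one P]
    simp
  · intro v
    rw [Finsupp.add_apply, hE v]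

end Fermat.Agent.S17.H35
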