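import Fermat.Agent.S17.Height.H35_GeoH90
import Fermat.Agent.S17.Height.H35_F2
import Fermat.Agent.S17.Height.H16_Adelic

/-!
# S17 part H (helper35): the fields `vec_ne` and `W_mul` of the matrix system

* `coordMap_eLev`: `coordMap (eLev N m) x = ∑ i, x i • eFun N i`;
* `coordMap_vecMul_mulMat`: in coordinates, `mulMat m u` is the multiplication by `u`;
* `geo_vec_ne`, `geo_W_mul`.
-/

set_option autoImplicit false

noncomputable section

open ModularCurve AlgebraicCurve Matrix

namespace Fermat.Agent.S17.H35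

open Fermat.Agent.RED.H42 Fermat.Agent.S17 Fermat.Agent.RED.KD.H22 Fermat.Agent.S24
open Fermat.Agent.S17.H71 Fermat.Agent.S17.H16

local notation "L" => riemannRochSpace

variable {N : ℕ} [NeZero N]

theorem coordMap_eLev (m : ℕ) (x : Fin (nLev N m) → Kbar) :
    coordMap (eLev N m) x = ∑ i, x i • eFun N i := by
  rw [coordMap_apply]
  refine Finset.sum_congr rfl fun i _ => ?_
  rw [eLev_apply]

theorem eFun_mem (m : ℕ) (i : Fin (nLev N m)) : eFun N i ∈ L (mInf N m) := by
  rw [← eLev_apply]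
  exact (eLev N m i).2

/-- The coordinates of a rational function are not all zero. -/
theorem geo_vec_ne (u : Rv N) : vecR u ≠ 0 := by
  intro h
  have h1 := sum_ratCoord N (rvOrd u) (u.mem_L le_rfl) u.fixed
  unfold vecR at h
  rw [h] at h1
  simp only [Pi.zero_apply, map_zero, zero_smul, Finset.sum_const_zero] at h1
  exact u.ne_zero h1.symm

/-- The product of a basis function with `u` lies in the level `m + ord u`. -/
theorem eFun_mul_mem (m : ℕ) (u : Rv N) (i : Fin (nLev N m)) :
    eFun N i * u.1 ∈ L (mInf N (m + rvOrd u)) := by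
  have h := mul_mem_L_add (eFun_mem m i) (u.mem_L (le_refl (rvOrd u)))
  have h2 : mInf N m + (ratCtxMod N).kP ((rvOrd u : ℕ) : ℤ) = mInf N (m + rvOrd u) := by
    show (ratCtxMod N).kP _ + (ratCtxMod N).kP _ = (ratCtxMod N).kP _
    unfold RatCtx.kP
    rw [← Finsupp.single_add]
    push_cast
    rfl
  rwa [h2] at h

/-- In coordinates, `mulMat m u` is the multiplication by `u`. -/
theorem coordMap_vecMul_mulMat (m : ℕ) (u : Rv N) (x : Fin (nLev N m) → Kbar) :
    coordMap (eLev N (m + rvOrd u)) (x ᵥ* castM (mulMat m u)) = coordMap (eLev N m) x * u.1 := by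
  rw [coordMap_eLev, coordMap_eLev, Finset.sum_mul]
  have h1 : ∀ i : Fin (nLev N m), x i • eFun N i * u.1
      = ∑ j, (x i * algebraMap ℚ Kbar (mulMat m u i j)) • eFun N j := by
    intro i
    have h2 := sum_ratCoord N (m + rvOrd u) (eFun_mul_mem m u i)
      (mul_mem_fixedFun (eFun_fixed N i) u.fixed)
    rw [smul_mul_assoc, ← h2, Finset.smul_sum]
    refine Finset.sum_congr rfl fun j _ => ?_
    rw [smul_smul]
    rfl
  rw [Finset.sum_congr rfl fun i _ => h1 i, Finset.sum_comm]
  refine Finset.sum_congr rfl fun j _ => ?_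
  rw [← Finset.sum_smul]
  congr 1

/-- **F2** in the form needed here. -/
theorem mul_mem_L_iff (m : ℕ) (D : Dv N) (u : Rv N) (f : FN N) :
    f * u.1 ∈ L (mInf N (m + rvOrd u) - (D + rvZ u).1) ↔ f ∈ L (mInf N m - D.1) := by
  have hE : ∀ v : Place Kbar (FN N), u.div v = v.ord u.1 := u.div_apply
  have h := mul_mem_L_sub_iff u.ne_zero hE (mInf N m - D.1) f
  have h2 : mInf N m - D.1 - u.div = mInf N (m + rvOrd u) - (D + rvZ u).1 := by
    ext v
    simp only [Finsupp.sub_apply, Dv.coe_add, Finsupp.add_apply, rvZ_coe]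
    by_cases hv : v = cuspInf N
    · rw [hv, mInf_apply_cusp, mInf_apply_cusp, Rv.zdiv_apply_cusp, D.apply_cusp, u.div_apply]
      have := rvOrd_cast u
      push_cast
      omega
    · rw [mInf_apply_of_ne _ hv, mInf_apply_of_ne _ hv, Rv.zdiv_apply_of_ne _ hv, u.div_apply]
      ring
  rw [h2, mul_comm] at h
  exact h

/-- **W_mul**. -/
theorem geo_W_mul (m : ℕ) (D : Dv N) (u : Rv N) (y : Fin (nLev N (m + rvOrd u)) → Kbar) :
    y ∈ Wlev N (m + rvOrd u) (D + rvZ u) ↔ ∃ x ∈ Wlev N m D, x ᵥ* castM (mulMat m u) = y := by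
  constructor
  · intro hy
    unfold Wlev at hy
    rw [mem_coordSub] at hy
    set g := coordMap (eLev N (m + rvOrd u)) y with hg
    have hf : g * u.1⁻¹ ∈ L (mInf N m - D.1) := by
      rw [← mul_mem_L_iff m D u, inv_mul_cancel_right₀ u.ne_zero]
      exact hy
    have hfm : g * u.1⁻¹ ∈ L (mInf N m) := by
      refine L_mono ?_ hf
      rw [Finsupp.le_def]
      intro v
      rw [Finsupp.sub_apply]
      have := D.apply_nonneg v
      omega
    refine ⟨(eLev N m).equivFun ⟨g * u.1⁻¹, hfm⟩, ?_, ?_⟩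
    · unfold Wlev
      rw [mem_coordSub, coordMap_repr]
      exact hf
    · apply coordMap_injective (eLev N (m + rvOrd u))
      rw [coordMap_vecMul_mulMat, coordMap_repr]
      show g * u.1⁻¹ * u.1 = g
      rw [inv_mul_cancel_right₀ u.ne_zero]
  · rintro ⟨x, hx, rfl⟩
    unfold Wlev at hx ⊢
    rw [mem_coordSub] at hx ⊢
    rw [coordMap_vecMul_mulMat]
    exact (mul_mem_L_iff m D u _).2 hx

end Fermat.Agent.S17.H35
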