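import Fermat.Agent.S17.Height.H71_FinLead
import Fermat.Agent.S17.Height.H35_GeoH90
import Fermat.Agent.S17.Height.H35_GeoMul
import Fermat.Agent.S17.Height.H35_GeoLead

/-!
# S17 part H (helper71): assembly of the matrix system of the modular function field

`finMatSys N h : MatSys (JQ N) (Dv N) (Rv N) (Pt N)`, from the fields proved in
`H35_Geo*`, `H71_Fin*` and the remaining fields `h : FinPending N`.
-/

set_option autoImplicit false

noncomputable section

open ModularCurve AlgebraicCurve Matrix Module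

namespace Fermat.Agent.S17.H71F

open Fermat.Agent.RED.H42 Fermat.Agent.S17 Fermat.Agent.RED.KD.H22 Fermat.Agent.S24
open Fermat.Agent.S17.H71 Fermat.Agent.S17.H35 Fermat.Agent.S17.H16 Fermat.Agent.RED.H17

local notation "L" => riemannRochSpace

variable (N : ℕ) [NeZero N]

/-- The constant `c₀`. -/
def c0N : ℕ := (cRie N).toNat + genusN N + 1

/-- The degree `a₀` of the basic representatives. -/
def a0N : ℕ := c0N N + 1

/-- The basic level `m₀`. -/
def m0N : ℕ := 3 * a0N N + c0N N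

/-- The level `k₀` of the auxiliary functions. -/
def k0N : ℕ := m0N N + 1

/-- The top level. -/
def MtopN : ℕ := 8 * m0N N + 2 * k0N N + 4 * c0N N + 8

theorem cRie_le_c0N : cRie N + genusN N + 1 = c0N N := by
  unfold c0N
  push_cast
  rw [Int.toNat_of_nonneg (geoN N).c_nonneg]

/-- The fields of the matrix system which are not yet proved. -/
structure FinPending : Prop where
  move : ∀ (x : JQ N) (Ls : List (Dv N)), ∃ A : Dv N, DvRed A ∧ dvDeg N A = a0N N ∧
    dvCl N A = x ∧ ∀ B ∈ Ls, DvDisj A B ∧ DvDisj B A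
  W_rat : ∀ (m : ℕ) (D : Dv N), IsRatSub (Wlev N m D)
  W_dim : ∀ (m : ℕ) (D : Dv N), dvDeg N D + c0N N ≤ m → m ≤ MtopN N →
    finrank Qbar (Wlev N m D) + genusN N + dvDeg N D = m + 1
  W_zero : ∀ m : ℕ, Wlev N m 0 = ⊤
  inc_incR : ∀ m : ℕ, incMat N m * incRMat N m = 1
  W_inc : ∀ (m : ℕ) (D : Dv N), m + 1 ≤ MtopN N → ∀ y : Fin (nLev N (m + 1)) → Qbar,
    (y ∈ Wlev N (m + 1) D ∧ castV (leadVec N (m + 1)) ⬝ᵥ y = 0) ↔
      ∃ x ∈ Wlev N m D, x ᵥ* castM (incMat N m) = y
  vec₀_inj : ∀ f f' : Rv N, rvOrd f ≤ m0N N → rvOrd f' ≤ m0N N →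
    vec0 (m0N N) f = vec0 (m0N N) f' → f = f'
  vec₀_lev : ∃ Lc : LocConst Qbar, ∀ (w : PlaceQ) (f : Rv N), rvOrd f ≤ m0N N →
    supNorm (absQ w) (castV (vecR f)) ≤ Lc.C (absQ w) * supNorm (absQ w) (castV (vec0 (m0N N) f))
  exists_Rv : ∀ (D : Dv N) (x : Fin (nLev N (m0N N)) → ℚ), dvDeg N D + c0N N ≤ m0N N → x ≠ 0 →
    castV x ∈ Wlev N (m0N N) D →
    ∃ (f : Rv N) (Y : Dv N), rvOrd f ≤ m0N N ∧ vec0 (m0N N) f = x ∧ rvZ f = D + Y

variable {N}

/-- **FIN**: the matrix system of the modular function field. -/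
def finMatSys (h : FinPending N) : MatSys (JQ N) (Dv N) (Rv N) (Pt N) where
  deg := dvDeg N
  cl := dvCl N
  ord := rvOrd
  Z := rvZ
  Red := DvRed
  Disj := DvDisj
  g := genusN N
  c₀ := c0N N
  a₀ := a0N N
  m₀ := m0N N
  k₀ := k0N N
  Mtop := MtopN N
  hg := by unfold c0N; omega
  hc₀ := by unfold a0N; omega
  ha₀ := by unfold m0N; omega
  hMtop := by unfold MtopN; omega
  deg_Z := dvDeg_rvZ
  cl_Z := dvCl_rvZ
  fin_le := dv_fin_le
  h90 := fun A A' hcl hdeg hA => geo_h90 (k0N N) A A' hcl (by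
    have := cRie_le_c0N N
    unfold k0N
    push_cast
    omega)
  move := h.move
  n := nLev N
  W := Wlev N
  W_rat := h.W_rat
  W_dim := h.W_dim
  W_zero := h.W_zero
  vec := vecR
  vec_ne := geo_vec_ne
  mulM := mulMat
  W_mul := fun m D u _ _ y => geo_W_mul m D u y
  mult := fin_mult N (MtopN N)
  inc := incMat N
  incR := incRMat N
  inc_incR := h.inc_incR
  lead := leadVec N
  W_inc := h.W_inc
  la_lead := fin_la_lead (fun m k x y => leadVec_mul m k _ x y) (c0N N) (MtopN N) (by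
    have := cRie_le_c0N N
    omega)
  vec₀ := vec0 (m0N N)
  vec₀_inj := h.vec₀_inj
  vec₀_lev := h.vec₀_lev
  exists_Rv := h.exists_Rv
  ev := evVec (m0N N)
  supp := dvSupp
  gal := ptGal
  ev_gal := fun σ P i => fin_ev_gal (m0N N) σ P i
  gal_supp := fun σ D P hP => ptGal_mem_dvSupp σ D hP
  supp_add := fun A A' hA hA' hd => ⟨dvRed_add hA hA' hd, dvSupp_add⟩
  disj_add := fun A A' B h1 h2 => dvDisj_add h1 h2
  supp_disj := fun A B hd => dvSupp_disjoint hd
  card_supp := fun D hD => card_dvSupp hD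
  W_red := fun D hD _ => fin_W_red (m0N N) D hD
  ev_indep := fun S hS => fin_ev_indep (c0N N) (m0N N) (by
    have := cRie_le_c0N N
    omega) S hS
  la_ev := fin_la_ev (c0N N) (m0N N) (by
    have := cRie_le_c0N N
    omega)

end Fermat.Agent.S17.H71F
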