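import Fermat.Agent.S17.Height.H35_GeoLead

/-!
# S17 part H (helper77): the fields `inc_incR`, `W_inc`, `vec₀_lev` of the matrix system

* `extZ h x`: the extension by zero of a vector `x : Fin n → K` to `Fin n' → K` (`n ≤ n'`);
* `sum_extZ_smul`: `∑ j, extZ h x j • e j = ∑ i, x i • e i`;
* `geo_inc_incR : incMat N m * incRMat N m = 1`;
* `coordMap_vecMul_incMat`: in coordinates, `incMat N m` is the inclusion `L(m∞) ⊆ L((m+1)∞)`;
* `geo_W_inc`: the field `W_inc`;
* `ratCoord_of_le`: the coordinates at a higher level are the coordinates at the lower level,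
  extended by zero;
* `geo_vec0_lev`: the field `vec₀_lev` (with the trivial local constant).
-/

set_option autoImplicit false

noncomputable section

open ModularCurve AlgebraicCurve Matrix

namespace Fermat.Agent.S17.H77

open Fermat.Agent.RED.H42 Fermat.Agent.S17 Fermat.Agent.RED.KD.H22 Fermat.Agent.S24
open Fermat.Agent.S17.H71 Fermat.Agent.S17.H16 Fermat.Agent.S17.H35

local notation "L" => riemannRochSpace

/-! ## Extension by zero -/

section Ext

variable {K : Type*} [Semiring K]

/-- The extension by zero of a vector. -/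
def extZ {n n' : ℕ} (x : Fin n → K) : Fin n' → K :=
  fun j => if hj : (j : ℕ) < n then x ⟨j, hj⟩ else 0

theorem extZ_of_lt {n n' : ℕ} (x : Fin n → K) (j : Fin n') (hj : (j : ℕ) < n) :
    extZ x j = x ⟨j, hj⟩ := by
  unfold extZ
  rw [dif_pos hj]

theorem extZ_of_ge {n n' : ℕ} (x : Fin n → K) (j : Fin n') (hj : ¬ (j : ℕ) < n) :
    (extZ x j : K) = 0 := by
  unfold extZ
  rw [dif_neg hj]

theorem sum_extZ_smul {V : Type*} [AddCommMonoid V] [Module K V] {n n' : ℕ} (h : n ≤ n')
    (x : Fin n → K) (e : ℕ → V) :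
    ∑ j : Fin n', (extZ x j : K) • e j = ∑ i : Fin n, x i • e i := by
  classical
  set F : ℕ → V := fun j => if hj : j < n then x ⟨j, hj⟩ • e j else 0 with hF
  have h1 : ∀ j : Fin n', (extZ x j : K) • e j = F j := by
    intro j
    rw [hF]
    by_cases hj : (j : ℕ) < n
    · rw [extZ_of_lt x j hj]
      simp only [dif_pos hj]
    · rw [extZ_of_ge x j hj, zero_smul]
      simp only [dif_neg hj]
  have h2 : ∀ i : Fin n, x i • e i = F i := by
    intro i
    rw [hF]
    simp only [dif_pos i.2]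
  rw [Finset.sum_congr rfl fun j _ => h1 j, Finset.sum_congr rfl fun i _ => h2 i,
    Fin.sum_univ_eq_sum_range F n', Fin.sum_univ_eq_sum_range F n]
  symm
  apply Finset.sum_subset (Finset.range_subset_range.2 h)
  intro j _ hj
  rw [Finset.mem_range] at hj
  rw [hF]
  simp only [dif_neg hj]

end Ext

variable (N : ℕ) [NeZero N]

theorem nLev_mono {m m' : ℕ} (h : m ≤ m') : nLev N m ≤ nLev N m' :=
  (ratCtxMod N).ratDim_mono h

/-! ## `inc_incR` -/

/-- **inc_incR**. -/
theorem geo_inc_incR (m : ℕ) : incMat N m * incRMat N m = 1 := by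
  classical
  ext i i'
  rw [Matrix.mul_apply]
  have hi : (i : ℕ) < nLev N (m + 1) := lt_of_lt_of_le i.2 (nLev_mono N (Nat.le_add_right m 1))
  rw [Finset.sum_eq_single (⟨i, hi⟩ : Fin (nLev N (m + 1)))]
  · unfold incMat incRMat
    rw [if_pos rfl, one_mul, Matrix.one_apply]
    by_cases h : i = i'
    · subst h
      rw [if_pos rfl, if_pos rfl]
    · rw [if_neg h, if_neg]
      intro h'
      exact h (Fin.ext h'.symm)
  · intro j _ hj
    unfold incMat
    rw [if_neg, zero_mul]
    intro h'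
    exact hj (Fin.ext h'.symm)
  · intro h
    exact absurd (Finset.mem_univ _) h

/-! ## `W_inc` -/

variable {N}

theorem castM_incMat (m : ℕ) (i : Fin (nLev N m)) (j : Fin (nLev N (m + 1))) :
    castM (incMat N m) i j = algebraMap ℚ Kbar (incMat N m i j) := rfl

theorem vecMul_incMat (m : ℕ) (x : Fin (nLev N m) → Kbar) :
    x ᵥ* castM (incMat N m) = extZ x := by
  classical
  funext j
  have hsum : (x ᵥ* castM (incMat N m)) j
      = ∑ i, x i * algebraMap ℚ Kbar (incMat N m i j) := rfl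
  rw [hsum]
  by_cases hj : (j : ℕ) < nLev N m
  · rw [extZ_of_lt x j hj, Finset.sum_eq_single (⟨j, hj⟩ : Fin (nLev N m))]
    · unfold incMat
      rw [if_pos rfl, map_one, mul_one]
    · intro i _ hi
      unfold incMat
      rw [if_neg, map_zero, mul_zero]
      intro h'
      exact hi (Fin.ext h')
    · intro h
      exact absurd (Finset.mem_univ _) h
  · rw [extZ_of_ge x j hj]
    apply Finset.sum_eq_zero
    intro i _
    unfold incMat
    rw [if_neg, map_zero, mul_zero]
    intro h'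
    apply hj
    rw [← h']
    exact i.2

/-- Extension by zero does not change the function. -/
theorem coordMap_extZ {m m' : ℕ} (h : m ≤ m') (x : Fin (nLev N m) → Kbar) :
    coordMap (eLev N m') (extZ x) = coordMap (eLev N m) x := by
  rw [coordMap_eLev, coordMap_eLev]
  exact sum_extZ_smul (nLev_mono N h) x (eFun N)

/-- In coordinates, `incMat N m` is the inclusion of `L(m∞)` into `L((m+1)∞)`. -/
theorem coordMap_vecMul_incMat (m : ℕ) (x : Fin (nLev N m) → Kbar) :
    coordMap (eLev N (m + 1)) (x ᵥ* castM (incMat N m)) = coordMap (eLev N m) x := by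
  rw [vecMul_incMat, coordMap_extZ (Nat.le_add_right m 1)]

theorem mInf_sub_le (m : ℕ) (D : Dv N) : mInf N m - D.1 ≤ mInf N m := by
  rw [Finsupp.le_def]
  intro v
  rw [Finsupp.sub_apply]
  have := D.apply_nonneg v
  omega

theorem mInf_mono {m m' : ℕ} (h : m ≤ m') : mInf N m ≤ mInf N m' :=
  (ratCtxMod N).kP_mono (by exact_mod_cast h)

/-- `L((m+1)∞ - D) ∩ L(m∞) = L(m∞ - D)`. -/
theorem mem_L_sub_of_mem {m m' : ℕ} (D : Dv N) {f : FN N}
    (h1 : f ∈ L (mInf N m' - D.1)) (h2 : f ∈ L (mInf N m)) : f ∈ L (mInf N m - D.1) := by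
  by_cases hf0 : f = 0
  · rw [hf0]
    exact Submodule.zero_mem _
  apply mem_L_of_neg_le_ord
  intro v
  rw [Finsupp.sub_apply]
  by_cases hv : v = cuspInf N
  · have h3 := neg_le_ord_of_mem h2 hf0 v
    rw [hv] at h3 ⊢
    rw [D.apply_cusp]
    omega
  · have h3 := neg_le_ord_of_mem h1 hf0 v
    rw [Finsupp.sub_apply, H35.mInf_apply_of_ne _ hv] at h3
    rw [H35.mInf_apply_of_ne _ hv]
    exact h3

/-- **W_inc**. -/
theorem geo_W_inc (m : ℕ) (D : Dv N) (y : Fin (nLev N (m + 1)) → Kbar) :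
    (y ∈ Wlev N (m + 1) D ∧ castV (leadVec N (m + 1)) ⬝ᵥ y = 0) ↔
      ∃ x ∈ Wlev N m D, x ᵥ* castM (incMat N m) = y := by
  constructor
  · rintro ⟨hy, hlead⟩
    unfold Wlev at hy
    rw [mem_coordSub] at hy
    rw [leadVec_dotProduct] at hlead
    set g := coordMap (eLev N (m + 1)) y with hg
    have hg1 : g ∈ L (mInf N (m + 1)) := coordMap_mem _ y
    have hg2 : g ∈ L (mInf N m) := (qCoeff_eq_zero_iff hg1).1 hlead
    have hg3 : g ∈ L (mInf N m - D.1) := mem_L_sub_of_mem D hy hg2
    refine ⟨(eLev N m).equivFun ⟨g, hg2⟩, ?_, ?_⟩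
    · unfold Wlev
      rw [mem_coordSub, coordMap_repr]
      exact hg3
    · apply coordMap_injective (eLev N (m + 1))
      rw [coordMap_vecMul_incMat, coordMap_repr]
  · rintro ⟨x, hx, rfl⟩
    unfold Wlev at hx ⊢
    rw [mem_coordSub] at hx
    have hx2 : coordMap (eLev N m) x ∈ L (mInf N m) := coordMap_mem _ x
    refine ⟨?_, ?_⟩
    · rw [mem_coordSub, coordMap_vecMul_incMat]
      refine L_mono ?_ hx
      rw [Finsupp.le_def]
      intro v
      rw [Finsupp.sub_apply, Finsupp.sub_apply]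
      have := Finsupp.le_def.1 (mInf_mono (N := N) (Nat.le_add_right m 1)) v
      omega
    · rw [leadVec_dotProduct, coordMap_vecMul_incMat]
      exact (qCoeff_eq_zero_iff (L_mono (mInf_mono (Nat.le_add_right m 1)) hx2)).2 hx2

/-! ## `vec₀_lev` -/

/-- The coordinates at a higher level are the coordinates at the lower level, extended by zero. -/
theorem ratCoord_of_le {m m' : ℕ} (h : m ≤ m') {f : FN N} (hf : f ∈ L (mInf N m))
    (hfix : f ∈ fixedFun (galN N)) :
    ratCoord N m' f = extZ (ratCoord N m f) := by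
  have hf' : f ∈ L (mInf N m') := L_mono (mInf_mono h) hf
  have h1 : coordMap (eLev N m') (castV (ratCoord N m' f)) = f := by
    rw [coordMap_eLev]
    exact sum_ratCoord N m' hf' hfix
  have h2 : coordMap (eLev N m') (extZ (castV (ratCoord N m f))) = f := by
    rw [coordMap_extZ h, coordMap_eLev]
    exact sum_ratCoord N m hf hfix
  have h3 := coordMap_injective (eLev N m') (h1.trans h2.symm)
  funext j
  have h4 := congrFun h3 j
  apply (algebraMap ℚ Kbar).injective
  by_cases hj : (j : ℕ) < nLev N m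
  · rw [extZ_of_lt _ j hj] at h4 ⊢
    exact h4
  · rw [extZ_of_ge _ j hj] at h4 ⊢
    rw [map_zero]
    exact h4

/-- **vec₀_lev** (with the trivial local constant; in fact the two norms are equal). -/
theorem geo_vec0_lev (m₀ : ℕ) : ∃ Lc : LocConst Qbar, ∀ (w : PlaceQ) (f : Rv N),
    rvOrd f ≤ m₀ →
    supNorm (absQ w) (castV (vecR f)) ≤ Lc.C (absQ w) * supNorm (absQ w) (castV (vec0 m₀ f)) := by
  refine ⟨LocConst.one Qbar, fun w f hf => ?_⟩
  show _ ≤ (1 : ℝ) * _
  rw [one_mul]
  apply supNorm_le _ _ (supNorm_nonneg _ _)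
  intro i
  have hi : (i : ℕ) < nLev N m₀ := lt_of_lt_of_le i.2 (nLev_mono N hf)
  have h1 : vec0 m₀ f ⟨i, hi⟩ = vecR f i := by
    unfold vec0 vecR
    rw [ratCoord_of_le hf (f.mem_L le_rfl) f.fixed]
    exact extZ_of_lt _ ⟨i, hi⟩ i.2
  have h2 := le_supNorm (absQ w) (castV (vec0 m₀ f)) ⟨i, hi⟩
  unfold castV at h2 ⊢
  rw [h1] at h2
  exact h2

end Fermat.Agent.S17.H77
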