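import Fermat.Agent.S17.Height.H35_GeoH90
import Fermat.Agent.RED.H17_Place

/-!
# S17 part H (helper35): MOVE-R from the finiteness of the ramification; the field `move`

* `Stmt_RamFin N`: a non-constant function has finitely many ramification points (away from its
  poles);
* `exists_avoid`: a set which is stable under addition and multiplication by rational numbers and
  which is not contained in any of finitely many subspaces contains an element outside of all of
  them;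
* `geo_move_raw`: MOVE-R in raw form: a rational class has a reduced `G_ℚ`-stable effective
  representative of degree `a₀` avoiding a given finite set of places;
* `geo_move`: the field `move` of the matrix system.
-/

set_option autoImplicit false

noncomputable section

open ModularCurve AlgebraicCurve

namespace Fermat.Agent.S17.H35

open Fermat.Agent.RED.H42 Fermat.Agent.S17 Fermat.Agent.RED.KD.H22 Fermat.Agent.S24

local notation "L" => riemannRochSpace

/-- A set stable under addition and under multiplication by rational numbers which is not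
contained in any of finitely many subspaces has an element outside of all of them. -/
theorem exists_avoid {K F : Type*} [Field K] [AddCommGroup F] [Module K F] [Algebra ℚ K]
    {ι : Type*} (s : Finset ι) (V : Set F) (hne : V.Nonempty)
    (hadd : ∀ f ∈ V, ∀ g ∈ V, f + g ∈ V)
    (hsmul : ∀ (c : ℚ), ∀ f ∈ V, algebraMap ℚ K c • f ∈ V)
    (W : ι → Submodule K F) (hW : ∀ i ∈ s, ∃ f ∈ V, f ∉ W i) :
    ∃ f ∈ V, ∀ i ∈ s, f ∉ W i := by
  classical
  induction s using Finset.induction_on with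
  | empty =>
    obtain ⟨f, hf⟩ := hne
    exact ⟨f, hf, by simp⟩
  | insert i s hi ih =>
    obtain ⟨f, hfV, hf⟩ := ih (fun j hj => hW j (Finset.mem_insert_of_mem hj))
    by_cases hfi : f ∈ W i
    · obtain ⟨g, hgV, hg⟩ := hW i (Finset.mem_insert_self i s)
      have hbad : ∀ j ∈ s, {t : ℚ | g + algebraMap ℚ K t • f ∈ W j}.Subsingleton := by
        intro j hj t ht t' ht'
        by_contra hne'
        have h1 : (algebraMap ℚ K t - algebraMap ℚ K t') • f ∈ W j := by
          have h := (W j).sub_mem ht ht'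
          have e : g + algebraMap ℚ K t • f - (g + algebraMap ℚ K t' • f)
              = (algebraMap ℚ K t - algebraMap ℚ K t') • f := by
            rw [sub_smul]
            abel
          rwa [e] at h
        have h2 : algebraMap ℚ K t - algebraMap ℚ K t' ≠ 0 := by
          rw [sub_ne_zero]
          exact fun h => hne' ((algebraMap ℚ K).injective h)
        have h3 := (W j).smul_mem (algebraMap ℚ K t - algebraMap ℚ K t')⁻¹ h1
        rw [smul_smul, inv_mul_cancel₀ h2, one_smul] at h3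
        exact hf j hj h3
      have hfin : (⋃ j ∈ s, {t : ℚ | g + algebraMap ℚ K t • f ∈ W j}).Finite :=
        Set.Finite.biUnion s.finite_toSet (fun j hj => (hbad j hj).finite)
      obtain ⟨t, ht⟩ := hfin.exists_notMem
      refine ⟨g + algebraMap ℚ K t • f, hadd _ hgV _ (hsmul t f hfV), ?_⟩
      intro j hj
      rcases Finset.mem_insert.1 hj with rfl | hj'
      · intro h
        apply hg
        have h' := (W j).sub_mem h ((W j).smul_mem (algebraMap ℚ K t) hfi)
        rwa [add_sub_cancel_right] at h'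
      · intro h
        apply ht
        simp only [Set.mem_iUnion]
        exact ⟨j, hj', h⟩
    · refine ⟨f, hfV, fun j hj => ?_⟩
      rcases Finset.mem_insert.1 hj with rfl | hj'
      · exact hfi
      · exact hf j hj'

section PencilOrders

variable {K F : Type*} [Field K] [Field F] [Algebra K F]

/-- The order of a member of the pencil at a zero of `f₂` which is not a zero of `f₁`. -/
theorem ord_pencil_of_ne {D : Divisor K F} {f₁ f₂ : F} (hf₁ : f₁ ≠ 0) (hf₂ : f₂ ≠ 0)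
    (hf₂L : f₂ ∈ L D) (τ : K) {P : Place K F} (h1 : P.ord f₁ = -D P) (h2 : P.ord f₂ ≠ -D P) :
    P.ord (f₁ + τ • f₂) = -D P := by
  have h3 := neg_le_ord_of_mem hf₂L hf₂ P
  rw [Fermat.Agent.RED.H17.ord_add_of_lt P hf₁, h1]
  by_cases ht : τ = 0
  · left
    rw [ht, zero_smul]
  · right
    rw [Algebra.smul_def, Fermat.Agent.RED.H17.ord_algebraMap_mul P ht, h1]
    omega

/-- The order of a member of the pencil outside the zeros of `f₂`. -/
theorem ord_pencil_of_eq {D : Divisor K F} {f₁ f₂ φ : F} (hf₂ : f₂ ≠ 0) (hφ : f₂ * φ = f₁)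
    (τ : K) (hτ : φ + algebraMap K F τ ≠ 0) {P : Place K F} (h2 : P.ord f₂ = -D P) :
    P.ord (f₁ + τ • f₂) = -D P + P.ord (φ + algebraMap K F τ) := by
  have e : f₁ + τ • f₂ = f₂ * (φ + algebraMap K F τ) := by
    rw [mul_add, hφ, Algebra.smul_def, mul_comm f₂]
  rw [e, P.ord_mul hf₂ hτ, h2]

theorem pencil_eq {f₁ f₂ φ : F} (hφ : f₂ * φ = f₁) (τ : K) :
    f₁ + τ • f₂ = f₂ * (φ + algebraMap K F τ) := by
  rw [mul_add, hφ, Algebra.smul_def, mul_comm f₂]

end PencilOrders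

variable (N : ℕ) [NeZero N]

/-- Finiteness of the ramification of a non-constant function (away from its poles). -/
def Stmt_RamFin : Prop :=
  ∀ φ : FN N, φ ∉ Set.range (algebraMap Kbar (FN N)) →
    {P : Place Kbar (FN N) | ∃ c : Kbar, 2 ≤ P.ord (φ - algebraMap Kbar (FN N) c)}.Finite

variable {N}

omit [NeZero N] in
/-- At a given place, a function takes at most one value. -/
theorem value_subsingleton (φ : FN N) (P : Place Kbar (FN N)) :
    {t : ℚ | 1 ≤ P.ord (φ + algebraMap Kbar (FN N) (algebraMap ℚ Kbar t))}.Subsingleton := by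
  intro t ht t' ht'
  by_contra hne
  simp only [Set.mem_ofPred_eq] at ht ht'
  have h1 := Fermat.Agent.RED.H17.le_ord_add P (n := 1)
    (f := φ + algebraMap Kbar (FN N) (algebraMap ℚ Kbar t))
    (g := -(φ + algebraMap Kbar (FN N) (algebraMap ℚ Kbar t'))) (Or.inr ht)
    (Or.inr (by rw [ord_neg']; exact ht'))
  have e : φ + algebraMap Kbar (FN N) (algebraMap ℚ Kbar t)
      + -(φ + algebraMap Kbar (FN N) (algebraMap ℚ Kbar t'))
      = algebraMap Kbar (FN N) (algebraMap ℚ Kbar t - algebraMap ℚ Kbar t') := by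
    rw [map_sub]
    ring
  rw [e, Fermat.Agent.RED.H17.ord_algebraMap] at h1
  rcases h1 with h1 | h1
  · rw [map_eq_zero_iff _ (algebraMap Kbar (FN N)).injective, sub_eq_zero] at h1
    exact hne ((algebraMap ℚ Kbar).injective h1)
  · omega

/-- The divisor `D₁ + a₀ ∞`. -/
def baseDiv (D₁ : Divisor.degZero (K := Kbar) (F := FN N)) (a₀ : ℕ) : Divisor Kbar (FN N) :=
  (D₁ : Divisor Kbar (FN N)) + Finsupp.single (cuspInf N) (a₀ : ℤ)

theorem baseDiv_apply (D₁ : Divisor.degZero (K := Kbar) (F := FN N)) (a₀ : ℕ)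
    (v : Place Kbar (FN N)) :
    baseDiv D₁ a₀ v = (D₁ : Divisor Kbar (FN N)) v
      + (Finsupp.single (cuspInf N) (a₀ : ℤ) : Divisor Kbar (FN N)) v := rfl

theorem degree_baseDiv (D₁ : Divisor.degZero (K := Kbar) (F := FN N)) (a₀ : ℕ) :
    Divisor.degree (baseDiv D₁ a₀) = a₀ := by
  have h1 : Divisor.degree (D₁ : Divisor Kbar (FN N)) = 0 := Divisor.mem_degZero.1 D₁.2
  unfold baseDiv
  rw [map_add, Divisor.degree_single, (hypMod N).deg_one, h1]
  simp

/-- The data of a pencil of rational sections. -/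
structure PencilData (x : JZero N) (a₀ : ℕ) (T : Finset (Place Kbar (FN N))) where
  /-- the base divisor of degree zero -/
  D₁ : Divisor.degZero (K := Kbar) (F := FN N)
  /-- the rational structure -/
  V : Set (FN N)
  /-- the first function -/
  f₁ : FN N
  /-- the second function -/
  f₂ : FN N
  /-- the quotient -/
  φ : FN N
  hD₁ : Pic0.mk D₁ = x
  hadd : ∀ f ∈ V, ∀ g ∈ V, f + g ∈ V
  hsmul : ∀ c : ℚ, ∀ f ∈ V, algebraMap ℚ Kbar c • f ∈ V
  hVL : ∀ f ∈ V, f ∈ L (baseDiv D₁ a₀)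
  hstab : ∀ f ∈ V, f ≠ 0 → ∀ A : Divisor Kbar (FN N),
    (∀ v : Place Kbar (FN N), A v = v.ord f + (D₁ : Divisor Kbar (FN N)) v
      + (Finsupp.single (cuspInf N) (a₀ : ℤ) : Divisor Kbar (FN N)) v) →
    ∀ σ : GQ, galN N σ • A = A
  hf₁V : f₁ ∈ V
  hf₂V : f₂ ∈ V
  hf₁0 : f₁ ≠ 0
  hf₂0 : f₂ ≠ 0
  hφ : f₂ * φ = f₁
  hφnc : φ ∉ Set.range (algebraMap Kbar (FN N))
  hT : ∀ P ∈ T, P.ord f₂ = -baseDiv D₁ a₀ P
  hS : ∀ P : Place Kbar (FN N), P.ord f₂ ≠ -baseDiv D₁ a₀ P → P.ord f₁ = -baseDiv D₁ a₀ P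

/-- Existence of a pencil. -/
theorem exists_pencilData (a₀ : ℕ) (ha : cRie N + 1 ≤ a₀)
    (x : JZero N) (hx : ∀ σ : GQ, σ • x = x) (T : Finset (Place Kbar (FN N))) :
    Nonempty (PencilData x a₀ T) := by
  classical
  obtain ⟨D₁, V, hD₁, h0V, haddV, hsmulV, hVL, hspan, hstab⟩ := exists_ratModel N x hx a₀
  obtain ⟨D, hD⟩ : ∃ D : Divisor Kbar (FN N), D = baseDiv D₁ a₀ := ⟨_, rfl⟩
  have hVL' : ∀ f ∈ V, f ∈ L D := by
    intro f hf
    rw [hD]
    exact hVL f hf
  have hc0 := (geoN N).c_nonneg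
  have hdegD : Divisor.degree D = a₀ := by rw [hD, degree_baseDiv]
  have hbpf : ∀ P : Place Kbar (FN N), ∃ f ∈ L D, f ≠ 0 ∧ P.ord f = -D P := fun P =>
    L_bpf (hypMod N) (riemannBoundN N) (by rw [hdegD]; omega) P
  have hVP : ∀ P : Place Kbar (FN N), ∃ f ∈ V, f ∉ L (D - Finsupp.single P 1) := by
    intro P
    by_contra hcon
    push Not at hcon
    obtain ⟨f, hf, hf0, hford⟩ := hbpf P
    have h1 : f ∈ Submodule.span Kbar V := hspan f (by rw [hD] at hf; exact hf)
    have h2 : Submodule.span Kbar V ≤ L (D - Finsupp.single P 1) := Submodule.span_le.2 hcon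
    exact (mem_L_sub_single_iff hf hf0 P).1 (h2 h1) hford
  have hexact : ∀ {f : FN N} {P : Place Kbar (FN N)}, f ∈ V →
      f ∉ L (D - Finsupp.single P 1) → f ≠ 0 ∧ P.ord f = -D P := by
    intro f P hfV hf
    have hf0 : f ≠ 0 := by
      rintro rfl
      exact hf (Submodule.zero_mem _)
    refine ⟨hf0, ?_⟩
    by_contra hne
    exact hf ((mem_L_sub_single_iff (hVL' f hfV) hf0 P).2 hne)
  -- Step 1: `f₂` avoiding `T` and `∞`
  obtain ⟨f₂, hf₂V, hf₂⟩ := exists_avoid (insert (cuspInf N) T) V ⟨0, h0V⟩ haddV hsmulV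
    (fun P => L (D - Finsupp.single P 1)) (fun P _ => hVP P)
  have hf₂0 : f₂ ≠ 0 := (hexact hf₂V (hf₂ _ (Finset.mem_insert_self _ _))).1
  obtain ⟨E₂, hE₂, hE₂deg⟩ := (hypMod N).principal f₂ hf₂0
  obtain ⟨S₂, hS₂⟩ : ∃ S₂ : Finset (Place Kbar (FN N)), S₂ = (E₂ + D).support := ⟨_, rfl⟩
  have hS₂mem : ∀ P : Place Kbar (FN N), P ∈ S₂ ↔ P.ord f₂ ≠ -D P := by
    intro P
    rw [hS₂, Finsupp.mem_support_iff, Finsupp.add_apply, hE₂ P]
    constructor
    · intro h h'
      apply h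
      rw [h']
      ring
    · intro h h'
      apply h
      omega
  have hS₂ne : S₂.Nonempty := by
    rw [hS₂, Finsupp.support_nonempty_iff]
    intro h0
    have h1 : Divisor.degree (E₂ + D) = a₀ := by rw [map_add, hE₂deg, hdegD, zero_add]
    rw [h0, map_zero] at h1
    omega
  -- Step 2: `f₁` avoiding the zeros of `f₂`
  obtain ⟨f₁, hf₁V, hf₁⟩ := exists_avoid S₂ V ⟨0, h0V⟩ haddV hsmulV
    (fun P => L (D - Finsupp.single P 1)) (fun P _ => hVP P)
  obtain ⟨P₀, hP₀⟩ := hS₂ne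
  have hf₁0 : f₁ ≠ 0 := (hexact hf₁V (hf₁ P₀ hP₀)).1
  obtain ⟨φ, hφf⟩ : ∃ φ : FN N, f₂ * φ = f₁ :=
    ⟨f₁ * f₂⁻¹, by rw [mul_comm f₁, ← mul_assoc, mul_inv_cancel₀ hf₂0, one_mul]⟩
  -- `φ` is not constant
  have hφnc : φ ∉ Set.range (algebraMap Kbar (FN N)) := by
    rintro ⟨c, hc⟩
    have h1 : f₁ = algebraMap Kbar (FN N) c * f₂ := by rw [← hφf, ← hc, mul_comm]
    have hc0 : c ≠ 0 := by
      rintro rfl
      rw [map_zero, zero_mul] at h1
      exact hf₁0 h1
    have h2 : P₀.ord f₁ = P₀.ord f₂ := by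
      rw [h1, Fermat.Agent.RED.H17.ord_algebraMap_mul P₀ hc0]
    have h3 := (hexact hf₁V (hf₁ P₀ hP₀)).2
    exact (hS₂mem P₀).1 hP₀ (by rw [← h2, h3])
  refine ⟨⟨D₁, V, f₁, f₂, φ, hD₁, haddV, hsmulV, hVL, hstab, hf₁V, hf₂V, hf₁0, hf₂0, hφf, hφnc,
    ?_, ?_⟩⟩
  · intro P hP
    rw [← hD]
    exact (hexact hf₂V (hf₂ P (Finset.mem_insert_of_mem hP))).2
  · intro P hP
    rw [← hD] at hP ⊢
    exact (hexact hf₁V (hf₁ P ((hS₂mem P).2 hP))).2

/-- **MOVE-R**, raw form. -/
theorem geo_move_raw (hR : Stmt_RamFin N) (a₀ : ℕ) (ha : cRie N + 1 ≤ a₀)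
    (x : JZero N) (hx : ∀ σ : GQ, σ • x = x) (T : Finset (Place Kbar (FN N))) :
    ∃ (A : Divisor Kbar (FN N)) (D₁ : Divisor.degZero (K := Kbar) (F := FN N)) (f : FN N),
      f ≠ 0 ∧ Pic0.mk D₁ = x ∧
      (∀ v : Place Kbar (FN N), A v = v.ord f + (D₁ : Divisor Kbar (FN N)) v
        + (Finsupp.single (cuspInf N) (a₀ : ℤ) : Divisor Kbar (FN N)) v) ∧
      0 ≤ A ∧ (∀ v : Place Kbar (FN N), A v ≤ 1) ∧ (∀ σ : GQ, galN N σ • A = A) ∧
      (∀ v ∈ T, A v = 0) := by
  classical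
  obtain ⟨p⟩ := exists_pencilData a₀ ha x hx T
  obtain ⟨D, hD⟩ : ∃ D : Divisor Kbar (FN N), D = baseDiv p.D₁ a₀ := ⟨_, rfl⟩
  have hφt0 : ∀ t : ℚ, p.φ + algebraMap Kbar (FN N) (algebraMap ℚ Kbar t) ≠ 0 := by
    intro t h0
    apply p.hφnc
    refine ⟨-(algebraMap ℚ Kbar t), ?_⟩
    rw [map_neg]
    exact (eq_neg_of_add_eq_zero_left h0).symm
  have hft0 : ∀ t : ℚ, p.f₁ + algebraMap ℚ Kbar t • p.f₂ ≠ 0 := by
    intro t
    rw [pencil_eq (K := Kbar) (F := FN N) p.hφ (algebraMap ℚ Kbar t)]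
    exact mul_ne_zero p.hf₂0 (hφt0 t)
  have hftV : ∀ t : ℚ, p.f₁ + algebraMap ℚ Kbar t • p.f₂ ∈ p.V := fun t =>
    p.hadd _ p.hf₁V _ (p.hsmul t p.f₂ p.hf₂V)
  -- orders of the members of the pencil
  have hordS : ∀ t : ℚ, ∀ P : Place Kbar (FN N), P.ord p.f₂ ≠ -D P →
      P.ord (p.f₁ + algebraMap ℚ Kbar t • p.f₂) = -D P := by
    intro t P hP
    rw [hD] at hP ⊢
    exact ord_pencil_of_ne (K := Kbar) (F := FN N) p.hf₁0 p.hf₂0 (p.hVL p.f₂ p.hf₂V)
      (algebraMap ℚ Kbar t) (p.hS P hP) hP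
  have hordN : ∀ t : ℚ, ∀ P : Place Kbar (FN N), P.ord p.f₂ = -D P →
      P.ord (p.f₁ + algebraMap ℚ Kbar t • p.f₂)
        = -D P + P.ord (p.φ + algebraMap Kbar (FN N) (algebraMap ℚ Kbar t)) := by
    intro t P hP
    exact ord_pencil_of_eq (K := Kbar) (F := FN N) p.hf₂0 p.hφ (algebraMap ℚ Kbar t)
      (hφt0 t) hP
  -- the bad parameters
  have hRam := hR p.φ p.hφnc
  obtain ⟨R, hRdef⟩ : ∃ R : Finset (Place Kbar (FN N)), R = hRam.toFinset ∪ T := ⟨_, rfl⟩
  have hbadfin : (⋃ P ∈ R, {t : ℚ |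
      1 ≤ P.ord (p.φ + algebraMap Kbar (FN N) (algebraMap ℚ Kbar t))}).Finite :=
    Set.Finite.biUnion R.finite_toSet (fun P _ => (value_subsingleton p.φ P).finite)
  obtain ⟨t, ht⟩ := hbadfin.exists_notMem
  have htgood : ∀ P ∈ R,
      ¬ 1 ≤ P.ord (p.φ + algebraMap Kbar (FN N) (algebraMap ℚ Kbar t)) := by
    intro P hP h
    apply ht
    simp only [Set.mem_iUnion]
    exact ⟨P, hP, h⟩
  -- the divisor
  obtain ⟨E, hE, -⟩ := (hypMod N).principal _ (hft0 t)
  have hAv : ∀ v : Place Kbar (FN N), (E + D) v = v.ord (p.f₁ + algebraMap ℚ Kbar t • p.f₂)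
      + (p.D₁ : Divisor Kbar (FN N)) v
      + (Finsupp.single (cuspInf N) (a₀ : ℤ) : Divisor Kbar (FN N)) v := by
    intro v
    rw [Finsupp.add_apply, hE v, hD, baseDiv_apply]
    ring
  have hA0 : ∀ v : Place Kbar (FN N), 0 ≤ (E + D) v := by
    intro v
    have h1 := neg_le_ord_of_mem (p.hVL _ (hftV t)) (hft0 t) v
    rw [← hD] at h1
    rw [Finsupp.add_apply, hE v]
    omega
  have hAS : ∀ v : Place Kbar (FN N), v.ord p.f₂ ≠ -D v → (E + D) v = 0 := by
    intro v hv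
    rw [Finsupp.add_apply, hE v, hordS t v hv]
    ring
  have hAN : ∀ v : Place Kbar (FN N), v.ord p.f₂ = -D v →
      (E + D) v = v.ord (p.φ + algebraMap Kbar (FN N) (algebraMap ℚ Kbar t)) := by
    intro v hv
    rw [Finsupp.add_apply, hE v, hordN t v hv]
    ring
  refine ⟨E + D, p.D₁, p.f₁ + algebraMap ℚ Kbar t • p.f₂, hft0 t, p.hD₁, hAv, ?_, ?_, ?_, ?_⟩
  · rw [Finsupp.le_def]
    intro v
    exact hA0 v
  · intro v
    by_cases hv : v.ord p.f₂ = -D v
    · rw [hAN v hv]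
      by_contra hcon
      have h2 : 2 ≤ v.ord (p.φ + algebraMap Kbar (FN N) (algebraMap ℚ Kbar t)) := by omega
      have hvR : v ∈ R := by
        rw [hRdef, Finset.mem_union]
        left
        rw [Set.Finite.mem_toFinset]
        refine ⟨-(algebraMap ℚ Kbar t), ?_⟩
        rw [map_neg, sub_neg_eq_add]
        exact h2
      exact htgood v hvR (by omega)
    · rw [hAS v hv]
      omega
  · intro σ
    exact p.hstab _ (hftV t) (hft0 t) (E + D) hAv σ
  · intro v hv
    have hvS : v.ord p.f₂ = -D v := by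
      rw [hD]
      exact p.hT v hv
    have hvR : v ∈ R := by
      rw [hRdef, Finset.mem_union]
      right
      exact hv
    have h1 := htgood v hvR
    have h2 := hA0 v
    rw [hAN v hvS] at h2 ⊢
    omega

/-- **The field `move`** of the matrix system, from the finiteness of the ramification. -/
theorem geo_move (hR : Stmt_RamFin N) (a₀ : ℕ) (ha : cRie N + 1 ≤ a₀) (x : JQ N)
    (l : List (Dv N)) :
    ∃ A : Dv N, DvRed A ∧ dvDeg N A = a₀ ∧ dvCl N A = x ∧
      ∀ B ∈ l, DvDisj A B ∧ DvDisj B A := by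
  classical
  obtain ⟨T, hT⟩ : ∃ T : Finset (Place Kbar (FN N)),
      T = insert (cuspInf N) (l.toFinset.biUnion fun B => B.1.support) := ⟨_, rfl⟩
  have hx : ∀ σ : GQ, σ • (x : JZero N) = x := fun σ => x.2 σ
  obtain ⟨A, D₁, f, hf0, hD₁, hAv, hA0, hred, hstab, hAT⟩ :=
    geo_move_raw hR a₀ ha (x : JZero N) hx T
  have hcusp : A (cuspInf N) = 0 := hAT _ (by rw [hT]; exact Finset.mem_insert_self _ _)
  obtain ⟨E, hE, hEdeg⟩ := (hypMod N).principal f hf0
  have hAeq : A = E + (D₁ : Divisor Kbar (FN N)) + Finsupp.single (cuspInf N) (a₀ : ℤ) := by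
    ext v
    rw [hAv v, Finsupp.add_apply, Finsupp.add_apply, hE v]
  have hdeg : Divisor.degree A = a₀ := by
    have h1 : Divisor.degree (D₁ : Divisor Kbar (FN N)) = 0 := Divisor.mem_degZero.1 D₁.2
    rw [hAeq, map_add, map_add, hEdeg, h1, Divisor.degree_single, (hypMod N).deg_one]
    simp
  refine ⟨⟨A, hA0, hcusp, hstab⟩, hred, ?_, ?_, ?_⟩
  · have h1 := dvDeg_cast (⟨A, hA0, hcusp, hstab⟩ : Dv N)
    rw [hdeg] at h1
    exact_mod_cast h1
  · apply Subtype.ext
    rw [dvCl_coe, ← hD₁]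
    apply QuotientAddGroup.eq.mpr
    rw [AddSubgroup.mem_addSubgroupOf]
    refine ⟨f⁻¹, inv_ne_zero hf0, fun v => ?_⟩
    rw [Place.ord_inv]
    show (-(dvZero (⟨A, hA0, hcusp, hstab⟩ : Dv N) : Divisor Kbar (FN N))
      + (D₁ : Divisor Kbar (FN N))) v = _
    show (-(A - Finsupp.single (cuspInf N) (Divisor.degree A)) + (D₁ : Divisor Kbar (FN N))) v = _
    rw [hdeg, Finsupp.add_apply, Finsupp.neg_apply, Finsupp.sub_apply, hAv v]
    ring
  · intro B hB
    have hdisj : DvDisj (⟨A, hA0, hcusp, hstab⟩ : Dv N) B := by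
      intro v
      by_cases hv : B.1 v = 0
      · exact Or.inr hv
      · left
        apply hAT
        rw [hT]
        apply Finset.mem_insert_of_mem
        rw [Finset.mem_biUnion]
        exact ⟨B, List.mem_toFinset.2 hB, Finsupp.mem_support_iff.2 hv⟩
    exact ⟨hdisj, hdisj.symm⟩

end Fermat.Agent.S17.H35
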