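import Fermat.Agent.S17.Height.H8_RamFin
import Fermat.Agent.S17.Height.H35_GeoMove

/-!
# S17 part H: the field `move` of the matrix system, unconditional (helper8)

`H35.geo_move` (helper35) with `H8.stmt_RamFin` plugged in.
-/

set_option autoImplicit false

noncomputable section

open AlgebraicCurve ModularCurve

namespace Fermat.Agent.S17.H8

open Fermat.Agent.RED.H42 Fermat.Agent.S17 Fermat.Agent.RED.KD.H22 Fermat.Agent.S24 Fermat.Agent.S17.H35

/-- **RAM-FIN** in the shape of `H35.Stmt_RamFin`. -/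
theorem stmt_RamFin' (N : ℕ) [NeZero N] : H35.Stmt_RamFin N := stmt_RamFin N

/-- **MOVE-R**, raw form, unconditional. -/
theorem geo_move_raw_final (N : ℕ) [NeZero N] (a₀ : ℕ) (ha : cRie N + 1 ≤ a₀)
    (x : JZero N) (hx : ∀ σ : GQ, σ • x = x) (T : Finset (Place Kbar (FN N))) :
    ∃ (A : Divisor Kbar (FN N)) (D₁ : Divisor.degZero (K := Kbar) (F := FN N)) (f : FN N),
      f ≠ 0 ∧ Pic0.mk D₁ = x ∧
      (∀ v : Place Kbar (FN N), A v = v.ord f + (D₁ : Divisor Kbar (FN N)) v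
        + (Finsupp.single (cuspInf N) (a₀ : ℤ) : Divisor Kbar (FN N)) v) ∧
      0 ≤ A ∧ (∀ v : Place Kbar (FN N), A v ≤ 1) ∧ (∀ σ : GQ, galN N σ • A = A) ∧
      (∀ v ∈ T, A v = 0) :=
  H35.geo_move_raw (stmt_RamFin' N) a₀ ha x hx T

/-- **The field `move`** of the matrix system, unconditional. -/
theorem geo_move_final (N : ℕ) [NeZero N] (a₀ : ℕ) (ha : cRie N + 1 ≤ a₀) (x : JQ N)
    (l : List (Dv N)) :
    ∃ A : Dv N, DvRed A ∧ dvDeg N A = a₀ ∧ dvCl N A = x ∧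
      ∀ B ∈ l, DvDisj A B ∧ DvDisj B A :=
  H35.geo_move (stmt_RamFin' N) a₀ ha x l

end Fermat.Agent.S17.H8
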