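import Fermat.Agent.S17.Wiring
import Mathlib.Order.Northcott
import Mathlib.Tactic

/-!
# S17, part H (heights): the abstract descent algebra (helper16)

* `height_of_quasiBilinear`: if `q : J → ℝ` is bounded below, Northcott, and its second difference
  `B x y = q (x + y) - q x - q y` is additive in `x` up to a constant, then `h x = q x + q (-x)`
  satisfies the three properties of `Stmt_height` for `n = 2` (with `a = 2`, `b = 4`).
* `RepSystem`: an abstract system of representatives (`D` = good divisors, `cl` = class map,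
  `add` = sum of disjoint divisors, `q` = the covolume height of a divisor) satisfying class
  invariance `ci`, the cube inequality `cube` and the moving lemma `move`.
* `RepSystem.quasiBilinear`: the induced function on classes has a quasi-bilinear second difference.
* `stmt_height_of_repSystem`: `Stmt_height N 2` from a `RepSystem` on `JQ N` with positivity and
  Northcott.
-/

set_option autoImplicit false

namespace Fermat.Agent.S17.H16

section Quasi

variable {J : Type*} [AddCommGroup J]

/-- The abstract descent: a bounded below Northcott function whose second difference is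
quasi-additive gives a height with the descent inequalities for `n = 2`. -/
theorem height_of_quasiBilinear (q : J → ℝ) (C C₀ : ℝ)
    (hB : ∀ x x' y : J,
      |(q (x + x' + y) - q (x + x') - q y) - (q (x + y) - q x - q y)
        - (q (x' + y) - q x' - q y)| ≤ C)
    (hpos : ∀ x, -C₀ ≤ q x) (hN : Northcott q) :
    ∃ (h : J → ℝ) (a b c₀ : ℝ) (c : J → ℝ), 0 ≤ a ∧ a < b ∧
      (∀ g x, h x ≤ a * h (g + x) + c g) ∧ (∀ x, b * h x - c₀ ≤ h (2 • x)) ∧ Northcott h := by
  -- the second difference
  set B : J → J → ℝ := fun x y => q (x + y) - q x - q y with hBdef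
  have hsymm : ∀ x y, B x y = B y x := fun x y => by
    simp only [hBdef, add_comm x y]; ring
  have hadd : ∀ x x' y, |B (x + x') y - B x y - B x' y| ≤ C := fun x x' y => hB x x' y
  have hC : 0 ≤ C := (abs_nonneg _).trans (hB 0 0 0)
  -- `B 0 y` is bounded
  have hB0 : ∀ y, |B 0 y| ≤ C := fun y => by
    have h := hadd 0 0 y
    rw [add_zero] at h
    have : B 0 y - B 0 y - B 0 y = -(B 0 y) := by ring
    rwa [this, abs_neg] at h
  have hq0 : |q 0| ≤ C := by
    have h := hB0 0
    simp only [hBdef, add_zero] at h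
    have : q 0 - q 0 - q 0 = -(q 0) := by ring
    rwa [this, abs_neg] at h
  -- `B x y + B (-x) y` is bounded
  have hneg : ∀ x y, |B x y + B (-x) y| ≤ 2 * C := fun x y => by
    have h := hadd x (-x) y
    rw [add_neg_cancel] at h
    have h0 := hB0 y
    rw [abs_le] at h h0 ⊢
    constructor <;> linarith [h.1, h.2, h0.1, h0.2]
  set h : J → ℝ := fun x => q x + q (-x) with hhdef
  have hBneg : ∀ x, B (-x) x = q 0 - h x := fun x => by
    simp only [hBdef, hhdef, neg_add_cancel]; ring
  -- `B x x` is `h x` up to `3 C`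
  have hBxx : ∀ x, |B x x - h x| ≤ 3 * C := fun x => by
    have h1 := hneg x x
    have h2 := hBneg x
    rw [abs_le] at h1 hq0 ⊢
    constructor <;> linarith [h1.1, h1.2, hq0.1, hq0.2]
  have hhneg : ∀ x, h (-x) = h x := fun x => by
    simp only [hhdef, neg_neg]; ring
  have hhpos : ∀ x, -(2 * C₀) ≤ h x := fun x => by
    have h1 := hpos x
    have h2 := hpos (-x)
    simp only [hhdef]; linarith
  -- doubling
  have hdouble : ∀ x, 4 * h x - 6 * C ≤ h (2 • x) := fun x => by
    have e1 : q (x + x) = 2 * q x + B x x := by simp only [hBdef]; ring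
    have e2 : q (-x + -x) = 2 * q (-x) + B (-x) (-x) := by simp only [hBdef]; ring
    have h1 := hBxx x
    have h2 := hBxx (-x)
    rw [hhneg] at h2
    rw [abs_le] at h1 h2
    have e3 : h (2 • x) = q (x + x) + q (-x + -x) := by
      simp only [hhdef, two_smul, neg_add]
    rw [e3, e1, e2]
    have e4 : h x = q x + q (-x) := rfl
    linarith [h1.1, h2.1]
  -- parallelogram law
  have hpar : ∀ u w, |h (u + w) + h (u - w) - 2 * h u - 2 * h w| ≤ 4 * C := fun u w => by
    have e1 : h (u + w) = q u + q w + B u w + (q (-u) + q (-w) + B (-u) (-w)) := by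
      simp only [hhdef, hBdef, neg_add]; ring
    have e2 : h (u - w) = q u + q (-w) + B u (-w) + (q (-u) + q w + B (-u) w) := by
      simp only [hhdef, hBdef, sub_eq_add_neg, neg_add, neg_neg]; ring
    have h1 := hneg w u
    have h2 := hneg w (-u)
    rw [← hsymm u w, ← hsymm u (-w)] at h1
    rw [← hsymm (-u) w, ← hsymm (-u) (-w)] at h2
    rw [abs_le] at h1 h2 ⊢
    have e3 : h u = q u + q (-u) := rfl
    have e4 : h w = q w + q (-w) := rfl
    rw [e1, e2]
    constructor <;> linarith [h1.1, h1.2, h2.1, h2.2]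
  refine ⟨h, 2, 4, 6 * C, fun g => 2 * h g + 4 * C + 2 * C₀, by norm_num, by norm_num,
    fun g x => ?_, fun x => hdouble x, ⟨fun T => ?_⟩⟩
  · have h1 := hpar (g + x) g
    have e : g + x - g = x := by abel
    rw [e] at h1
    have h2 := hhpos (g + x + g)
    rw [abs_le] at h1
    linarith [h1.1, h1.2]
  · refine (hN.finite_le (T + C₀)).subset fun x hx => ?_
    have h1 := hpos (-x)
    have h2 : q x + q (-x) ≤ T := hx
    show q x ≤ T + C₀
    linarith

end Quasi

section Rep

variable {J : Type*} [AddCommGroup J]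

/-- An abstract system of representatives of the elements of `J` by "good divisors". -/
structure RepSystem (J : Type*) [AddCommGroup J] where
  /-- good divisors (rational, reduced, effective, of bounded degree, away from `∞`) -/
  D : Type
  /-- the class of `A - deg(A) ∞` -/
  cl : D → J
  /-- disjointness of supports -/
  Disj : D → D → Prop
  /-- the sum of two divisors -/
  add : D → D → D
  /-- the representatives of the basic degree -/
  small : D → Prop
  /-- the covolume height of a divisor -/
  q : D → ℝ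
  /-- the constant -/
  C : ℝ
  cl_add : ∀ A B, small A → small B → Disj A B → cl (add A B) = cl A + cl B
  cl_add₃ : ∀ A A' B, small A → small A' → small B → Disj A A' → Disj A B → Disj A' B →
    cl (add (add A A') B) = cl A + cl A' + cl B
  /-- class invariance -/
  ci : ∀ A A', cl A = cl A' → |q A - q A'| ≤ C
  /-- the cube inequality -/
  cube : ∀ A A' B, small A → small A' → small B → Disj A A' → Disj A B → Disj A' B →
    |q (add (add A A') B) - q (add A A') - q (add A B) - q (add A' B) + q A + q A' + q B| ≤ C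
  /-- the moving lemma -/
  move : ∀ (x : J) (L : List D), ∃ A, small A ∧ cl A = x ∧ ∀ B ∈ L, Disj A B ∧ Disj B A

namespace RepSystem

variable (R : RepSystem J)

/-- A representative of every class. -/
noncomputable def rep (x : J) : R.D := (R.move x []).choose

theorem rep_small (x : J) : R.small (R.rep x) := (R.move x []).choose_spec.1

theorem cl_rep (x : J) : R.cl (R.rep x) = x := (R.move x []).choose_spec.2.1

/-- The height of a class. -/
noncomputable def qJ (x : J) : ℝ := R.q (R.rep x)

theorem abs_qJ_sub (A : R.D) : |R.qJ (R.cl A) - R.q A| ≤ R.C :=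
  R.ci _ _ (R.cl_rep _)

/-- The second difference of `qJ` is quasi-additive. -/
theorem quasiBilinear (x x' y : J) :
    |(R.qJ (x + x' + y) - R.qJ (x + x') - R.qJ y) - (R.qJ (x + y) - R.qJ x - R.qJ y)
      - (R.qJ (x' + y) - R.qJ x' - R.qJ y)| ≤ 8 * R.C := by
  obtain ⟨A, hA, hAx, -⟩ := R.move x []
  obtain ⟨A', hA', hAx', hAA'⟩ := R.move x' [A]
  obtain ⟨B, hB, hBy, hBA⟩ := R.move y [A, A']
  have d1 : R.Disj A A' := (hAA' A (by simp)).2
  have d2 : R.Disj A B := (hBA A (by simp)).2
  have d3 : R.Disj A' B := (hBA A' (by simp)).2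
  have c1 := R.cl_add A A' hA hA' d1
  have c2 := R.cl_add A B hA hB d2
  have c3 := R.cl_add A' B hA' hB d3
  have c4 := R.cl_add₃ A A' B hA hA' hB d1 d2 d3
  rw [hAx, hAx'] at c1
  rw [hAx, hBy] at c2
  rw [hAx', hBy] at c3
  rw [hAx, hAx', hBy] at c4
  have e1 := R.abs_qJ_sub A
  have e2 := R.abs_qJ_sub A'
  have e3 := R.abs_qJ_sub B
  have e4 := R.abs_qJ_sub (R.add A A')
  have e5 := R.abs_qJ_sub (R.add A B)
  have e6 := R.abs_qJ_sub (R.add A' B)
  have e7 := R.abs_qJ_sub (R.add (R.add A A') B)
  rw [hAx] at e1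
  rw [hAx'] at e2
  rw [hBy] at e3
  rw [c1] at e4
  rw [c2] at e5
  rw [c3] at e6
  rw [c4] at e7
  have e8 := R.cube A A' B hA hA' hB d1 d2 d3
  rw [abs_le] at e1 e2 e3 e4 e5 e6 e7 e8 ⊢
  constructor <;>
    linarith [e1.1, e1.2, e2.1, e2.2, e3.1, e3.2, e4.1, e4.2, e5.1, e5.2, e6.1, e6.2,
      e7.1, e7.2, e8.1, e8.2]

end RepSystem

/-- The three height properties from a system of representatives with positivity and Northcott. -/
theorem height_of_repSystem (R : RepSystem J) (C₀ : ℝ) (hpos : ∀ A, -C₀ ≤ R.q A)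
    (hN : ∀ T : ℝ, {x : J | ∃ A, R.cl A = x ∧ R.q A ≤ T}.Finite) :
    ∃ (h : J → ℝ) (a b c₀ : ℝ) (c : J → ℝ), 0 ≤ a ∧ a < b ∧
      (∀ g x, h x ≤ a * h (g + x) + c g) ∧ (∀ x, b * h x - c₀ ≤ h (2 • x)) ∧ Northcott h :=
  height_of_quasiBilinear R.qJ (8 * R.C) C₀ R.quasiBilinear (fun x => hpos _)
    ⟨fun T => (hN T).subset fun x hx => ⟨R.rep x, R.cl_rep x, hx⟩⟩

end Rep

/-- `Stmt_height N 2` from a system of representatives on `J₀(N)(ℚ)`. -/
theorem stmt_height_of_repSystem (N : ℕ) (R : RepSystem (JQ N)) (C₀ : ℝ)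
    (hpos : ∀ A, -C₀ ≤ R.q A)
    (hN : ∀ T : ℝ, {x : JQ N | ∃ A, R.cl A = x ∧ R.q A ≤ T}.Finite) :
    Stmt_height N 2 :=
  height_of_repSystem R C₀ hpos hN

end Fermat.Agent.S17.H16
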