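import Fermat.Agent.S17.Height.H16_MatSys

/-!
# S17, part H: the two halves of the cube inequality (statements)

* `Stmt_CubeL` (local, pure): local additivity for the evaluation forms implies the cube relation
  for the chain products
  `chainProd p = ∏_j opNorm (ev (p j)) {f : ev (p i) ⬝ f = 0 for i < j}`.
  (Proof: `X(p ++ q) * U(q) ≍ X(p) * ∏_j opNorm (q_j) (S_p ∪ S_q^{<j}) * U(q)` and LA with
  `S = S_p`, `S' = S_q^{<j}`, `Q = q_j`; then `X(123) ≍ X(12) X(3) T(1;3) T(2;3) / U(3)²`,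
  `X(13) ≍ X(1) X(3) T(1;3) / U(3)`, `X(23) ≍ X(2) X(3) T(2;3) / U(3)`, where
  `T(i;3) = ∏_{q ∈ 3} opNorm q S_i`, `U(3) = ∏_{q ∈ 3} opNorm q ⊤`; `4 a₃` applications of LA.)
* `Stmt_CubeG` (Galois): if `Gal(ℚ̄/ℚ)` permutes the forms `E_j`, `B` is a rational matrix of full
  rank killed by the `E_j` and the `w_j` are dual to the `E_j`, then the determinant `c` of the
  matrix with rows `w_j`, `B` satisfies `c² ∈ ℚˣ`.
  (Proof: with `N` = rows `E_j`, `B`: `M Nᵗ = [[1, *], [0, B Bᵗ]]` and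
  `N Nᵗ = [[E Eᵗ, 0], [0, B Bᵗ]]`, so `c² = det (B Bᵗ) / det (E Eᵗ)`; `det (B Bᵗ) ∈ ℚˣ` and
  `det (E Eᵗ)` is Galois invariant, as `σ (E Eᵗ) = (E Eᵗ).submatrix π π`.)
-/

set_option autoImplicit false

open Matrix

namespace Fermat.Agent.S17.H16

open Fermat.Agent.S17.H35 Fermat.Agent.S17.H71

/-- The chain product of a family of points. -/
noncomputable def chainProd {K : Type*} [Field K] {ι : Type*} [Fintype ι] {Pt : Type}
    (v : AbsoluteValue K ℝ) (ev : Pt → ι → K) {a : ℕ} (p : Fin a → Pt) : ℝ :=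
  ∏ j : Fin a, opNorm v (ev (p j)) (kerUpTo (fun i => ev (p i)) j)

/-- Local additivity implies the cube relation for the chain products. -/
def Stmt_CubeL : Prop :=
  ∀ (K : Type) [Field K] (n : ℕ) (Pt : Type) [DecidableEq Pt] (ev : Pt → Fin n → K)
    (v : AbsoluteValue K ℝ) (C : ℝ) (N : ℕ), 1 ≤ C →
    (∀ (S S' : Finset Pt) (Q : Pt), Disjoint S S' → Q ∉ S → Q ∉ S' → (S ∪ S').card + 1 ≤ N →
      opNorm v (ev Q) (kerPts ev (S ∪ S')) * opNorm v (ev Q) ⊤ ≤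
        C * (opNorm v (ev Q) (kerPts ev S) * opNorm v (ev Q) (kerPts ev S')) ∧
      opNorm v (ev Q) (kerPts ev S) * opNorm v (ev Q) (kerPts ev S') ≤
        C * (opNorm v (ev Q) (kerPts ev (S ∪ S')) * opNorm v (ev Q) ⊤)) →
    (∀ (S : Finset Pt) (Q : Pt), Q ∉ S → S.card + 1 ≤ N →
      0 < opNorm v (ev Q) (kerPts ev S)) →
    ∀ (a₁ a₂ a₃ : ℕ) (p₁ : Fin a₁ → Pt) (p₂ : Fin a₂ → Pt) (p₃ : Fin a₃ → Pt),
      a₁ + a₂ + a₃ ≤ N → Function.Injective (Fin.append (Fin.append p₁ p₂) p₃) →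
      chainProd v ev (Fin.append (Fin.append p₁ p₂) p₃) *
          (chainProd v ev p₁ * chainProd v ev p₂ * chainProd v ev p₃) ≤
        C ^ (4 * N) * (chainProd v ev (Fin.append p₁ p₂) * chainProd v ev (Fin.append p₁ p₃) *
          chainProd v ev (Fin.append p₂ p₃)) ∧
      chainProd v ev (Fin.append p₁ p₂) * chainProd v ev (Fin.append p₁ p₃) *
          chainProd v ev (Fin.append p₂ p₃) ≤
        C ^ (4 * N) * (chainProd v ev (Fin.append (Fin.append p₁ p₂) p₃) *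
          (chainProd v ev p₁ * chainProd v ev p₂ * chainProd v ev p₃))

/-- The square of the determinant of the dual completion of a rational basis is rational. -/
def Stmt_CubeG : Prop :=
  ∀ (a r n : ℕ) (E w : Fin a → Fin n → Qbar) (B : Matrix (Fin r) (Fin n) ℚ),
    r + a = n → FullRank B →
    (∀ i j, E i ⬝ᵥ w j = if i = j then 1 else 0) →
    (∀ i k, E i ⬝ᵥ castM B k = 0) →
    (∀ σ : GQ, ∃ π : Equiv.Perm (Fin a), ∀ j i, σ (E j i) = E (π j) i) →
    ∃ c : Qbar, c ≠ 0 ∧ (∃ x : ℚ, c ^ 2 = (x : Qbar)) ∧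
      ∀ v : AbsoluteValue Qbar ℝ, maxMinor v (stackRows a w (castM B)) = v c

end Fermat.Agent.S17.H16
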