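import Fermat.Agent.S17.Height.H35_AbsVal
import Fermat.Agent.S17.Wiring

/-!
# S17, part H: Galois descent for subspaces of `ℚ̄ⁿ` (statement)

`Stmt_DescLin`: a subspace `W` of `ℚ̄ⁿ` which is stable under the coordinatewise action of
`Gal(ℚ̄/ℚ)` has a basis of rational vectors: there is a rational `r × n` matrix `B` with a nonzero
`r × r` minor whose rows span `W` over `ℚ̄`.

(Proof sketch: let `W₀` be the `ℚ̄`-span of `W ∩ ℚⁿ`; choose a rational basis of `W₀` in reduced
form (`B_J = 1` for a set `J` of pivot columns).  If `w ∈ W`, then `w̃ = w - ∑_{p ∈ J} w_p b_p ∈ W`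
vanishes on `J`; if `w̃ ≠ 0` take such a `w̃ ∈ W`, vanishing on `J`, nonzero, with minimal support,
and normalise one coordinate to `1`; then `σ w̃ - w̃ ∈ W` vanishes on `J` and has smaller support,
so it is `0`; hence `w̃` is rational (`ℚ̄^G = ℚ`), `w̃ ∈ W₀`, and `w̃ = 0` since it vanishes on `J`:
contradiction.)
-/

set_option autoImplicit false

open Matrix

namespace Fermat.Agent.S17.H16

open Fermat.Agent.S17.H35

/-- Galois descent for subspaces of `ℚ̄ⁿ`. -/
def Stmt_DescLin : Prop :=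
  ∀ (n : ℕ) (W : Submodule Qbar (Fin n → Qbar)),
    (∀ (σ : GQ) (w : Fin n → Qbar), w ∈ W → (fun i => σ (w i)) ∈ W) →
    ∃ (r : ℕ) (B : Matrix (Fin r) (Fin n) ℚ),
      (∃ J : Fin r → Fin n, (B.submatrix id J).det ≠ 0) ∧
      Submodule.span Qbar (Set.range fun i : Fin r => fun j => (algebraMap ℚ Qbar) (B i j)) = W

end Fermat.Agent.S17.H16
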