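import Fermat.Agent.S17.Height.H16_CubeStmt

/-!
# S17, part H (heights): assembly of the cube inequality (helper16)

`stmt_M_cube : Stmt_CubeL → Stmt_CubeG → Stmt_M_cube`: the cube inequality of the covolume
function of a matrix system, from the chain lemma, the local cube relation of the chain products
and the rationality of the squares of the dual determinants.
-/

set_option autoImplicit false

open Matrix Module

namespace Fermat.Agent.S17.H16

open Fermat.Agent.S17.H35 Fermat.Agent.S17.H71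

section Dual

variable {K : Type*} [Field K] {n a : ℕ}

/-- The evaluation map `f ↦ (E i ⬝ f)_i`. -/
def formsMap (E : Fin a → Fin n → K) : (Fin n → K) →ₗ[K] (Fin a → K) :=
  Matrix.mulVecLin (Matrix.of E)

theorem formsMap_apply (E : Fin a → Fin n → K) (f : Fin n → K) (i : Fin a) :
    formsMap E f i = E i ⬝ᵥ f := rfl

/-- The common kernel of the forms. -/
def formsKer (E : Fin a → Fin n → K) : Submodule K (Fin n → K) := LinearMap.ker (formsMap E)

theorem mem_formsKer (E : Fin a → Fin n → K) (f : Fin n → K) :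
    f ∈ formsKer E ↔ ∀ i, E i ⬝ᵥ f = 0 := by
  unfold formsKer
  rw [LinearMap.mem_ker]
  constructor
  · intro h i
    rw [← formsMap_apply, h]
    rfl
  · intro h
    funext i
    rw [formsMap_apply, h]
    rfl

/-- Dual vectors exist if the common kernel has the expected dimension. -/
theorem exists_dual (E : Fin a → Fin n → K) (h : finrank K (formsKer E) + a = n) :
    ∃ w : Fin a → Fin n → K, ∀ i j, E i ⬝ᵥ w j = if i = j then 1 else 0 := by
  have h1 := LinearMap.finrank_range_add_finrank_ker (formsMap E)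
  rw [Module.finrank_fin_fun] at h1
  have h2 : finrank K (LinearMap.range (formsMap E)) = a := by
    unfold formsKer at h
    omega
  have h3 : LinearMap.range (formsMap E) = ⊤ := by
    apply Submodule.eq_top_of_finrank_eq
    rw [h2, Module.finrank_fin_fun]
  have hsurj : Function.Surjective (formsMap E) := LinearMap.range_eq_top.1 h3
  choose w hw using fun j : Fin a => hsurj (Pi.single j 1)
  refine ⟨w, fun i j => ?_⟩
  rw [← formsMap_apply, hw j, Pi.single_apply]

end Dual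

section Pts

variable {Pt : Type} [DecidableEq Pt] {n : ℕ}

theorem kerPts_image_eq_formsKer {a : ℕ} (ev : Pt → Fin n → Qbar) (p : Fin a → Pt) :
    kerPts ev (Finset.univ.image p) = formsKer (fun j => ev (p j)) := by
  ext f
  rw [mem_kerPts, mem_formsKer]
  constructor
  · intro h i
    exact h (p i) (Finset.mem_image_of_mem p (Finset.mem_univ i))
  · intro h P hP
    obtain ⟨i, -, rfl⟩ := Finset.mem_image.1 hP
    exact h i

theorem kerPts_mono (ev : Pt → Fin n → Qbar) {S S' : Finset Pt} (h : S ⊆ S') :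
    kerPts ev S' ≤ kerPts ev S := fun _ hf P hP => hf P (h hP)

end Pts

namespace MatSys

variable {J : Type} [AddCommGroup J] {Dv : Type} [AddCommMonoid Dv] {Rv : Type}
  {Pt : Type} [DecidableEq Pt] (S : MatSys J Dv Rv Pt)

/-- Positivity of the norms of the evaluation forms. -/
theorem opNorm_ev_pos (v : AbsoluteValue Qbar ℝ) (T : Finset Pt) (Q : Pt) (hQ : Q ∉ T)
    (hT : T.card + 1 + S.c₀ ≤ S.m₀) : 0 < opNorm v (S.ev Q) (kerPts S.ev T) := by
  have h1 := S.ev_indep T (by omega)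
  have h2 := S.ev_indep (insert Q T) (by rw [Finset.card_insert_of_notMem hQ]; omega)
  rw [Finset.card_insert_of_notMem hQ] at h2
  have hle : kerPts S.ev (insert Q T) ≤ kerPts S.ev T :=
    kerPts_mono S.ev (Finset.subset_insert Q T)
  have hne : kerPts S.ev (insert Q T) ≠ kerPts S.ev T := by
    intro h
    rw [h] at h2
    omega
  have hlt : kerPts S.ev (insert Q T) < kerPts S.ev T := lt_of_le_of_ne hle hne
  obtain ⟨f, hf, hf'⟩ := SetLike.exists_of_lt hlt
  refine opNorm_pos v (S.ev Q) _ hf ?_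
  intro h0
  apply hf'
  intro P hP
  rcases Finset.mem_insert.1 hP with rfl | hP
  · exact h0
  · exact hf P hP

/-- The covolume of a reduced divisor is comparable to the chain product of an enumeration of
its support, up to an adelic function of height `0`. -/
theorem exists_adl_chain (hG : Stmt_CubeG) (Lch : LocConst Qbar)
    (hLch : ∀ (v : AbsoluteValue Qbar ℝ) (a r : ℕ) (E w : Fin a → Fin (S.n S.m₀) → Qbar)
      (B : Matrix (Fin r) (Fin (S.n S.m₀)) Qbar), r + a = S.n S.m₀ →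
      (∀ i j, E i ⬝ᵥ w j = if i = j then 1 else 0) → (∀ i k, E i ⬝ᵥ B k = 0) →
      0 < maxMinor v B →
      maxMinor v B ≤ maxMinor v (stackRows a w B) * ∏ j : Fin a, opNorm v (E j) (kerUpTo E j) ∧
      maxMinor v (stackRows a w B) * ∏ j : Fin a, opNorm v (E j) (kerUpTo E j) ≤
        Lch.C v * maxMinor v B)
    (D : Dv) (hD : S.Red D) (hdeg : S.deg D + S.c₀ ≤ S.m₀) {a : ℕ} (p : Fin a → Pt)
    (hp : Function.Injective p) (himg : Finset.univ.image p = S.supp D) :
    ∃ x : Adl, x.ht = S.Phi S.m₀ D ∧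
      ∀ w : PlaceQ, x.f w ≤ chainProd (absQ w) S.ev p ∧
        chainProd (absQ w) S.ev p ≤ Lch.C (absQ w) * x.f w := by
  have hW := S.W_red D hD hdeg
  obtain ⟨r, B, hB, hBW⟩ := S.W_rat S.m₀ D
  have hcard : (S.supp D).card = a := by
    rw [← himg, Finset.card_image_of_injective _ hp, Finset.card_univ, Fintype.card_fin]
  have hcd := S.card_supp D hD
  have hker : kerPts S.ev (S.supp D) = formsKer (fun j => S.ev (p j)) := by
    rw [← himg]
    exact kerPts_image_eq_formsKer S.ev p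
  have hr : finrank Qbar (kerPts S.ev (S.supp D)) = r := by
    rw [← hW]
    exact IsRatSub.finrank B hB hBW
  have hra : r + a = S.n S.m₀ := by
    have := S.ev_indep (S.supp D) (by rw [hcd]; exact hdeg)
    rw [hr, hcard] at this
    exact this
  set E : Fin a → Fin (S.n S.m₀) → Qbar := fun j => S.ev (p j) with hE
  obtain ⟨w, hw⟩ := exists_dual E (by rw [← hker, hr]; exact hra)
  have hkill : ∀ i k, E i ⬝ᵥ castM B k = 0 := by
    intro i k
    have h1 : castM B k ∈ kerPts S.ev (S.supp D) := by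
      rw [← hW, ← hBW]
      exact row_mem_rowSpan _ k
    rw [hker] at h1
    exact (mem_formsKer E _).1 h1 i
  have hEinj : Function.Injective E := by
    intro j j' h
    by_contra hne
    have h1 := hw j j
    have h2 := hw j' j
    rw [if_pos rfl] at h1
    rw [if_neg (Ne.symm hne), ← h, h1] at h2
    exact one_ne_zero h2
  -- the Galois action permutes the forms
  have hgal : ∀ σ : GQ, ∃ π : Equiv.Perm (Fin a), ∀ j i, σ (E j i) = E (π j) i := by
    intro σ
    have hex : ∀ j : Fin a, ∃ j' : Fin a, p j' = S.gal σ (p j) := fun j => by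
      have h1 : p j ∈ S.supp D := by
        rw [← himg]
        exact Finset.mem_image_of_mem p (Finset.mem_univ j)
      have h2 := S.gal_supp σ D (p j) h1
      rw [← himg] at h2
      obtain ⟨j', -, hj'⟩ := Finset.mem_image.1 h2
      exact ⟨j', hj'⟩
    choose π₀ hπ₀ using hex
    have hval : ∀ j i, σ (E j i) = E (π₀ j) i := fun j i => by
      show σ (S.ev (p j) i) = S.ev (p (π₀ j)) i
      rw [hπ₀ j, S.ev_gal]
    have hinj : Function.Injective π₀ := by
      intro j j' h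
      apply hEinj
      funext i
      have h1 := hval j i
      have h2 := hval j' i
      rw [h] at h1
      exact σ.injective (h1.trans h2.symm)
    exact ⟨Equiv.ofBijective π₀ (Finite.injective_iff_bijective.1 hinj), hval⟩
  obtain ⟨c, hc, ⟨q, hq⟩, hcv⟩ := hG a r (S.n S.m₀) E w B hra hB hw hkill hgal
  refine ⟨(Adl.ofMat B hB).mul (Adl.ofAbs c hc).inv, ?_, fun w' => ?_⟩
  · rw [Adl.ht_mul, Adl.ht_inv, Adl.ht_ofAbs_of_pow c hc two_ne_zero hq, neg_zero, add_zero,
      Adl.ht_ofMat]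
    exact (PhiW_eq B hB _ hBW).symm
  · have hpos := maxMinor_castM_pos B hB w'
    obtain ⟨h1, h2⟩ := hLch (absQ w') a r E w (castM B) hra hw hkill hpos
    rw [hcv] at h1 h2
    have hcpos : 0 < absQ w' c := (absQ w').pos hc
    have hX : (∏ j : Fin a, opNorm (absQ w') (E j) (kerUpTo E j)) =
        chainProd (absQ w') S.ev p := rfl
    rw [hX] at h1 h2
    rw [Adl.mul_f, Adl.inv_f, Adl.ofMat_f, Adl.ofAbs_f]
    constructor
    · rw [← div_eq_mul_inv, div_le_iff₀ hcpos, mul_comm]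
      exact h1
    · rw [← div_eq_mul_inv, ← mul_div_assoc, le_div_iff₀ hcpos, mul_comm]
      exact h2

end MatSys

section Enum

variable {Pt : Type} [DecidableEq Pt]

/-- An enumeration of a finite set of given cardinality. -/
theorem exists_enum (T : Finset Pt) {a : ℕ} (h : T.card = a) :
    ∃ p : Fin a → Pt, Function.Injective p ∧ Finset.univ.image p = T := by
  let e := Finset.equivFinOfCardEq h
  refine ⟨fun j => (e.symm j : Pt), ?_, ?_⟩
  · intro j j' hjj
    exact e.symm.injective (Subtype.ext hjj)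
  · ext P
    constructor
    · intro hP
      obtain ⟨j, -, rfl⟩ := Finset.mem_image.1 hP
      exact (e.symm j).2
    · intro hP
      refine Finset.mem_image.2 ⟨e ⟨P, hP⟩, Finset.mem_univ _, ?_⟩
      rw [Equiv.symm_apply_apply]

theorem image_append {a b : ℕ} (p : Fin a → Pt) (q : Fin b → Pt) :
    Finset.univ.image (Fin.append p q) = Finset.univ.image p ∪ Finset.univ.image q := by
  ext P
  simp only [Finset.mem_image, Finset.mem_univ, true_and, Finset.mem_union]
  constructor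
  · rintro ⟨j, rfl⟩
    refine Fin.addCases (fun i => ?_) (fun i => ?_) j
    · exact Or.inl ⟨i, by rw [Fin.append_left]⟩
    · exact Or.inr ⟨i, by rw [Fin.append_right]⟩
  · rintro (⟨i, rfl⟩ | ⟨i, rfl⟩)
    · exact ⟨Fin.castAdd b i, Fin.append_left p q i⟩
    · exact ⟨Fin.natAdd a i, Fin.append_right p q i⟩

theorem append_injective {a b : ℕ} {p : Fin a → Pt} {q : Fin b → Pt}
    (hp : Function.Injective p) (hq : Function.Injective q)
    (hd : Disjoint (Finset.univ.image p) (Finset.univ.image q)) :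
    Function.Injective (Fin.append p q) := by
  rw [Fin.append_injective_iff]
  refine ⟨hp, hq, fun i j h => ?_⟩
  have h1 : p i ∈ Finset.univ.image p := Finset.mem_image_of_mem p (Finset.mem_univ i)
  have h2 : p i ∈ Finset.univ.image q := by
    rw [h]
    exact Finset.mem_image_of_mem q (Finset.mem_univ j)
  exact Finset.disjoint_left.1 hd h1 h2

end Enum

/-- **The cube inequality of the covolume function of a matrix system.** -/
theorem stmt_M_cube (hL : Stmt_CubeL) (hG : Stmt_CubeG) : Stmt_M_cube := by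
  intro hChain J _ Dv _ Rv Pt _ S
  obtain ⟨Lla, hLla⟩ := S.la_ev
  obtain ⟨Lch, hLch⟩ := hChain Qbar (S.n S.m₀)
  set N := 3 * S.a₀ with hN
  set L : LocConst Qbar := (Lla.pow (4 * N)).mul (Lch.pow 4) with hLdef
  refine ⟨locTotal L, ?_⟩
  intro A A' B hA hA' hB dA dA' dB d1 d2 d3
  have ha := S.ha₀
  -- the supports
  have cA := S.card_supp A hA
  have cA' := S.card_supp A' hA'
  have cB := S.card_supp B hB
  rw [dA] at cA
  rw [dA'] at cA'
  rw [dB] at cB
  obtain ⟨p₁, hp₁, hi₁⟩ := exists_enum (S.supp A) cA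
  obtain ⟨p₂, hp₂, hi₂⟩ := exists_enum (S.supp A') cA'
  obtain ⟨p₃, hp₃, hi₃⟩ := exists_enum (S.supp B) cB
  obtain ⟨hR12, hs12⟩ := S.supp_add A A' hA hA' d1
  obtain ⟨hR13, hs13⟩ := S.supp_add A B hA hB d2
  obtain ⟨hR23, hs23⟩ := S.supp_add A' B hA' hB d3
  have d12 := S.disj_add A A' B d2 d3
  obtain ⟨hR123, hs123⟩ := S.supp_add (A + A') B hR12 hB d12
  have D12 := S.supp_disj A A' d1
  have D13 := S.supp_disj A B d2
  have D23 := S.supp_disj A' B d3
  have D123 := S.supp_disj (A + A') B d12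
  -- the enumerations of the sums
  have hp12 : Function.Injective (Fin.append p₁ p₂) :=
    append_injective hp₁ hp₂ (by rw [hi₁, hi₂]; exact D12)
  have hp13 : Function.Injective (Fin.append p₁ p₃) :=
    append_injective hp₁ hp₃ (by rw [hi₁, hi₃]; exact D13)
  have hp23 : Function.Injective (Fin.append p₂ p₃) :=
    append_injective hp₂ hp₃ (by rw [hi₂, hi₃]; exact D23)
  have hi12 : Finset.univ.image (Fin.append p₁ p₂) = S.supp (A + A') := by
    rw [image_append, hi₁, hi₂, hs12]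
  have hi13 : Finset.univ.image (Fin.append p₁ p₃) = S.supp (A + B) := by
    rw [image_append, hi₁, hi₃, hs13]
  have hi23 : Finset.univ.image (Fin.append p₂ p₃) = S.supp (A' + B) := by
    rw [image_append, hi₂, hi₃, hs23]
  have hp123 : Function.Injective (Fin.append (Fin.append p₁ p₂) p₃) :=
    append_injective hp12 hp₃ (by rw [hi12, hi₃]; exact D123)
  have hi123 : Finset.univ.image (Fin.append (Fin.append p₁ p₂) p₃) = S.supp (A + A' + B) := by
    rw [image_append, hi12, hi₃, hs123]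
  -- the degrees
  have g1 : S.deg A + S.c₀ ≤ S.m₀ := by omega
  have g2 : S.deg A' + S.c₀ ≤ S.m₀ := by omega
  have g3 : S.deg B + S.c₀ ≤ S.m₀ := by omega
  have g12 : S.deg (A + A') + S.c₀ ≤ S.m₀ := by rw [map_add]; omega
  have g13 : S.deg (A + B) + S.c₀ ≤ S.m₀ := by rw [map_add]; omega
  have g23 : S.deg (A' + B) + S.c₀ ≤ S.m₀ := by rw [map_add]; omega
  have g123 : S.deg (A + A' + B) + S.c₀ ≤ S.m₀ := by rw [map_add, map_add]; omega
  -- the adelic functions
  obtain ⟨x₁, e₁, l₁⟩ := S.exists_adl_chain hG Lch hLch A hA g1 p₁ hp₁ hi₁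
  obtain ⟨x₂, e₂, l₂⟩ := S.exists_adl_chain hG Lch hLch A' hA' g2 p₂ hp₂ hi₂
  obtain ⟨x₃, e₃, l₃⟩ := S.exists_adl_chain hG Lch hLch B hB g3 p₃ hp₃ hi₃
  obtain ⟨x₁₂, e₁₂, l₁₂⟩ := S.exists_adl_chain hG Lch hLch (A + A') hR12 g12 _ hp12 hi12
  obtain ⟨x₁₃, e₁₃, l₁₃⟩ := S.exists_adl_chain hG Lch hLch (A + B) hR13 g13 _ hp13 hi13
  obtain ⟨x₂₃, e₂₃, l₂₃⟩ := S.exists_adl_chain hG Lch hLch (A' + B) hR23 g23 _ hp23 hi23
  obtain ⟨x₁₂₃, e₁₂₃, l₁₂₃⟩ :=
    S.exists_adl_chain hG Lch hLch (A + A' + B) hR123 g123 _ hp123 hi123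
  -- the local cube relation
  have hloc : ∀ w : PlaceQ,
      chainProd (absQ w) S.ev (Fin.append (Fin.append p₁ p₂) p₃) *
          (chainProd (absQ w) S.ev p₁ * chainProd (absQ w) S.ev p₂ *
            chainProd (absQ w) S.ev p₃) ≤
        Lla.C (absQ w) ^ (4 * N) * (chainProd (absQ w) S.ev (Fin.append p₁ p₂) *
          chainProd (absQ w) S.ev (Fin.append p₁ p₃) *
          chainProd (absQ w) S.ev (Fin.append p₂ p₃)) ∧
      chainProd (absQ w) S.ev (Fin.append p₁ p₂) * chainProd (absQ w) S.ev (Fin.append p₁ p₃) *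
          chainProd (absQ w) S.ev (Fin.append p₂ p₃) ≤
        Lla.C (absQ w) ^ (4 * N) * (chainProd (absQ w) S.ev (Fin.append (Fin.append p₁ p₂) p₃) *
          (chainProd (absQ w) S.ev p₁ * chainProd (absQ w) S.ev p₂ *
            chainProd (absQ w) S.ev p₃)) := by
    intro w
    refine hL Qbar (S.n S.m₀) Pt S.ev (absQ w) (Lla.C (absQ w)) N (Lla.one_le _) ?_ ?_
      S.a₀ S.a₀ S.a₀ p₁ p₂ p₃ (by omega) hp123
    · intro T T' Q hTT hQ hQ' hcard
      exact hLla w T T' Q hTT hQ hQ' (by omega)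
    · intro T Q hQ hcard
      exact S.opNorm_ev_pos (absQ w) T Q hQ (by omega)
  -- the global estimate
  set P : Adl := ((x₁₂₃.mul x₁).mul x₂).mul x₃ with hP
  set Q : Adl := (x₁₂.mul x₁₃).mul x₂₃ with hQ
  have hPQ : |P.ht - Q.ht| ≤ locTotal L := by
    refine Adl.abs_ht_sub_le P Q L (fun w => ?_) (fun w => ?_)
    · -- `P ≤ X₁₂₃ X₁ X₂ X₃ ≤ C^{4N} X₁₂ X₁₃ X₂₃ ≤ C^{4N} Lch³ Q`
      have hC1 := Lch.one_le (absQ w)
      have hC0 := Lch.pos (absQ w)
      have hA0 := Lla.pos (absQ w)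
      have k := (hloc w).1
      have p1 := x₁.pos w
      have p2 := x₂.pos w
      have p3 := x₃.pos w
      have p12 := x₁₂.pos w
      have p13 := x₁₃.pos w
      have p23 := x₂₃.pos w
      have p123 := x₁₂₃.pos w
      show x₁₂₃.f w * x₁.f w * x₂.f w * x₃.f w ≤
        (Lla.C (absQ w) ^ (4 * N) * Lch.C (absQ w) ^ 4) * (x₁₂.f w * x₁₃.f w * x₂₃.f w)
      have u1 : x₁₂₃.f w * x₁.f w * x₂.f w * x₃.f w ≤
          chainProd (absQ w) S.ev (Fin.append (Fin.append p₁ p₂) p₃) *
          (chainProd (absQ w) S.ev p₁ * chainProd (absQ w) S.ev p₂ *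
            chainProd (absQ w) S.ev p₃) := by
        have := mul_le_mul (mul_le_mul (mul_le_mul (l₁₂₃ w).1 (l₁ w).1 p1.le
          (p123.le.trans (l₁₂₃ w).1)) (l₂ w).1 p2.le
          (mul_nonneg (p123.le.trans (l₁₂₃ w).1) (p1.le.trans (l₁ w).1))) (l₃ w).1 p3.le
          (mul_nonneg (mul_nonneg (p123.le.trans (l₁₂₃ w).1) (p1.le.trans (l₁ w).1))
            (p2.le.trans (l₂ w).1))
        calc _ ≤ _ := this
          _ = _ := by ring
      have u2 : chainProd (absQ w) S.ev (Fin.append p₁ p₂) *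
          chainProd (absQ w) S.ev (Fin.append p₁ p₃) *
          chainProd (absQ w) S.ev (Fin.append p₂ p₃) ≤
          Lch.C (absQ w) ^ 3 * (x₁₂.f w * x₁₃.f w * x₂₃.f w) := by
        have := mul_le_mul (mul_le_mul (l₁₂ w).2 (l₁₃ w).2 (p13.le.trans (l₁₃ w).1)
          (mul_nonneg hC0.le p12.le)) (l₂₃ w).2 (p23.le.trans (l₂₃ w).1)
          (mul_nonneg (mul_nonneg hC0.le p12.le) (mul_nonneg hC0.le p13.le))
        calc _ ≤ _ := this
          _ = _ := by ring
      have u3 : Lch.C (absQ w) ^ 3 ≤ Lch.C (absQ w) ^ 4 :=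
        pow_le_pow_right₀ hC1 (by norm_num)
      have hQpos : 0 ≤ x₁₂.f w * x₁₃.f w * x₂₃.f w := by positivity
      calc x₁₂₃.f w * x₁.f w * x₂.f w * x₃.f w ≤ _ := u1
        _ ≤ _ := k
        _ ≤ Lla.C (absQ w) ^ (4 * N) * (Lch.C (absQ w) ^ 3 * (x₁₂.f w * x₁₃.f w * x₂₃.f w)) :=
            mul_le_mul_of_nonneg_left u2 (pow_nonneg hA0.le _)
        _ ≤ Lla.C (absQ w) ^ (4 * N) * (Lch.C (absQ w) ^ 4 * (x₁₂.f w * x₁₃.f w * x₂₃.f w)) :=
            mul_le_mul_of_nonneg_left (mul_le_mul_of_nonneg_right u3 hQpos)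
              (pow_nonneg hA0.le _)
        _ = _ := by ring
    · have hC1 := Lch.one_le (absQ w)
      have hC0 := Lch.pos (absQ w)
      have hA0 := Lla.pos (absQ w)
      have k := (hloc w).2
      have p1 := x₁.pos w
      have p2 := x₂.pos w
      have p3 := x₃.pos w
      have p12 := x₁₂.pos w
      have p13 := x₁₃.pos w
      have p23 := x₂₃.pos w
      have p123 := x₁₂₃.pos w
      show x₁₂.f w * x₁₃.f w * x₂₃.f w ≤
        (Lla.C (absQ w) ^ (4 * N) * Lch.C (absQ w) ^ 4) *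
          (x₁₂₃.f w * x₁.f w * x₂.f w * x₃.f w)
      have u1 : x₁₂.f w * x₁₃.f w * x₂₃.f w ≤
          chainProd (absQ w) S.ev (Fin.append p₁ p₂) *
          chainProd (absQ w) S.ev (Fin.append p₁ p₃) *
          chainProd (absQ w) S.ev (Fin.append p₂ p₃) :=
        mul_le_mul (mul_le_mul (l₁₂ w).1 (l₁₃ w).1 p13.le (p12.le.trans (l₁₂ w).1))
          (l₂₃ w).1 p23.le (mul_nonneg (p12.le.trans (l₁₂ w).1) (p13.le.trans (l₁₃ w).1))
      have u2 : chainProd (absQ w) S.ev (Fin.append (Fin.append p₁ p₂) p₃) *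
          (chainProd (absQ w) S.ev p₁ * chainProd (absQ w) S.ev p₂ *
            chainProd (absQ w) S.ev p₃) ≤
          Lch.C (absQ w) ^ 4 * (x₁₂₃.f w * x₁.f w * x₂.f w * x₃.f w) := by
        have := mul_le_mul (l₁₂₃ w).2 (mul_le_mul (mul_le_mul (l₁ w).2 (l₂ w).2
          (p2.le.trans (l₂ w).1) (mul_nonneg hC0.le p1.le)) (l₃ w).2 (p3.le.trans (l₃ w).1)
          (mul_nonneg (mul_nonneg hC0.le p1.le) (mul_nonneg hC0.le p2.le)))
          (mul_nonneg (mul_nonneg (p1.le.trans (l₁ w).1) (p2.le.trans (l₂ w).1))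
            (p3.le.trans (l₃ w).1)) (mul_nonneg hC0.le p123.le)
        calc _ ≤ _ := this
          _ = _ := by ring
      calc x₁₂.f w * x₁₃.f w * x₂₃.f w ≤ _ := u1
        _ ≤ _ := k
        _ ≤ Lla.C (absQ w) ^ (4 * N) *
            (Lch.C (absQ w) ^ 4 * (x₁₂₃.f w * x₁.f w * x₂.f w * x₃.f w)) :=
            mul_le_mul_of_nonneg_left u2 (pow_nonneg hA0.le _)
        _ = _ := by ring
  have hPht : P.ht = S.Phi S.m₀ (A + A' + B) + S.Phi S.m₀ A + S.Phi S.m₀ A' + S.Phi S.m₀ B := by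
    rw [hP, Adl.ht_mul, Adl.ht_mul, Adl.ht_mul, e₁₂₃, e₁, e₂, e₃]
  have hQht : Q.ht = S.Phi S.m₀ (A + A') + S.Phi S.m₀ (A + B) + S.Phi S.m₀ (A' + B) := by
    rw [hQ, Adl.ht_mul, Adl.ht_mul, e₁₂, e₁₃, e₂₃]
  rw [hPht, hQht] at hPQ
  have : S.Phi S.m₀ (A + A' + B) - S.Phi S.m₀ (A + A') - S.Phi S.m₀ (A + B)
      - S.Phi S.m₀ (A' + B) + S.Phi S.m₀ A + S.Phi S.m₀ A' + S.Phi S.m₀ B =
      S.Phi S.m₀ (A + A' + B) + S.Phi S.m₀ A + S.Phi S.m₀ A' + S.Phi S.m₀ B
        - (S.Phi S.m₀ (A + A') + S.Phi S.m₀ (A + B) + S.Phi S.m₀ (A' + B)) := by ring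
  rw [this]
  exact hPQ

end Fermat.Agent.S17.H16
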