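import Fermat.Agent.S17.Height.H71_Bounds
import Mathlib.LinearAlgebra.Matrix.Determinant.Basic
import Mathlib.LinearAlgebra.Matrix.NonsingularInverse
import Mathlib.LinearAlgebra.Matrix.Notation
import Mathlib.Tactic

/-!
# S17, part H: sup-norms and maximal minors over a field with an absolute value (helper16)

For a matrix `B : Matrix (Fin r) ι K` (its rows span a subspace `W` of `K^ι`) the *maximal minor*
`maxMinor v B = max_J |det B_J|_v` is the `v`-adic Plücker norm of the basis `B` of `W`.

Main results (all exact at nonarchimedean `v`, up to `LocConst.card` otherwise):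
* `maxMinor_mul_left` : `maxMinor v (G * B) = v (det G) * maxMinor v B`;
* `entry_le_one_of_max` : if `J₀` is a maximal minor then `(B_{J₀})⁻¹ * B` has entries of
  absolute value `≤ 1`;
* `maxMinor_consRow_le`, `exists_maxMinor_mul_supNorm_le` : *volume = base × height*:
  `maxMinor (w :: B) ≍ maxMinor B * dist (w, span B)`.
-/

set_option autoImplicit false

open Matrix

namespace Fermat.Agent.S17.H16

open Fermat.Agent.S17.H71

variable {K : Type*} [Field K] {ι : Type*} [Fintype ι]

/-- The sup-norm of a vector. -/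
noncomputable def supNorm (v : AbsoluteValue K ℝ) (x : ι → K) : ℝ := ⨆ i, v (x i)

theorem le_supNorm (v : AbsoluteValue K ℝ) (x : ι → K) (i : ι) : v (x i) ≤ supNorm v x :=
  le_ciSup (Finite.bddAbove_range fun i => v (x i)) i

theorem supNorm_nonneg (v : AbsoluteValue K ℝ) (x : ι → K) : 0 ≤ supNorm v x :=
  Real.iSup_nonneg fun i => v.nonneg _

theorem supNorm_le (v : AbsoluteValue K ℝ) (x : ι → K) {t : ℝ} (ht : 0 ≤ t)
    (h : ∀ i, v (x i) ≤ t) : supNorm v x ≤ t :=
  Real.iSup_le h ht

theorem exists_eq_supNorm [Nonempty ι] (v : AbsoluteValue K ℝ) (x : ι → K) :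
    ∃ i, v (x i) = supNorm v x := by
  obtain ⟨i, hi⟩ := exists_eq_ciSup_of_finite (f := fun i => v (x i))
  exact ⟨i, hi⟩

theorem supNorm_eq_zero_iff (v : AbsoluteValue K ℝ) (x : ι → K) : supNorm v x = 0 ↔ x = 0 := by
  constructor
  · intro h
    funext i
    have h1 := le_supNorm v x i
    rw [h] at h1
    exact v.eq_zero.mp (le_antisymm h1 (v.nonneg _))
  · rintro rfl
    exact le_antisymm (supNorm_le v _ le_rfl fun i => by simp) (supNorm_nonneg v _)

theorem supNorm_smul (v : AbsoluteValue K ℝ) (c : K) (x : ι → K) :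
    supNorm v (c • x) = v c * supNorm v x := by
  unfold supNorm
  simp only [Pi.smul_apply, smul_eq_mul, v.map_mul]
  rw [Real.mul_iSup_of_nonneg (v.nonneg c)]

section MaxMinor

variable [DecidableEq ι] {r : ℕ}

/-- The maximal absolute value of the `r × r` minors of an `r × ι` matrix. -/
noncomputable def maxMinor (v : AbsoluteValue K ℝ) (B : Matrix (Fin r) ι K) : ℝ :=
  ⨆ J : Fin r → ι, v (B.submatrix id J).det

theorem le_maxMinor (v : AbsoluteValue K ℝ) (B : Matrix (Fin r) ι K) (J : Fin r → ι) :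
    v (B.submatrix id J).det ≤ maxMinor v B :=
  le_ciSup (Finite.bddAbove_range fun J : Fin r → ι => v (B.submatrix id J).det) J

theorem maxMinor_nonneg (v : AbsoluteValue K ℝ) (B : Matrix (Fin r) ι K) : 0 ≤ maxMinor v B :=
  Real.iSup_nonneg fun _ => v.nonneg _

theorem maxMinor_le (v : AbsoluteValue K ℝ) (B : Matrix (Fin r) ι K) {t : ℝ} (ht : 0 ≤ t)
    (h : ∀ J : Fin r → ι, v (B.submatrix id J).det ≤ t) : maxMinor v B ≤ t :=
  Real.iSup_le h ht

theorem exists_eq_maxMinor (v : AbsoluteValue K ℝ) (B : Matrix (Fin r) ι K)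
    (h : 0 < maxMinor v B) : ∃ J : Fin r → ι, v (B.submatrix id J).det = maxMinor v B := by
  haveI : Nonempty (Fin r → ι) := by
    by_contra hne
    rw [not_nonempty_iff] at hne
    have : maxMinor v B = 0 := by
      unfold maxMinor
      exact Real.iSup_of_isEmpty _
    exact h.ne' this
  obtain ⟨J, hJ⟩ := exists_eq_ciSup_of_finite (f := fun J : Fin r → ι => v (B.submatrix id J).det)
  exact ⟨J, hJ⟩

theorem maxMinor_mul_left (v : AbsoluteValue K ℝ) (G : Matrix (Fin r) (Fin r) K)
    (B : Matrix (Fin r) ι K) : maxMinor v (G * B) = v G.det * maxMinor v B := by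
  unfold maxMinor
  rw [Real.mul_iSup_of_nonneg (v.nonneg _)]
  congr 1
  funext J
  have : (G * B).submatrix id J = G * B.submatrix id J := by
    ext i j
    simp [Matrix.mul_apply]
  rw [this, Matrix.det_mul, v.map_mul]

/-- The matrix with first row `w` and further rows `B`. -/
def consRow (w : ι → K) (B : Matrix (Fin r) ι K) : Matrix (Fin (r + 1)) ι K :=
  Matrix.of (Fin.cons w B : Fin (r + 1) → ι → K)

@[simp]
theorem consRow_zero (w : ι → K) (B : Matrix (Fin r) ι K) (j : ι) : consRow w B 0 j = w j := rfl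

@[simp]
theorem consRow_succ (w : ι → K) (B : Matrix (Fin r) ι K) (i : Fin r) (j : ι) :
    consRow w B i.succ j = B i j := rfl

/-- Laplace expansion of a minor of `consRow w B` along the first row. -/
theorem det_consRow_submatrix (w : ι → K) (B : Matrix (Fin r) ι K) (J : Fin (r + 1) → ι) :
    ((consRow w B).submatrix id J).det =
      ∑ k : Fin (r + 1), (-1) ^ (k : ℕ) * w (J k) *
        (B.submatrix id (J ∘ k.succAbove)).det := by
  rw [Matrix.det_succ_row_zero]
  refine Finset.sum_congr rfl fun k _ => ?_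
  congr 1

/-- Hadamard-type upper bound: `maxMinor (w :: B) ≤ C * |w| * maxMinor B`. -/
theorem maxMinor_consRow_le (v : AbsoluteValue K ℝ) (w : ι → K) (B : Matrix (Fin r) ι K) :
    maxMinor v (consRow w B) ≤ (LocConst.card K (r + 1)).C v * (supNorm v w * maxMinor v B) := by
  have hC := (LocConst.card K (r + 1)).pos v
  refine maxMinor_le v _ (mul_nonneg hC.le (mul_nonneg (supNorm_nonneg v w)
    (maxMinor_nonneg v B))) fun J => ?_
  rw [det_consRow_submatrix]
  have h := abv_sum_univ_le_card v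
    (fun k : Fin (r + 1) => (-1) ^ (k : ℕ) * w (J k) * (B.submatrix id (J ∘ k.succAbove)).det)
    (supNorm v w * maxMinor v B) (mul_nonneg (supNorm_nonneg v w) (maxMinor_nonneg v B))
    (fun k => by
      rw [v.map_mul, v.map_mul, v.map_pow, v.map_neg, v.map_one, one_pow, one_mul]
      exact mul_le_mul (le_supNorm v w _) (le_maxMinor v B _) (v.nonneg _) (supNorm_nonneg v w))
  simpa using h

/-- A minor of `consRow (B i) B` vanishes. -/
theorem det_consRow_self (B : Matrix (Fin r) ι K) (i : Fin r) (J : Fin (r + 1) → ι) :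
    ((consRow (B i) B).submatrix id J).det = 0 := by
  refine Matrix.det_zero_of_row_eq (i := 0) (j := i.succ) (Fin.succ_ne_zero i).symm ?_
  funext k
  rfl

/-- Row operations on the first row do not change the minors. -/
theorem det_consRow_sub_vecMul (w : ι → K) (B : Matrix (Fin r) ι K) (c : Fin r → K)
    (J : Fin (r + 1) → ι) :
    ((consRow (w - c ᵥ* B) B).submatrix id J).det = ((consRow w B).submatrix id J).det := by
  rw [det_consRow_submatrix, det_consRow_submatrix]
  have hz : ∀ i : Fin r, ∑ k : Fin (r + 1), (-1) ^ (k : ℕ) * B i (J k) *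
      (B.submatrix id (J ∘ k.succAbove)).det = 0 := fun i => by
    rw [← det_consRow_submatrix (B i) B J]
    exact det_consRow_self B i J
  have key : ∀ k : Fin (r + 1), (-1) ^ (k : ℕ) * (w - c ᵥ* B) (J k) *
        (B.submatrix id (J ∘ k.succAbove)).det
      = (-1) ^ (k : ℕ) * w (J k) * (B.submatrix id (J ∘ k.succAbove)).det
        - ∑ i : Fin r, c i * ((-1) ^ (k : ℕ) * B i (J k) *
          (B.submatrix id (J ∘ k.succAbove)).det) := fun k => by
    simp only [Pi.sub_apply, Matrix.vecMul, dotProduct]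
    rw [mul_sub, sub_mul, Finset.mul_sum, Finset.sum_mul]
    congr 1
    refine Finset.sum_congr rfl fun i _ => ?_
    ring
  simp only [key]
  rw [Finset.sum_sub_distrib, Finset.sum_comm]
  simp only [← Finset.mul_sum, hz, mul_zero, Finset.sum_const_zero, sub_zero]

theorem maxMinor_consRow_sub_vecMul (v : AbsoluteValue K ℝ) (w : ι → K)
    (B : Matrix (Fin r) ι K) (c : Fin r → K) :
    maxMinor v (consRow (w - c ᵥ* B) B) = maxMinor v (consRow w B) := by
  unfold maxMinor
  congr 1
  funext J
  rw [det_consRow_sub_vecMul]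

/-- Upper bound with the distance: `maxMinor (w :: B) ≤ C * |w - c B| * maxMinor B` for all `c`. -/
theorem maxMinor_consRow_le_dist (v : AbsoluteValue K ℝ) (w : ι → K) (B : Matrix (Fin r) ι K)
    (c : Fin r → K) :
    maxMinor v (consRow w B) ≤
      (LocConst.card K (r + 1)).C v * (supNorm v (w - c ᵥ* B) * maxMinor v B) := by
  rw [← maxMinor_consRow_sub_vecMul v w B c]
  exact maxMinor_consRow_le v _ B

/-- If `u` vanishes on the columns `J₀`, the minor of `consRow u B` on the columns `j, J₀` is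
`u j * det B_{J₀}`. -/
theorem det_consRow_of_vanish (u : ι → K) (B : Matrix (Fin r) ι K) (J₀ : Fin r → ι)
    (hu : ∀ k, u (J₀ k) = 0) (j : ι) :
    ((consRow u B).submatrix id (Fin.cons j J₀ : Fin (r + 1) → ι)).det
      = u j * (B.submatrix id J₀).det := by
  rw [det_consRow_submatrix, Fin.sum_univ_succ]
  have h0 : ∀ k : Fin r, (-1) ^ ((k.succ : Fin (r + 1)) : ℕ) *
      u ((Fin.cons j J₀ : Fin (r + 1) → ι) k.succ) *
      (B.submatrix id ((Fin.cons j J₀ : Fin (r + 1) → ι) ∘ k.succ.succAbove)).det = 0 := fun k => by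
    rw [Fin.cons_succ, hu k, mul_zero, zero_mul]
  rw [Finset.sum_eq_zero fun k _ => h0 k, add_zero]
  have h1 : ((Fin.cons j J₀ : Fin (r + 1) → ι) ∘ (0 : Fin (r + 1)).succAbove) = J₀ := by
    funext k
    simp [Fin.succAbove_zero]
  rw [h1]
  simp

/-- Lower bound: there is `c` with `maxMinor B * |w - c B| ≤ maxMinor (w :: B)`. Moreover
`w - c B` vanishes on a maximal minor of `B`. -/
theorem exists_maxMinor_mul_supNorm_le (v : AbsoluteValue K ℝ) (w : ι → K)
    (B : Matrix (Fin r) ι K) (hB : 0 < maxMinor v B) :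
    ∃ c : Fin r → K, maxMinor v B * supNorm v (w - c ᵥ* B) ≤ maxMinor v (consRow w B) := by
  obtain ⟨J₀, hJ₀⟩ := exists_eq_maxMinor v B hB
  have hdet : (B.submatrix id J₀).det ≠ 0 := by
    intro h
    rw [h, map_zero] at hJ₀
    exact hB.ne hJ₀
  have hunit : IsUnit (B.submatrix id J₀).det := isUnit_iff_ne_zero.mpr hdet
  set c : Fin r → K := (w ∘ J₀) ᵥ* (B.submatrix id J₀)⁻¹ with hc
  have hvan : ∀ k, (w - c ᵥ* B) (J₀ k) = 0 := fun k => by
    have e1 : (c ᵥ* B) (J₀ k) = (c ᵥ* B.submatrix id J₀) k := by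
      simp [Matrix.vecMul, dotProduct]
    have e2 : c ᵥ* B.submatrix id J₀ = w ∘ J₀ := by
      rw [hc, Matrix.vecMul_vecMul, Matrix.nonsing_inv_mul _ hunit, Matrix.vecMul_one]
    rw [Pi.sub_apply, e1, e2]
    simp
  refine ⟨c, ?_⟩
  rw [mul_comm]
  have key : ∀ j, v ((w - c ᵥ* B) j) * maxMinor v B ≤ maxMinor v (consRow w B) := fun j => by
    have h1 := det_consRow_of_vanish (w - c ᵥ* B) B J₀ hvan j
    have h2 := le_maxMinor v (consRow (w - c ᵥ* B) B) (Fin.cons j J₀ : Fin (r + 1) → ι)
    rw [h1, v.map_mul, hJ₀, maxMinor_consRow_sub_vecMul] at h2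
    exact h2
  have hle : supNorm v (w - c ᵥ* B) ≤ maxMinor v (consRow w B) / maxMinor v B :=
    supNorm_le v _ (div_nonneg (maxMinor_nonneg v _) hB.le) fun j => by
      rw [le_div_iff₀ hB]
      exact key j
  calc supNorm v (w - c ᵥ* B) * maxMinor v B
      ≤ maxMinor v (consRow w B) / maxMinor v B * maxMinor v B :=
        mul_le_mul_of_nonneg_right hle hB.le
    _ = maxMinor v (consRow w B) := div_mul_cancel₀ _ hB.ne'

end MaxMinor

end Fermat.Agent.S17.H16
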