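import Fermat.Agent.S17.Height.H16_AbsDescent

/-!
# S17, part H (heights): the axiomatic `Φ`-calculus (helper16)

`PhiSys J Dv Rv` packages the GLOBAL properties of the covolume function
`Φ m D = ∑_w log maxMinor_w (rational basis matrix of L(m∞ - D))`
on rational effective divisors `D` (type `Dv`) and of the height `hgt` of rational functions
regular outside `∞` (type `Rv`):

* `scal`  : `Φ (m + ord u) (D + Z u) = Φ m D + (m + 1 - g - deg D) * hgt u + O(1)`;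
* `addH`  : `H (m + k + 1) (D + D') = H m D + H k D' + O(1)` for `H m D = Φ (m + 1) D - Φ m D`,
  if `m - deg D + c₀ ≤ k - deg D'`;
* `Hpos`  : `H m D ≥ -C`;
* `cube`  : the cube inequality for `Φ m₀` on reduced pairwise disjoint divisors of degree `a₀`;
* `siegel`: the sharp Siegel lemma;
* `h90`, `move`, `fin_int`, `fin_le`: geometric inputs.

From these, `PhiSys.stmt_height` derives the height package `Stmt_height N 2`.
The function `𝔮 D = Φ m₀ D - (m₀ + 1 - g - deg D) * H m₀ D` is invariant under linear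
equivalence (`PhiSys.ci`), bounded below (`PhiSys.qq_pos`), satisfies the cube inequality
(`PhiSys.qq_cube`) and `𝔮 (x) + 𝔮 (-x)` has the Northcott property (`PhiSys.northcott`).
-/

set_option autoImplicit false

namespace Fermat.Agent.S17.H16

section Quasi'

variable {J : Type*} [AddCommGroup J]

/-- Variant of `height_of_quasiBilinear` with the Northcott property of `q x + q (-x)`. -/
theorem height_of_quasiBilinear' (q : J → ℝ) (C C₀ : ℝ)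
    (hB : ∀ x x' y : J,
      |(q (x + x' + y) - q (x + x') - q y) - (q (x + y) - q x - q y)
        - (q (x' + y) - q x' - q y)| ≤ C)
    (hpos : ∀ x, -C₀ ≤ q x) (hN : ∀ T : ℝ, {x : J | q x + q (-x) ≤ T}.Finite) :
    ∃ (h : J → ℝ) (a b c₀ : ℝ) (c : J → ℝ), 0 ≤ a ∧ a < b ∧
      (∀ g x, h x ≤ a * h (g + x) + c g) ∧ (∀ x, b * h x - c₀ ≤ h (2 • x)) ∧ Northcott h := by
  -- the second difference
  set B : J → J → ℝ := fun x y => q (x + y) - q x - q y with hBdef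
  have hsymm : ∀ x y, B x y = B y x := fun x y => by
    simp only [hBdef, add_comm x y]; ring
  have hadd : ∀ x x' y, |B (x + x') y - B x y - B x' y| ≤ C := fun x x' y => hB x x' y
  have hC : 0 ≤ C := (abs_nonneg _).trans (hB 0 0 0)
  have hB0 : ∀ y, |B 0 y| ≤ C := fun y => by
    have h := hadd 0 0 y
    rw [add_zero] at h
    have : B 0 y - B 0 y - B 0 y = -(B 0 y) := by ring
    rwa [this, abs_neg] at h
  have hq0 : |q 0| ≤ C := by
    have h := hB0 0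
    simp only [hBdef, add_zero] at h
    have : q 0 - q 0 - q 0 = -(q 0) := by ring
    rwa [this, abs_neg] at h
  have hneg : ∀ x y, |B x y + B (-x) y| ≤ 2 * C := fun x y => by
    have h := hadd x (-x) y
    rw [add_neg_cancel] at h
    have h0 := hB0 y
    rw [abs_le] at h h0 ⊢
    constructor <;> linarith [h.1, h.2, h0.1, h0.2]
  set h : J → ℝ := fun x => q x + q (-x) with hhdef
  have hBneg : ∀ x, B (-x) x = q 0 - h x := fun x => by
    simp only [hBdef, hhdef, neg_add_cancel]; ring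
  have hBxx : ∀ x, |B x x - h x| ≤ 3 * C := fun x => by
    have h1 := hneg x x
    have h2 := hBneg x
    rw [abs_le] at h1 hq0 ⊢
    constructor <;> linarith [h1.1, h1.2, hq0.1, hq0.2]
  have hhneg : ∀ x, h (-x) = h x := fun x => by
    simp only [hhdef, neg_neg]; ring
  have hhpos : ∀ x, -(2 * C₀) ≤ h x := fun x => by
    have h1 := hpos x
    have h2 := hpos (-x)
    simp only [hhdef]; linarith
  have hdouble : ∀ x, 4 * h x - 6 * C ≤ h (2 • x) := fun x => by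
    have e1 : q (x + x) = 2 * q x + B x x := by simp only [hBdef]; ring
    have e2 : q (-x + -x) = 2 * q (-x) + B (-x) (-x) := by simp only [hBdef]; ring
    have h1 := hBxx x
    have h2 := hBxx (-x)
    rw [hhneg] at h2
    rw [abs_le] at h1 h2
    have e3 : h (2 • x) = q (x + x) + q (-x + -x) := by
      simp only [hhdef, two_smul, neg_add]
    rw [e3, e1, e2]
    have e4 : h x = q x + q (-x) := rfl
    linarith [h1.1, h2.1]
  have hpar : ∀ u w, |h (u + w) + h (u - w) - 2 * h u - 2 * h w| ≤ 4 * C := fun u w => by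
    have e1 : h (u + w) = q u + q w + B u w + (q (-u) + q (-w) + B (-u) (-w)) := by
      simp only [hhdef, hBdef, neg_add]; ring
    have e2 : h (u - w) = q u + q (-w) + B u (-w) + (q (-u) + q w + B (-u) w) := by
      simp only [hhdef, hBdef, sub_eq_add_neg, neg_add, neg_neg]; ring
    have h1 := hneg w u
    have h2 := hneg w (-u)
    rw [← hsymm u w, ← hsymm u (-w)] at h1
    rw [← hsymm (-u) w, ← hsymm (-u) (-w)] at h2
    rw [abs_le] at h1 h2 ⊢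
    have e3 : h u = q u + q (-u) := rfl
    have e4 : h w = q w + q (-w) := rfl
    rw [e1, e2]
    constructor <;> linarith [h1.1, h1.2, h2.1, h2.2]
  refine ⟨h, 2, 4, 6 * C, fun g => 2 * h g + 4 * C + 2 * C₀, by norm_num, by norm_num,
    fun g x => ?_, fun x => hdouble x, ⟨fun T => hN T⟩⟩
  have h1 := hpar (g + x) g
  have e : g + x - g = x := by abel
  rw [e] at h1
  have h2 := hhpos (g + x + g)
  rw [abs_le] at h1
  linarith [h1.1, h1.2]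

end Quasi'

/-- The axiomatic `Φ`-calculus. -/
structure PhiSys (J : Type*) [AddCommGroup J] (Dv : Type) [AddCommMonoid Dv] (Rv : Type) where
  /-- degree of a rational effective divisor -/
  deg : Dv →+ ℕ
  /-- the class of `D - deg D ∞` -/
  cl : Dv →+ J
  /-- the exact pole order at `∞` of a rational function regular outside `∞` -/
  ord : Rv → ℕ
  /-- the divisor of zeros -/
  Z : Rv → Dv
  /-- the height `∑_w log ‖u‖_w` -/
  hgt : Rv → ℝ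
  /-- `log ‖u‖_∞` -/
  lsup : Rv → ℝ
  /-- integrality of the coordinates -/
  Int : Rv → Prop
  /-- the covolume function -/
  Φ : ℕ → Dv → ℝ
  /-- reduced divisors -/
  Red : Dv → Prop
  /-- disjoint supports -/
  Disj : Dv → Dv → Prop
  /-- the genus -/
  g : ℕ
  /-- the good range: `deg D + c₀ ≤ m` -/
  c₀ : ℕ
  /-- the degree of the basic representatives -/
  a₀ : ℕ
  /-- the basic level -/
  m₀ : ℕ
  /-- the level of the auxiliary functions -/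
  k₀ : ℕ
  /-- the top level -/
  Mtop : ℕ
  /-- the constant -/
  C : ℝ
  hg : g ≤ c₀
  hc₀ : c₀ ≤ a₀
  ha₀ : 3 * a₀ + c₀ ≤ m₀
  hMtop : 8 * m₀ + 2 * k₀ + 4 * c₀ + 8 ≤ Mtop
  deg_Z : ∀ u, deg (Z u) = ord u
  cl_Z : ∀ u, cl (Z u) = 0
  Φ0 : ∀ m, c₀ ≤ m → m ≤ Mtop → |Φ m 0| ≤ C
  scal : ∀ m D u, deg D + c₀ ≤ m → m + ord u ≤ Mtop →
    |Φ (m + ord u) (D + Z u) - Φ m D - ((m : ℝ) + 1 - g - deg D) * hgt u| ≤ C
  addH : ∀ m k D D', deg D + c₀ ≤ m → m + deg D' + c₀ ≤ k + deg D → m + k + 2 ≤ Mtop →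
    |(Φ (m + k + 2) (D + D') - Φ (m + k + 1) (D + D')) - (Φ (m + 1) D - Φ m D)
      - (Φ (k + 1) D' - Φ k D')| ≤ C
  Hpos : ∀ m D, deg D + c₀ ≤ m → m + 1 ≤ Mtop → -C ≤ Φ (m + 1) D - Φ m D
  cube : ∀ A A' B, Red A → Red A' → Red B → deg A = a₀ → deg A' = a₀ → deg B = a₀ →
    Disj A A' → Disj A B → Disj A' B →
    |Φ m₀ (A + A' + B) - Φ m₀ (A + A') - Φ m₀ (A + B) - Φ m₀ (A' + B)
      + Φ m₀ A + Φ m₀ A' + Φ m₀ B| ≤ C
  siegel : ∀ D, deg D + c₀ ≤ m₀ → ∃ (f : Rv) (Y : Dv), Z f = D + Y ∧ ord f ≤ m₀ ∧ Int f ∧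
    ((m₀ : ℝ) + 1 - g - deg D) * lsup f ≤ Φ m₀ D + C ∧ hgt f ≤ lsup f + C ∧ 0 ≤ lsup f
  fin_int : ∀ T : ℝ, {f : Rv | Int f ∧ ord f ≤ m₀ ∧ lsup f ≤ T}.Finite
  fin_le : ∀ E : Dv, {Y : Dv | ∃ Y', E = Y + Y'}.Finite
  h90 : ∀ A A', cl A = cl A' → deg A' ≤ deg A → deg A + c₀ ≤ m₀ →
    ∃ (u u' : Rv) (Z₀ : Dv), Z u = A + Z₀ ∧ Z u' = A' + Z₀ ∧ ord u' = k₀
  move : ∀ (x : J) (L : List Dv), ∃ A, Red A ∧ deg A = a₀ ∧ cl A = x ∧
    ∀ B ∈ L, Disj A B ∧ Disj B A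

namespace PhiSys

variable {J : Type*} [AddCommGroup J] {Dv : Type} [AddCommMonoid Dv] {Rv : Type}
variable (P : PhiSys J Dv Rv)

/-- The proximity to `∞`, as a difference of covolumes. -/
def Hh (m : ℕ) (D : Dv) : ℝ := P.Φ (m + 1) D - P.Φ m D

/-- The expected dimension of `L(m∞ - D)`. -/
def rr (m : ℕ) (D : Dv) : ℝ := (m : ℝ) + 1 - P.g - P.deg D

/-- The normalised covolume. -/
def qq (D : Dv) : ℝ := P.Φ P.m₀ D - P.rr P.m₀ D * P.Hh P.m₀ D

theorem C_nonneg : 0 ≤ P.C :=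
  (abs_nonneg _).trans (P.Φ0 P.c₀ le_rfl (by have := P.hMtop; omega))

theorem Hh_zero (k : ℕ) (hk : P.c₀ ≤ k) (hk' : k + 1 ≤ P.Mtop) : |P.Hh k 0| ≤ 2 * P.C := by
  have h1 := P.Φ0 k hk (by omega)
  have h2 := P.Φ0 (k + 1) (by omega) hk'
  unfold Hh
  rw [abs_le] at h1 h2 ⊢
  constructor <;> linarith [h1.1, h1.2, h2.1, h2.2]

/-- Raising the level by `k + 1`. -/
theorem Hh_shift (j k : ℕ) (D : Dv) (hj : P.deg D + P.c₀ ≤ j) (hk : j + P.c₀ ≤ k + P.deg D)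
    (hM : j + k + 2 ≤ P.Mtop) : |P.Hh (j + k + 1) D - P.Hh j D| ≤ 3 * P.C := by
  have h1 := P.addH j k D 0 hj (by simpa using hk) hM
  have h2 := P.Hh_zero k (by omega) (by omega)
  rw [add_zero] at h1
  unfold Hh at h2 ⊢
  rw [abs_le] at h1 h2 ⊢
  constructor <;> linarith [h1.1, h1.2, h2.1, h2.2]

/-- Independence of the level. -/
theorem Hh_indep (j₁ j₂ : ℕ) (D : Dv) (h₁ : P.deg D + P.c₀ ≤ j₁) (h₂ : P.deg D + P.c₀ ≤ j₂)
    (hM₁ : 2 * (j₁ + j₂) + P.c₀ + 2 ≤ P.Mtop) :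
    |P.Hh j₁ D - P.Hh j₂ D| ≤ 6 * P.C := by
  have e1 := P.Hh_shift j₁ (j₁ + 2 * j₂ + P.c₀) D h₁ (by omega) (by omega)
  have e2 := P.Hh_shift j₂ (2 * j₁ + j₂ + P.c₀) D h₂ (by omega) (by omega)
  have e : j₁ + (j₁ + 2 * j₂ + P.c₀) + 1 = j₂ + (2 * j₁ + j₂ + P.c₀) + 1 := by omega
  rw [e] at e1
  rw [abs_le] at e1 e2 ⊢
  constructor <;> linarith [e1.1, e1.2, e2.1, e2.2]

/-- Additivity of the proximity at the basic level. -/
theorem Hh_add (D D' : Dv) (h : P.deg D + P.deg D' + P.c₀ ≤ P.m₀) :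
    |P.Hh P.m₀ (D + D') - P.Hh P.m₀ D - P.Hh P.m₀ D'| ≤ 13 * P.C := by
  have hM := P.hMtop
  have hc := P.ha₀
  have h1 := P.addH P.m₀ (P.m₀ + P.c₀ + P.deg D') D D' (by omega) (by omega) (by omega)
  have h2 := P.Hh_indep (P.m₀ + (P.m₀ + P.c₀ + P.deg D') + 1) P.m₀ (D + D')
    (by rw [map_add]; omega) (by rw [map_add]; omega) (by omega)
  have h3 := P.Hh_indep (P.m₀ + P.c₀ + P.deg D') P.m₀ D' (by omega) (by omega) (by omega)
  unfold Hh at h2 h3 ⊢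
  rw [abs_le] at h1 h2 h3 ⊢
  constructor <;> linarith [h1.1, h1.2, h2.1, h2.2, h3.1, h3.2]

/-- The height of a function is the proximity of its divisor of zeros. -/
theorem Hh_Z (j : ℕ) (u : Rv) (hj : P.c₀ ≤ j) (hM : j + P.ord u + 1 ≤ P.Mtop) :
    |P.Hh (j + P.ord u) (P.Z u) - P.hgt u| ≤ 4 * P.C := by
  have h1 := P.scal j 0 u (by simpa using hj) (by omega)
  have h2 := P.scal (j + 1) 0 u (by simp; omega) (by omega)
  have h3 := P.Φ0 j hj (by omega)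
  have h4 := P.Φ0 (j + 1) (by omega) (by omega)
  rw [zero_add] at h1 h2
  have e : j + 1 + P.ord u = j + P.ord u + 1 := by omega
  rw [e] at h2
  simp only [map_zero, Nat.cast_zero, sub_zero, Nat.cast_add, Nat.cast_one] at h1 h2
  unfold Hh
  rw [abs_le] at h1 h2 h3 h4 ⊢
  constructor <;> linarith [h1.1, h1.2, h2.1, h2.2, h3.1, h3.2, h4.1, h4.2]

/-- The height of a function with divisor of zeros `A + Y`. -/
theorem hgt_eq (u : Rv) (A Y : Dv) (hZ : P.Z u = A + Y) (hA : P.deg A + P.c₀ ≤ P.m₀)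
    (hY : P.deg Y ≤ P.m₀ + P.k₀) :
    |P.hgt u - P.Hh P.m₀ A - P.Hh (P.deg Y + P.m₀ + P.c₀) Y| ≤ 5 * P.C := by
  have hM := P.hMtop
  have ho : P.ord u = P.deg A + P.deg Y := by rw [← P.deg_Z, hZ, map_add]
  have h1 := P.Hh_Z (2 * P.m₀ + P.c₀ + 1 - P.deg A) u (by omega) (by omega)
  have h2 := P.addH P.m₀ (P.deg Y + P.m₀ + P.c₀) A Y hA (by omega) (by omega)
  have e : 2 * P.m₀ + P.c₀ + 1 - P.deg A + P.ord u = P.m₀ + (P.deg Y + P.m₀ + P.c₀) + 1 := by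
    omega
  rw [e, hZ] at h1
  unfold Hh at h1 ⊢
  rw [abs_le] at h1 h2 ⊢
  constructor <;> linarith [h1.1, h1.2, h2.1, h2.2]

theorem rr_pos (D : Dv) (h : P.deg D + P.c₀ ≤ P.m₀) : 1 ≤ P.rr P.m₀ D := by
  unfold rr
  have h1 : ((P.deg D : ℕ) : ℝ) + P.c₀ ≤ P.m₀ := by exact_mod_cast h
  have h2 : (P.g : ℝ) ≤ P.c₀ := by exact_mod_cast P.hg
  linarith

theorem rr_le (D : Dv) : P.rr P.m₀ D ≤ P.m₀ + 1 := by
  unfold rr
  have h1 : (0 : ℝ) ≤ P.deg D := Nat.cast_nonneg _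
  have h2 : (0 : ℝ) ≤ P.g := Nat.cast_nonneg _
  linarith

/-- The level shift of the covolume. -/
theorem Φ_shift (D : Dv) (hD : P.deg D + P.c₀ ≤ P.m₀) (t : ℕ) (ht : t ≤ P.m₀) :
    |P.Φ (P.m₀ + t) D - P.Φ P.m₀ D - t * P.Hh P.m₀ D| ≤ 6 * t * P.C := by
  have hM := P.hMtop
  induction t with
  | zero => simp
  | succ t ih =>
    have ih' := ih (by omega)
    have h1 := P.Hh_indep (P.m₀ + t) P.m₀ D (by omega) hD (by omega)
    have e : P.Φ (P.m₀ + (t + 1)) D = P.Φ (P.m₀ + t) D + P.Hh (P.m₀ + t) D := by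
      unfold Hh
      rw [add_assoc]
      ring
    rw [e]
    push_cast
    rw [abs_le] at ih' h1 ⊢
    constructor <;> linarith [ih'.1, ih'.2, h1.1, h1.2]

/-- Class invariance, ordered form. -/
theorem ci_aux (A A' : Dv) (hcl : P.cl A = P.cl A') (hle : P.deg A' ≤ P.deg A)
    (hA : P.deg A + P.c₀ ≤ P.m₀) :
    |P.qq A - P.qq A'| ≤ (20 * (P.m₀ + 1)) * P.C := by
  have hM := P.hMtop
  have hC := P.C_nonneg
  obtain ⟨u, u', Z₀, hu, hu', hk⟩ := P.h90 A A' hcl hle hA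
  have hA' : P.deg A' + P.c₀ ≤ P.m₀ := by omega
  have ho : P.ord u = P.deg A + P.deg Z₀ := by rw [← P.deg_Z, hu, map_add]
  have ho' : P.ord u' = P.deg A' + P.deg Z₀ := by rw [← P.deg_Z, hu', map_add]
  have hZ₀ : P.deg Z₀ ≤ P.m₀ + P.k₀ := by omega
  -- the heights of `u` and `u'`
  have g1 := P.hgt_eq u A Z₀ hu hA hZ₀
  have g2 := P.hgt_eq u' A' Z₀ hu' hA' hZ₀
  -- scaling
  set t := P.deg A - P.deg A' with ht
  have s1 := P.scal P.m₀ A' u hA' (by omega)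
  have s2 := P.scal (P.m₀ + t) A u' (by omega) (by omega)
  have e1 : P.m₀ + t + P.ord u' = P.m₀ + P.ord u := by omega
  have e2 : A + P.Z u' = A' + P.Z u := by rw [hu, hu']; exact add_left_comm _ _ _
  rw [e1, e2] at s2
  -- level shift
  have s3 := P.Φ_shift A hA t (by omega)
  have hr : ((P.m₀ + t : ℕ) : ℝ) + 1 - P.g - P.deg A = P.rr P.m₀ A' := by
    unfold rr
    have : ((P.deg A : ℕ) : ℝ) = P.deg A' + t := by
      rw [ht]
      have : P.deg A = P.deg A' + (P.deg A - P.deg A') := by omega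
      exact_mod_cast this
    push_cast
    rw [this]
    ring
  rw [hr] at s2
  have hr' : P.rr P.m₀ A = P.rr P.m₀ A' - t := by
    unfold rr
    have : ((P.deg A : ℕ) : ℝ) = P.deg A' + t := by
      rw [ht]
      have : P.deg A = P.deg A' + (P.deg A - P.deg A') := by omega
      exact_mod_cast this
    rw [this]
    ring
  have hr1 := P.rr_pos A' hA'
  have hr2 := P.rr_le A'
  have ht' : (t : ℝ) ≤ P.m₀ := by
    have : t ≤ P.m₀ := by omega
    exact_mod_cast this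
  have ht0 : (0 : ℝ) ≤ t := Nat.cast_nonneg _
  -- combine
  set r := P.rr P.m₀ A' with hrdef
  have s1' : |P.Φ (P.m₀ + P.ord u) (A' + P.Z u) - P.Φ P.m₀ A' - r * P.hgt u| ≤ P.C := s1
  unfold qq
  rw [hr', ← hrdef]
  set x := P.Hh P.m₀ A
  set x' := P.Hh P.m₀ A'
  set z := P.Hh (P.deg Z₀ + P.m₀ + P.c₀) Z₀
  set F := P.Φ (P.m₀ + P.ord u) (A' + P.Z u)
  -- `r * (hgt u - hgt u') = r * (x - x') ± 10 r C`
  have k1 : |r * (P.hgt u - P.hgt u') - r * (x - x')| ≤ r * (10 * P.C) := by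
    have : r * (P.hgt u - P.hgt u') - r * (x - x') =
        r * ((P.hgt u - x - z) - (P.hgt u' - x' - z)) := by ring
    rw [this, abs_mul, abs_of_nonneg (by linarith : (0 : ℝ) ≤ r)]
    refine mul_le_mul_of_nonneg_left ?_ (by linarith)
    rw [abs_le] at g1 g2 ⊢
    constructor <;> linarith [g1.1, g1.2, g2.1, g2.2]
  have k2 : r * (10 * P.C) ≤ 10 * (P.m₀ + 1) * P.C := by nlinarith
  have k3 : 6 * (t : ℝ) * P.C ≤ 6 * P.m₀ * P.C := by nlinarith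
  rw [abs_le] at s1' s2 s3 k1 ⊢
  constructor <;> nlinarith [s1'.1, s1'.2, s2.1, s2.2, s3.1, s3.2, k1.1, k1.2]

/-- Class invariance. -/
theorem ci (A A' : Dv) (hcl : P.cl A = P.cl A') (hA : P.deg A + P.c₀ ≤ P.m₀)
    (hA' : P.deg A' + P.c₀ ≤ P.m₀) :
    |P.qq A - P.qq A'| ≤ (20 * (P.m₀ + 1)) * P.C := by
  rcases le_total (P.deg A') (P.deg A) with h | h
  · exact P.ci_aux A A' hcl h hA
  · rw [abs_sub_comm]
    exact P.ci_aux A' A hcl.symm h hA'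

theorem mul_abs_le_aux {r e R E : ℝ} (hr : 0 ≤ r) (hrR : r ≤ R) (he : |e| ≤ E) :
    |r * e| ≤ R * E := by
  rw [abs_mul, abs_of_nonneg hr]
  exact mul_le_mul hrR he (abs_nonneg e) (hr.trans hrR)

/-- Positivity of the normalised covolume. -/
theorem qq_pos (D : Dv) (hD : P.deg D + P.c₀ ≤ P.m₀) :
    -((7 * (P.m₀ + 1) + 1) * P.C) ≤ P.qq D := by
  have hM := P.hMtop
  have hC := P.C_nonneg
  obtain ⟨f, Y, hZ, hord, -, hS, hh, -⟩ := P.siegel D hD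
  have ho : P.ord f = P.deg D + P.deg Y := by rw [← P.deg_Z, hZ, map_add]
  have h1 := P.hgt_eq f D Y hZ hD (by omega)
  have h2 := P.Hpos (P.deg Y + P.m₀ + P.c₀) Y (by omega) (by omega)
  have hr1 := P.rr_pos D hD
  have hr2 := P.rr_le D
  unfold qq
  have hS' : P.rr P.m₀ D * P.lsup f ≤ P.Φ P.m₀ D + P.C := hS
  set r := P.rr P.m₀ D
  have h3 : P.Hh P.m₀ D ≤ P.lsup f + 7 * P.C := by
    have h2' : -P.C ≤ P.Hh (P.deg Y + P.m₀ + P.c₀) Y := h2
    rw [abs_le] at h1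
    linarith [h1.1, h1.2]
  have h4 : r * P.Hh P.m₀ D ≤ r * (P.lsup f + 7 * P.C) :=
    mul_le_mul_of_nonneg_left h3 (by linarith)
  have h5 : r * (7 * P.C) ≤ (P.m₀ + 1) * (7 * P.C) :=
    mul_le_mul_of_nonneg_right hr2 (by linarith)
  nlinarith

/-- The cube inequality for the normalised covolume. -/
theorem qq_cube (A A' B : Dv) (hA : P.Red A) (hA' : P.Red A') (hB : P.Red B)
    (dA : P.deg A = P.a₀) (dA' : P.deg A' = P.a₀) (dB : P.deg B = P.a₀)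
    (d1 : P.Disj A A') (d2 : P.Disj A B) (d3 : P.Disj A' B) :
    |P.qq (A + A' + B) - P.qq (A + A') - P.qq (A + B) - P.qq (A' + B)
      + P.qq A + P.qq A' + P.qq B| ≤ (70 * (P.m₀ + 1) + 1) * P.C := by
  have hM := P.hMtop
  have hC := P.C_nonneg
  have ha := P.ha₀
  have c0 := P.cube A A' B hA hA' hB dA dA' dB d1 d2 d3
  have e1 := P.Hh_add A A' (by omega)
  have e2 := P.Hh_add A B (by omega)
  have e3 := P.Hh_add A' B (by omega)
  have e4 := P.Hh_add (A + A') B (by rw [map_add]; omega)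
  have hg : (P.g : ℝ) ≤ P.c₀ := by exact_mod_cast P.hg
  have ha' : 3 * (P.a₀ : ℝ) + P.c₀ ≤ P.m₀ := by exact_mod_cast ha
  have ha0 : (0 : ℝ) ≤ P.a₀ := Nat.cast_nonneg _
  have hg0 : (0 : ℝ) ≤ P.g := Nat.cast_nonneg _
  have r1 : P.rr P.m₀ A = (P.m₀ : ℝ) + 1 - P.g - P.a₀ := by unfold rr; rw [dA]
  have r1' : P.rr P.m₀ A' = (P.m₀ : ℝ) + 1 - P.g - P.a₀ := by unfold rr; rw [dA']
  have r1'' : P.rr P.m₀ B = (P.m₀ : ℝ) + 1 - P.g - P.a₀ := by unfold rr; rw [dB]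
  have r2 : P.rr P.m₀ (A + A') = (P.m₀ : ℝ) + 1 - P.g - 2 * P.a₀ := by
    unfold rr; rw [map_add, dA, dA']; push_cast; ring
  have r2' : P.rr P.m₀ (A + B) = (P.m₀ : ℝ) + 1 - P.g - 2 * P.a₀ := by
    unfold rr; rw [map_add, dA, dB]; push_cast; ring
  have r2'' : P.rr P.m₀ (A' + B) = (P.m₀ : ℝ) + 1 - P.g - 2 * P.a₀ := by
    unfold rr; rw [map_add, dA', dB]; push_cast; ring
  have r3 : P.rr P.m₀ (A + A' + B) = (P.m₀ : ℝ) + 1 - P.g - 3 * P.a₀ := by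
    unfold rr; rw [map_add, map_add, dA, dA', dB]; push_cast; ring
  unfold qq
  rw [r1, r1', r1'', r2, r2', r2'', r3]
  set R₃ := (P.m₀ : ℝ) + 1 - P.g - 3 * P.a₀ with hR₃
  set R₂ := (P.m₀ : ℝ) + 1 - P.g - 2 * P.a₀ with hR₂
  set x := P.Hh P.m₀ A
  set y := P.Hh P.m₀ A'
  set z := P.Hh P.m₀ B
  set ε₁ := P.Hh P.m₀ (A + A') - x - y with hε₁
  set ε₂ := P.Hh P.m₀ (A + B) - x - z with hε₂
  set ε₃ := P.Hh P.m₀ (A' + B) - y - z with hε₃
  set ε₄ := P.Hh P.m₀ (A + A' + B) - P.Hh P.m₀ (A + A') - z with hε₄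
  have b1 := mul_abs_le_aux (by linarith : (0 : ℝ) ≤ R₃) (by linarith : R₃ ≤ P.m₀ + 1) e1
  have b4 := mul_abs_le_aux (by linarith : (0 : ℝ) ≤ R₃) (by linarith : R₃ ≤ P.m₀ + 1) e4
  have b1' := mul_abs_le_aux (by linarith : (0 : ℝ) ≤ R₂) (by linarith : R₂ ≤ P.m₀ + 1) e1
  have b2 := mul_abs_le_aux (by linarith : (0 : ℝ) ≤ R₂) (by linarith : R₂ ≤ P.m₀ + 1) e2
  have b3 := mul_abs_le_aux (by linarith : (0 : ℝ) ≤ R₂) (by linarith : R₂ ≤ P.m₀ + 1) e3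
  have key : P.Φ P.m₀ (A + A' + B) - R₃ * P.Hh P.m₀ (A + A' + B)
      - (P.Φ P.m₀ (A + A') - R₂ * P.Hh P.m₀ (A + A'))
      - (P.Φ P.m₀ (A + B) - R₂ * P.Hh P.m₀ (A + B))
      - (P.Φ P.m₀ (A' + B) - R₂ * P.Hh P.m₀ (A' + B))
      + (P.Φ P.m₀ A - ((P.m₀ : ℝ) + 1 - P.g - P.a₀) * x)
      + (P.Φ P.m₀ A' - ((P.m₀ : ℝ) + 1 - P.g - P.a₀) * y)
      + (P.Φ P.m₀ B - ((P.m₀ : ℝ) + 1 - P.g - P.a₀) * z)
      = (P.Φ P.m₀ (A + A' + B) - P.Φ P.m₀ (A + A') - P.Φ P.m₀ (A + B) - P.Φ P.m₀ (A' + B)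
          + P.Φ P.m₀ A + P.Φ P.m₀ A' + P.Φ P.m₀ B)
        - R₃ * ε₁ - R₃ * ε₄ + R₂ * ε₁ + R₂ * ε₂ + R₂ * ε₃ := by
    rw [hε₁, hε₂, hε₃, hε₄, hR₃, hR₂]
    ring
  rw [key]
  rw [abs_le] at c0 b1 b4 b1' b2 b3 ⊢
  constructor <;> nlinarith [c0.1, c0.2, b1.1, b1.2, b4.1, b4.2, b1'.1, b1'.2, b2.1, b2.2,
    b3.1, b3.2]

/-- The divisors in the good range of the basic level. -/
abbrev GoodDiv : Type := {D : Dv // P.deg D + P.c₀ ≤ P.m₀}

open Classical in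
/-- The sum of two divisors, if it is in the good range. -/
noncomputable def addD (A B : P.GoodDiv) : P.GoodDiv :=
  if h : P.deg (A.1 + B.1) + P.c₀ ≤ P.m₀ then ⟨A.1 + B.1, h⟩ else A

theorem addD_val (A B : P.GoodDiv) (h : P.deg (A.1 + B.1) + P.c₀ ≤ P.m₀) :
    (P.addD A B).1 = A.1 + B.1 := by
  unfold addD
  rw [dif_pos h]

/-- The system of representatives attached to a `Φ`-calculus. -/
noncomputable def toRepSystem : RepSystem J where
  D := P.GoodDiv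
  cl A := P.cl A.1
  Disj A B := P.Disj A.1 B.1
  add A B := P.addD A B
  small A := P.Red A.1 ∧ P.deg A.1 = P.a₀
  q A := P.qq A.1
  C := (70 * (P.m₀ + 1) + 1) * P.C
  cl_add := by
    intro A B hA hB _
    have ha := P.ha₀
    have h : P.deg (A.1 + B.1) + P.c₀ ≤ P.m₀ := by rw [map_add, hA.2, hB.2]; omega
    rw [P.addD_val A B h, map_add]
  cl_add₃ := by
    intro A A' B hA hA' hB _ _ _
    have ha := P.ha₀
    have h : P.deg (A.1 + A'.1) + P.c₀ ≤ P.m₀ := by rw [map_add, hA.2, hA'.2]; omega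
    have h' : P.deg ((P.addD A A').1 + B.1) + P.c₀ ≤ P.m₀ := by
      rw [P.addD_val A A' h, map_add, map_add, hA.2, hA'.2, hB.2]; omega
    rw [P.addD_val _ B h', P.addD_val A A' h, map_add, map_add]
  ci := by
    intro A A' hcl
    have hC := P.C_nonneg
    have := P.ci A.1 A'.1 hcl A.2 A'.2
    nlinarith
  cube := by
    intro A A' B hA hA' hB d1 d2 d3
    have ha := P.ha₀
    have h : P.deg (A.1 + A'.1) + P.c₀ ≤ P.m₀ := by rw [map_add, hA.2, hA'.2]; omega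
    have h2 : P.deg (A.1 + B.1) + P.c₀ ≤ P.m₀ := by rw [map_add, hA.2, hB.2]; omega
    have h3 : P.deg (A'.1 + B.1) + P.c₀ ≤ P.m₀ := by rw [map_add, hA'.2, hB.2]; omega
    have h' : P.deg ((P.addD A A').1 + B.1) + P.c₀ ≤ P.m₀ := by
      rw [P.addD_val A A' h, map_add, map_add, hA.2, hA'.2, hB.2]; omega
    rw [P.addD_val _ B h', P.addD_val A A' h, P.addD_val A B h2, P.addD_val A' B h3]
    exact P.qq_cube A.1 A'.1 B.1 hA.1 hA'.1 hB.1 hA.2 hA'.2 hB.2 d1 d2 d3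
  move := by
    intro x L
    obtain ⟨A, hA, hd, hcl, hL⟩ := P.move x (L.map Subtype.val)
    have ha := P.ha₀
    have hc := P.hc₀
    refine ⟨⟨A, by rw [hd]; omega⟩, ⟨hA, hd⟩, hcl, fun B hB => ?_⟩
    exact hL B.1 (List.mem_map.2 ⟨B, hB, rfl⟩)

theorem toRepSystem_q (A : P.toRepSystem.D) : P.toRepSystem.q A = P.qq A.1 := rfl

theorem toRepSystem_cl (A : P.toRepSystem.D) : P.toRepSystem.cl A = P.cl A.1 := rfl

/-- The Northcott property of `𝔮 (x) + 𝔮 (-x)`. -/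
theorem northcott (T : ℝ) :
    {x : J | P.toRepSystem.qJ x + P.toRepSystem.qJ (-x) ≤ T}.Finite := by
  have hM := P.hMtop
  have hC := P.C_nonneg
  have ha := P.ha₀
  have hc := P.hc₀
  set C₀ : ℝ := (7 * (P.m₀ + 1) + 1) * P.C with hC₀
  have hC₀0 : 0 ≤ C₀ := by rw [hC₀]; positivity
  set T₁ : ℝ := |T| + C₀ + P.C with hT₁
  have hT₁0 : 0 ≤ T₁ := by rw [hT₁]; positivity
  set T₂ : ℝ := T₁ + 12 * P.C with hT₂
  have hT₂0 : 0 ≤ T₂ := by rw [hT₂]; positivity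
  set T₃ : ℝ := |T| + C₀ + (20 * (P.m₀ + 1)) * P.C + (P.m₀ + 1) * T₂ + P.C with hT₃
  have hfin : (⋃ g ∈ {g : Rv | P.Int g ∧ P.ord g ≤ P.m₀ ∧ P.lsup g ≤ T₃},
      P.cl '' {Y : Dv | ∃ Y', P.Z g = Y + Y'}).Finite :=
    Set.Finite.biUnion (P.fin_int T₃) fun g _ => (P.fin_le (P.Z g)).image _
  refine hfin.subset fun x hx => ?_
  rw [Set.mem_setOf_eq] at hx
  -- the representatives of `x` and `-x`
  set A := P.toRepSystem.rep x with hAdef
  set A' := P.toRepSystem.rep (-x) with hA'def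
  have hA : P.cl A.1 = x := P.toRepSystem.cl_rep x
  have hA' : P.cl A'.1 = -x := P.toRepSystem.cl_rep (-x)
  have hAs : P.deg A.1 = P.a₀ := (P.toRepSystem.rep_small x).2
  have hA's : P.deg A'.1 = P.a₀ := (P.toRepSystem.rep_small (-x)).2
  have q1 : P.qq A.1 + P.qq A'.1 ≤ T := hx
  have p1 := P.qq_pos A.1 A.2
  have p2 := P.qq_pos A'.1 A'.2
  have hTabs : T ≤ |T| := le_abs_self T
  -- Siegel for `-x`
  obtain ⟨f, Y, hZ, hord, -, hS, hh, -⟩ := P.siegel A'.1 A'.2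
  have ho : P.ord f = P.deg A'.1 + P.deg Y := by rw [← P.deg_Z, hZ, map_add]
  have hYd : P.deg Y + P.c₀ ≤ P.m₀ := by omega
  have hYcl : P.cl Y = x := by
    have := P.cl_Z f
    rw [hZ, map_add, hA'] at this
    have h2 : P.cl Y = x + (-x + P.cl Y) := by abel
    rw [h2, this, add_zero]
  have g1 := P.hgt_eq f A'.1 Y hZ A'.2 (by omega)
  have g2 := P.Hh_indep (P.deg Y + P.m₀ + P.c₀) P.m₀ Y (by omega) hYd (by omega)
  have hr1 := P.rr_pos A'.1 A'.2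
  have hS' : P.rr P.m₀ A'.1 * P.lsup f ≤ P.Φ P.m₀ A'.1 + P.C := hS
  -- the proximity of `Y` is bounded
  have hw : P.lsup f - P.Hh P.m₀ A'.1 ≤ T₁ := by
    have h1 : P.rr P.m₀ A'.1 * (P.lsup f - P.Hh P.m₀ A'.1) ≤ T₁ := by
      have : P.rr P.m₀ A'.1 * (P.lsup f - P.Hh P.m₀ A'.1) =
          P.rr P.m₀ A'.1 * P.lsup f - P.rr P.m₀ A'.1 * P.Hh P.m₀ A'.1 := by ring
      rw [this, hT₁]
      have q2 : P.qq A'.1 = P.Φ P.m₀ A'.1 - P.rr P.m₀ A'.1 * P.Hh P.m₀ A'.1 := rfl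
      linarith
    rcases le_total (P.lsup f - P.Hh P.m₀ A'.1) 0 with h0 | h0
    · linarith
    · nlinarith
  have hHY : P.Hh P.m₀ Y ≤ T₂ := by
    rw [abs_le] at g1 g2
    rw [hT₂]
    linarith [g1.1, g1.2, g2.1, g2.2]
  -- the covolume of `Y` is bounded
  have c1 := P.ci Y A.1 (by rw [hYcl, hA]) hYd A.2
  have hrY1 := P.rr_pos Y hYd
  have hrY2 := P.rr_le Y
  have hΦY : P.Φ P.m₀ Y ≤ T₃ - P.C := by
    have q3 : P.qq Y = P.Φ P.m₀ Y - P.rr P.m₀ Y * P.Hh P.m₀ Y := rfl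
    have h1 : P.rr P.m₀ Y * P.Hh P.m₀ Y ≤ (P.m₀ + 1) * T₂ := by
      calc P.rr P.m₀ Y * P.Hh P.m₀ Y ≤ P.rr P.m₀ Y * T₂ :=
            mul_le_mul_of_nonneg_left hHY (by linarith)
        _ ≤ (P.m₀ + 1) * T₂ := mul_le_mul_of_nonneg_right hrY2 hT₂0
    rw [abs_le] at c1
    rw [hT₃]
    linarith [c1.1, c1.2]
  -- Siegel for `Y`
  obtain ⟨g, Y', hZg, hordg, hInt, hSg, -, hg0⟩ := P.siegel Y hYd
  have hSg' : P.rr P.m₀ Y * P.lsup g ≤ P.Φ P.m₀ Y + P.C := hSg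
  have hlg : P.lsup g ≤ T₃ := by nlinarith
  rw [Set.mem_iUnion₂]
  exact ⟨g, ⟨hInt, hordg, hlg⟩, Y, ⟨Y', hZg⟩, hYcl⟩

/-- The height package from a `Φ`-calculus. -/
theorem exists_height (P : PhiSys J Dv Rv) :
    ∃ (h : J → ℝ) (a b c₀ : ℝ) (c : J → ℝ), 0 ≤ a ∧ a < b ∧
      (∀ g x, h x ≤ a * h (g + x) + c g) ∧ (∀ x, b * h x - c₀ ≤ h (2 • x)) ∧ Northcott h :=
  height_of_quasiBilinear' P.toRepSystem.qJ (8 * P.toRepSystem.C) ((7 * (P.m₀ + 1) + 1) * P.C)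
    P.toRepSystem.quasiBilinear (fun x => P.qq_pos _ (P.toRepSystem.rep x).2) P.northcott

end PhiSys

/-- `Stmt_height N 2` from a `Φ`-calculus on `J₀(N)(ℚ)`. -/
theorem stmt_height_of_phiSys (N : ℕ) {Dv : Type} [AddCommMonoid Dv] {Rv : Type}
    (P : PhiSys (JQ N) Dv Rv) : Stmt_height N 2 :=
  P.exists_height

end Fermat.Agent.S17.H16
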