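import Fermat.Agent.S17.Height.H16_MatSys
import Fermat.Agent.S17.Height.H35_GeoH90

/-!
# S17, part H (heights): the field `vec₀_lev` of the matrix system of `X₀(N)` (helper16)

The rational coordinates of a fixed function `f ∈ L(m∞)` at a higher level `m' ≥ m` are its
coordinates at the level `m`, padded by zeros (the rational basis is ONE sequence `eFun`).
Hence the sup-norms at the two levels agree, and `vec₀_lev` holds with the trivial constant.
-/

set_option autoImplicit false

open Matrix Module ModularCurve AlgebraicCurve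

noncomputable section

namespace Fermat.Agent.S17.H16

open Fermat.Agent.RED.H42 Fermat.Agent.S17 Fermat.Agent.RED.KD.H22 Fermat.Agent.S24
open Fermat.Agent.S17.H35 Fermat.Agent.S17.H71

local notation "L" => riemannRochSpace

variable {N : ℕ} [NeZero N]

theorem nLev_mono {m m' : ℕ} (h : m ≤ m') : nLev N m ≤ nLev N m' :=
  (ratCtxMod N).ratDim_mono h

/-- The coordinates at a higher level are the coordinates padded by zeros. -/
theorem ratCoord_of_le {m m' : ℕ} (h : m ≤ m') {f : FN N} (hf : f ∈ L (mInf N m))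
    (hf' : f ∈ L (mInf N m')) (hfix : f ∈ fixedFun (galN N)) (i : Fin (nLev N m')) :
    ratCoord N m' f i = if h' : (i : ℕ) < nLev N m then ratCoord N m f ⟨i, h'⟩ else 0 := by
  classical
  have hn := nLev_mono (N := N) h
  set c : Fin (nLev N m') → Kbar := fun i =>
    if h' : (i : ℕ) < nLev N m then algebraMap ℚ Kbar (ratCoord N m f ⟨i, h'⟩) else 0 with hc
  set g : ℕ → FN N := fun i =>
    (if h' : i < nLev N m then algebraMap ℚ Kbar (ratCoord N m f ⟨i, h'⟩) else 0) • eFun N i
    with hg
  have hsum : ∑ i : Fin (nLev N m'), c i • eFun N i = f := by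
    have h1 : ∑ i : Fin (nLev N m'), c i • eFun N i = ∑ i ∈ Finset.range (nLev N m'), g i :=
      Fin.sum_univ_eq_sum_range g (nLev N m')
    have h2 : ∑ j : Fin (nLev N m), algebraMap ℚ Kbar (ratCoord N m f j) • eFun N j
        = ∑ i ∈ Finset.range (nLev N m), g i := by
      rw [← Fin.sum_univ_eq_sum_range g (nLev N m)]
      refine Finset.sum_congr rfl fun j _ => ?_
      rw [hg]
      simp only [j.2, dif_pos, Fin.eta]
    rw [h1, ← sum_ratCoord N m hf hfix, h2]
    symm
    apply Finset.sum_subset
    · intro i hi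
      rw [Finset.mem_range] at hi ⊢
      omega
    · intro i _ hi
      rw [Finset.mem_range] at hi
      rw [hg]
      simp only [hi, dif_neg, not_false_eq_true, zero_smul]
  have hrepr : (eLev N m').equivFun ⟨f, hf'⟩ = c := by
    have h3 : (⟨f, hf'⟩ : L (mInf N m')) = (eLev N m').equivFun.symm c := by
      apply Subtype.ext
      rw [Module.Basis.equivFun_symm_apply]
      rw [Submodule.coe_sum]
      simp only [Submodule.coe_smul, eLev_apply]
      exact hsum.symm
    rw [h3, LinearEquiv.apply_symm_apply]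
  have h4 : algebraMap ℚ Kbar (ratCoord N m' f i) = c i := by
    rw [ratCoord_spec N m' hf' hfix, ← hrepr]
    rfl
  by_cases h' : (i : ℕ) < nLev N m
  · rw [dif_pos h']
    rw [hc] at h4
    simp only [h', dif_pos] at h4
    exact (algebraMap ℚ Kbar).injective h4
  · rw [dif_neg h']
    rw [hc] at h4
    simp only [h', dif_neg, not_false_eq_true] at h4
    rw [← map_zero (algebraMap ℚ Kbar)] at h4
    exact (algebraMap ℚ Kbar).injective h4

/-- The coordinates at the level of the pole order are among the coordinates at the level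
`m₀`. -/
theorem vecR_eq_vec0 (m₀ : ℕ) (f : Rv N) (hf : rvOrd f ≤ m₀) (i : Fin (nLev N (rvOrd f))) :
    vecR f i = vec0 m₀ f ⟨i, lt_of_lt_of_le i.2 (nLev_mono hf)⟩ := by
  have h1 := ratCoord_of_le hf (f.mem_L le_rfl) (f.mem_L hf) f.fixed
    ⟨i, lt_of_lt_of_le i.2 (nLev_mono hf)⟩
  unfold vecR vec0
  rw [h1, dif_pos i.2]

/-- **vec₀_lev**, with the trivial constant. -/
theorem geo_vec0_lev (m₀ : ℕ) :
    ∃ Lc : LocConst Qbar, ∀ (w : PlaceQ) (f : Rv N), rvOrd f ≤ m₀ →
      supNorm (absQ w) (castV (vecR f)) ≤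
        Lc.C (absQ w) * supNorm (absQ w) (castV (vec0 m₀ f)) := by
  refine ⟨LocConst.one Qbar, fun w f hf => ?_⟩
  show supNorm (absQ w) (castV (vecR f)) ≤ 1 * supNorm (absQ w) (castV (vec0 m₀ f))
  rw [one_mul]
  refine supNorm_le _ _ (supNorm_nonneg _ _) fun i => ?_
  have h1 : castV (vecR f) i = castV (vec0 m₀ f) ⟨i, lt_of_lt_of_le i.2 (nLev_mono hf)⟩ := by
    unfold castV
    rw [vecR_eq_vec0 m₀ f hf i]
  rw [h1]
  exact le_supNorm _ _ _

end Fermat.Agent.S17.H16
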