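import Mathlib
import Fermat.Agent.S17.Height.H16_SiegelStmt

/-!
# S17, part H: the sharp Siegel lemma (proof), helper22

`Fermat.Agent.S17.H22.stmt_Siegel : Fermat.Agent.S17.H16.Stmt_Siegel`.

Route (as in the docstring of `H16_SiegelStmt`): normalise `B` by its archimedean maximal
minor `J₀` (`B' = B_{J₀}⁻¹ B`, entries bounded by `1` by Cramer), bound the index of
`L = {c ∈ ℤ^r : c B' ∈ ℤ^n}` prime by prime (for each `p` an integral matrix `T` with
`ℤ^r T ⊆ L` and `|det T|_p = |det B_{J₀}|_p / max_J |det B_J|_p`), use the product formula on a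
finite set of primes, and conclude by the pigeonhole principle.
-/

set_option autoImplicit false

namespace Fermat.Agent.S17.H22

/-- Product formula for a nonzero natural number over a finite set of primes containing its
prime factors. -/
theorem prod_padicNorm_nat (m : ℕ) (hm : m ≠ 0) (S : Finset ℕ) (hS : ∀ p ∈ S, p.Prime)
    (h : m.primeFactors ⊆ S) :
    ∏ p ∈ S, padicNorm p (m : ℚ) = ((m : ℚ))⁻¹ := by
  have hm' : ((m : ℚ)) ≠ 0 := by exact_mod_cast hm
  have key : ∀ p ∈ S, padicNorm p (m : ℚ) = (((p : ℚ)) ^ (m.factorization p))⁻¹ := by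
    intro p hp
    rw [padicNorm.eq_zpow_of_nonzero hm', padicValRat.of_nat, zpow_neg, zpow_natCast,
      Nat.factorization_def _ (hS p hp)]
  rw [Finset.prod_congr rfl key, Finset.prod_inv_distrib]
  congr 1
  have h2 : ∏ p ∈ S, ((p : ℚ)) ^ (m.factorization p)
      = ∏ p ∈ m.primeFactors, ((p : ℚ)) ^ (m.factorization p) := by
    symm
    apply Finset.prod_subset h
    intro p _ hp
    have : m.factorization p = 0 := by
      rw [← Nat.support_factorization] at hp
      exact Finsupp.notMem_support_iff.mp hp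
    rw [this, pow_zero]
  rw [h2]
  have h3 := Nat.prod_factorization_pow_eq_self hm
  conv_rhs => rw [← h3]
  rw [Finsupp.prod, Nat.support_factorization]
  push_cast
  rfl

/-- Product formula for a nonzero rational number over a finite set of primes containing the
prime factors of its numerator and denominator. -/
theorem prod_padicNorm_rat (q : ℚ) (hq : q ≠ 0) (S : Finset ℕ) (hS : ∀ p ∈ S, p.Prime)
    (hnum : q.num.natAbs.primeFactors ⊆ S) (hden : q.den.primeFactors ⊆ S) :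
    ∏ p ∈ S, padicNorm p q = |q|⁻¹ := by
  have hnum0 : q.num.natAbs ≠ 0 := by
    simpa using hq
  have hden0 : q.den ≠ 0 := q.den_nz
  have key : ∀ p ∈ S, padicNorm p q
      = padicNorm p (q.num.natAbs : ℚ) * (padicNorm p (q.den : ℚ))⁻¹ := by
    intro p hp
    have : Fact p.Prime := ⟨hS p hp⟩
    have hq' : q = (q.num : ℚ) / (q.den : ℚ) := (Rat.num_div_den q).symm
    conv_lhs => rw [hq']
    rw [padicNorm.div, div_eq_mul_inv]
    congr 1
    have : ((q.num.natAbs : ℕ) : ℚ) = |(q.num : ℚ)| := by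
      rw [Nat.cast_natAbs, Int.cast_abs]
    rw [this]
    rcases abs_choice (q.num : ℚ) with h | h <;> rw [h]
    rw [padicNorm.neg]
  rw [Finset.prod_congr rfl key, Finset.prod_mul_distrib, Finset.prod_inv_distrib,
    prod_padicNorm_nat _ hnum0 S hS hnum, prod_padicNorm_nat _ hden0 S hS hden, inv_inv]
  have hq' : q = (q.num : ℚ) / (q.den : ℚ) := (Rat.num_div_den q).symm
  conv_rhs => rw [hq']
  rw [abs_div, inv_div, Nat.cast_natAbs, Int.cast_abs, Nat.abs_cast, div_eq_mul_inv, mul_comm]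

open Matrix

variable {r n : ℕ}

/-- Cramer's rule for the normalised matrix `(B_J)⁻¹ B`. -/
theorem inv_mul_apply_eq (B : Matrix (Fin r) (Fin n) ℚ) (J : Fin r → Fin n)
    (hJ : (B.submatrix id J).det ≠ 0) (i : Fin r) (j : Fin n) :
    ((B.submatrix id J)⁻¹ * B) i j
      = (B.submatrix id (Function.update J i j)).det / (B.submatrix id J).det := by
  set A := B.submatrix id J with hA
  have h1 : ((A⁻¹ * B) i j) = (A⁻¹ *ᵥ (fun k => B k j)) i := by
    simp [Matrix.mul_apply, Matrix.mulVec, dotProduct]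
  have h2 := Matrix.det_smul_inv_mulVec_eq_cramer A (fun k => B k j) (isUnit_iff_ne_zero.mpr hJ)
  have h3 : A.det * (A⁻¹ *ᵥ (fun k => B k j)) i = (A.updateCol i (fun k => B k j)).det := by
    have := congrFun h2 i
    simpa [Matrix.cramer_apply] using this
  have h4 : A.updateCol i (fun k => B k j) = B.submatrix id (Function.update J i j) := by
    ext k l
    simp only [Matrix.updateCol_apply, Matrix.submatrix_apply, id, Function.update_apply, hA]
    split_ifs <;> rfl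
  rw [h1, eq_div_iff hJ, mul_comm, h3, h4]

/-- A rational number of `p`-adic norm `≤ 1` has denominator prime to `p`. -/
theorem not_dvd_den_of_padicNorm_le_one (p : ℕ) [hp : Fact p.Prime] (q : ℚ)
    (h : padicNorm p q ≤ 1) : ¬ p ∣ q.den := by
  intro hd
  have hnum : ¬ (p : ℤ) ∣ q.num := by
    intro hn
    have hcop := q.reduced
    have h1 : p ∣ q.num.natAbs := Int.natCast_dvd.mp hn
    have := Nat.eq_one_of_dvd_coprimes hcop h1 hd
    exact hp.out.one_lt.ne' this
  have h1 : padicNorm p (q.num : ℚ) = 1 := (padicNorm.int_eq_one_iff q.num).mpr hnum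
  have h2 : padicNorm p (q.den : ℚ) < 1 := (padicNorm.nat_lt_one_iff q.den).mpr hd
  have h3 : padicNorm p q = padicNorm p (q.num : ℚ) / padicNorm p (q.den : ℚ) := by
    conv_lhs => rw [← Rat.num_div_den q]
    rw [padicNorm.div]
  have h4 : 0 < padicNorm p (q.den : ℚ) := by
    have : ((q.den : ℚ)) ≠ 0 := by exact_mod_cast q.den_nz
    exact lt_of_le_of_ne (padicNorm.nonneg _) (Ne.symm (by simpa using (padicNorm.nonzero this)))
  rw [h3, h1, div_le_iff₀ h4, one_mul] at h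
  exact absurd h (not_le.mpr h2)

/-- Clearing denominators prime to `p`. -/
theorem exists_clear_den (p : ℕ) [hp : Fact p.Prime] (C' : Matrix (Fin r) (Fin n) ℚ)
    (hint : ∀ i j, padicNorm p (C' i j) ≤ 1) :
    ∃ (t : ℕ) (C : Matrix (Fin r) (Fin n) ℤ), ¬ p ∣ t ∧ t ≠ 0 ∧
      ∀ i j, ((C i j : ℤ) : ℚ) = (t : ℚ) * C' i j := by
  classical
  refine ⟨∏ i, ∏ j, (C' i j).den, ?_⟩
  have hdvd : ∀ i j, (C' i j).den ∣ ∏ i, ∏ j, (C' i j).den := by
    intro i j
    exact (Finset.dvd_prod_of_mem _ (Finset.mem_univ j)).trans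
      (Finset.dvd_prod_of_mem (fun i => ∏ j, (C' i j).den) (Finset.mem_univ i))
  have hex : ∀ i j, ∃ w : ℤ, (w : ℚ) = ((∏ i, ∏ j, (C' i j).den : ℕ) : ℚ) * C' i j := by
    intro i j
    obtain ⟨k, hk⟩ := hdvd i j
    refine ⟨(k : ℤ) * (C' i j).num, ?_⟩
    rw [hk]
    push_cast
    have hden : ((C' i j).den : ℚ) ≠ 0 := by exact_mod_cast (C' i j).den_nz
    conv_rhs => rw [← Rat.num_div_den (C' i j)]
    field_simp
    rw [Rat.num_div_den]
  choose C hC using hex
  refine ⟨Matrix.of C, ?_, ?_, ?_⟩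
  · intro hdiv
    obtain ⟨i, -, hi⟩ := (Prime.dvd_finsetProd_iff (Nat.prime_iff.mp hp.out) _).mp hdiv
    obtain ⟨j, -, hj⟩ := (Prime.dvd_finsetProd_iff (Nat.prime_iff.mp hp.out) _).mp hi
    exact not_dvd_den_of_padicNorm_le_one p _ (hint i j) hj
  · rw [Finset.prod_ne_zero_iff]
    intro i _
    rw [Finset.prod_ne_zero_iff]
    intro j _
    exact (C' i j).den_nz
  · intro i j
    exact hC i j

/-- The local lemma: an integral matrix `T` with `ℤ^r T ⊆ L(B')` and `|det T|_p = |det Mq|_p`. -/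
theorem exists_int_matrix (B' : Matrix (Fin r) (Fin n) ℚ) (J₀ : Fin r → Fin n)
    (hJ₀ : B'.submatrix id J₀ = 1) (p : ℕ) [hp : Fact p.Prime]
    (Mq : Matrix (Fin r) (Fin r) ℚ)
    (hint : ∀ i j, padicNorm p ((Mq * B') i j) ≤ 1) :
    ∃ T : Matrix (Fin r) (Fin r) ℤ,
      (∀ z : Fin r → ℤ, ∀ j, ∃ w : ℤ,
        ((fun i => ((z ᵥ* T) i : ℚ)) ᵥ* B') j = (w : ℚ)) ∧
      padicNorm p ((T.det : ℤ) : ℚ) = padicNorm p Mq.det := by
  obtain ⟨t, C, hpt, ht0, hC⟩ := exists_clear_den p (Mq * B') hint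
  have hT : (C.submatrix id J₀).map (Int.castRingHom ℚ) = (t : ℚ) • Mq := by
    ext i k
    simp only [Matrix.map_apply, Matrix.submatrix_apply, id, Int.coe_castRingHom,
      Matrix.smul_apply, smul_eq_mul]
    rw [hC]
    congr 1
    have : (Mq * B') i (J₀ k) = (Mq * B'.submatrix id J₀) i k := by
      simp [Matrix.mul_apply]
    rw [this, hJ₀, Matrix.mul_one]
  have hCmap : C.map (Int.castRingHom ℚ) = (t : ℚ) • (Mq * B') := by
    ext i j
    simp only [Matrix.map_apply, Int.coe_castRingHom, Matrix.smul_apply, smul_eq_mul]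
    exact hC i j
  refine ⟨C.submatrix id J₀, ?_, ?_⟩
  · intro z j
    refine ⟨(z ᵥ* C) j, ?_⟩
    have h1 : (fun i => (((z ᵥ* C.submatrix id J₀) i : ℤ) : ℚ))
        = (fun i => (z i : ℚ)) ᵥ* (C.submatrix id J₀).map (Int.castRingHom ℚ) := by
      ext i
      have := RingHom.map_vecMul (Int.castRingHom ℚ) (C.submatrix id J₀) z i
      simpa [Function.comp_def] using this
    have h2 : (((z ᵥ* C) j : ℤ) : ℚ)
        = ((fun i => (z i : ℚ)) ᵥ* C.map (Int.castRingHom ℚ)) j := by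
      have := RingHom.map_vecMul (Int.castRingHom ℚ) C z j
      simpa [Function.comp_def] using this
    rw [h1, h2, hT, hCmap, Matrix.vecMul_vecMul, Matrix.smul_mul]
  · have h1 : ((((C.submatrix id J₀).det : ℤ)) : ℚ)
        = ((C.submatrix id J₀).map (Int.castRingHom ℚ)).det := by
      have := RingHom.map_det (Int.castRingHom ℚ) (C.submatrix id J₀)
      simpa using this
    rw [h1, hT, Matrix.det_smul, padicNorm.mul, Fintype.card_fin]
    have h2 : padicNorm p ((t : ℚ) ^ r) = 1 := by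
      have : ((t : ℚ) ^ r) = ((t ^ r : ℕ) : ℚ) := by push_cast; rfl
      rw [this, padicNorm.nat_eq_one_iff]
      intro h
      exact hpt (hp.out.dvd_of_dvd_pow h)
    rw [h2, one_mul]

/-- The lattice `L(B') = {c ∈ ℤ^r : c B' ∈ ℤ^n}`. -/
def latt (B' : Matrix (Fin r) (Fin n) ℚ) : AddSubgroup (Fin r → ℤ) where
  carrier := {c | ∀ j, ∃ w : ℤ, ((fun i => (c i : ℚ)) ᵥ* B') j = (w : ℚ)}
  zero_mem' := by
    intro j
    refine ⟨0, ?_⟩
    have : (fun i => (((0 : Fin r → ℤ) i : ℤ) : ℚ)) = 0 := by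
      ext i; simp
    rw [this, Matrix.zero_vecMul]; simp
  add_mem' := by
    intro a b ha hb j
    obtain ⟨wa, hwa⟩ := ha j
    obtain ⟨wb, hwb⟩ := hb j
    refine ⟨wa + wb, ?_⟩
    have : (fun i => (((a + b) i : ℤ) : ℚ)) = (fun i => (a i : ℚ)) + (fun i => (b i : ℚ)) := by
      ext i; simp
    rw [this, Matrix.add_vecMul, Pi.add_apply, hwa, hwb]; push_cast; rfl
  neg_mem' := by
    intro a ha j
    obtain ⟨wa, hwa⟩ := ha j
    refine ⟨-wa, ?_⟩
    have : (fun i => (((-a) i : ℤ) : ℚ)) = -(fun i => (a i : ℚ)) := by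
      ext i; simp
    rw [this, Matrix.neg_vecMul, Pi.neg_apply, hwa]; push_cast; rfl

theorem mem_latt (B' : Matrix (Fin r) (Fin n) ℚ) (c : Fin r → ℤ) :
    c ∈ latt B' ↔ ∀ j, ∃ w : ℤ, ((fun i => (c i : ℚ)) ᵥ* B') j = (w : ℚ) := Iff.rfl

/-- The index of a subgroup containing `ℤ^r T` divides `|det T|`. -/
theorem index_dvd_natAbs_det (L : AddSubgroup (Fin r → ℤ)) (T : Matrix (Fin r) (Fin r) ℤ)
    (hdet : T.det ≠ 0) (hT : ∀ z : Fin r → ℤ, z ᵥ* T ∈ L) :
    L.index ∣ T.det.natAbs := by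
  set f : (Fin r → ℤ) →ₗ[ℤ] (Fin r → ℤ) := Matrix.toLin' Tᵀ with hf
  have hfz : ∀ z, f z = z ᵥ* T := by
    intro z
    rw [hf, Matrix.toLin'_apply, Matrix.mulVec_transpose]
  have hinj : Function.Injective f := by
    rw [injective_iff_map_eq_zero]
    intro z hz
    rw [hfz] at hz
    exact Matrix.eq_zero_of_vecMul_eq_zero hdet hz
  set N : Submodule ℤ (Fin r → ℤ) := LinearMap.range f with hN
  let e : (Fin r → ℤ) ≃ₗ[ℤ] N := LinearEquiv.ofInjective f hinj
  have h1 := Submodule.natAbs_det_equiv N e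
  have h2 : N.subtype ∘ₗ AddMonoidHom.toIntLinearMap ((e : (Fin r → ℤ) →+ N)) = f := by
    ext z i
    rfl
  rw [h2, hf, LinearMap.det_toLin', Matrix.det_transpose] at h1
  rw [h1]
  have h3 : N.toAddSubgroup ≤ L := by
    rintro x ⟨z, rfl⟩
    rw [hfz]
    exact hT z
  have h4 := AddSubgroup.index_dvd_of_le h3
  exact h4

/-- Pigeonhole. -/
theorem exists_small_of_index (L : AddSubgroup (Fin r → ℤ)) (hL : L.index ≠ 0) (m : ℕ)
    (hm : L.index < (m + 1) ^ r) :
    ∃ c ∈ L, c ≠ 0 ∧ ∀ i, |c i| ≤ (m : ℤ) := by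
  classical
  have : L.FiniteIndex := ⟨hL⟩
  have : Finite ((Fin r → ℤ) ⧸ L) := AddSubgroup.finite_quotient_of_finiteIndex
  let _ : Fintype ((Fin r → ℤ) ⧸ L) := Fintype.ofFinite _
  let g : (Fin r → Fin (m + 1)) → (Fin r → ℤ) ⧸ L :=
    fun v => QuotientAddGroup.mk (fun i => ((v i : ℕ) : ℤ))
  have hcard : Fintype.card ((Fin r → ℤ) ⧸ L) < Fintype.card (Fin r → Fin (m + 1)) := by
    rw [Fintype.card_fun, Fintype.card_fin, Fintype.card_fin, ← Nat.card_eq_fintype_card]
    exact hm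
  obtain ⟨v₁, v₂, hne, heq⟩ := Fintype.exists_ne_map_eq_of_card_lt g hcard
  refine ⟨fun i => ((v₂ i : ℕ) : ℤ) - ((v₁ i : ℕ) : ℤ), ?_, ?_, ?_⟩
  · have := (QuotientAddGroup.eq (s := L)).mp heq
    have h2 : (fun i => ((v₂ i : ℕ) : ℤ) - ((v₁ i : ℕ) : ℤ))
        = -(fun i => ((v₁ i : ℕ) : ℤ)) + (fun i => ((v₂ i : ℕ) : ℤ)) := by
      ext i; simp; ring
    rw [h2]; exact this
  · intro h0
    apply hne
    ext i
    have := congrFun h0 i
    simp only [Pi.zero_apply] at this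
    omega
  · intro i
    have h1 : ((v₁ i : ℕ) : ℤ) < (m : ℤ) + 1 := by exact_mod_cast (v₁ i).isLt
    have h2 : ((v₂ i : ℕ) : ℤ) < (m : ℤ) + 1 := by exact_mod_cast (v₂ i).isLt
    have h3 : (0 : ℤ) ≤ ((v₁ i : ℕ) : ℤ) := Int.natCast_nonneg _
    have h4 : (0 : ℤ) ≤ ((v₂ i : ℕ) : ℤ) := Int.natCast_nonneg _
    rw [abs_le]
    constructor <;> linarith

theorem submatrix_inv_mul (B : Matrix (Fin r) (Fin n) ℚ) (A : Matrix (Fin r) (Fin r) ℚ)
    (J : Fin r → Fin n) : (A * B).submatrix id J = A * B.submatrix id J := by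
  ext i k
  simp [Matrix.mul_apply]

/-- The local estimate at `p`: the `p`-part of the index. -/
theorem padicNorm_index_ge (B : Matrix (Fin r) (Fin n) ℚ) (J₀ : Fin r → Fin n)
    (hd : (B.submatrix id J₀).det ≠ 0) (p : ℕ) [hp : Fact p.Prime] (Jp : Fin r → Fin n)
    (hJp0 : (B.submatrix id Jp).det ≠ 0)
    (hJp : ∀ J : Fin r → Fin n,
      padicNorm p (B.submatrix id J).det ≤ padicNorm p (B.submatrix id Jp).det) :
    (latt ((B.submatrix id J₀)⁻¹ * B)).index ≠ 0 ∧
    padicNorm p (B.submatrix id J₀).det / padicNorm p (B.submatrix id Jp).det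
      ≤ padicNorm p (((latt ((B.submatrix id J₀)⁻¹ * B)).index : ℕ) : ℚ) := by
  set A₀ := B.submatrix id J₀ with hA₀
  set Ap := B.submatrix id Jp with hAp
  set B' := A₀⁻¹ * B with hB'
  have hA₀u : IsUnit A₀.det := isUnit_iff_ne_zero.mpr hd
  have hApu : IsUnit Ap.det := isUnit_iff_ne_zero.mpr hJp0
  have hB'J₀ : B'.submatrix id J₀ = 1 := by
    rw [hB', submatrix_inv_mul, ← hA₀, Matrix.nonsing_inv_mul _ hA₀u]
  set Mq := Ap⁻¹ * A₀ with hMq
  have hMqB' : Mq * B' = Ap⁻¹ * B := by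
    rw [hMq, hB', Matrix.mul_assoc, ← Matrix.mul_assoc A₀, Matrix.mul_nonsing_inv _ hA₀u,
      Matrix.one_mul]
  have hnpos : 0 < padicNorm p Ap.det :=
    lt_of_le_of_ne (padicNorm.nonneg _) (Ne.symm (padicNorm.nonzero hJp0))
  have hint : ∀ i j, padicNorm p ((Mq * B') i j) ≤ 1 := by
    intro i j
    rw [hMqB', hAp, inv_mul_apply_eq B Jp hJp0, padicNorm.div, div_le_one hnpos]
    exact hJp _
  obtain ⟨T, hT1, hT2⟩ := exists_int_matrix B' J₀ hB'J₀ p Mq hint
  have hdetMq : Mq.det = A₀.det / Ap.det := by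
    rw [hMq, Matrix.det_mul, Matrix.det_nonsing_inv, Ring.inverse_eq_inv', div_eq_inv_mul]
  have hMq0 : Mq.det ≠ 0 := by
    rw [hdetMq]; exact div_ne_zero hd hJp0
  have hT0 : T.det ≠ 0 := by
    intro h0
    rw [h0] at hT2
    simp only [Int.cast_zero, padicNorm.zero] at hT2
    exact padicNorm.nonzero hMq0 hT2.symm
  have hTL : ∀ z : Fin r → ℤ, z ᵥ* T ∈ latt B' := fun z => hT1 z
  have hdvd := index_dvd_natAbs_det (latt B') T hT0 hTL
  have hnat0 : T.det.natAbs ≠ 0 := Int.natAbs_ne_zero.mpr hT0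
  refine ⟨fun h0 => hnat0 (by rw [h0] at hdvd; exact Nat.eq_zero_of_zero_dvd hdvd), ?_⟩
  obtain ⟨k, hk⟩ := hdvd
  have h1 : padicNorm p ((T.det : ℤ) : ℚ) = padicNorm p ((T.det.natAbs : ℕ) : ℚ) := by
    rw [Nat.cast_natAbs, Int.cast_abs]
    rcases abs_choice ((T.det : ℤ) : ℚ) with h | h <;> rw [h]
    rw [padicNorm.neg]
  rw [← padicNorm.div, ← hdetMq, ← hT2, h1, hk]
  push_cast
  rw [padicNorm.mul]
  calc padicNorm p ((latt B').index : ℚ) * padicNorm p (k : ℚ)
      ≤ padicNorm p ((latt B').index : ℚ) * 1 :=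
        mul_le_mul_of_nonneg_left (padicNorm.of_nat k) (padicNorm.nonneg _)
    _ = _ := mul_one _

/-- The global index bound. -/
theorem index_le (B : Matrix (Fin r) (Fin n) ℚ) (J₀ : Fin r → Fin n)
    (hd : (B.submatrix id J₀).det ≠ 0) (S : Finset ℕ) (hS : ∀ p ∈ S, p.Prime)
    (Jp : ℕ → Fin r → Fin n)
    (hJp : ∀ p : ℕ, p.Prime → ∀ J : Fin r → Fin n,
      padicNorm p (B.submatrix id J).det ≤ padicNorm p (B.submatrix id (Jp p)).det)
    (hint : ∀ p : ℕ, p.Prime → p ∉ S → ∀ J : Fin r → Fin n,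
        padicNorm p (B.submatrix id J).det ≤ 1) :
    (latt ((B.submatrix id J₀)⁻¹ * B)).index ≠ 0 ∧
    (((latt ((B.submatrix id J₀)⁻¹ * B)).index : ℕ) : ℚ)
      ≤ |(B.submatrix id J₀).det| * ∏ p ∈ S, padicNorm p (B.submatrix id (Jp p)).det := by
  classical
  set d := (B.submatrix id J₀).det with hd'
  set D := (latt ((B.submatrix id J₀)⁻¹ * B)).index with hD
  have hJp0 : ∀ p : ℕ, p.Prime → (B.submatrix id (Jp p)).det ≠ 0 := by
    intro p hp h0
    have : Fact p.Prime := ⟨hp⟩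
    have h1 := hJp p hp J₀
    rw [h0, padicNorm.zero] at h1
    exact padicNorm.nonzero hd (le_antisymm h1 (padicNorm.nonneg _))
  have hpos : ∀ p : ℕ, p.Prime → 0 < padicNorm p (B.submatrix id (Jp p)).det := by
    intro p hp
    have : Fact p.Prime := ⟨hp⟩
    exact lt_of_le_of_ne (padicNorm.nonneg _) (Ne.symm (padicNorm.nonzero (hJp0 p hp)))
  have hD0 : D ≠ 0 := by
    have : Fact (Nat.Prime 2) := ⟨Nat.prime_two⟩
    exact (padicNorm_index_ge B J₀ hd 2 (Jp 2) (hJp0 2 Nat.prime_two) (hJp 2 Nat.prime_two)).1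
  refine ⟨hD0, ?_⟩
  set S' : Finset ℕ := S ∪ D.primeFactors ∪ d.num.natAbs.primeFactors ∪ d.den.primeFactors
    with hS'
  have hS'prime : ∀ p ∈ S', p.Prime := by
    intro p hp
    simp only [hS', Finset.mem_union] at hp
    rcases hp with ((hp | hp) | hp) | hp
    · exact hS p hp
    · exact Nat.prime_of_mem_primeFactors hp
    · exact Nat.prime_of_mem_primeFactors hp
    · exact Nat.prime_of_mem_primeFactors hp
  have hSS' : S ⊆ S' := by
    intro p hp; simp only [hS', Finset.mem_union]; tauto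
  have h1 : ∏ p ∈ S', padicNorm p (D : ℚ) = ((D : ℚ))⁻¹ :=
    prod_padicNorm_nat D hD0 S' hS'prime (by
      intro p hp; simp only [hS', Finset.mem_union]; tauto)
  have h2 : ∏ p ∈ S', padicNorm p d = |d|⁻¹ :=
    prod_padicNorm_rat d hd S' hS'prime
      (by intro p hp; simp only [hS', Finset.mem_union]; tauto)
      (by intro p hp; simp only [hS', Finset.mem_union]; tauto)
  have h3 : ∏ p ∈ S', (padicNorm p d / padicNorm p (B.submatrix id (Jp p)).det)
      ≤ ∏ p ∈ S', padicNorm p (D : ℚ) := by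
    apply Finset.prod_le_prod
    · intro p hp
      have : Fact p.Prime := ⟨hS'prime p hp⟩
      exact div_nonneg (padicNorm.nonneg _) (padicNorm.nonneg _)
    · intro p hp
      have : Fact p.Prime := ⟨hS'prime p hp⟩
      exact (padicNorm_index_ge B J₀ hd p (Jp p) (hJp0 p (hS'prime p hp))
        (hJp p (hS'prime p hp))).2
  rw [Finset.prod_div_distrib, h1, h2] at h3
  have hP'pos : 0 < ∏ p ∈ S', padicNorm p (B.submatrix id (Jp p)).det :=
    Finset.prod_pos fun p hp => hpos p (hS'prime p hp)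
  have hDpos : (0 : ℚ) < (D : ℚ) := by exact_mod_cast Nat.pos_of_ne_zero hD0
  have hdpos : 0 < |d| := abs_pos.mpr hd
  have h4 : (D : ℚ) ≤ |d| * ∏ p ∈ S', padicNorm p (B.submatrix id (Jp p)).det := by
    rw [div_le_iff₀ hP'pos] at h3
    have h5 := mul_le_mul_of_nonneg_left h3 hdpos.le
    rw [mul_inv_cancel₀ hdpos.ne'] at h5
    have h6 := mul_le_mul_of_nonneg_left h5 hDpos.le
    rw [mul_one] at h6
    calc (D : ℚ) ≤ D * (|d| * ((D : ℚ)⁻¹ * ∏ p ∈ S', padicNorm p (B.submatrix id (Jp p)).det)) :=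
          h6
      _ = (D * (D : ℚ)⁻¹) * (|d| * ∏ p ∈ S', padicNorm p (B.submatrix id (Jp p)).det) := by ring
      _ = _ := by rw [mul_inv_cancel₀ hDpos.ne', one_mul]
  have h7 : ∏ p ∈ S', padicNorm p (B.submatrix id (Jp p)).det
      ≤ ∏ p ∈ S, padicNorm p (B.submatrix id (Jp p)).det := by
    rw [← Finset.prod_sdiff hSS']
    have h8 : ∏ p ∈ S' \ S, padicNorm p (B.submatrix id (Jp p)).det ≤ 1 := by
      apply Finset.prod_le_one
      · intro p hp
        have : Fact p.Prime := ⟨hS'prime p (Finset.mem_sdiff.mp hp).1⟩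
        exact padicNorm.nonneg _
      · intro p hp
        exact hint p (hS'prime p (Finset.mem_sdiff.mp hp).1) (Finset.mem_sdiff.mp hp).2 _
    have h9 : 0 ≤ ∏ p ∈ S, padicNorm p (B.submatrix id (Jp p)).det :=
      Finset.prod_nonneg fun p hp => (hpos p (hS p hp)).le
    calc _ ≤ 1 * ∏ p ∈ S, padicNorm p (B.submatrix id (Jp p)).det :=
          mul_le_mul_of_nonneg_right h8 h9
      _ = _ := one_mul _
  exact h4.trans (mul_le_mul_of_nonneg_left h7 hdpos.le)

/-- The sharp Siegel lemma. -/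
theorem stmt_Siegel : Fermat.Agent.S17.H16.Stmt_Siegel := by
  intro r n hr B hJ S hS hint
  classical
  obtain ⟨J₁, hJ₁⟩ := hJ
  have : Nonempty (Fin r → Fin n) := ⟨J₁⟩
  -- the archimedean maximal minor
  obtain ⟨J₀, hJ₀⟩ := Finite.exists_max (fun J : Fin r → Fin n => |(B.submatrix id J).det|)
  have hd : (B.submatrix id J₀).det ≠ 0 := by
    intro h0
    have := hJ₀ J₁
    simp only [h0, abs_zero] at this
    exact hJ₁ (abs_eq_zero.mp (le_antisymm this (abs_nonneg _)))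
  -- the p-adic maximal minors
  have hex : ∀ p : ℕ, ∃ Jp : Fin r → Fin n, ∀ J : Fin r → Fin n,
      padicNorm p (B.submatrix id J).det ≤ padicNorm p (B.submatrix id Jp).det :=
    fun p => Finite.exists_max (fun J : Fin r → Fin n => padicNorm p (B.submatrix id J).det)
  choose Jp hJp using hex
  obtain ⟨hD0, hDle⟩ := index_le B J₀ hd S hS Jp (fun p _ => hJp p) hint
  set A₀ := B.submatrix id J₀ with hA₀
  set B' := A₀⁻¹ * B with hB'
  set D := (latt B').index with hD
  have hA₀u : IsUnit A₀.det := isUnit_iff_ne_zero.mpr hd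
  -- entries of B' are bounded by 1
  have hB'le : ∀ i j, |B' i j| ≤ 1 := by
    intro i j
    rw [hB', hA₀, inv_mul_apply_eq B J₀ hd, abs_div, div_le_one (abs_pos.mpr hd)]
    exact hJ₀ _
  -- pigeonhole
  have hr0 : r ≠ 0 := hr.ne'
  obtain ⟨c, hcL, hc0, hcm⟩ := exists_small_of_index (latt B') hD0 (Nat.nthRoot r D)
    (Nat.lt_pow_nthRoot_add_one hr0 D)
  have hmD : (Nat.nthRoot r D) ^ r ≤ D := Nat.pow_nthRoot_le_iff.mpr (Or.inl hr0)
  set cq : Fin r → ℚ := fun i => (c i : ℚ) with hcq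
  refine ⟨cq ᵥ* A₀⁻¹, ?_, ?_, ?_⟩
  · intro h0
    apply hc0
    have h1 : cq = 0 := by
      have : (cq ᵥ* A₀⁻¹) ᵥ* A₀ = cq := by
        rw [Matrix.vecMul_vecMul, Matrix.nonsing_inv_mul _ hA₀u, Matrix.vecMul_one]
      rw [← this, h0, Matrix.zero_vecMul]
    ext i
    have := congrFun h1 i
    simpa [hcq] using this
  · intro j
    rw [Matrix.vecMul_vecMul]
    exact hcL j
  · intro j
    rw [Matrix.vecMul_vecMul, ← hB']
    set m := Nat.nthRoot r D with hm
    -- the rational bound on the entry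
    have hx : |(cq ᵥ* B') j| ≤ (r : ℚ) * (m : ℚ) := by
      have h1 : (cq ᵥ* B') j = ∑ i, cq i * B' i j := by
        simp [Matrix.vecMul, dotProduct]
      rw [h1]
      calc |∑ i, cq i * B' i j| ≤ ∑ i, |cq i * B' i j| := Finset.abs_sum_le_sum_abs _ _
        _ ≤ ∑ _i : Fin r, (m : ℚ) := by
            apply Finset.sum_le_sum
            intro i _
            rw [abs_mul]
            have h2 : |cq i| ≤ (m : ℚ) := by
              have := hcm i
              rw [hcq]
              have h3 : |((c i : ℤ) : ℚ)| = ((|c i| : ℤ) : ℚ) := by rw [Int.cast_abs]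
              rw [h3]
              exact_mod_cast this
            calc |cq i| * |B' i j| ≤ (m : ℚ) * 1 :=
                  mul_le_mul h2 (hB'le i j) (abs_nonneg _) (Nat.cast_nonneg _)
              _ = m := mul_one _
        _ = (r : ℚ) * (m : ℚ) := by
            rw [Finset.sum_const, Finset.card_univ, Fintype.card_fin, nsmul_eq_mul]
    have hxR : |(((cq ᵥ* B') j : ℚ) : ℝ)| ≤ (r : ℝ) * (m : ℝ) := by
      have h1 : |(((cq ᵥ* B') j : ℚ) : ℝ)| = ((|(cq ᵥ* B') j| : ℚ) : ℝ) := by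
        rw [Rat.cast_abs]
      rw [h1]
      exact_mod_cast hx
    have hDR : ((D : ℕ) : ℝ) ≤ ((|A₀.det| : ℚ) : ℝ) *
        ∏ p ∈ S, ((padicNorm p (B.submatrix id (Jp p)).det : ℚ) : ℝ) := by
      have := hDle
      have h2 : (((D : ℕ) : ℚ) : ℝ) ≤ ((|A₀.det| * ∏ p ∈ S,
          padicNorm p (B.submatrix id (Jp p)).det : ℚ) : ℝ) := by
        exact_mod_cast this
      rw [Rat.cast_mul, Rat.cast_prod] at h2
      simpa using h2
    have hsup1 : ((|A₀.det| : ℚ) : ℝ) ≤ ⨆ J : Fin r → Fin n, ((|(B.submatrix id J).det| : ℚ) : ℝ) :=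
      le_ciSup (f := fun J : Fin r → Fin n => ((|(B.submatrix id J).det| : ℚ) : ℝ))
        (Set.finite_range _).bddAbove J₀
    have hsup2 : ∀ p ∈ S, ((padicNorm p (B.submatrix id (Jp p)).det : ℚ) : ℝ)
        ≤ ⨆ J : Fin r → Fin n, ((padicNorm p (B.submatrix id J).det : ℚ) : ℝ) := by
      intro p _
      exact le_ciSup (f := fun J : Fin r → Fin n =>
        ((padicNorm p (B.submatrix id J).det : ℚ) : ℝ)) (Set.finite_range _).bddAbove (Jp p)
    have hprod : ∏ p ∈ S, ((padicNorm p (B.submatrix id (Jp p)).det : ℚ) : ℝ)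
        ≤ ∏ p ∈ S, ⨆ J : Fin r → Fin n, ((padicNorm p (B.submatrix id J).det : ℚ) : ℝ) := by
      apply Finset.prod_le_prod
      · intro p hp
        have : Fact p.Prime := ⟨hS p hp⟩
        exact_mod_cast padicNorm.nonneg _
      · exact hsup2
    have hprod0 : (0 : ℝ) ≤ ∏ p ∈ S, ((padicNorm p (B.submatrix id (Jp p)).det : ℚ) : ℝ) := by
      apply Finset.prod_nonneg
      intro p hp
      have : Fact p.Prime := ⟨hS p hp⟩
      exact_mod_cast padicNorm.nonneg _
    have habs0 : (0 : ℝ) ≤ ((|A₀.det| : ℚ) : ℝ) := by exact_mod_cast abs_nonneg _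
    have hH : ((D : ℕ) : ℝ) ≤ (⨆ J : Fin r → Fin n, ((|(B.submatrix id J).det| : ℚ) : ℝ)) *
        ∏ p ∈ S, ⨆ J : Fin r → Fin n, ((padicNorm p (B.submatrix id J).det : ℚ) : ℝ) :=
      hDR.trans (mul_le_mul hsup1 hprod hprod0 (habs0.trans hsup1))
    have hmDR : ((m : ℝ)) ^ r ≤ (D : ℝ) := by exact_mod_cast hmD
    calc |(((cq ᵥ* B') j : ℚ) : ℝ)| ^ r ≤ ((r : ℝ) * (m : ℝ)) ^ r :=
          pow_le_pow_left₀ (abs_nonneg _) hxR r
      _ = (r : ℝ) ^ r * (m : ℝ) ^ r := mul_pow _ _ _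
      _ ≤ (r : ℝ) ^ r * (D : ℝ) :=
          mul_le_mul_of_nonneg_left hmDR (pow_nonneg (Nat.cast_nonneg _) _)
      _ ≤ _ := mul_le_mul_of_nonneg_left hH (pow_nonneg (Nat.cast_nonneg _) _)

end Fermat.Agent.S17.H22
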