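import Mathlib
import Fermat.Agent.S17.Height.H71_MPH

/-!
# S17 part H, package ABSVAL (helper35): absolute values on `ℚ̄` above the places of `ℚ`

* `absQ : PlaceQ → AbsoluteValue Qbar ℝ`, `PlaceQ = Option Nat.Primes` (`none` is the
  archimedean place): pull-back of the norm of `ℂ` resp. of `PadicAlgCl p` along an embedding.
* `absQ_some_nonarch`, `absQ_some_ratCast`, `absQ_none_ratCast`: the restrictions to `ℚ`.
* `finite_one_lt_absQ`: every `x : ℚ̄` is `v`-integral for almost all `v`.
* `prod_absQ_ratCast`: the product formula on `ℚˣ`; `finsum_log_absQ_eq_zero_of_pow` for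
  `c : ℚ̄` with `c ^ k ∈ ℚˣ`.
* `LocConst.finite_ne_one`, `LocConst.total`: the sum of the logarithms of a family of local
  constants is a finite sum.
-/

set_option autoImplicit false

noncomputable section

open scoped Padic

namespace Fermat.Agent.S17.H35

open Fermat.Agent.S17.H71

/-- The field `ℚ̄`. -/
abbrev Qbar : Type := AlgebraicClosure ℚ

/-- An embedding of `ℚ̄` into the algebraic closure of `ℚ_p`. -/
def embP (p : ℕ) [Fact p.Prime] : Qbar →ₐ[ℚ] PadicAlgCl p :=
  haveI : Algebra.IsAlgebraic ℚ (AlgebraicClosure ℚ) := AlgebraicClosure.isAlgebraic ℚ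
  IsAlgClosed.lift

/-- An embedding of `ℚ̄` into `ℂ`. -/
def embC : Qbar →ₐ[ℚ] ℂ :=
  haveI : Algebra.IsAlgebraic ℚ (AlgebraicClosure ℚ) := AlgebraicClosure.isAlgebraic ℚ
  IsAlgClosed.lift

/-- The `p`-adic absolute value on `ℚ̄` (one extension). -/
def absP (p : ℕ) [Fact p.Prime] : AbsoluteValue Qbar ℝ :=
  (NormedField.toAbsoluteValue (PadicAlgCl p)).comp (f := (embP p).toRingHom)
    (embP p).toRingHom.injective

/-- The archimedean absolute value on `ℚ̄` (one extension). -/
def absInf : AbsoluteValue Qbar ℝ :=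
  (NormedField.toAbsoluteValue ℂ).comp (f := embC.toRingHom) embC.toRingHom.injective

theorem absP_apply (p : ℕ) [Fact p.Prime] (x : Qbar) : absP p x = ‖embP p x‖ := rfl

theorem absInf_apply (x : Qbar) : absInf x = ‖embC x‖ := rfl

theorem absP_nonarch (p : ℕ) [Fact p.Prime] : IsNonarchimedean (absP p) := by
  intro x y
  rw [absP_apply, absP_apply, absP_apply, map_add]
  exact PadicAlgCl.isNonarchimedean p _ _

theorem norm_ratCast_padicAlgCl (p : ℕ) [Fact p.Prime] (x : ℚ) :
    ‖((x : ℚ) : PadicAlgCl p)‖ = padicNorm p x := by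
  rw [← Padic.eq_padicNorm, ← PadicAlgCl.norm_extends]
  congr 1

theorem absP_ratCast (p : ℕ) [Fact p.Prime] (x : ℚ) : absP p (x : Qbar) = padicNorm p x := by
  rw [absP_apply, map_ratCast, norm_ratCast_padicAlgCl]

theorem absInf_ratCast (x : ℚ) : absInf (x : Qbar) = |(x : ℝ)| := by
  rw [absInf_apply, map_ratCast]
  simp

theorem absP_intCast_le_one (p : ℕ) [Fact p.Prime] (z : ℤ) : absP p (z : Qbar) ≤ 1 := by
  have h := absP_ratCast p (z : ℚ)
  rw [Rat.cast_intCast] at h
  rw [h]
  exact_mod_cast padicNorm.of_int (p := p) z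

/-! ## Integrality -/

/-- A nonarchimedean absolute value is at most `1` on the integers. -/
theorem abv_intCast_le_one {K : Type*} [Field K] (v : AbsoluteValue K ℝ)
    (hv : IsNonarchimedean v) (z : ℤ) : v (z : K) ≤ 1 := by
  have hnat : ∀ n : ℕ, v (n : K) ≤ 1 := by
    intro n
    induction n with
    | zero => simp
    | succ n ih =>
      rw [Nat.cast_succ]
      exact (hv _ _).trans (max_le ih (by simp))
  rcases Int.natAbs_eq z with h | h
  · rw [h, Int.cast_natCast]; exact hnat _
  · rw [h, Int.cast_neg, Int.cast_natCast, v.map_neg]; exact hnat _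

/-- A nonarchimedean absolute value is at most `1` on the elements integral over `ℤ`. -/
theorem abv_le_one_of_isIntegral {K : Type*} [Field K] (v : AbsoluteValue K ℝ)
    (hv : IsNonarchimedean v) {y : K} (hy : IsIntegral ℤ y) : v y ≤ 1 := by
  by_contra hcon
  push Not at hcon
  obtain ⟨P, hP, hPy⟩ := hy
  set n := P.natDegree with hn
  have hsum : y ^ n = -∑ i ∈ Finset.range n, ((P.coeff i : ℤ) : K) * y ^ i := by
    have h1 := hP.as_sum
    have h2 : Polynomial.eval₂ (algebraMap ℤ K) y P = 0 := hPy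
    rw [h1, Polynomial.eval₂_add, Polynomial.eval₂_pow, Polynomial.eval₂_X,
      Polynomial.eval₂_finsetSum] at h2
    have h3 : ∀ i ∈ Finset.range P.natDegree,
        Polynomial.eval₂ (algebraMap ℤ K) y (Polynomial.C (P.coeff i) * Polynomial.X ^ i)
          = ((P.coeff i : ℤ) : K) * y ^ i := by
      intro i _
      rw [Polynomial.eval₂_mul, Polynomial.eval₂_C, Polynomial.eval₂_pow, Polynomial.eval₂_X]
      rfl
    rw [Finset.sum_congr rfl h3] at h2
    exact eq_neg_of_add_eq_zero_left h2
  have hpos : 0 < v y := lt_trans one_pos hcon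
  rcases Nat.eq_zero_or_pos n with hn0 | hn0
  · rw [hn0] at hsum
    simp only [pow_zero, Finset.range_zero, Finset.sum_empty, neg_zero] at hsum
    exact one_ne_zero hsum
  have hbound : v (∑ i ∈ Finset.range n, ((P.coeff i : ℤ) : K) * y ^ i) ≤ v y ^ (n - 1) := by
    have hne : (Finset.range n).Nonempty := Finset.nonempty_range_iff.mpr hn0.ne'
    obtain ⟨i, hi, hle⟩ := IsNonarchimedean.finset_image_add_of_nonempty hv
      (fun i => ((P.coeff i : ℤ) : K) * y ^ i) hne
    refine hle.trans ?_
    rw [v.map_mul, v.map_pow]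
    have hi' : i ≤ n - 1 := by
      have := Finset.mem_range.mp hi
      omega
    calc v ((P.coeff i : ℤ) : K) * v y ^ i ≤ 1 * v y ^ i :=
          mul_le_mul_of_nonneg_right (abv_intCast_le_one v hv _) (pow_nonneg hpos.le _)
      _ = v y ^ i := one_mul _
      _ ≤ v y ^ (n - 1) := pow_le_pow_right₀ hcon.le hi'
  have h4 : v y ^ n ≤ v y ^ (n - 1) := by
    rw [← v.map_pow, hsum, v.map_neg]
    exact hbound
  have h5 : v y ^ (n - 1) < v y ^ n := pow_lt_pow_right₀ hcon (by omega)
  linarith

/-- The `p`-adic absolute value on `ℚ̄`, indexed by `Nat.Primes`. -/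
def absPrime (p : Nat.Primes) : AbsoluteValue Qbar ℝ := @absP p.1 ⟨p.2⟩

theorem absPrime_nonarch (p : Nat.Primes) : IsNonarchimedean (absPrime p) :=
  @absP_nonarch p.1 ⟨p.2⟩

theorem absPrime_ratCast (p : Nat.Primes) (x : ℚ) :
    absPrime p (x : Qbar) = padicNorm p x :=
  @absP_ratCast p.1 ⟨p.2⟩ x

theorem finite_dvd_primes {m : ℕ} (hm : m ≠ 0) : {p : Nat.Primes | (p : ℕ) ∣ m}.Finite := by
  have h1 : (m.primeFactors : Set ℕ).Finite := Finset.finite_toSet _
  refine Set.Finite.of_injOn (f := fun p : Nat.Primes => (p : ℕ)) ?_ ?_ h1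
  · intro p hp
    simp only [Set.mem_ofPred_eq] at hp
    simp only [Finset.mem_coe, Nat.mem_primeFactors]
    exact ⟨p.2, hp, hm⟩
  · intro p _ q _ h
    exact Subtype.ext h

/-- Every element of `ℚ̄` is `p`-integral for almost all `p`. -/
theorem finite_one_lt_absPrime (x : Qbar) : {p : Nat.Primes | 1 < absPrime p x}.Finite := by
  have halg : IsAlgebraic ℤ x := by
    have h1 : IsAlgebraic ℚ x := (AlgebraicClosure.isAlgebraic ℚ).isAlgebraic x
    exact (IsFractionRing.isAlgebraic_iff ℤ ℚ (AlgebraicClosure ℚ)).mpr h1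
  obtain ⟨d, hd0, hdx⟩ := halg.exists_integral_multiple
  have hfin : {p : Nat.Primes | (p : ℕ) ∣ d.natAbs}.Finite :=
    finite_dvd_primes (Int.natAbs_ne_zero.mpr hd0)
  refine hfin.subset ?_
  intro p hp
  simp only [Set.mem_ofPred_eq] at hp ⊢
  have : Fact (p : ℕ).Prime := ⟨p.2⟩
  by_contra hndvd
  have h1 : absPrime p (d • x) ≤ 1 := abv_le_one_of_isIntegral _ (absPrime_nonarch _) hdx
  have h2 : absPrime p ((d : ℤ) : Qbar) = 1 := by
    have h := absPrime_ratCast p (d : ℚ)
    rw [Rat.cast_intCast] at h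
    rw [h]
    have h3 : padicNorm (p : ℕ) (d : ℚ) = 1 := by
      rw [padicNorm.int_eq_one_iff]
      intro hdvd
      exact hndvd (Int.natCast_dvd.mp hdvd)
    rw [h3]; simp
  rw [zsmul_eq_mul, map_mul, h2, one_mul] at h1
  linarith

/-! ## The product formula on `ℚ` -/

theorem padicNorm_eq_one_of_not_dvd (p : Nat.Primes) (x : ℚ)
    (h1 : ¬ (p : ℕ) ∣ x.num.natAbs) (h2 : ¬ (p : ℕ) ∣ x.den) : padicNorm p x = 1 := by
  have : Fact (p : ℕ).Prime := ⟨p.2⟩
  have hx' : x = (x.num : ℚ) / (x.den : ℚ) := (Rat.num_div_den x).symm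
  rw [hx', padicNorm.div]
  have e1 : padicNorm p (x.num : ℚ) = 1 := by
    rw [padicNorm.int_eq_one_iff]
    intro hdvd
    exact h1 (Int.natCast_dvd.mp hdvd)
  have e2 : padicNorm p (x.den : ℚ) = 1 := by
    rw [padicNorm.nat_eq_one_iff]
    exact h2
  rw [e1, e2, div_one]

theorem padicNorm_hasFiniteMulSupport (x : ℚ) (hx : x ≠ 0) :
    (Function.mulSupport fun p : Nat.Primes => padicNorm p x).Finite := by
  have hnum : x.num.natAbs ≠ 0 := Int.natAbs_ne_zero.mpr (Rat.num_ne_zero.mpr hx)
  refine ((finite_dvd_primes hnum).union (finite_dvd_primes x.den_nz)).subset ?_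
  intro p hp
  simp only [Function.mem_mulSupport] at hp
  by_contra hcon
  simp only [Set.mem_union, Set.mem_ofPred_eq, not_or] at hcon
  exact hp (padicNorm_eq_one_of_not_dvd p x hcon.1 hcon.2)

/-- The product of all `p`-adic norms and the usual absolute value. -/
def allProd (x : ℚ) : ℚ := (∏ᶠ p : Nat.Primes, padicNorm p x) * |x|

theorem allProd_mul {x y : ℚ} (hx : x ≠ 0) (hy : y ≠ 0) :
    allProd (x * y) = allProd x * allProd y := by
  unfold allProd
  have h : (fun p : Nat.Primes => padicNorm p (x * y))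
      = fun p : Nat.Primes => padicNorm p x * padicNorm p y := by
    funext p
    have : Fact (p : ℕ).Prime := ⟨p.2⟩
    exact padicNorm.mul x y
  rw [h, finprod_mul_distrib (padicNorm_hasFiniteMulSupport x hx)
    (padicNorm_hasFiniteMulSupport y hy), abs_mul]
  ring

theorem allProd_one : allProd 1 = 1 := by
  unfold allProd
  have h : (fun p : Nat.Primes => padicNorm p (1 : ℚ)) = fun _ => 1 := by
    funext p
    have : Fact (p : ℕ).Prime := ⟨p.2⟩
    exact padicNorm.one
  rw [h, finprod_one]
  simp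

theorem allProd_prime (q : ℕ) (hq : q.Prime) : allProd (q : ℚ) = 1 := by
  unfold allProd
  have : Fact q.Prime := ⟨hq⟩
  have h := finprod_eq_single (fun p : Nat.Primes => padicNorm p (q : ℚ)) ⟨q, hq⟩ (by
    intro p hp
    have : Fact (p : ℕ).Prime := ⟨p.2⟩
    apply padicNorm.padicNorm_of_prime_of_ne
    intro h
    exact hp (Subtype.ext h))
  rw [h]
  show padicNorm q (q : ℚ) * |(q : ℚ)| = 1
  rw [padicNorm.padicNorm_p hq.one_lt, abs_of_nonneg (by positivity)]
  have : (q : ℚ) ≠ 0 := by exact_mod_cast hq.ne_zero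
  field_simp

theorem allProd_natCast (n : ℕ) (hn : n ≠ 0) : allProd (n : ℚ) = 1 := by
  induction n using induction_on_primes with
  | zero => exact absurd rfl hn
  | one => simpa using allProd_one
  | prime_mul p a hp ih =>
    have ha : a ≠ 0 := fun h => hn (by rw [h, mul_zero])
    rw [Nat.cast_mul, allProd_mul (by exact_mod_cast hp.ne_zero) (by exact_mod_cast ha),
      allProd_prime p hp, ih ha, one_mul]

theorem allProd_neg (x : ℚ) : allProd (-x) = allProd x := by
  unfold allProd
  have h : (fun p : Nat.Primes => padicNorm p (-x)) = fun p : Nat.Primes => padicNorm p x := by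
    funext p
    have : Fact (p : ℕ).Prime := ⟨p.2⟩
    exact padicNorm.neg x
  rw [h, abs_neg]

theorem allProd_intCast (z : ℤ) (hz : z ≠ 0) : allProd (z : ℚ) = 1 := by
  have hn : z.natAbs ≠ 0 := Int.natAbs_ne_zero.mpr hz
  rcases Int.natAbs_eq z with h | h
  · rw [h, Int.cast_natCast]; exact allProd_natCast _ hn
  · rw [h, Int.cast_neg, Int.cast_natCast, allProd_neg]; exact allProd_natCast _ hn

/-- **The product formula** on `ℚˣ`, in `ℚ`. -/
theorem allProd_eq_one (x : ℚ) (hx : x ≠ 0) : allProd x = 1 := by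
  have hden : (x.den : ℚ) ≠ 0 := by exact_mod_cast x.den_nz
  have h1 : allProd (x * (x.den : ℚ)) = allProd x * allProd (x.den : ℚ) := allProd_mul hx hden
  have h2 : x * (x.den : ℚ) = (x.num : ℚ) := Rat.mul_den_eq_num x
  rw [h2, allProd_intCast _ (Rat.num_ne_zero.mpr hx), allProd_natCast _ x.den_nz, mul_one] at h1
  exact h1.symm

/-! ## The family of absolute values on `ℚ̄` -/

/-- The places of `ℚ`: `none` is the archimedean place, `some p` the prime `p`. -/
abbrev PlaceQ : Type := Option Nat.Primes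

/-- One absolute value on `ℚ̄` above every place of `ℚ`. -/
def absQ : PlaceQ → AbsoluteValue Qbar ℝ
  | none => absInf
  | some p => absPrime p

@[simp] theorem absQ_none : absQ none = absInf := rfl

@[simp] theorem absQ_some (p : Nat.Primes) : absQ (some p) = absPrime p := rfl

theorem absQ_some_nonarch (p : Nat.Primes) : IsNonarchimedean (absQ (some p)) :=
  absPrime_nonarch p

theorem absQ_some_ratCast (p : Nat.Primes) (x : ℚ) :
    absQ (some p) (x : Qbar) = padicNorm p x :=
  absPrime_ratCast p x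

theorem absQ_none_ratCast (x : ℚ) : absQ none (x : Qbar) = |(x : ℝ)| :=
  absInf_ratCast x

/-- Every element of `ℚ̄` is `v`-integral for almost all `v`. -/
theorem finite_one_lt_absQ (x : Qbar) : {w : PlaceQ | 1 < absQ w x}.Finite := by
  have h := (finite_one_lt_absPrime x).image (some : Nat.Primes → PlaceQ)
  refine (h.union (Set.finite_singleton none)).subset ?_
  intro w hw
  cases w with
  | none => exact Or.inr rfl
  | some p => exact Or.inl ⟨p, hw, rfl⟩

/-- Every nonzero element of `ℚ̄` is a `v`-unit for almost all `v`. -/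
theorem finite_absQ_ne_one {x : Qbar} (hx : x ≠ 0) : {w : PlaceQ | absQ w x ≠ 1}.Finite := by
  refine ((finite_one_lt_absQ x).union (finite_one_lt_absQ x⁻¹)).subset ?_
  intro w hw
  simp only [Set.mem_ofPred_eq] at hw
  rcases lt_or_gt_of_ne hw with h | h
  · right
    simp only [Set.mem_ofPred_eq]
    rw [map_inv₀]
    have hpos : 0 < absQ w x := (absQ w).pos hx
    exact (one_lt_inv₀ hpos).mpr h
  · left
    exact h

/-- A finite set of elements of `ℚ̄` is `v`-integral for almost all `v`. -/
theorem finite_exists_one_lt_absQ (T : Finset Qbar) :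
    {w : PlaceQ | ∃ c ∈ T, 1 < absQ w c}.Finite := by
  classical
  have h : {w : PlaceQ | ∃ c ∈ T, 1 < absQ w c} = ⋃ c ∈ T, {w : PlaceQ | 1 < absQ w c} := by
    ext _
    simp
  rw [h]
  exact T.finite_toSet.biUnion fun c _ => finite_one_lt_absQ c

/-- **The product formula** on `ℚˣ`. -/
theorem prod_absQ_ratCast (x : ℚ) (hx : x ≠ 0) : ∏ᶠ w : PlaceQ, absQ w (x : Qbar) = 1 := by
  have hfin : (Function.mulSupport fun p : Nat.Primes => absQ (some p) (x : Qbar)).Finite := by
    have h := padicNorm_hasFiniteMulSupport x hx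
    refine h.subset ?_
    intro p hp
    simp only [Function.mem_mulSupport] at hp ⊢
    intro h1
    apply hp
    rw [absQ_some_ratCast, h1]
    simp
  rw [finprod_option (f := fun w : PlaceQ => absQ w (x : Qbar)) hfin]
  have h1 := allProd_eq_one x hx
  unfold allProd at h1
  have h2 := congrArg (fun q : ℚ => (q : ℝ)) h1
  simp only [Rat.cast_mul, Rat.cast_one, Rat.cast_abs] at h2
  rw [← h2, mul_comm]
  congr 1
  · have h3 := map_finprod (Rat.castHom ℝ) (padicNorm_hasFiniteMulSupport x hx)
    simp only [Rat.coe_castHom] at h3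
    rw [h3]
    refine finprod_congr fun p => ?_
    exact absQ_some_ratCast p x
  · exact absQ_none_ratCast x

/-- The logarithms of the absolute values of a nonzero element have finite support. -/
theorem finite_support_log_absQ {x : Qbar} (hx : x ≠ 0) :
    (Function.support fun w : PlaceQ => Real.log (absQ w x)).Finite := by
  refine (finite_absQ_ne_one hx).subset ?_
  intro w hw
  simp only [Function.mem_support] at hw
  simp only [Set.mem_ofPred_eq]
  intro h
  apply hw
  rw [h, Real.log_one]

/-- The product formula, logarithmic form, for `c : ℚ̄` with `c ^ k ∈ ℚˣ`, `k ≥ 1`. -/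
theorem finsum_log_absQ_eq_zero_of_pow {c : Qbar} {k : ℕ} (hk : k ≠ 0) {x : ℚ} (hx : x ≠ 0)
    (hc : c ^ k = (x : Qbar)) : ∑ᶠ w : PlaceQ, Real.log (absQ w c) = 0 := by
  have hx' : (x : Qbar) ≠ 0 := by exact_mod_cast hx
  have hc0 : c ≠ 0 := by
    rintro rfl
    rw [zero_pow hk] at hc
    exact hx' hc.symm
  have h1 : ∑ᶠ w : PlaceQ, Real.log (absQ w (x : Qbar)) = 0 := by
    have hfin := finite_absQ_ne_one hx'
    have h2 := prod_absQ_ratCast x hx
    rw [finprod_eq_prod_of_mulSupport_subset (s := hfin.toFinset) _ (by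
      intro w hw
      simpa using hw)] at h2
    rw [finsum_eq_sum_of_support_subset (s := hfin.toFinset) _ (by
      intro w hw
      simp only [Function.mem_support] at hw
      simp only [Set.Finite.coe_toFinset, Set.mem_ofPred_eq]
      intro h
      apply hw
      rw [h, Real.log_one])]
    rw [← Real.log_prod (fun w _ => ((absQ w).pos hx').ne'), h2, Real.log_one]
  have h3 : ∀ w : PlaceQ, Real.log (absQ w (x : Qbar)) = k * Real.log (absQ w c) := by
    intro w
    rw [← hc, map_pow, Real.log_pow]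
  simp only [h3] at h1
  rw [← mul_finsum (fun w : PlaceQ => Real.log (absQ w c)) (k : ℝ)] at h1
  have hk' : (k : ℝ) ≠ 0 := by exact_mod_cast hk
  exact (mul_eq_zero.mp h1).resolve_left hk'

/-- The product formula, logarithmic form, on `ℚˣ`. -/
theorem finsum_log_absQ_ratCast (x : ℚ) (hx : x ≠ 0) :
    ∑ᶠ w : PlaceQ, Real.log (absQ w (x : Qbar)) = 0 :=
  finsum_log_absQ_eq_zero_of_pow (k := 1) one_ne_zero hx (pow_one _)

/-! ## Families of local constants -/

/-- A family of local constants is `1` at almost all places. -/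
theorem locConst_finite_ne_one (L : LocConst Qbar) : {w : PlaceQ | L.C (absQ w) ≠ 1}.Finite := by
  refine ((finite_exists_one_lt_absQ L.T).union (Set.finite_singleton none)).subset ?_
  intro w hw
  simp only [Set.mem_ofPred_eq] at hw
  cases w with
  | none => exact Or.inr rfl
  | some p =>
    left
    simp only [Set.mem_ofPred_eq]
    by_contra hcon
    push Not at hcon
    exact hw (L.eq_one _ (absQ_some_nonarch p) hcon)

/-- The total constant of a family of local constants. -/
def locTotal (L : LocConst Qbar) : ℝ := ∑ᶠ w : PlaceQ, Real.log (L.C (absQ w))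

theorem locTotal_nonneg (L : LocConst Qbar) : 0 ≤ locTotal L :=
  finsum_nonneg fun _ => Real.log_nonneg (L.one_le _)

theorem finite_support_log_locConst (L : LocConst Qbar) :
    (Function.support fun w : PlaceQ => Real.log (L.C (absQ w))).Finite := by
  refine (locConst_finite_ne_one L).subset ?_
  intro w hw
  simp only [Function.mem_support] at hw
  simp only [Set.mem_ofPred_eq]
  intro h
  apply hw
  rw [h, Real.log_one]

end Fermat.Agent.S17.H35
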