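import Fermat.Agent.S17.Height.H35_RatMod
import Mathlib.Data.Finsupp.Interval

/-!
# S17 part H (helper35): the geometric carrier of the matrix system

For the modular function field `FN N` over `Kbar = ℚ̄` with the cusp `∞`:

* `Dv N`: the `G_ℚ`-stable effective divisors `D` with `D(∞) = 0` (an additive monoid);
* `Rv N`: the nonzero `G_ℚ`-fixed functions which are regular outside `∞`;
* `Pt N`: the places `≠ ∞`;
* `dvDeg`, `dvCl` (the class of `D - deg D ∞` in `J₀(N)(ℚ)`), `rvOrd`, `rvZ`, `DvRed`, `DvDisj`,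
  `dvSupp`, `ptGal`;
* `dvDeg_rvZ`, `dvCl_rvZ`, `dv_fin_le` and the elementary facts on supports.
-/

set_option autoImplicit false

noncomputable section

open ModularCurve AlgebraicCurve

namespace Fermat.Agent.S17.H35

open Fermat.Agent.RED.H42 Fermat.Agent.S17 Fermat.Agent.RED.KD.H22 Fermat.Agent.S24

local notation "L" => riemannRochSpace

variable (N : ℕ) [NeZero N]

/-! ## Divisors -/

/-- The `G_ℚ`-stable effective divisors avoiding `∞`. -/
def DvSub : AddSubmonoid (Divisor Kbar (FN N)) where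
  carrier := {D | 0 ≤ D ∧ D (cuspInf N) = 0 ∧ ∀ σ : GQ, galN N σ • D = D}
  zero_mem' := ⟨le_rfl, rfl, fun _ => smul_zero _⟩
  add_mem' := by
    rintro D D' ⟨h1, h2, h3⟩ ⟨h1', h2', h3'⟩
    refine ⟨add_nonneg h1 h1', ?_, fun σ => ?_⟩
    · rw [Finsupp.add_apply, h2, h2', add_zero]
    · rw [smul_add, h3 σ, h3' σ]

/-- The `G_ℚ`-stable effective divisors avoiding `∞`. -/
abbrev Dv : Type := ↥(DvSub N)

variable {N}

theorem Dv.nonneg (D : Dv N) : (0 : Divisor Kbar (FN N)) ≤ D.1 := D.2.1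

theorem Dv.apply_nonneg (D : Dv N) (v : Place Kbar (FN N)) : 0 ≤ D.1 v := by
  have := D.2.1
  rw [Finsupp.le_def] at this
  exact this v

theorem Dv.apply_cusp (D : Dv N) : D.1 (cuspInf N) = 0 := D.2.2.1

theorem Dv.stable (D : Dv N) (σ : GQ) : galN N σ • D.1 = D.1 := D.2.2.2 σ

theorem Dv.apply_smul (D : Dv N) (σ : GQ) (v : Place Kbar (FN N)) :
    D.1 (galN N σ • v) = D.1 v := by
  have h := SemilinearAut.divisor_smul_apply_smul (galN N σ) D.1 v
  rwa [D.stable σ] at h

theorem Dv.degree_nonneg (D : Dv N) : 0 ≤ Divisor.degree D.1 :=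
  Fermat.Agent.RED.H42.degree_nonneg D.nonneg

@[simp] theorem Dv.coe_add (D D' : Dv N) : (D + D').1 = D.1 + D'.1 := rfl

@[simp] theorem Dv.coe_zero : (0 : Dv N).1 = 0 := rfl

variable (N)

/-- The degree. -/
def dvDeg : Dv N →+ ℕ where
  toFun D := (Divisor.degree D.1).toNat
  map_zero' := by simp
  map_add' D D' := by
    rw [Dv.coe_add, map_add, Int.toNat_add D.degree_nonneg D'.degree_nonneg]

variable {N}

theorem dvDeg_cast (D : Dv N) : ((dvDeg N D : ℕ) : ℤ) = Divisor.degree D.1 :=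
  Int.toNat_of_nonneg D.degree_nonneg

/-- The divisor `D - deg D ∞` of degree zero. -/
def dvZero (D : Dv N) : Divisor.degZero (K := Kbar) (F := FN N) :=
  ⟨D.1 - Finsupp.single (cuspInf N) (Divisor.degree D.1), by
    rw [Divisor.mem_degZero, map_sub, Divisor.degree_single, (hypMod N).deg_one]
    simp⟩

theorem dvZero_add (D D' : Dv N) : dvZero (D + D') = dvZero D + dvZero D' := by
  apply Subtype.ext
  show (D + D').1 - Finsupp.single (cuspInf N) (Divisor.degree (D + D').1)
    = (D.1 - Finsupp.single (cuspInf N) (Divisor.degree D.1))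
      + (D'.1 - Finsupp.single (cuspInf N) (Divisor.degree D'.1))
  rw [Dv.coe_add, map_add, Finsupp.single_add]
  abel

theorem smul_dvZero (D : Dv N) (σ : GQ) :
    SemilinearAut.degZeroSMulHom (galN N σ) (dvZero D) = dvZero D := by
  apply Subtype.ext
  rw [SemilinearAut.coe_degZeroSMulHom]
  show galN N σ • (D.1 - Finsupp.single (cuspInf N) (Divisor.degree D.1)) = _
  rw [smul_sub, D.stable σ, SemilinearAut.smul_single, smul_cuspInf]
  rfl

variable (N)

/-- The class of `D - deg D ∞` in `J₀(N)(ℚ)`. -/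
def dvCl : Dv N →+ JQ N where
  toFun D := ⟨(Pic0.mk (dvZero D) : JZero N), by
    intro σ
    rw [galois_smul_pic0_def, SemilinearAut.pic0_smul_mk, smul_dvZero]⟩
  map_zero' := by
    apply Subtype.ext
    show (Pic0.mk (dvZero (0 : Dv N)) : JZero N) = 0
    have h : dvZero (0 : Dv N) = 0 := by
      apply Subtype.ext
      show (0 : Dv N).1 - Finsupp.single (cuspInf N) (Divisor.degree (0 : Dv N).1) = 0
      simp
    rw [h]
    rfl
  map_add' D D' := by
    apply Subtype.ext
    show (Pic0.mk (dvZero (D + D')) : JZero N) = Pic0.mk (dvZero D) + Pic0.mk (dvZero D')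
    rw [dvZero_add]
    rfl

variable {N}

theorem dvCl_coe (D : Dv N) : ((dvCl N D : JQ N) : JZero N) = Pic0.mk (dvZero D) := rfl

/-- Equality of classes means that the difference is principal. -/
theorem dvCl_eq_iff (A A' : Dv N) :
    dvCl N A = dvCl N A' ↔
      Divisor.IsPrincipal ((dvZero A' : Divisor Kbar (FN N)) - (dvZero A : Divisor Kbar (FN N))) := by
  rw [Subtype.ext_iff, dvCl_coe, dvCl_coe]
  constructor
  · intro h
    have h2 : -(dvZero A) + dvZero A'
        ∈ (Divisor.principal (K := Kbar) (F := FN N)).addSubgroupOf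
          (Divisor.degZero (K := Kbar) (F := FN N)) := QuotientAddGroup.eq.mp h
    rw [AddSubgroup.mem_addSubgroupOf] at h2
    have h3 : ((-(dvZero A) + dvZero A' : Divisor.degZero (K := Kbar) (F := FN N)) :
        Divisor Kbar (FN N)) = (dvZero A' : Divisor Kbar (FN N)) - (dvZero A : Divisor Kbar (FN N)) := by
      simp only [AddSubgroup.coe_add, AddSubgroup.coe_neg]
      abel
    rw [h3] at h2
    exact h2
  · intro h
    apply QuotientAddGroup.eq.mpr
    rw [AddSubgroup.mem_addSubgroupOf]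
    have h3 : ((-(dvZero A) + dvZero A' : Divisor.degZero (K := Kbar) (F := FN N)) :
        Divisor Kbar (FN N)) = (dvZero A' : Divisor Kbar (FN N)) - (dvZero A : Divisor Kbar (FN N)) := by
      simp only [AddSubgroup.coe_add, AddSubgroup.coe_neg]
      abel
    rw [h3]
    exact h

/-- Reduced divisors. -/
def DvRed (D : Dv N) : Prop := ∀ v : Place Kbar (FN N), D.1 v ≤ 1

/-- Divisors with disjoint supports. -/
def DvDisj (D D' : Dv N) : Prop := ∀ v : Place Kbar (FN N), D.1 v = 0 ∨ D'.1 v = 0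

theorem DvDisj.symm {D D' : Dv N} (h : DvDisj D D') : DvDisj D' D := fun v => (h v).symm

theorem dvDisj_add {A A' B : Dv N} (h : DvDisj A B) (h' : DvDisj A' B) : DvDisj (A + A') B := by
  intro v
  rcases h v with h1 | h1
  · rcases h' v with h2 | h2
    · left
      rw [Dv.coe_add, Finsupp.add_apply, h1, h2, add_zero]
    · exact Or.inr h2
  · exact Or.inr h1

theorem dvRed_add {A A' : Dv N} (hA : DvRed A) (hA' : DvRed A') (h : DvDisj A A') :
    DvRed (A + A') := by
  intro v
  rw [Dv.coe_add, Finsupp.add_apply]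
  rcases h v with h1 | h1
  · rw [h1, zero_add]
    exact hA' v
  · rw [h1, add_zero]
    exact hA v

/-- **fin_le**: finitely many effective divisors below a given one. -/
theorem dv_fin_le (E : Dv N) : {Y : Dv N | ∃ Y', E = Y + Y'}.Finite := by
  classical
  have hfin : (Set.Icc (0 : Divisor Kbar (FN N)) E.1).Finite := Set.finite_Icc _ _
  refine Set.Finite.of_finite_image (f := fun Y : Dv N => Y.1) (hfin.subset ?_)
    (fun Y _ Y' _ h => Subtype.ext h)
  rintro _ ⟨Y, ⟨Y', hY⟩, rfl⟩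
  refine ⟨Y.nonneg, ?_⟩
  show Y.1 ≤ E.1
  rw [hY, Dv.coe_add]
  exact le_add_of_nonneg_right Y'.nonneg

/-! ## Points -/

variable (N)

/-- The points: the places different from `∞`. -/
abbrev Pt : Type := {v : Place Kbar (FN N) // v ≠ cuspInf N}

instance : DecidableEq (Pt N) := Classical.decEq _

variable {N}

/-- The Galois action on the points. -/
def ptGal (σ : GQ) (P : Pt N) : Pt N :=
  ⟨galN N σ • P.1, fun h => P.2 (by
    have h1 : galN N σ • P.1 = galN N σ • cuspInf N := by rw [h, smul_cuspInf]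
    exact MulAction.injective _ h1)⟩

@[simp] theorem ptGal_coe (σ : GQ) (P : Pt N) : (ptGal σ P).1 = galN N σ • P.1 := rfl

open Classical in
/-- The support of a divisor, as a finite set of points. -/
def dvSupp (D : Dv N) : Finset (Pt N) := D.1.support.subtype (fun v => v ≠ cuspInf N)

theorem mem_dvSupp {D : Dv N} {P : Pt N} : P ∈ dvSupp D ↔ D.1 P.1 ≠ 0 := by
  classical
  unfold dvSupp
  rw [Finset.mem_subtype, Finsupp.mem_support_iff]

theorem ptGal_mem_dvSupp (σ : GQ) (D : Dv N) {P : Pt N} (h : P ∈ dvSupp D) :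
    ptGal σ P ∈ dvSupp D := by
  rw [mem_dvSupp] at h ⊢
  rw [ptGal_coe, D.apply_smul]
  exact h

theorem dvSupp_add {A A' : Dv N} : dvSupp (A + A') = dvSupp A ∪ dvSupp A' := by
  classical
  ext P
  rw [Finset.mem_union, mem_dvSupp, mem_dvSupp, mem_dvSupp, Dv.coe_add, Finsupp.add_apply]
  have h1 := A.apply_nonneg P.1
  have h2 := A'.apply_nonneg P.1
  omega

theorem dvSupp_disjoint {A B : Dv N} (h : DvDisj A B) : Disjoint (dvSupp A) (dvSupp B) := by
  classical
  rw [Finset.disjoint_left]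
  intro P hA hB
  rw [mem_dvSupp] at hA hB
  rcases h P.1 with h1 | h1
  · exact hA h1
  · exact hB h1

/-- The degree of a reduced divisor is the cardinality of its support. -/
theorem card_dvSupp {D : Dv N} (hD : DvRed D) : (dvSupp D).card = dvDeg N D := by
  classical
  have hval : ∀ v ∈ D.1.support, D.1 v = 1 := by
    intro v hv
    rw [Finsupp.mem_support_iff] at hv
    have h1 := hD v
    have h2 := D.apply_nonneg v
    omega
  have hdeg : Divisor.degree D.1 = D.1.support.card := by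
    unfold Divisor.degree
    rw [Finsupp.liftAddHom_apply, Finsupp.sum]
    rw [Finset.sum_congr rfl (fun v hv => by
      show (AddMonoidHom.mulRight ((v.deg : ℕ) : ℤ)) (D.1 v) = 1
      rw [AddMonoidHom.mulRight_apply, hval v hv, (hypMod N).deg_one v]
      simp)]
    simp
  have hcard : (dvSupp D).card = D.1.support.card := by
    unfold dvSupp
    rw [Finset.card_subtype]
    congr 1
    apply Finset.filter_true_of_mem
    intro v hv hvc
    rw [Finsupp.mem_support_iff, hvc] at hv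
    exact hv D.apply_cusp
  have h3 := dvDeg_cast D
  rw [hdeg] at h3
  rw [hcard]
  exact_mod_cast h3.symm

/-! ## Functions -/

variable (N)

/-- The nonzero `G_ℚ`-fixed functions which are regular outside `∞`. -/
abbrev Rv : Type :=
  {u : FN N // u ≠ 0 ∧ u ∈ fixedFun (galN N) ∧
    ∀ v : Place Kbar (FN N), v ≠ cuspInf N → 0 ≤ v.ord u}

variable {N}

theorem Rv.ne_zero (u : Rv N) : u.1 ≠ 0 := u.2.1

theorem Rv.fixed (u : Rv N) : u.1 ∈ fixedFun (galN N) := u.2.2.1

theorem Rv.regular (u : Rv N) {v : Place Kbar (FN N)} (hv : v ≠ cuspInf N) : 0 ≤ v.ord u.1 :=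
  u.2.2.2 v hv

/-- The divisor of `u`. -/
def Rv.div (u : Rv N) : Divisor Kbar (FN N) := ((hypMod N).principal u.1 u.ne_zero).choose

theorem Rv.div_apply (u : Rv N) (v : Place Kbar (FN N)) : u.div v = v.ord u.1 :=
  ((hypMod N).principal u.1 u.ne_zero).choose_spec.1 v

theorem Rv.degree_div (u : Rv N) : Divisor.degree u.div = 0 :=
  ((hypMod N).principal u.1 u.ne_zero).choose_spec.2

/-- The divisor of zeros of `u`, as a divisor. -/
def Rv.zdiv (u : Rv N) : Divisor Kbar (FN N) :=
  u.div - Finsupp.single (cuspInf N) ((cuspInf N).ord u.1)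

theorem Rv.zdiv_apply_cusp (u : Rv N) : u.zdiv (cuspInf N) = 0 := by
  unfold Rv.zdiv
  rw [Finsupp.sub_apply, Finsupp.single_eq_same, u.div_apply, sub_self]

theorem Rv.zdiv_apply_of_ne (u : Rv N) {v : Place Kbar (FN N)} (hv : v ≠ cuspInf N) :
    u.zdiv v = v.ord u.1 := by
  unfold Rv.zdiv
  rw [Finsupp.sub_apply, Finsupp.single_eq_of_ne hv, u.div_apply, sub_zero]

theorem Rv.zdiv_nonneg (u : Rv N) : 0 ≤ u.zdiv := by
  rw [Finsupp.le_def]
  intro v
  by_cases hv : v = cuspInf N
  · rw [hv, u.zdiv_apply_cusp]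
    rfl
  · rw [u.zdiv_apply_of_ne hv]
    exact u.regular hv

theorem Rv.degree_zdiv (u : Rv N) : Divisor.degree u.zdiv = -(cuspInf N).ord u.1 := by
  unfold Rv.zdiv
  rw [map_sub, u.degree_div, Divisor.degree_single, (hypMod N).deg_one]
  simp

theorem Rv.ord_cusp_nonpos (u : Rv N) : (cuspInf N).ord u.1 ≤ 0 := by
  have h1 := Fermat.Agent.RED.H42.degree_nonneg u.zdiv_nonneg
  rw [u.degree_zdiv] at h1
  omega

theorem Rv.smul_zdiv (u : Rv N) (σ : GQ) : galN N σ • u.zdiv = u.zdiv := by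
  ext v
  rw [SemilinearAut.divisor_smul_apply]
  by_cases hv : v = cuspInf N
  · have h1 : (galN N σ)⁻¹ • v = cuspInf N := by
      rw [hv, inv_smul_eq_iff, smul_cuspInf]
    rw [h1, hv]
  · have h1 : (galN N σ)⁻¹ • v ≠ cuspInf N := by
      intro h
      rw [inv_smul_eq_iff, smul_cuspInf] at h
      exact hv h
    rw [u.zdiv_apply_of_ne h1, u.zdiv_apply_of_ne hv]
    have h2 := ord_smul_place_of_fixed u.fixed σ ((galN N σ)⁻¹ • v)
    rw [smul_inv_smul] at h2
    exact h2.symm

/-- The pole order at `∞`. -/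
def rvOrd (u : Rv N) : ℕ := (-(cuspInf N).ord u.1).toNat

theorem rvOrd_cast (u : Rv N) : ((rvOrd u : ℕ) : ℤ) = -(cuspInf N).ord u.1 :=
  Int.toNat_of_nonneg (by have := u.ord_cusp_nonpos; omega)

/-- The divisor of zeros. -/
def rvZ (u : Rv N) : Dv N := ⟨u.zdiv, u.zdiv_nonneg, u.zdiv_apply_cusp, u.smul_zdiv⟩

@[simp] theorem rvZ_coe (u : Rv N) : (rvZ u).1 = u.zdiv := rfl

/-- **deg_Z**. -/
theorem dvDeg_rvZ (u : Rv N) : dvDeg N (rvZ u) = rvOrd u := by
  have h1 := dvDeg_cast (rvZ u)
  rw [rvZ_coe, u.degree_zdiv, ← rvOrd_cast] at h1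
  exact_mod_cast h1

/-- **cl_Z**. -/
theorem dvCl_rvZ (u : Rv N) : dvCl N (rvZ u) = 0 := by
  apply Subtype.ext
  rw [dvCl_coe]
  show (Pic0.mk (dvZero (rvZ u)) : JZero N) = 0
  apply (QuotientAddGroup.eq_zero_iff _).mpr
  rw [AddSubgroup.mem_addSubgroupOf]
  refine ⟨u.1, u.ne_zero, fun v => ?_⟩
  show ((rvZ u).1 - Finsupp.single (cuspInf N) (Divisor.degree (rvZ u).1)) v = _
  rw [rvZ_coe, u.degree_zdiv]
  unfold Rv.zdiv
  rw [Finsupp.sub_apply, Finsupp.sub_apply, u.div_apply, Finsupp.single_neg, Finsupp.neg_apply]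
  ring

/-- A function of `Rv` lies in `L(k ∞)` for `k` at least its pole order. -/
theorem Rv.mem_L (u : Rv N) {k : ℕ} (hk : rvOrd u ≤ k) :
    u.1 ∈ L ((ratCtxMod N).kP (k : ℤ)) := by
  apply mem_L_of_neg_le_ord
  intro v
  by_cases hv : v = cuspInf N
  · rw [hv]
    have h1 : (ratCtxMod N).kP (k : ℤ) (cuspInf N) = k := (ratCtxMod N).kP_apply_self _
    rw [h1]
    have h2 := rvOrd_cast u
    omega
  · have h1 : (ratCtxMod N).kP (k : ℤ) v = 0 := (ratCtxMod N).kP_apply_of_ne _ hv
    rw [h1]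
    have := u.regular hv
    omega

end Fermat.Agent.S17.H35
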