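import Fermat.Agent.RED.H17_Place
import Fermat.Prelude.Def_AlgebraicCurve_BaseChangeGalois
import Fermat.Prelude.Def_AlgebraicCurve_Repartitions

/-!
# S17, part H: evaluation and leading coefficients at a place of degree one (EVAL)

* `evAt P f`: the value of `f` at the place `P` (junk value `0` if `f` has a pole at `P`);
  additive, multiplicative, `K`-linear on functions regular at `P`; `evAt P f = 0` iff `f`
  vanishes at `P`; Galois equivariance `evAt (g • P) (g • f) = baseAut g (evAt P f)`.
* `jetL P hP t ht D : L D →ₗ[K] K`, `f ↦ (f * t ^ (D P)) (P)`: the leading coefficient of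
  `f ∈ L(D)` at `P` with respect to the uniformiser `t` (for `D P = 0` this is the evaluation at
  `P` and does not depend on `t`).  It is multiplicative across levels (`jetL_mul`), its kernel is
  `L(D - P)` (`jetL_eq_zero_iff`), and it is Galois equivariant (`jetL_smul`).
-/

set_option autoImplicit false

noncomputable section

open AlgebraicCurve WithZero

namespace Fermat.Agent.S17.H71

open Fermat.Agent.RED.H17

variable {K F : Type*} [Field K] [Field F] [Algebra K F]

local notation "L" => riemannRochSpace

section Ev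

variable (P : Place K F)

open Classical in
/-- The value of `f` at `P` (`0` if there is none). -/
def evAt (f : F) : K :=
  if h : ∃ c : K, VanAt P (f - algebraMap K F c) then h.choose else 0

variable {P}

theorem evAt_of_vanAt {f : F} {c : K} (h : VanAt P (f - algebraMap K F c)) : evAt P f = c := by
  have hex : ∃ c : K, VanAt P (f - algebraMap K F c) := ⟨c, h⟩
  unfold evAt
  rw [dif_pos hex]
  exact value_unique P hex.choose_spec h

theorem evAt_spec (hP : P.deg = 1) {f : F} (hf : RegAt P f) :
    VanAt P (f - algebraMap K F (evAt P f)) := by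
  obtain ⟨c, hc⟩ := exists_value P hP hf
  rw [evAt_of_vanAt hc]
  exact hc

theorem evAt_algebraMap (c : K) : evAt P (algebraMap K F c) = c :=
  evAt_of_vanAt (by rw [sub_self]; exact vanAt_zero P)

@[simp]
theorem evAt_zero : evAt P (0 : F) = 0 := by
  have := evAt_algebraMap (P := P) (0 : K)
  rwa [map_zero] at this

@[simp]
theorem evAt_one : evAt P (1 : F) = 1 := by
  have := evAt_algebraMap (P := P) (1 : K)
  rwa [map_one] at this

theorem evAt_add (hP : P.deg = 1) {f g : F} (hf : RegAt P f) (hg : RegAt P g) :
    evAt P (f + g) = evAt P f + evAt P g := by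
  refine evAt_of_vanAt ?_
  have := (evAt_spec hP hf).add (evAt_spec hP hg)
  have e : f - algebraMap K F (evAt P f) + (g - algebraMap K F (evAt P g)) =
      f + g - algebraMap K F (evAt P f + evAt P g) := by
    rw [map_add]; ring
  rwa [e] at this

theorem evAt_mul (hP : P.deg = 1) {f g : F} (hf : RegAt P f) (hg : RegAt P g) :
    evAt P (f * g) = evAt P f * evAt P g := by
  refine evAt_of_vanAt ?_
  have h1 := (evAt_spec hP hf).mul_regAt hg
  have h2 := (regAt_algebraMap P (evAt P f)).mul_vanAt (evAt_spec hP hg)
  have := h1.add h2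
  have e : (f - algebraMap K F (evAt P f)) * g +
      algebraMap K F (evAt P f) * (g - algebraMap K F (evAt P g)) =
      f * g - algebraMap K F (evAt P f * evAt P g) := by
    rw [map_mul]; ring
  rwa [e] at this

theorem evAt_smul (hP : P.deg = 1) (c : K) {f : F} (hf : RegAt P f) :
    evAt P (c • f) = c * evAt P f := by
  rw [Algebra.smul_def, evAt_mul hP (regAt_algebraMap P c) hf, evAt_algebraMap]

theorem evAt_eq_zero_iff (hP : P.deg = 1) {f : F} (hf : RegAt P f) :
    evAt P f = 0 ↔ VanAt P f := by
  constructor
  · intro h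
    have := evAt_spec hP hf
    rwa [h, map_zero, sub_zero] at this
  · intro h
    exact evAt_of_vanAt (by rwa [map_zero, sub_zero])

theorem vanAt_smul (g : SemilinearAut K F) {h : F} (hh : VanAt P h) : VanAt (g • P) (g • h) := by
  rw [vanAt_iff_ord] at hh ⊢
  rcases hh with rfl | hh
  · left
    exact smul_zero g
  · right
    rwa [SemilinearAut.ord_smul]

theorem regAt_smul (g : SemilinearAut K F) {h : F} (hh : RegAt P h) : RegAt (g • P) (g • h) := by
  rw [regAt_iff_ord] at hh ⊢
  rcases hh with rfl | hh
  · left
    exact smul_zero g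
  · right
    rwa [SemilinearAut.ord_smul]

/-- Galois equivariance of the evaluation. -/
theorem evAt_smul_place (hP : P.deg = 1) (g : SemilinearAut K F) {f : F} (hf : RegAt P f) :
    evAt (g • P) (g • f) = SemilinearAut.baseAut g (evAt P f) := by
  refine evAt_of_vanAt ?_
  have := vanAt_smul g (evAt_spec hP hf)
  rwa [smul_sub, SemilinearAut.smul_algebraMap] at this

end Ev

section Jet

variable (P : Place K F) (hP : P.deg = 1) (t : F) (ht : P.ord t = 1)

theorem ne_zero_of_ord_eq_one {P : Place K F} {t : F} (ht : P.ord t = 1) : t ≠ 0 := by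
  rintro rfl
  simp at ht

include ht in
theorem regAt_mul_zpow {D : Divisor K F} {f : F} (hf : f ∈ L D) : RegAt P (f * t ^ (D P)) := by
  rw [regAt_iff_ord]
  by_cases hf0 : f = 0
  · left
    rw [hf0, zero_mul]
  · right
    have ht0 := ne_zero_of_ord_eq_one ht
    rw [P.ord_mul hf0 (zpow_ne_zero _ ht0), P.ord_zpow, ht, mul_one]
    rcases (mem_riemannRochSpace_iff.mp hf) P with h | h
    · exact absurd h hf0
    · omega

/-- The leading coefficient at `P` of the elements of `L(D)`, with respect to the uniformiser
`t`. For `D P = 0` this is the evaluation at `P`. -/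
def jetL (D : Divisor K F) : L D →ₗ[K] K where
  toFun f := evAt P ((f : F) * t ^ (D P))
  map_add' f f' := by
    show evAt P (((f : F) + (f' : F)) * t ^ (D P)) = _
    rw [add_mul]
    exact evAt_add hP (regAt_mul_zpow P t ht f.2) (regAt_mul_zpow P t ht f'.2)
  map_smul' c f := by
    show evAt P ((c • (f : F)) * t ^ (D P)) = c • evAt P ((f : F) * t ^ (D P))
    rw [smul_mul_assoc, evAt_smul hP c (regAt_mul_zpow P t ht f.2)]
    rfl

theorem jetL_apply (D : Divisor K F) (f : L D) :
    jetL P hP t ht D f = evAt P ((f : F) * t ^ (D P)) := rfl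

/-- For `D P = 0` the jet is the evaluation. -/
theorem jetL_eq_evAt {D : Divisor K F} (hD : D P = 0) (f : L D) :
    jetL P hP t ht D f = evAt P (f : F) := by
  rw [jetL_apply, hD, zpow_zero, mul_one]

/-- Multiplicativity across levels. -/
theorem jetL_mul (D₁ D₂ : Divisor K F) (f : L D₁) (k : L D₂)
    (hfk : (f : F) * (k : F) ∈ L (D₁ + D₂)) :
    jetL P hP t ht (D₁ + D₂) ⟨(f : F) * (k : F), hfk⟩ =
      jetL P hP t ht D₁ f * jetL P hP t ht D₂ k := by
  rw [jetL_apply, jetL_apply, jetL_apply,
    ← evAt_mul hP (regAt_mul_zpow P t ht f.2) (regAt_mul_zpow P t ht k.2)]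
  congr 1
  have ht0 := ne_zero_of_ord_eq_one ht
  show (f : F) * (k : F) * t ^ ((D₁ + D₂) P) = _
  rw [Finsupp.add_apply, zpow_add₀ ht0]
  ring

/-- The kernel of the jet is `L(D - P)`. -/
theorem jetL_eq_zero_iff (D : Divisor K F) (f : L D) :
    jetL P hP t ht D f = 0 ↔ (f : F) ∈ L (D - Finsupp.single P 1) := by
  have ht0 := ne_zero_of_ord_eq_one ht
  rw [jetL_apply, evAt_eq_zero_iff hP (regAt_mul_zpow P t ht f.2), vanAt_iff_ord,
    mem_riemannRochSpace_iff]
  by_cases hf0 : (f : F) = 0
  · simp [hf0]
  · have hmem := mem_riemannRochSpace_iff.mp f.2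
    constructor
    · intro h v
      right
      rcases h with h | h
      · exact absurd ((mul_eq_zero.1 h).resolve_right (zpow_ne_zero _ ht0)) hf0
      · rw [P.ord_mul hf0 (zpow_ne_zero _ ht0), P.ord_zpow, ht, mul_one] at h
        by_cases hv : v = P
        · subst hv
          rw [Finsupp.sub_apply, Finsupp.single_eq_same]
          omega
        · rw [Finsupp.sub_apply, Finsupp.single_eq_of_ne hv, sub_zero]
          exact (hmem v).resolve_left hf0
    · intro h
      right
      have := (h P).resolve_left hf0
      rw [Finsupp.sub_apply, Finsupp.single_eq_same] at this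
      rw [P.ord_mul hf0 (zpow_ne_zero _ ht0), P.ord_zpow, ht, mul_one]
      omega

theorem smul_mem_L (g : SemilinearAut K F) {D : Divisor K F} {f : F} (hf : f ∈ L D) :
    g • f ∈ L (g • D) := by
  rw [mem_riemannRochSpace_iff] at hf ⊢
  intro v
  rcases hf (g⁻¹ • v) with h | h
  · left
    rw [h]
    exact smul_zero g
  · right
    have h1 : (g • (g⁻¹ • v)).ord (g • f) = (g⁻¹ • v).ord f := SemilinearAut.ord_smul g _ f
    rw [smul_inv_smul] at h1
    rw [h1, SemilinearAut.divisor_smul_apply]
    exact h

/-- Galois equivariance of the jets. -/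
theorem jetL_smul (g : SemilinearAut K F) (D : Divisor K F) (f : L D)
    (hP' : (g • P).deg = 1) (ht' : (g • P).ord (g • t) = 1) :
    jetL (g • P) hP' (g • t) ht' (g • D) ⟨g • (f : F), smul_mem_L g f.2⟩ =
      SemilinearAut.baseAut g (jetL P hP t ht D f) := by
  rw [jetL_apply, jetL_apply, ← evAt_smul_place hP g (regAt_mul_zpow P t ht f.2)]
  congr 1
  show g • (f : F) * (g • t) ^ ((g • D) (g • P)) = g • ((f : F) * t ^ (D P))
  rw [SemilinearAut.divisor_smul_apply_smul, smul_mul', SemilinearAut.smul_def,
    SemilinearAut.smul_def, SemilinearAut.smul_def, map_zpow₀]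

end Jet

end Fermat.Agent.S17.H71
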