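import Fermat.Agent.S17.Height.H35_GeoCarrier
import Fermat.Agent.S17.Height.H35_PencilMod
import Fermat.Agent.S17.Height.H71_Coord
import Fermat.Agent.S17.Height.H71_Eval

/-!
# S17 part H (helper35): the data of the matrix system for the modular function field

Definitions only (with their defining properties):

* `genusN N`, `cRie N`, `geoN N : Geo Kbar (FN N) (genusN N) (cRie N)`;
* `mInf N m = m ∞`, `nLev N m = dim L(m∞)`, `eLev N m : Basis (Fin (nLev N m)) Kbar (L(m∞))`
  (rational, adapted to the pole order: `eLev N m i = eFun N i`);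
* `Wlev N m D = coordSub (eLev N m) (L(m∞ - D))`;
* `ratCoord N m f`: the rational coordinates of a fixed function `f ∈ L(m∞)`;
* `vecR u`, `mulMat m u`, `incMat m`, `incRMat m`, `leadVec m`, `vec0 m₀ f`, `evVec m₀ P`.
-/

set_option autoImplicit false

noncomputable section

open ModularCurve AlgebraicCurve

namespace Fermat.Agent.S17.H35

open Fermat.Agent.RED.H42 Fermat.Agent.S17 Fermat.Agent.RED.KD.H22 Fermat.Agent.S24
open Fermat.Agent.S17.H71

local notation "L" => riemannRochSpace

variable (N : ℕ) [NeZero N]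

/-- The genus of `X₀(N)` (as given by the Riemann bound). -/
def genusN : ℕ := (geo_modular N).choose

/-- The constant of the Riemann bound. -/
def cRie : ℤ := (geo_modular N).choose_spec.choose

theorem geoN : Geo Kbar (FN N) (genusN N) (cRie N) := (geo_modular N).choose_spec.choose_spec

/-- The divisor `m ∞`. -/
abbrev mInf (m : ℕ) : Divisor Kbar (FN N) := (ratCtxMod N).kP (m : ℤ)

theorem mInf_eq (m : ℕ) : mInf N m = Finsupp.single (cuspInf N) (m : ℤ) := rfl

/-- The dimension of `L(m∞)`. -/
def nLev (m : ℕ) : ℕ := (ratCtxMod N).ratDim m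

/-- The sequence of rational functions with poles only at `∞`, ordered by pole order. -/
def eFun (i : ℕ) : FN N := (ratCtxMod N).ratSeq i

/-- The rational basis of `L(m∞)`. -/
def eLev (m : ℕ) : Module.Basis (Fin (nLev N m)) Kbar (L (mInf N m)) := (ratCtxMod N).ratBasis m

@[simp] theorem eLev_apply (m : ℕ) (i : Fin (nLev N m)) : (eLev N m i : FN N) = eFun N i :=
  (ratCtxMod N).ratBasis_apply m i

theorem eFun_fixed (i : ℕ) : eFun N i ∈ fixedFun (galN N) := (ratCtxMod N).ratSeq_fixed i

theorem eLev_fixed (m : ℕ) (i : Fin (nLev N m)) : (eLev N m i : FN N) ∈ fixedFun (galN N) :=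
  (ratCtxMod N).ratBasis_fixed m i

theorem finrank_L_mInf (m : ℕ) : Module.finrank Kbar (L (mInf N m)) = nLev N m :=
  (ratCtxMod N).finrank_L_kP m

/-- The coordinates of `L(m∞ - D)`. -/
def Wlev (m : ℕ) (D : Dv N) : Submodule Kbar (Fin (nLev N m) → Kbar) :=
  coordSub (eLev N m) (L (mInf N m - D.1))

open Classical in
/-- The rational coordinates of a fixed function of `L(m∞)` (and `0` for the other functions). -/
def ratCoord (m : ℕ) (f : FN N) : Fin (nLev N m) → ℚ := fun i =>
  if h : f ∈ L (mInf N m) ∧ f ∈ fixedFun (galN N) then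
    (repr_rational N (eLev N m) (eLev_fixed N m) ⟨f, h.1⟩ h.2 i).choose
  else 0

theorem ratCoord_spec (m : ℕ) {f : FN N} (hf : f ∈ L (mInf N m)) (hfix : f ∈ fixedFun (galN N))
    (i : Fin (nLev N m)) :
    algebraMap ℚ Kbar (ratCoord N m f i) = (eLev N m).repr ⟨f, hf⟩ i := by
  unfold ratCoord
  rw [dif_pos ⟨hf, hfix⟩]
  exact (repr_rational N (eLev N m) (eLev_fixed N m) ⟨f, hf⟩ hfix i).choose_spec

/-- A fixed function of `L(m∞)` is the combination of the basis with its rational coordinates. -/
theorem sum_ratCoord (m : ℕ) {f : FN N} (hf : f ∈ L (mInf N m)) (hfix : f ∈ fixedFun (galN N)) :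
    ∑ i, algebraMap ℚ Kbar (ratCoord N m f i) • eFun N i = f := by
  have h1 := (eLev N m).sum_repr ⟨f, hf⟩
  have h2 := congrArg (Submodule.subtype _) h1
  rw [map_sum] at h2
  simp only [map_smul, Submodule.subtype_apply, eLev_apply] at h2
  refine Eq.trans (Finset.sum_congr rfl fun i _ => ?_) h2
  rw [ratCoord_spec N m hf hfix]

variable {N}

/-- The coordinates of a rational function at the level of its pole order. -/
def vecR (u : Rv N) : Fin (nLev N (rvOrd u)) → ℚ := ratCoord N (rvOrd u) u.1

/-- The matrix of the multiplication by `u` from the level `m` to the level `m + ord u`. -/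
def mulMat (m : ℕ) (u : Rv N) : Matrix (Fin (nLev N m)) (Fin (nLev N (m + rvOrd u))) ℚ :=
  fun i j => ratCoord N (m + rvOrd u) (eFun N i * u.1) j

/-- The coordinates at the level `m₀`. -/
def vec0 (m₀ : ℕ) (f : Rv N) : Fin (nLev N m₀) → ℚ := ratCoord N m₀ f.1

/-- The evaluation vector of a point at the level `m₀`. -/
def evVec (m₀ : ℕ) (P : Pt N) : Fin (nLev N m₀) → Kbar := fun i => evAt P.1 (eFun N i)

variable (N)

/-- The matrix of the inclusion of the level `m` into the level `m + 1`. -/
def incMat (m : ℕ) : Matrix (Fin (nLev N m)) (Fin (nLev N (m + 1))) ℚ :=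
  fun i j => if (i : ℕ) = (j : ℕ) then 1 else 0

/-- The left inverse of the inclusion. -/
def incRMat (m : ℕ) : Matrix (Fin (nLev N (m + 1))) (Fin (nLev N m)) ℚ :=
  fun j i => if (i : ℕ) = (j : ℕ) then 1 else 0

/-- The leading coefficient at `∞` (the coefficient of `q^(-m)`), as a linear form in the
coordinates of the level `m`. -/
def leadVec (m : ℕ) : Fin (nLev N m) → ℚ :=
  fun i => if (ratCtxMod N).poleOrd i = m then 1 else 0

end Fermat.Agent.S17.H35
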