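import Fermat.Agent.S17.Height.H35_MoveD
import Mathlib.Data.Nat.Nth

/-!
# S17 part H (helper35): H90, descent of `L(D)` for stable `D`, rational adapted bases

Abstract setting as in `H35_MoveD`: `F / K` a function field (`Hyp K F`), a group `G` acting
semilinearly through `ρ`, a leading coefficient `lcd : LeadCoeff ρ`.

* `exists_fixed_generator` (H90): a `G`-stable principal divisor has a `G`-fixed generator with
  leading coefficient `1`.
* `OpenSys ρ`: every function is fixed by a closed subgroup of finite index.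
* `mem_span_fixed_L`: for a `G`-stable divisor `D`, the space `L(D)` is spanned by its `G`-fixed
  elements.
* `repr_smul_of_fixed`: coordinates with respect to a basis of `G`-fixed functions commute with `G`.
* `ratSeq`, `ratDim`: for a `G`-fixed place `P` (of degree one), a sequence `e₀, e₁, …` of `G`-fixed
  functions, with poles only at `P`, of strictly increasing pole orders and leading coefficient `1`
  such that for every `m` the first `ratDim m` of them form a basis of `L(m P)`.
-/

set_option autoImplicit false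

noncomputable section

open AlgebraicCurve

namespace Fermat.Agent.S17.H35

open Fermat.Agent.RED.H42 Fermat.Agent.S17

variable {K F : Type*} [Field K] [Field F] [Algebra K F]
variable {G : Type*} [Group G] {ρ : G →* SemilinearAut K F}

local notation "L" => riemannRochSpace

/-- The `G`-fixed functions. -/
def fixedFun (ρ : G →* SemilinearAut K F) : Set F := {f : F | ∀ σ : G, ρ σ • f = f}

theorem mem_fixedFun {f : F} : f ∈ fixedFun ρ ↔ ∀ σ : G, ρ σ • f = f := Iff.rfl

theorem zero_mem_fixedFun : (0 : F) ∈ fixedFun ρ := fun _ => smul_zero _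

theorem one_mem_fixedFun : (1 : F) ∈ fixedFun ρ := fun _ => smul_one _

theorem add_mem_fixedFun {f g : F} (hf : f ∈ fixedFun ρ) (hg : g ∈ fixedFun ρ) :
    f + g ∈ fixedFun ρ := fun σ => by rw [smul_add, hf σ, hg σ]

theorem mul_mem_fixedFun {f g : F} (hf : f ∈ fixedFun ρ) (hg : g ∈ fixedFun ρ) :
    f * g ∈ fixedFun ρ := fun σ => by rw [smul_mul', hf σ, hg σ]

theorem inv_mem_fixedFun {f : F} (hf : f ∈ fixedFun ρ) : f⁻¹ ∈ fixedFun ρ := fun σ => by
  rw [smul_inv'', hf σ]

theorem algebraMap_mem_fixedFun {c : K} (hc : ∀ σ : G, SemilinearAut.baseAut (ρ σ) c = c) :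
    algebraMap K F c ∈ fixedFun ρ := fun σ => by
  rw [SemilinearAut.smul_algebraMap, hc σ]

/-- The leading coefficient of a fixed function is fixed. -/
theorem lc_fixed (lcd : LeadCoeff ρ) {f : F} (hf : f ∈ fixedFun ρ) (σ : G) :
    SemilinearAut.baseAut (ρ σ) (lcd.lc f) = lcd.lc f := by
  rw [← lcd.lc_smul, hf σ]

/-- Normalisation of a fixed function. -/
theorem normalise_mem_fixedFun (lcd : LeadCoeff ρ) {f : F} (hf : f ∈ fixedFun ρ) :
    f * algebraMap K F (lcd.lc f)⁻¹ ∈ fixedFun ρ := by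
  refine mul_mem_fixedFun hf (algebraMap_mem_fixedFun fun σ => ?_)
  rw [map_inv₀, lc_fixed lcd hf]

theorem lc_normalise (lcd : LeadCoeff ρ) {f : F} (hf : f ≠ 0) :
    lcd.lc (f * algebraMap K F (lcd.lc f)⁻¹) = 1 := by
  rw [lcd.lc_mul, lcd.lc_algebraMap]
  exact mul_inv_cancel₀ (lcd.lc_ne_zero _ hf)

theorem normalise_ne_zero (lcd : LeadCoeff ρ) {f : F} (hf : f ≠ 0) :
    f * algebraMap K F (lcd.lc f)⁻¹ ≠ 0 := by
  refine mul_ne_zero hf ?_
  rw [Ne, map_eq_zero_iff _ (algebraMap K F).injective]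
  exact inv_ne_zero (lcd.lc_ne_zero _ hf)

theorem ord_normalise (lcd : LeadCoeff ρ) {f : F} (hf : f ≠ 0) (v : Place K F) :
    v.ord (f * algebraMap K F (lcd.lc f)⁻¹) = v.ord f := by
  have hne : algebraMap K F (lcd.lc f)⁻¹ ≠ 0 := by
    rw [Ne, map_eq_zero_iff _ (algebraMap K F).injective]
    exact inv_ne_zero (lcd.lc_ne_zero _ hf)
  rw [v.ord_mul hf hne, ord_algebraMap_of_ne v (inv_ne_zero (lcd.lc_ne_zero _ hf)), add_zero]

/-- **H90**: a nonzero function with a `G`-stable divisor is, after normalisation of the leading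
coefficient, `G`-fixed. -/
theorem exists_fixed_generator (H : Hyp K F) (lcd : LeadCoeff ρ) {D : Divisor K F}
    (hD : ∀ σ : G, ρ σ • D = D) {w : F} (hw : w ≠ 0) (hord : ∀ v : Place K F, v.ord w = D v) :
    ∃ w' : F, w' ≠ 0 ∧ (∀ v : Place K F, v.ord w' = D v) ∧ lcd.lc w' = 1 ∧ w' ∈ fixedFun ρ := by
  refine ⟨w * algebraMap K F (lcd.lc w)⁻¹, normalise_ne_zero lcd hw,
    fun v => by rw [ord_normalise lcd hw, hord], lc_normalise lcd hw, fun σ => ?_⟩
  have h0 := normalise_ne_zero lcd hw
  have hσ : ρ σ • (w * algebraMap K F (lcd.lc w)⁻¹) ≠ 0 := by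
    rw [Ne, smul_eq_zero_iff_eq]
    exact h0
  apply eq_of_ord_eq_of_lc_eq H lcd hσ h0
  · intro v
    rw [ord_smul', ord_normalise lcd hw, ord_normalise lcd hw, hord, hord]
    conv_rhs => rw [← hD σ]
    exact (SemilinearAut.divisor_smul_apply _ _ _).symm
  · rw [lcd.lc_smul, lc_normalise lcd hw, map_one]

/-- The divisor of a fixed function is stable. -/
theorem ord_smul_place_of_fixed {f : F} (hf : f ∈ fixedFun ρ) (σ : G) (v : Place K F) :
    (ρ σ • v).ord f = v.ord f := by
  have h := SemilinearAut.ord_smul (ρ σ) v f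
  rwa [hf σ] at h

/-! ## Descent of `L(D)` -/

/-- Every function is fixed by a closed subgroup of finite index. -/
structure OpenSys (ρ : G →* SemilinearAut K F) : Prop where
  exists_fix : ∀ f : F, ∃ U : Subgroup G, U.FiniteIndex ∧
    (∀ σ τ : G, (∀ c : K, (∀ u ∈ U, SemilinearAut.baseAut (ρ u) c = c) →
      SemilinearAut.baseAut (ρ σ) c = SemilinearAut.baseAut (ρ τ) c) → σ⁻¹ * τ ∈ U) ∧
    ∀ σ ∈ U, ρ σ • f = f

theorem smul_mem_L_of_stable {D : Divisor K F} (hD : ∀ σ : G, ρ σ • D = D) (σ : G) {f : F}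
    (hf : f ∈ L D) : ρ σ • f ∈ L D := by
  by_cases hf0 : f = 0
  · rw [hf0, smul_zero]
    exact Submodule.zero_mem _
  apply mem_L_of_neg_le_ord
  intro v
  rw [ord_smul']
  have h1 := neg_le_ord_of_mem hf hf0 ((ρ σ)⁻¹ • v)
  have h3 : D v = D ((ρ σ)⁻¹ • v) := by
    conv_lhs => rw [← hD σ]
    exact SemilinearAut.divisor_smul_apply _ _ _
  omega

theorem smul_smul_semilinear (σ : G) (c : K) (f : F) :
    ρ σ • (c • f) = baseHom ρ σ c • (ρ σ • f) := by
  rw [Algebra.smul_def, Algebra.smul_def, smul_mul', SemilinearAut.smul_algebraMap, baseHom_apply]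

/-- **Descent**: for a `G`-stable divisor `D`, the space `L(D)` is spanned by its `G`-fixed
elements. -/
theorem mem_span_fixed_L (O : OpenSys ρ) {D : Divisor K F} (hD : ∀ σ : G, ρ σ • D = D) {f : F}
    (hf : f ∈ L D) : f ∈ Submodule.span K (fixedFun ρ ∩ (L D : Set F)) := by
  obtain ⟨U, hU, hsep, hfix⟩ := O.exists_fix f
  let r' : G → L D → L D := fun σ x => ⟨ρ σ • x.1, smul_mem_L_of_stable hD σ x.2⟩
  have h1 : (⟨f, hf⟩ : L D) ∈ Submodule.span K (invVectors r') := by
    refine mem_span_invariants (a := baseHom ρ) (r := r') ?_ ?_ ?_ U hsep ?_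
    · intro σ x y
      exact Subtype.ext (smul_add _ _ _)
    · intro σ τ x
      apply Subtype.ext
      show ρ (σ * τ) • x.1 = ρ σ • (ρ τ • x.1)
      rw [map_mul, mul_smul]
    · intro σ c x
      exact Subtype.ext (smul_smul_semilinear σ c x.1)
    · intro u hu
      exact Subtype.ext (hfix u hu)
  have h2 := Submodule.mem_map_of_mem (f := (L D).subtype) h1
  rw [Submodule.map_span] at h2
  refine Submodule.span_mono ?_ h2
  rintro _ ⟨x, hx, rfl⟩
  exact ⟨fun σ => congrArg Subtype.val (hx σ), x.2⟩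

/-- If a `G`-stable `L(D)` contains a function of exact order `-D(v)` at `v`, it contains a
`G`-fixed one. -/
theorem exists_fixed_exact (O : OpenSys ρ) {D : Divisor K F} (hD : ∀ σ : G, ρ σ • D = D)
    (v : Place K F) {f : F} (hf : f ∈ L D) (hf0 : f ≠ 0) (hord : v.ord f = -D v) :
    ∃ e : F, e ∈ fixedFun ρ ∧ e ∈ L D ∧ e ≠ 0 ∧ v.ord e = -D v := by
  by_contra hcon
  push Not at hcon
  have hle : Submodule.span K (fixedFun ρ ∩ (L D : Set F)) ≤ L (D - Finsupp.single v 1) := by
    rw [Submodule.span_le]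
    rintro g ⟨hg1, hg2⟩
    by_cases hg0 : g = 0
    · rw [hg0]
      exact Submodule.zero_mem _
    exact (mem_L_sub_single_iff hg2 hg0 v).2 (hcon g hg1 hg2 hg0)
  have h1 := hle (mem_span_fixed_L O hD hf)
  exact (mem_L_sub_single_iff hf hf0 v).1 h1 hord

/-! ## Coordinates with respect to a fixed basis -/

/-- Coordinates with respect to a basis of fixed functions commute with `G`. -/
theorem repr_smul_of_fixed {ι : Type*} {V : Submodule K F} (e : Module.Basis ι K V)
    (he : ∀ i, (e i : F) ∈ fixedFun ρ) (σ : G) (f : V) (hσf : ρ σ • (f : F) ∈ V) (i : ι) :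
    e.repr ⟨ρ σ • (f : F), hσf⟩ i = SemilinearAut.baseAut (ρ σ) (e.repr f i) := by
  classical
  have h1 : (f : F) = ∑ j ∈ (e.repr f).support, e.repr f j • (e j : F) := by
    have h2 := e.linearCombination_repr f
    rw [Finsupp.linearCombination_apply, Finsupp.sum] at h2
    have h3 := congrArg (V.subtype) h2
    rw [map_sum] at h3
    simpa using h3.symm
  have h4 : ρ σ • (f : F)
      = ∑ j ∈ (e.repr f).support, SemilinearAut.baseAut (ρ σ) (e.repr f j) • (e j : F) := by
    conv_lhs => rw [h1]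
    rw [Finset.smul_sum]
    refine Finset.sum_congr rfl fun j _ => ?_
    rw [smul_smul_semilinear, baseHom_apply, he j σ]
  have h5 : (⟨ρ σ • (f : F), hσf⟩ : V)
      = ∑ j ∈ (e.repr f).support, SemilinearAut.baseAut (ρ σ) (e.repr f j) • e j := by
    apply Subtype.ext
    show ρ σ • (f : F) = _
    rw [h4]
    simp
  rw [h5, map_sum]
  simp only [map_smul, Module.Basis.repr_self, Finsupp.smul_single, smul_eq_mul, mul_one,
    Finsupp.coe_finsetSum, Finset.sum_apply]
  rw [Finset.sum_eq_single i]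
  · simp
  · intro j _ hji
    simp [hji]
  · intro hi
    rw [Finsupp.notMem_support_iff] at hi
    simp [hi]

end Fermat.Agent.S17.H35
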