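import Fermat.Agent.S17.Height.H16_MatSys

/-!
# S17, part H (heights): `Stmt_M_siegel` and `Stmt_M_finInt` (helper41)

* `H41c.stmt_M_finInt : H16.Stmt_M_finInt` : finitely many integral functions of bounded norm;
* `H41c.stmt_M_siegel : H16.Stmt_M_siegel` : the Siegel lemma in the matrix system.
-/

set_option autoImplicit false
set_option linter.unusedSectionVars false

open Matrix Module

namespace Fermat.Agent.S17.H41c

open Fermat.Agent.S17.H35 Fermat.Agent.S17.H71 Fermat.Agent.S17.H16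

section Local

variable {ι : Type*} [Fintype ι] [DecidableEq ι] {r : ℕ}

theorem castV_apply (x : ι → ℚ) (i : ι) : castV x i = ((x i : ℚ) : Qbar) := by
  unfold castV
  exact eq_ratCast _ _

theorem absQ_none_castV (x : ι → ℚ) (i : ι) : absQ none (castV x i) = |(x i : ℝ)| := by
  rw [castV_apply, absQ_none_ratCast]

theorem absQ_some_castV (p : Nat.Primes) (x : ι → ℚ) (i : ι) :
    absQ (some p) (castV x i) = ((padicNorm p (x i) : ℚ) : ℝ) := by
  rw [castV_apply, absQ_some_ratCast]

/-- The archimedean maximal minor of a rational matrix. -/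
theorem maxMinor_castM_none (B : Matrix (Fin r) ι ℚ) :
    maxMinor (absQ none) (castM B) =
      ⨆ J : Fin r → ι, ((|(B.submatrix id J).det| : ℚ) : ℝ) := by
  unfold maxMinor
  congr 1
  funext J
  rw [det_castM_submatrix, eq_ratCast, absQ_none_ratCast, Rat.cast_abs]

/-- The `p`-adic maximal minor of a rational matrix. -/
theorem maxMinor_castM_some (p : Nat.Primes) (B : Matrix (Fin r) ι ℚ) :
    maxMinor (absQ (some p)) (castM B) =
      ⨆ J : Fin r → ι, ((padicNorm p (B.submatrix id J).det : ℚ) : ℝ) := by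
  unfold maxMinor
  congr 1
  funext J
  rw [det_castM_submatrix, eq_ratCast, absQ_some_ratCast]

/-- The covolume height as a finite sum. -/
theorem PhiQ_eq_sum (B : Matrix (Fin r) ι ℚ) (S' : Finset Nat.Primes)
    (hS : ∀ p : Nat.Primes, p ∉ S' → maxMinor (absQ (some p)) (castM B) = 1) :
    PhiQ B = Real.log (maxMinor (absQ none) (castM B)) +
      ∑ p ∈ S', Real.log (maxMinor (absQ (some p)) (castM B)) := by
  classical
  unfold PhiQ
  rw [finsum_eq_sum_of_support_subset (s := insert none (S'.image some))]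
  · rw [Finset.sum_insert (by simp), Finset.sum_image (fun _ _ _ _ h => Option.some_injective _ h)]
  · intro w hw
    simp only [Function.mem_support] at hw
    cases w with
    | none => simp
    | some p =>
      by_cases hp : p ∈ S'
      · simp [hp]
      · exact absurd (by rw [hS p hp, Real.log_one]) hw

theorem castV_vecMul (c : Fin r → ℚ) (B : Matrix (Fin r) ι ℚ) :
    castV (c ᵥ* B) = castV c ᵥ* castM B := by
  funext j
  unfold castV castM
  simp only [Matrix.vecMul, dotProduct, Matrix.map_apply, map_sum, map_mul]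

theorem castV_injective : Function.Injective (castV (ι := ι)) := by
  intro x y h
  funext i
  have := congrFun h i
  unfold castV at this
  exact (algebraMap ℚ Qbar).injective this

/-- The sup-norm of an integral vector is `≤ 1` at the finite places. -/
theorem supNorm_some_le_one (p : Nat.Primes) (x : ι → ℚ) (hx : ∀ i, ∃ z : ℤ, x i = (z : ℚ)) :
    supNorm (absQ (some p)) (castV x) ≤ 1 := by
  refine supNorm_le _ _ zero_le_one fun i => ?_
  obtain ⟨z, hz⟩ := hx i
  rw [absQ_some_castV, hz]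
  have hpf : Fact (p : ℕ).Prime := ⟨p.2⟩
  have := padicNorm.of_int (p := p) z
  exact_mod_cast this

/-- An adelic function supported at the archimedean place. -/
noncomputable def adlSingle (t : ℝ) (ht : 0 < t) : Adl := by
  classical
  exact
    { f := fun w => if w = none then t else 1
      pos := fun w => by
        by_cases hw : w = none
        · rw [if_pos hw]; exact ht
        · rw [if_neg hw]; exact one_pos
      fin := (Set.finite_singleton (none : PlaceQ)).subset fun w hw => by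
        simp only [Set.mem_ofPred_eq] at hw
        by_contra hne
        exact hw (if_neg hne) }

theorem adlSingle_none (t : ℝ) (ht : 0 < t) : (adlSingle t ht).f none = t := by
  unfold adlSingle
  dsimp only
  rw [if_pos rfl]

theorem adlSingle_of_ne (t : ℝ) (ht : 0 < t) (w : PlaceQ) (hw : w ≠ none) :
    (adlSingle t ht).f w = 1 := by
  unfold adlSingle
  dsimp only
  rw [if_neg hw]

theorem exists_adl_single (t : ℝ) (ht : 0 < t) :
    ∃ b : Adl, b.f none = t ∧ ∀ w : PlaceQ, w ≠ none → b.f w = 1 :=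
  ⟨adlSingle t ht, adlSingle_none t ht, adlSingle_of_ne t ht⟩

/-- The height of a nonzero integral vector is at most the logarithm of its archimedean
sup-norm. -/
theorem hgtQ_le_log (x : ι → ℚ) (hx0 : x ≠ 0) (hx : ∀ i, ∃ z : ℤ, x i = (z : ℚ)) :
    hgtQ x ≤ Real.log (supNorm (absQ none) (castV x)) := by
  classical
  have hpos : 0 < supNorm (absQ none) (castV x) := (Adl.ofVec x hx0).pos none
  obtain ⟨b, hbn, hbs⟩ := exists_adl_single _ hpos
  have hb : b.ht = Real.log (supNorm (absQ none) (castV x)) := by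
    show ∑ᶠ w : PlaceQ, Real.log (b.f w) = _
    rw [finsum_eq_single _ (none : PlaceQ) (fun w hw => by rw [hbs w hw, Real.log_one]), hbn]
  have h := Adl.ht_le_of_le (Adl.ofVec x hx0) b (LocConst.one Qbar) (fun w => by
    show (Adl.ofVec x hx0).f w ≤ 1 * b.f w
    rw [one_mul, Adl.ofVec_f]
    cases w with
    | none => rw [hbn]
    | some p =>
      rw [hbs (some p) (by simp)]
      exact supNorm_some_le_one p x hx)
  have h1 : locTotal (LocConst.one Qbar) = 0 := by
    unfold locTotal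
    have : ∀ w : PlaceQ, Real.log ((LocConst.one Qbar).C (absQ w)) = 0 := fun w => by
      show Real.log 1 = 0
      exact Real.log_one
    simp only [this]
    exact finsum_zero
  rw [Adl.ht_ofVec, hb, h1, add_zero] at h
  exact h

end Local

/-! ### Finiteness -/

/-- **P4a**: finitely many integral functions of bounded norm. -/
theorem stmt_M_finInt : Stmt_M_finInt := by
  classical
  intro J _ Dv _ Rv Pt _ S T
  set A : Set Rv := {f : Rv | S.IsInt f ∧ S.ord f ≤ S.m₀ ∧ S.lsup f ≤ T} with hA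
  -- the bound on the coordinates
  have hcoord : ∀ f ∈ A, ∀ i, |(S.vec₀ f i : ℝ)| ≤ Real.exp T := by
    rintro f ⟨-, -, hT⟩ i
    have hle : |(S.vec₀ f i : ℝ)| ≤ supNorm (absQ none) (castV (S.vec₀ f)) := by
      rw [← absQ_none_castV]
      exact le_supNorm _ _ i
    rcases (supNorm_nonneg (absQ none) (castV (S.vec₀ f))).eq_or_lt with h0 | h0
    · rw [← h0] at hle
      exact hle.trans (Real.exp_pos T).le
    · refine hle.trans ?_
      rw [← Real.log_le_iff_le_exp h0]
      exact hT
  obtain ⟨M, hM⟩ := exists_nat_ge (Real.exp T)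
  set s : Set ℚ := ((↑) : ℤ → ℚ) '' Set.Icc (-(M : ℤ)) (M : ℤ) with hs
  have hsfin : s.Finite := (Set.finite_Icc _ _).image _
  have hpi : (Set.pi Set.univ fun _ : Fin (S.n S.m₀) => s).Finite :=
    Set.Finite.pi fun _ => hsfin
  have himg : (S.vec₀ '' A).Finite := by
    refine hpi.subset ?_
    rintro _ ⟨f, hf, rfl⟩ i -
    obtain ⟨z, hz⟩ := hf.1 i
    refine ⟨z, ?_, hz.symm⟩
    have h1 := (hcoord f hf i).trans hM
    rw [hz] at h1
    have h2 : |(z : ℝ)| ≤ (M : ℝ) := by exact_mod_cast h1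
    have h3 : |z| ≤ (M : ℤ) := by exact_mod_cast h2
    exact Set.mem_Icc.2 (abs_le.1 h3)
  refine Set.Finite.of_finite_image himg ?_
  intro f hf f' hf' h
  exact S.vec₀_inj f f' hf.2.1 hf'.2.1 h

/-! ### The Siegel lemma -/

/-- **P4b**: the Siegel lemma in the matrix system. -/
theorem stmt_M_siegel : Stmt_M_siegel := by
  classical
  intro hSieg J _ Dv _ Rv Pt _ S
  obtain ⟨L, hL⟩ := S.vec₀_lev
  set C₁ : ℝ := ((S.m₀ : ℝ) + 1) * Real.log ((S.m₀ : ℝ) + 1) with hC₁
  have hC₁0 : 0 ≤ C₁ :=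
    mul_nonneg (by positivity) (Real.log_nonneg (by
      have : (0 : ℝ) ≤ S.m₀ := Nat.cast_nonneg _
      linarith))
  refine ⟨C₁ + locTotal L, ?_⟩
  intro D hD
  have hm₀ : S.m₀ ≤ S.Mtop := by
    have := S.hMtop
    omega
  -- a rational basis of `W m₀ D`
  obtain ⟨r, B, hB, hBW⟩ := S.W_rat S.m₀ D
  have hfin : finrank Qbar (S.W S.m₀ D) = r := IsRatSub.finrank B hB hBW
  have hdim := S.W_dim S.m₀ D hD hm₀
  rw [hfin] at hdim
  have hg := S.hg
  have hrpos : 0 < r := by omega
  have hrle : r ≤ S.m₀ + 1 := by omega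
  have hr : (r : ℝ) = (S.m₀ : ℝ) + 1 - S.g - S.deg D := by
    have : (r : ℝ) + S.g + S.deg D = (S.m₀ : ℝ) + 1 := by exact_mod_cast hdim
    linarith
  have hPhi : S.Phi S.m₀ D = PhiQ B := PhiW_eq B hB _ hBW
  -- the exceptional primes
  have hfinS : {p : Nat.Primes | maxMinor (absQ (some p)) (castM B) ≠ 1}.Finite := by
    have h1 := (Adl.ofMat B hB).fin
    have h2 : {p : Nat.Primes | maxMinor (absQ (some p)) (castM B) ≠ 1} =
        (some : Nat.Primes → PlaceQ) ⁻¹' {w : PlaceQ | (Adl.ofMat B hB).f w ≠ 1} := rfl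
    rw [h2]
    exact h1.preimage (Option.some_injective _).injOn
  set S' : Finset Nat.Primes := hfinS.toFinset with hS'
  have hS'mem : ∀ p : Nat.Primes, p ∉ S' → maxMinor (absQ (some p)) (castM B) = 1 := by
    intro p hp
    by_contra hne
    exact hp ((Set.Finite.mem_toFinset hfinS).2 hne)
  set Sn : Finset ℕ := S'.image (fun p : Nat.Primes => (p : ℕ)) with hSn
  have hSnprime : ∀ p ∈ Sn, p.Prime := by
    intro p hp
    obtain ⟨q, -, rfl⟩ := Finset.mem_image.1 hp
    exact q.2
  have hint : ∀ p : ℕ, p.Prime → p ∉ Sn → ∀ J : Fin r → Fin (S.n S.m₀),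
      padicNorm p (B.submatrix id J).det ≤ 1 := by
    intro p hp hpS J
    obtain ⟨q, hq⟩ : ∃ q : Nat.Primes, (q : ℕ) = p := ⟨⟨p, hp⟩, rfl⟩
    subst hq
    have hqS : q ∉ S' := fun h => hpS (Finset.mem_image.2 ⟨q, h, rfl⟩)
    have h1 := le_maxMinor (absQ (some q)) (castM B) J
    rw [hS'mem _ hqS, det_castM_submatrix, eq_ratCast, absQ_some_ratCast] at h1
    exact_mod_cast h1
  obtain ⟨c, hc0, hcint, hcbound⟩ := hSieg r (S.n S.m₀) hrpos B hB Sn hSnprime hint
  set x : Fin (S.n S.m₀) → ℚ := c ᵥ* B with hx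
  -- `x ≠ 0`
  have hx0 : x ≠ 0 := by
    intro h0
    apply hc0
    obtain ⟨J, hJ⟩ := hB
    refine Matrix.eq_zero_of_vecMul_eq_zero hJ ?_
    funext j
    have h := congrFun h0 (J j)
    simpa [hx, Matrix.vecMul, dotProduct] using h
  have hxW : castV x ∈ S.W S.m₀ D := by
    rw [← hBW, hx, castV_vecMul]
    exact vecMul_mem_rowSpan _ _
  obtain ⟨f, Y, hford, hfvec, hfZ⟩ := S.exists_Rv D x hD hx0 hxW
  have hlsup : S.lsup f = Real.log (supNorm (absQ none) (castV x)) := by
    show Real.log (supNorm (absQ none) (castV (S.vec₀ f))) = _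
    rw [hfvec]
  -- a nonzero coordinate
  obtain ⟨j₁, hj₁⟩ : ∃ j, x j ≠ 0 := by
    by_contra hcon
    push Not at hcon
    exact hx0 (funext hcon)
  have hne : Nonempty (Fin (S.n S.m₀)) := ⟨j₁⟩
  set s : ℝ := supNorm (absQ none) (castV x) with hs
  have hs1 : 1 ≤ s := by
    obtain ⟨z, hz⟩ := hcint j₁
    have hz0 : z ≠ 0 := by
      rintro rfl
      rw [Int.cast_zero] at hz
      exact hj₁ hz
    have h1 : (1 : ℝ) ≤ |(x j₁ : ℝ)| := by
      rw [show x j₁ = (z : ℚ) from hz]
      have : (1 : ℤ) ≤ |z| := Int.one_le_abs hz0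
      have h2 : ((1 : ℤ) : ℝ) ≤ ((|z| : ℤ) : ℝ) := by exact_mod_cast this
      simpa using h2
    calc (1 : ℝ) ≤ |(x j₁ : ℝ)| := h1
      _ = absQ none (castV x j₁) := (absQ_none_castV x j₁).symm
      _ ≤ s := le_supNorm _ _ j₁
  have hspos : 0 < s := lt_of_lt_of_le one_pos hs1
  -- the Siegel bound
  obtain ⟨j₀, hj₀⟩ := exists_eq_supNorm (absQ none) (castV x)
  have hA0 := maxMinor_castM_pos B hB
  have hbound := hcbound j₀
  rw [← maxMinor_castM_none B] at hbound
  have hprod : ∏ p ∈ Sn, ⨆ J : Fin r → Fin (S.n S.m₀),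
      ((padicNorm p (B.submatrix id J).det : ℚ) : ℝ) =
      ∏ p ∈ S', maxMinor (absQ (some p)) (castM B) := by
    rw [hSn, Finset.prod_image (g := fun p : Nat.Primes => (p : ℕ))
      (fun _ _ _ _ h => Subtype.ext h)]
    exact Finset.prod_congr rfl fun p _ => (maxMinor_castM_some p B).symm
  rw [hprod] at hbound
  have hsj : s = |((c ᵥ* B) j₀ : ℝ)| := by
    rw [hs, ← hj₀, absQ_none_castV]
  have hbound' : s ^ r ≤ (r : ℝ) ^ r * (maxMinor (absQ none) (castM B) *
      ∏ p ∈ S', maxMinor (absQ (some p)) (castM B)) := by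
    rw [hsj]
    exact hbound
  have hprodpos : 0 < ∏ p ∈ S', maxMinor (absQ (some p)) (castM B) :=
    Finset.prod_pos fun p _ => hA0 (some p)
  have hrpos' : (0 : ℝ) < r := by exact_mod_cast hrpos
  have hlog : (r : ℝ) * Real.log s ≤ (r : ℝ) * Real.log r + PhiQ B := by
    have h1 := Real.log_le_log (pow_pos hspos r) hbound'
    rw [Real.log_pow, Real.log_mul (pow_pos hrpos' r).ne'
      (mul_pos (hA0 none) hprodpos).ne', Real.log_pow,
      Real.log_mul (hA0 none).ne' hprodpos.ne',
      Real.log_prod (fun p _ => (hA0 (some p)).ne')] at h1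
    rw [PhiQ_eq_sum B S' hS'mem]
    exact h1
  have hrlog : (r : ℝ) * Real.log r ≤ C₁ := by
    have h1 : (r : ℝ) ≤ (S.m₀ : ℝ) + 1 := by exact_mod_cast hrle
    have h2 : Real.log r ≤ Real.log ((S.m₀ : ℝ) + 1) := Real.log_le_log hrpos' h1
    have h3 : 0 ≤ Real.log r := Real.log_nonneg (by exact_mod_cast hrpos)
    exact mul_le_mul h1 h2 h3 (by positivity)
  have hLtot := locTotal_nonneg L
  refine ⟨f, Y, hfZ, hford, fun i => by rw [hfvec]; exact hcint i, ?_, ?_, ?_⟩
  · rw [← hr, hlsup, hPhi]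
    linarith
  · -- `hgt f ≤ lsup f + C`
    have hvf : S.vec₀ f ≠ 0 := by rw [hfvec]; exact hx0
    have h1 := Adl.ht_le_of_le (Adl.ofVec (S.vec f) (S.vec_ne f)) (Adl.ofVec (S.vec₀ f) hvf) L
      (fun w => by
        rw [Adl.ofVec_f, Adl.ofVec_f]
        exact hL w f hford)
    rw [Adl.ht_ofVec, Adl.ht_ofVec] at h1
    have h2 : hgtQ (S.vec₀ f) ≤ Real.log s := by
      rw [hfvec]
      exact hgtQ_le_log x hx0 hcint
    have h3 : S.hgt f = hgtQ (S.vec f) := rfl
    rw [h3, hlsup]
    linarith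
  · rw [hlsup]
    exact Real.log_nonneg hs1

end Fermat.Agent.S17.H41c
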