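import Fermat.Agent.S17.Height.H71_Bounds
import Mathlib.LinearAlgebra.Matrix.Adjugate
import Mathlib.LinearAlgebra.Matrix.ToLin

/-!
# S17, part H: abstract bounded factorisation (BF)

Setting: coordinates `p : π₁ → K`, `p' : π₂ → K` (Pluecker-type parameters), spanning vectors
`spanVec w₁ p i : α → K`, `spanVec w₂ p' j : β → K` depending LINEARLY on the parameters, and a
bilinear multiplication `prodVec c : (α → K) → (β → K) → (γ → K)`.

`bf_abstract`: if on a closed bi-cone `Y` (zero locus of an ideal, stable under the two scalings)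
the products of spanning vectors always contain `r` vectors with a nonzero `r × r` minor, then
there is a uniform family of local constants `L` such that for every absolute value `v` and every
point of `Y` one can select `r` linearly independent products `P_k` for which every combination
`F₀ = ∑ x_k P_k` satisfies `|x_k| |w₁| |w₂| ≤ L.C v * ‖F₀‖`.
-/

set_option autoImplicit false

open MvPolynomial

namespace Fermat.Agent.S17.H71

variable {K : Type*} [Field K]
variable {π₁ π₂ ι₁ ι₂ α β γ : Type*}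

section Defs

variable [Fintype π₁] [Fintype π₂] [Fintype α] [Fintype β]

/-- The `i`-th spanning vector at the parameter `p` (linear in `p`). -/
def spanVec {ι π α : Type*} [Fintype π] (w : ι → α → π → K) (p : π → K) (i : ι) (a : α) : K :=
  ∑ q, w i a q * p q

/-- The bilinear multiplication with structure constants `c`. -/
def prodVec (c : α → β → γ → K) (f : α → K) (g : β → K) (k : γ) : K :=
  ∑ a, ∑ b, c a b k * f a * g b

/-- The product of the `(i, j)`-th pair of spanning vectors. -/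
def prodAt (c : α → β → γ → K) (w₁ : ι₁ → α → π₁ → K) (w₂ : ι₂ → β → π₂ → K)
    (p : π₁ → K) (p' : π₂ → K) (ij : ι₁ × ι₂) : γ → K :=
  prodVec c (spanVec w₁ p ij.1) (spanVec w₂ p' ij.2)

theorem spanVec_smul {ι π α : Type*} [Fintype π] (w : ι → α → π → K) (p : π → K) (s : K)
    (i : ι) (a : α) : spanVec w (s • p) i a = s * spanVec w p i a := by
  unfold spanVec
  rw [Finset.mul_sum]
  refine Finset.sum_congr rfl fun q _ => ?_
  simp only [Pi.smul_apply, smul_eq_mul]
  ring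

theorem prodAt_smul (c : α → β → γ → K) (w₁ : ι₁ → α → π₁ → K) (w₂ : ι₂ → β → π₂ → K)
    (p : π₁ → K) (p' : π₂ → K) (s s' : K) (ij : ι₁ × ι₂) (k : γ) :
    prodAt c w₁ w₂ (s • p) (s' • p') ij k = s * s' * prodAt c w₁ w₂ p p' ij k := by
  unfold prodAt prodVec
  rw [Finset.mul_sum]
  refine Finset.sum_congr rfl fun a _ => ?_
  rw [Finset.mul_sum]
  refine Finset.sum_congr rfl fun b _ => ?_
  rw [spanVec_smul, spanVec_smul]
  ring

/-- Polynomial version of the left spanning vector. -/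
noncomputable def spanPolyL (w₁ : ι₁ → α → π₁ → K) (i : ι₁) (a : α) :
    MvPolynomial (π₁ ⊕ π₂) K :=
  ∑ q, C (w₁ i a q) * X (Sum.inl q)

/-- Polynomial version of the right spanning vector. -/
noncomputable def spanPolyR (w₂ : ι₂ → β → π₂ → K) (j : ι₂) (b : β) :
    MvPolynomial (π₁ ⊕ π₂) K :=
  ∑ q, C (w₂ j b q) * X (Sum.inr q)

/-- Polynomial version of the product. -/
noncomputable def prodPoly (c : α → β → γ → K) (w₁ : ι₁ → α → π₁ → K) (w₂ : ι₂ → β → π₂ → K)
    (ij : ι₁ × ι₂) (k : γ) : MvPolynomial (π₁ ⊕ π₂) K :=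
  ∑ a, ∑ b, C (c a b k) * spanPolyL w₁ ij.1 a * spanPolyR w₂ ij.2 b

theorem eval_prodPoly (c : α → β → γ → K) (w₁ : ι₁ → α → π₁ → K) (w₂ : ι₂ → β → π₂ → K)
    (p : π₁ → K) (p' : π₂ → K) (ij : ι₁ × ι₂) (k : γ) :
    eval (Sum.elim p p') (prodPoly c w₁ w₂ ij k) = prodAt c w₁ w₂ p p' ij k := by
  simp [prodPoly, spanPolyL, spanPolyR, prodAt, prodVec, spanVec]

/-- The minor polynomial attached to a selection of `r` products and `r` coordinates. -/
noncomputable def minorPoly (c : α → β → γ → K) (w₁ : ι₁ → α → π₁ → K) (w₂ : ι₂ → β → π₂ → K)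
    (r : ℕ) (t : (Fin r → ι₁ × ι₂) × (Fin r → γ)) : MvPolynomial (π₁ ⊕ π₂) K :=
  Matrix.det (Matrix.of fun k l => prodPoly c w₁ w₂ (t.1 k) (t.2 l))

/-- The minor matrix at a point. -/
def minorMat (c : α → β → γ → K) (w₁ : ι₁ → α → π₁ → K) (w₂ : ι₂ → β → π₂ → K)
    (r : ℕ) (p : π₁ → K) (p' : π₂ → K) (sel : Fin r → ι₁ × ι₂) (cols : Fin r → γ) :
    Matrix (Fin r) (Fin r) K :=
  Matrix.of fun k l => prodAt c w₁ w₂ p p' (sel k) (cols l)

theorem eval_minorPoly (c : α → β → γ → K) (w₁ : ι₁ → α → π₁ → K) (w₂ : ι₂ → β → π₂ → K)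
    (r : ℕ) (p : π₁ → K) (p' : π₂ → K) (t : (Fin r → ι₁ × ι₂) × (Fin r → γ)) :
    eval (Sum.elim p p') (minorPoly c w₁ w₂ r t) = (minorMat c w₁ w₂ r p p' t.1 t.2).det := by
  unfold minorPoly minorMat
  rw [RingHom.map_det]
  congr 1
  ext k l
  simp [eval_prodPoly]

theorem minorMat_smul (c : α → β → γ → K) (w₁ : ι₁ → α → π₁ → K) (w₂ : ι₂ → β → π₂ → K)
    (r : ℕ) (p : π₁ → K) (p' : π₂ → K) (s s' : K) (sel : Fin r → ι₁ × ι₂) (cols : Fin r → γ) :
    (minorMat c w₁ w₂ r (s • p) (s' • p') sel cols).det =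
      s ^ r * s' ^ r * (minorMat c w₁ w₂ r p p' sel cols).det := by
  have : minorMat c w₁ w₂ r (s • p) (s' • p') sel cols =
      (s * s') • minorMat c w₁ w₂ r p p' sel cols := by
    ext k l
    simp [minorMat, prodAt_smul]
  rw [this, Matrix.det_smul, Fintype.card_fin, mul_pow]

end Defs

section Cramer

/-- Cramer's rule for a combination of the rows. -/
theorem cramer_rows {r : ℕ} (M : Matrix (Fin r) (Fin r) K) (x : Fin r → K) (k : Fin r) :
    (M.updateRow k fun l => ∑ i, x i * M i l).det = M.det * x k := by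
  have h1 : (fun l => ∑ i, x i * M i l) = M.transpose.mulVec x := by
    funext l
    simp [Matrix.mulVec, dotProduct, Matrix.transpose_apply, mul_comm]
  rw [← Matrix.cramer_transpose_apply, h1, Matrix.cramer_eq_adjugate_mulVec,
    Matrix.mulVec_mulVec, Matrix.adjugate_mul, Matrix.det_transpose]
  simp [Matrix.smul_mulVec, Matrix.one_mulVec]

end Cramer

section Main

variable [IsAlgClosed K]
variable [Fintype π₁] [Fintype π₂] [Fintype ι₁] [Fintype ι₂] [Fintype α] [Fintype β] [Fintype γ]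

open Classical in
/-- Uniform bound for the spanning vectors. -/
theorem exists_spanVec_bound {ι π α : Type*} [Fintype ι] [Fintype π] [Fintype α]
    (w : ι → α → π → K) :
    ∃ L : LocConst K, ∀ (v : AbsoluteValue K ℝ) (p : π → K) (B : ℝ), 0 ≤ B →
      (∀ q, v (p q) ≤ B) → ∀ i a, v (spanVec w p i a) ≤ L.C v * B := by
  refine ⟨(LocConst.card K (Fintype.card π)).mul
    (LocConst.elems (Finset.univ.image fun x : ι × α × π => w x.1 x.2.1 x.2.2)), ?_⟩
  intro v p B hB hp i a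
  set E := LocConst.elems (Finset.univ.image fun x : ι × α × π => w x.1 x.2.1 x.2.2) with hE
  have hEpos : 0 ≤ E.C v := (E.pos v).le
  have h1 : ∀ q, v (w i a q * p q) ≤ E.C v * B := fun q => by
    rw [v.map_mul]
    refine mul_le_mul ?_ (hp q) (v.nonneg _) hEpos
    exact LocConst.abv_le_elems _ v (Finset.mem_image.2 ⟨(i, a, q), Finset.mem_univ _, rfl⟩)
  have h2 := abv_sum_univ_le_card v (fun q => w i a q * p q) (E.C v * B) (mul_nonneg hEpos hB) h1
  show v (∑ q, w i a q * p q) ≤ _ * _ * B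
  rw [mul_assoc]
  exact h2

open Classical in
/-- Uniform bound for the multiplication. -/
theorem exists_prodVec_bound (c : α → β → γ → K) :
    ∃ L : LocConst K, ∀ (v : AbsoluteValue K ℝ) (f : α → K) (g : β → K) (A B : ℝ), 0 ≤ A →
      0 ≤ B → (∀ a, v (f a) ≤ A) → (∀ b, v (g b) ≤ B) → ∀ k, v (prodVec c f g k) ≤
        L.C v * (A * B) := by
  refine ⟨((LocConst.card K (Fintype.card α)).mul (LocConst.card K (Fintype.card β))).mul
    (LocConst.elems (Finset.univ.image fun x : α × β × γ => c x.1 x.2.1 x.2.2)), ?_⟩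
  intro v f g A B hA hB hf hg k
  set E := LocConst.elems (Finset.univ.image fun x : α × β × γ => c x.1 x.2.1 x.2.2) with hE
  have hEpos : 0 ≤ E.C v := (E.pos v).le
  have h1 : ∀ a b, v (c a b k * f a * g b) ≤ E.C v * (A * B) := fun a b => by
    rw [v.map_mul, v.map_mul, mul_assoc]
    refine mul_le_mul ?_ (mul_le_mul (hf a) (hg b) (v.nonneg _) hA)
      (mul_nonneg (v.nonneg _) (v.nonneg _)) hEpos
    exact LocConst.abv_le_elems _ v (Finset.mem_image.2 ⟨(a, b, k), Finset.mem_univ _, rfl⟩)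
  have hCb : 0 ≤ (LocConst.card K (Fintype.card β)).C v :=
    ((LocConst.card K (Fintype.card β)).pos v).le
  have h2 : ∀ a, v (∑ b, c a b k * f a * g b) ≤
      (LocConst.card K (Fintype.card β)).C v * (E.C v * (A * B)) := fun a =>
    abv_sum_univ_le_card v _ _ (mul_nonneg hEpos (mul_nonneg hA hB)) (h1 a)
  have h3 := abv_sum_univ_le_card v (fun a => ∑ b, c a b k * f a * g b) _
    (mul_nonneg hCb (mul_nonneg hEpos (mul_nonneg hA hB))) h2
  show v (∑ a, ∑ b, c a b k * f a * g b) ≤ _ * _ * _ * (A * B)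
  calc v (∑ a, ∑ b, c a b k * f a * g b) ≤ _ := h3
    _ = _ := by ring

/-- **Abstract bounded factorisation.** -/
theorem bf_abstract (I : Ideal (MvPolynomial (π₁ ⊕ π₂) K))
    (hcone : ∀ (p : π₁ → K) (p' : π₂ → K), Sum.elim p p' ∈ zeroLocus K I → ∀ a b : K,
      Sum.elim (a • p) (b • p') ∈ zeroLocus K I)
    (w₁ : ι₁ → α → π₁ → K) (w₂ : ι₂ → β → π₂ → K) (c : α → β → γ → K) (r : ℕ)
    (hspan : ∀ (p : π₁ → K) (p' : π₂ → K), Sum.elim p p' ∈ zeroLocus K I → p ≠ 0 → p' ≠ 0 →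
      ∃ (sel : Fin r → ι₁ × ι₂) (cols : Fin r → γ),
        (minorMat c w₁ w₂ r p p' sel cols).det ≠ 0) :
    ∃ L : LocConst K, ∀ (v : AbsoluteValue K ℝ) (p : π₁ → K) (p' : π₂ → K),
      Sum.elim p p' ∈ zeroLocus K I → p ≠ 0 → p' ≠ 0 →
      ∃ (sel : Fin r → ι₁ × ι₂) (cols : Fin r → γ),
        (minorMat c w₁ w₂ r p p' sel cols).det ≠ 0 ∧
        ∀ (x : Fin r → K) (c₀ : ℝ),
          (∀ g, v (∑ k, x k * prodAt c w₁ w₂ p p' (sel k) g) ≤ c₀) →
          ∀ k a b, v (x k) * v (spanVec w₁ p (sel k).1 a) * v (spanVec w₂ p' (sel k).2 b) ≤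
            L.C v * c₀ := by
  classical
  -- the Nullstellensatz constant
  obtain ⟨L₀, hL₀⟩ := mph_local I hcone (minorPoly c w₁ w₂ r) r r
    (fun t x y a b => by
      rw [eval_minorPoly, eval_minorPoly, minorMat_smul])
    (fun x y hxy hzero => by
      by_contra hcon
      simp only [not_or] at hcon
      obtain ⟨sel, cols, hdet⟩ := hspan x y hxy hcon.1 hcon.2
      exact hdet (by rw [← eval_minorPoly c w₁ w₂ r x y (sel, cols)]; exact hzero (sel, cols)))
  obtain ⟨L₁, hL₁⟩ := exists_spanVec_bound w₁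
  obtain ⟨L₂, hL₂⟩ := exists_spanVec_bound w₂
  obtain ⟨Lμ, hLμ⟩ := exists_prodVec_bound c
  set P : LocConst K := LocConst.card K (Fintype.card (Equiv.Perm (Fin r))) with hP
  set Bc : LocConst K := (Lμ.mul L₁).mul L₂ with hBc
  refine ⟨((P.mul (Bc.pow (r - 1))).mul L₀).mul (L₁.mul L₂), ?_⟩
  intro v p p' hmem hp hp'
  -- maximal coordinates
  have hne₁ : Nonempty π₁ := by
    by_contra hcon
    rw [not_nonempty_iff] at hcon
    exact hp (funext fun q => (hcon.false q).elim)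
  have hne₂ : Nonempty π₂ := by
    by_contra hcon
    rw [not_nonempty_iff] at hcon
    exact hp' (funext fun q => (hcon.false q).elim)
  obtain ⟨i₀, hi₀⟩ := Finite.exists_max fun q => v (p q)
  obtain ⟨j₀, hj₀⟩ := Finite.exists_max fun q => v (p' q)
  have hpi₀ : p i₀ ≠ 0 := by
    intro h0
    apply hp
    funext q
    have := hi₀ q
    rw [h0, map_zero] at this
    exact (v.eq_zero).1 (le_antisymm this (v.nonneg _))
  have hpj₀ : p' j₀ ≠ 0 := by
    intro h0
    apply hp'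
    funext q
    have := hj₀ q
    rw [h0, map_zero] at this
    exact (v.eq_zero).1 (le_antisymm this (v.nonneg _))
  obtain ⟨⟨sel, cols⟩, ht⟩ := hL₀ v p p' hmem i₀ j₀ hi₀ hj₀ hpi₀ hpj₀
  rw [eval_minorPoly] at ht
  set u₁ : ℝ := v (p i₀) with hu₁
  set u₂ : ℝ := v (p' j₀) with hu₂
  have hu₁pos : 0 < u₁ := v.pos hpi₀
  have hu₂pos : 0 < u₂ := v.pos hpj₀
  set M := minorMat c w₁ w₂ r p p' sel cols with hM
  have hL₀pos := L₀.pos v
  have hdetpos : 0 < v M.det := by
    by_contra hcon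
    have h0 : v M.det = 0 := le_antisymm (not_lt.1 hcon) (v.nonneg _)
    rw [h0, mul_zero] at ht
    have : 0 < u₁ ^ r * u₂ ^ r := mul_pos (pow_pos hu₁pos r) (pow_pos hu₂pos r)
    linarith
  have hdet : M.det ≠ 0 := fun h0 => by rw [h0, map_zero] at hdetpos; exact lt_irrefl _ hdetpos
  refine ⟨sel, cols, hdet, ?_⟩
  intro x c₀ hx k a b
  -- bounds for the spanning vectors and the products
  have hW₁ : ∀ i a, v (spanVec w₁ p i a) ≤ L₁.C v * u₁ := hL₁ v p u₁ hu₁pos.le hi₀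
  have hW₂ : ∀ j b, v (spanVec w₂ p' j b) ≤ L₂.C v * u₂ := hL₂ v p' u₂ hu₂pos.le hj₀
  have hL₁pos := L₁.pos v
  have hL₂pos := L₂.pos v
  have hLμpos := Lμ.pos v
  have hPr : ∀ ij g, v (prodAt c w₁ w₂ p p' ij g) ≤ Bc.C v * (u₁ * u₂) := by
    intro ij g
    have := hLμ v (spanVec w₁ p ij.1) (spanVec w₂ p' ij.2) (L₁.C v * u₁) (L₂.C v * u₂)
      (mul_nonneg hL₁pos.le hu₁pos.le) (mul_nonneg hL₂pos.le hu₂pos.le) (hW₁ ij.1) (hW₂ ij.2) g
    calc v (prodAt c w₁ w₂ p p' ij g) ≤ Lμ.C v * (L₁.C v * u₁ * (L₂.C v * u₂)) := this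
      _ = Bc.C v * (u₁ * u₂) := by
        show _ = Lμ.C v * L₁.C v * L₂.C v * (u₁ * u₂)
        ring
  -- the case of a negative `c₀` is impossible
  have hc₀ : 0 ≤ c₀ := le_trans (v.nonneg _) (hx (cols k))
  -- Cramer
  have hcr := cramer_rows M x k
  have hrow : (fun l => ∑ i, x i * M i l) = fun l => ∑ i, x i * prodAt c w₁ w₂ p p' (sel i) (cols l) :=
    rfl
  set R : ℝ := Bc.C v * (u₁ * u₂) with hR
  have hRpos : 0 < R := mul_pos (Bc.pos v) (mul_pos hu₁pos hu₂pos)
  have hbound : v (M.det * x k) ≤ P.C v * (c₀ * R ^ (r - 1)) := by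
    rw [← hcr]
    have h1 := abv_det_le v (M.updateRow k fun l => ∑ i, x i * M i l)
      (Function.update (fun _ => R) k c₀)
      (fun i => by
        by_cases hik : i = k
        · subst hik; simpa using hc₀
        · simpa [Function.update_of_ne hik] using hRpos.le)
      (fun i j => by
        by_cases hik : i = k
        · subst hik
          rw [Matrix.updateRow_self, Function.update_self]
          exact hx (cols j)
        · rw [Matrix.updateRow_ne hik, Function.update_of_ne hik]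
          exact hPr (sel i) (cols j))
    have h2 : ∏ i, Function.update (fun _ : Fin r => R) k c₀ i = c₀ * R ^ (r - 1) := by
      rw [Finset.prod_update_of_mem (Finset.mem_univ k), Finset.prod_const,
        Finset.card_sdiff_of_subset (Finset.singleton_subset_iff.2 (Finset.mem_univ k)),
        Finset.card_univ, Fintype.card_fin, Finset.card_singleton]
    rw [h2] at h1
    exact h1
  rw [v.map_mul] at hbound
  -- `r ≥ 1`
  have hr : 1 ≤ r := Nat.one_le_iff_ne_zero.2 fun h0 => by subst h0; exact k.elim0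
  have hur : u₁ ^ r * u₂ ^ r = (u₁ * u₂) ^ (r - 1) * (u₁ * u₂) := by
    rw [← pow_succ, Nat.sub_add_cancel hr, mul_pow]
  have hRr : R ^ (r - 1) = Bc.C v ^ (r - 1) * (u₁ * u₂) ^ (r - 1) := by
    rw [hR, mul_pow]
  have hupos : 0 < u₁ * u₂ := mul_pos hu₁pos hu₂pos
  have hupow : 0 < (u₁ * u₂) ^ (r - 1) := pow_pos hupos _
  have hPpos := P.pos v
  have hBcpos := Bc.pos v
  -- `|x_k| * u ≤ L₀ P c₀ B^(r-1)`
  have hxk : v (x k) * (u₁ * u₂) ≤ L₀.C v * (P.C v * (c₀ * Bc.C v ^ (r - 1))) := by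
    have h1 : v (x k) * (u₁ ^ r * u₂ ^ r) ≤ v (x k) * (L₀.C v * v M.det) :=
      mul_le_mul_of_nonneg_left ht (v.nonneg _)
    have h2 : v (x k) * (L₀.C v * v M.det) ≤ L₀.C v * (P.C v * (c₀ * R ^ (r - 1))) := by
      calc v (x k) * (L₀.C v * v M.det) = L₀.C v * (v M.det * v (x k)) := by ring
        _ ≤ L₀.C v * (P.C v * (c₀ * R ^ (r - 1))) :=
          mul_le_mul_of_nonneg_left hbound hL₀pos.le
    have h3 := h1.trans h2
    rw [hur, hRr] at h3
    have h4 : v (x k) * (u₁ * u₂) * (u₁ * u₂) ^ (r - 1) ≤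
        L₀.C v * (P.C v * (c₀ * Bc.C v ^ (r - 1))) * (u₁ * u₂) ^ (r - 1) := by
      calc v (x k) * (u₁ * u₂) * (u₁ * u₂) ^ (r - 1) =
            v (x k) * ((u₁ * u₂) ^ (r - 1) * (u₁ * u₂)) := by ring
        _ ≤ L₀.C v * (P.C v * (c₀ * (Bc.C v ^ (r - 1) * (u₁ * u₂) ^ (r - 1)))) := h3
        _ = _ := by ring
    exact le_of_mul_le_mul_right h4 hupow
  -- conclusion
  have hfin : v (x k) * v (spanVec w₁ p (sel k).1 a) * v (spanVec w₂ p' (sel k).2 b) ≤
      v (x k) * (L₁.C v * u₁) * (L₂.C v * u₂) := by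
    refine mul_le_mul (mul_le_mul_of_nonneg_left (hW₁ _ _) (v.nonneg _)) (hW₂ _ _)
      (v.nonneg _) (mul_nonneg (v.nonneg _) (mul_nonneg hL₁pos.le hu₁pos.le))
  refine hfin.trans ?_
  show _ ≤ P.C v * Bc.C v ^ (r - 1) * L₀.C v * (L₁.C v * L₂.C v) * c₀
  calc v (x k) * (L₁.C v * u₁) * (L₂.C v * u₂) =
        (v (x k) * (u₁ * u₂)) * (L₁.C v * L₂.C v) := by ring
    _ ≤ (L₀.C v * (P.C v * (c₀ * Bc.C v ^ (r - 1)))) * (L₁.C v * L₂.C v) :=
      mul_le_mul_of_nonneg_right hxk (mul_nonneg hL₁pos.le hL₂pos.le)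
    _ = _ := by ring

end Main

end Fermat.Agent.S17.H71
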