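import Fermat.Agent.S17.Height.H71_Plk

/-!
# S17, part H: bounded factorisation, linear algebra form

`bf_linear`: let `c` be the structure constants of a bilinear multiplication
`K^α × K^β → K^γ` over an algebraically closed field, and let `𝒮₁`, `𝒮₂` be the families of
subspaces `U ⊆ K^α` (resp. `K^β`) of dimension `r₁` (resp. `r₂`) whose product with the whole
first factor of an auxiliary multiplication has dimension `≤ ρ₁` (resp. `≤ ρ₂`).  If the products
`U · U'` all have dimension `r₃`, then every `F₀ ∈ U · U'` is a sum of `r₃` products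
`f_k · g_k` with `f_k ∈ U`, `g_k ∈ U'` and `‖f_k‖_v ‖g_k‖_v ≤ C_v ‖F₀‖_v` for every absolute
value `v`, where the constants `C_v` do not depend on `U`, `U'` and are `1` for almost all `v`.
-/

set_option autoImplicit false

open MvPolynomial Module

namespace Fermat.Agent.S17.H71

variable {K : Type*} [Field K]

theorem exists_sel_minor_ne_zero {γ σ : Type*} [Fintype γ] [DecidableEq γ] [Finite σ]
    (u : σ → γ → K) (ρ : ℕ) (h : ρ ≤ finrank K (Submodule.span K (Set.range u))) :
    ∃ (sel : Fin ρ → σ) (cols : Fin ρ → γ), minorOf (fun k => u (sel k)) cols ≠ 0 := by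
  rcases ρ with _ | n
  · refine ⟨Fin.elim0, Fin.elim0, ?_⟩
    unfold minorOf
    rw [Matrix.det_isEmpty]
    exact one_ne_zero
  · by_contra hcon
    simp only [not_exists, not_not] at hcon
    have := (finrank_span_le_iff_minors u n).2 hcon
    omega

theorem span_range_coe_basis {M : Type*} [AddCommGroup M] [Module K M] (U : Submodule K M)
    {ι : Type*} (b : Basis ι K U) :
    Submodule.span K (Set.range fun i => (b i : M)) = U := by
  have h1 : (Set.range fun i => (b i : M)) = U.subtype '' Set.range b := by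
    ext z
    constructor
    · rintro ⟨i, rfl⟩
      exact ⟨b i, ⟨i, rfl⟩, rfl⟩
    · rintro ⟨_, ⟨i, rfl⟩, rfl⟩
      exact ⟨i, rfl⟩
  rw [h1, Submodule.span_image, b.span_eq, Submodule.map_subtype_top]

theorem linearIndependent_coe_basis {M : Type*} [AddCommGroup M] [Module K M]
    (U : Submodule K M) {ι : Type*} (b : Basis ι K U) :
    LinearIndependent K fun i => (b i : M) :=
  b.linearIndependent.map' U.subtype (Submodule.ker_subtype U)

section Main

variable [IsAlgClosed K]
variable {α β γ τ₁ τ₂ α' β' : Type*}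
  [Fintype α] [DecidableEq α] [Fintype β] [DecidableEq β] [Fintype γ] [DecidableEq γ]
  [Fintype τ₁] [DecidableEq τ₁] [Fintype τ₂] [DecidableEq τ₂]
  [Fintype α'] [DecidableEq α'] [Fintype β'] [DecidableEq β']

/-- **Bounded factorisation, linear algebra form.** -/
theorem bf_linear (c : α → β → γ → K) (cM₁ : τ₁ → α → α' → K) (cM₂ : τ₂ → β → β' → K)
    (r₁ ρ₁ r₂ ρ₂ r₃ : ℕ)
    (hdim : ∀ (U : Submodule K (α → K)) (U' : Submodule K (β → K)),
      finrank K U = r₁ → finrank K (prodSpan cM₁ ⊤ U) ≤ ρ₁ →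
      finrank K U' = r₂ → finrank K (prodSpan cM₂ ⊤ U') ≤ ρ₂ →
      finrank K (prodSpan c U U') = r₃) :
    ∃ L : LocConst K, ∀ (v : AbsoluteValue K ℝ) (U : Submodule K (α → K))
      (U' : Submodule K (β → K)),
      finrank K U = r₁ → finrank K (prodSpan cM₁ ⊤ U) ≤ ρ₁ →
      finrank K U' = r₂ → finrank K (prodSpan cM₂ ⊤ U') ≤ ρ₂ →
      ∀ F₀ ∈ prodSpan c U U', ∀ c₀ : ℝ, (∀ k, v (F₀ k) ≤ c₀) →
        ∃ (f : Fin r₃ → α → K) (g : Fin r₃ → β → K), (∀ k, f k ∈ U) ∧ (∀ k, g k ∈ U') ∧
          F₀ = ∑ k, prodVec c (f k) (g k) ∧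
          ∀ k a b, v (f k a) * v (g k b) ≤ L.C v * c₀ := by
  classical
  have hY₁ := isClosedCone_plkCone cM₁ r₁ ρ₁
  have hY₂ := isClosedCone_plkCone cM₂ r₂ ρ₂
  obtain ⟨I, hI⟩ := hY₁.prod hY₂
  -- the products of the spanning vectors span the product
  have hprod : ∀ (p : (Fin r₁ → α) → K) (p' : (Fin r₂ → β) → K),
      prodSpan c (plkSpan p) (plkSpan p') =
        Submodule.span K (Set.range (prodAt c (plkW K r₁ α) (plkW K r₂ β) p p')) := by
    intro p p'
    unfold plkSpan
    rw [prodSpan_span_range]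
    rfl
  obtain ⟨L, hL⟩ := bf_abstract I
    (fun p p' hpp a b => by
      rw [hI] at hpp ⊢
      exact ⟨hY₁.2 p hpp.1 a, hY₂.2 p' hpp.2 b⟩)
    (plkW K r₁ α) (plkW K r₂ β) c r₃
    (fun p p' hpp hp hp' => by
      rw [hI] at hpp
      have h1 := finrank_plkSpan_of_mem cM₁ hpp.1 hp
      have h2 := finrank_plkSpan_of_mem cM₂ hpp.2 hp'
      have h3 := hdim (plkSpan p) (plkSpan p') h1 hpp.1.2.2 h2 hpp.2.2.2
      rw [hprod] at h3
      obtain ⟨sel, cols, hsel⟩ := exists_sel_minor_ne_zero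
        (prodAt c (plkW K r₁ α) (plkW K r₂ β) p p') r₃ (le_of_eq h3.symm)
      exact ⟨sel, cols, hsel⟩)
  refine ⟨L, ?_⟩
  intro v U U' hU hUρ hU' hUρ' F₀ hF₀ c₀ hc₀
  -- bases
  let b₁ : Basis (Fin r₁) K U := Module.finBasisOfFinrankEq K U hU
  let b₂ : Basis (Fin r₂) K U' := Module.finBasisOfFinrankEq K U' hU'
  set u : Fin r₁ → α → K := fun i => (b₁ i : α → K) with hu
  set u' : Fin r₂ → β → K := fun i => (b₂ i : β → K) with hu'
  have huli : LinearIndependent K u := linearIndependent_coe_basis U b₁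
  have hu'li : LinearIndependent K u' := linearIndependent_coe_basis U' b₂
  have husp : Submodule.span K (Set.range u) = U := span_range_coe_basis U b₁
  have hu'sp : Submodule.span K (Set.range u') = U' := span_range_coe_basis U' b₂
  set p := plk u with hp
  set p' := plk u' with hp'
  have hpU : plkSpan p = U := by rw [hp, plkSpan_plk u huli, husp]
  have hp'U : plkSpan p' = U' := by rw [hp', plkSpan_plk u' hu'li, hu'sp]
  have hpY : p ∈ plkCone cM₁ r₁ ρ₁ := plk_mem_plkCone cM₁ u huli (by rw [husp]; exact hUρ)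
  have hp'Y : p' ∈ plkCone cM₂ r₂ ρ₂ := plk_mem_plkCone cM₂ u' hu'li (by rw [hu'sp]; exact hUρ')
  obtain ⟨sel, cols, hdet, hbound⟩ := hL v p p' ((hI p p').2 ⟨hpY, hp'Y⟩)
    (plk_ne_zero u huli) (plk_ne_zero u' hu'li)
  set P : Fin r₃ → γ → K := fun k => prodAt c (plkW K r₁ α) (plkW K r₂ β) p p' (sel k) with hP
  have hPli : LinearIndependent K P := linearIndependent_of_minor_ne_zero P cols hdet
  have hPmem : ∀ k, P k ∈ prodSpan c U U' := by
    intro k
    rw [← hpU, ← hp'U, hprod]
    exact Submodule.subset_span ⟨sel k, rfl⟩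
  have hPspan : Submodule.span K (Set.range P) = prodSpan c U U' := by
    refine Submodule.eq_of_le_of_finrank_le (Submodule.span_le.2 ?_) ?_
    · rintro _ ⟨k, rfl⟩
      exact hPmem k
    · rw [hdim U U' hU hUρ hU' hUρ']
      exact le_of_eq (by simpa using (finrank_span_eq_card hPli).symm)
  rw [← hPspan] at hF₀
  obtain ⟨x, hx⟩ := (Submodule.mem_span_range_iff_exists_fun K).1 hF₀
  have hFk : ∀ k, F₀ k = ∑ i, x i * P i k := by
    intro k
    rw [← hx, Finset.sum_apply]
    rfl
  have hb := hbound x c₀ (fun k => by rw [← hFk]; exact hc₀ k)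
  refine ⟨fun k => x k • spanVec (plkW K r₁ α) p (sel k).1,
    fun k => spanVec (plkW K r₂ β) p' (sel k).2, ?_, ?_, ?_, ?_⟩
  · intro k
    rw [← hpU]
    exact Submodule.smul_mem _ _ (Submodule.subset_span ⟨(sel k).1, rfl⟩)
  · intro k
    rw [← hp'U]
    exact Submodule.subset_span ⟨(sel k).2, rfl⟩
  · rw [← hx]
    refine Finset.sum_congr rfl fun k _ => ?_
    have := LinearMap.map_smul₂ (prodBil c) (x k) (spanVec (plkW K r₁ α) p (sel k).1)
      (spanVec (plkW K r₂ β) p' (sel k).2)
    rw [prodBil_apply, prodBil_apply] at this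
    rw [this]
    rfl
  · intro k a b
    have := hb k a b
    show v ((x k • spanVec (plkW K r₁ α) p (sel k).1) a) *
      v (spanVec (plkW K r₂ β) p' (sel k).2 b) ≤ L.C v * c₀
    rw [Pi.smul_apply, smul_eq_mul, map_mul]
    exact this

end Main

end Fermat.Agent.S17.H71
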