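import Fermat.Agent.S17.Height.H71_MPH
import Mathlib.LinearAlgebra.Matrix.Determinant.Basic

/-!
# S17, part H: elementary local bounds with uniform constants

Sums, linear forms and determinants over a field with an absolute value `v`, with constants
given by `LocConst` families (equal to `1` at the good nonarchimedean absolute values).
-/

set_option autoImplicit false

namespace Fermat.Agent.S17.H71

variable {K : Type*} [Field K]

namespace LocConst

/-- The constant for a sum of `N` terms: `1` if `v` is nonarchimedean, `max 1 N` otherwise. -/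
noncomputable def card (K : Type*) [Field K] (N : ℕ) : LocConst K :=
  ofFinset ∅ fun _ => (N : ℝ)

/-- The constant bounding finitely many elements: `1` at the good absolute values. -/
noncomputable def elems (T : Finset K) : LocConst K :=
  ofFinset T fun v => ∑ c ∈ T, v c

open Classical in
theorem card_eq_one (N : ℕ) (v : AbsoluteValue K ℝ) (hv : IsNonarchimedean v) :
    (card K N).C v = 1 :=
  (card K N).eq_one v hv (by simp [card, ofFinset])

open Classical in
theorem le_card (N : ℕ) (v : AbsoluteValue K ℝ) (hv : ¬ IsNonarchimedean v) :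
    (N : ℝ) ≤ (card K N).C v :=
  ofFinset_le ∅ (fun _ => (N : ℝ)) v fun h => hv h.1

open Classical in
theorem abv_le_elems (T : Finset K) (v : AbsoluteValue K ℝ) {c : K} (hc : c ∈ T) :
    v c ≤ (elems T).C v := by
  by_cases h : IsNonarchimedean v ∧ ∀ c ∈ T, v c ≤ 1
  · rw [(elems T).eq_one v h.1 h.2]
    exact h.2 c hc
  · refine le_trans ?_ (ofFinset_le T (fun v => ∑ c ∈ T, v c) v h)
    exact Finset.single_le_sum (f := fun c => v c) (fun c _ => v.nonneg c) hc

end LocConst

/-- Bound for a finite sum. -/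
theorem abv_sum_le_card {σ : Type*} (v : AbsoluteValue K ℝ) (s : Finset σ) (a : σ → K) (N : ℕ)
    (hN : s.card ≤ N) (B : ℝ) (hB : 0 ≤ B) (h : ∀ i ∈ s, v (a i) ≤ B) :
    v (∑ i ∈ s, a i) ≤ (LocConst.card K N).C v * B := by
  by_cases hv : IsNonarchimedean v
  · rw [LocConst.card_eq_one N v hv, one_mul]
    rcases s.eq_empty_or_nonempty with hs | hs
    · rw [hs, Finset.sum_empty, map_zero]
      exact hB
    · obtain ⟨i, hi, hle⟩ := IsNonarchimedean.finset_image_add_of_nonempty hv a hs
      exact hle.trans (h i hi)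
  · calc v (∑ i ∈ s, a i) ≤ ∑ i ∈ s, v (a i) := v.sum_le _ _
      _ ≤ ∑ _i ∈ s, B := Finset.sum_le_sum h
      _ = s.card * B := by rw [Finset.sum_const, nsmul_eq_mul]
      _ ≤ N * B := by
        refine mul_le_mul_of_nonneg_right ?_ hB
        exact_mod_cast hN
      _ ≤ (LocConst.card K N).C v * B :=
        mul_le_mul_of_nonneg_right (LocConst.le_card N v hv) hB

/-- Bound for a finite sum over a `Fintype`. -/
theorem abv_sum_univ_le_card {σ : Type*} [Fintype σ] (v : AbsoluteValue K ℝ) (a : σ → K)
    (B : ℝ) (hB : 0 ≤ B) (h : ∀ i, v (a i) ≤ B) :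
    v (∑ i, a i) ≤ (LocConst.card K (Fintype.card σ)).C v * B :=
  abv_sum_le_card v Finset.univ a _ le_rfl B hB fun i _ => h i

/-- Bound for a determinant whose rows are bounded by `R i`. -/
theorem abv_det_le {n : Type*} [Fintype n] [DecidableEq n] (v : AbsoluteValue K ℝ)
    (A : Matrix n n K) (R : n → ℝ) (hR : ∀ i, 0 ≤ R i) (h : ∀ i j, v (A i j) ≤ R i) :
    v A.det ≤ (LocConst.card K (Fintype.card (Equiv.Perm n))).C v * ∏ i, R i := by
  rw [Matrix.det_apply']
  refine abv_sum_univ_le_card v _ _ (Finset.prod_nonneg fun i _ => hR i) fun σ => ?_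
  rw [v.map_mul, v.map_prod]
  have hsign : v ((Equiv.Perm.sign σ : ℤ) : K) = 1 := by
    rcases Int.units_eq_one_or (Equiv.Perm.sign σ) with h1 | h1 <;> simp [h1]
  rw [hsign, one_mul]
  calc ∏ i, v (A (σ i) i) ≤ ∏ i, R (σ i) :=
        Finset.prod_le_prod (fun i _ => v.nonneg _) fun i _ => h (σ i) i
    _ = ∏ i, R i := Equiv.prod_comp σ R

end Fermat.Agent.S17.H71
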