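import Fermat.Agent.S17.Height.H71_Minor

/-!
# S17, part H: closed cones cut out by rank conditions, and products of closed cones

* `rankLocus_isClosedCone`: for a family of vectors depending linearly on the parameter `p`,
  the set of parameters at which the family has rank `≤ ρ` is a closed cone;
* `IsClosedCone.prod`: the product of two closed cones is the zero locus of an ideal in the
  variables `π₁ ⊕ π₂`, stable under the two scalings.
-/

set_option autoImplicit false

open MvPolynomial Module

namespace Fermat.Agent.S17.H71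

variable {K : Type*} [Field K]

section RankLocus

variable {π σ α : Type*} [Fintype π] [Fintype α] [DecidableEq α]

/-- The polynomial whose vanishing says that a given minor of the linear family vanishes. -/
noncomputable def rankPoly (lin : σ → α → π → K) (ρ : ℕ)
    (t : (Fin (ρ + 1) → σ) × (Fin (ρ + 1) → α)) : MvPolynomial π K :=
  (Matrix.of fun k l => ∑ q, C (lin (t.1 k) (t.2 l) q) * X q).det

theorem eval_rankPoly (lin : σ → α → π → K) (ρ : ℕ)
    (t : (Fin (ρ + 1) → σ) × (Fin (ρ + 1) → α)) (p : π → K) :
    eval p (rankPoly lin ρ t) = minorOf (fun k => spanVec lin p (t.1 k)) t.2 := by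
  unfold rankPoly minorOf
  rw [RingHom.map_det]
  congr 1
  ext k l
  simp [spanVec, Matrix.of_apply]

theorem spanVec_smul' (lin : σ → α → π → K) (p : π → K) (s : K) (i : σ) :
    spanVec lin (s • p) i = s • spanVec lin p i := by
  funext a
  rw [spanVec_smul]
  rfl

/-- The rank locus of a linear family is a closed cone. -/
theorem rankLocus_isClosedCone [Finite σ] (lin : σ → α → π → K) (ρ : ℕ) :
    IsClosedCone {p : π → K |
      finrank K (Submodule.span K (Set.range (spanVec lin p))) ≤ ρ} := by
  have hset : {p : π → K | finrank K (Submodule.span K (Set.range (spanVec lin p))) ≤ ρ} =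
      {p : π → K | ∀ t, eval p (rankPoly lin ρ t) = 0} := by
    ext p
    simp only [Set.mem_setOf_eq]
    rw [finrank_span_le_iff_minors]
    constructor
    · intro h t
      rw [eval_rankPoly]
      exact h t.1 t.2
    · intro h sel cols
      have := h (sel, cols)
      rw [eval_rankPoly] at this
      exact this
  refine ⟨?_, ?_⟩
  · rw [hset]
    exact (isClosedCone_of_family (rankPoly lin ρ) (fun t p a h => by
      rw [eval_rankPoly] at h ⊢
      have : (fun k => spanVec lin (a • p) (t.1 k)) = fun k => a • spanVec lin p (t.1 k) := by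
        funext k
        exact spanVec_smul' lin p a (t.1 k)
      rw [this]
      unfold minorOf at h ⊢
      have h2 : (Matrix.of fun i j => (a • spanVec lin p (t.1 i)) (t.2 j)) =
          a • (Matrix.of fun i j => spanVec lin p (t.1 i) (t.2 j)) := by
        ext i j
        rfl
      rw [h2, Matrix.det_smul, h, mul_zero])).1
  · intro p hp a
    simp only [Set.mem_setOf_eq] at hp ⊢
    refine le_trans (Submodule.finrank_mono ?_) hp
    refine Submodule.span_le.2 ?_
    rintro _ ⟨i, rfl⟩
    rw [spanVec_smul']
    exact Submodule.smul_mem _ _ (Submodule.subset_span ⟨i, rfl⟩)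

/-- The locus where given coordinates vanish is a closed cone. -/
theorem coordLocus_isClosedCone (S : Set π) :
    IsClosedCone {p : π → K | ∀ q ∈ S, p q = 0} := by
  have hset : {p : π → K | ∀ q ∈ S, p q = 0} =
      {p : π → K | ∀ t : S, eval p (X (t : π) : MvPolynomial π K) = 0} := by
    ext p
    simp only [Set.mem_setOf_eq, eval_X]
    exact ⟨fun h t => h t t.2, fun h q hq => h ⟨q, hq⟩⟩
  rw [hset]
  exact isClosedCone_of_family (fun t : S => (X (t : π) : MvPolynomial π K))
    (fun t p a h => by
      simp only [eval_X] at h ⊢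
      rw [Pi.smul_apply, h, smul_zero])

end RankLocus

section Prod

variable {π₁ π₂ : Type*}

/-- The product of two closed cones is the zero locus of an ideal in `π₁ ⊕ π₂`. -/
theorem IsClosedCone.prod {Y₁ : Set (π₁ → K)} {Y₂ : Set (π₂ → K)} (h₁ : IsClosedCone Y₁)
    (h₂ : IsClosedCone Y₂) :
    ∃ I : Ideal (MvPolynomial (π₁ ⊕ π₂) K),
      (∀ (p : π₁ → K) (p' : π₂ → K), Sum.elim p p' ∈ zeroLocus K I ↔ p ∈ Y₁ ∧ p' ∈ Y₂) := by
  obtain ⟨⟨I₁, hI₁⟩, -⟩ := h₁
  obtain ⟨⟨I₂, hI₂⟩, -⟩ := h₂
  refine ⟨Ideal.span ((rename Sum.inl) '' (I₁ : Set (MvPolynomial π₁ K)) ∪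
    (rename Sum.inr) '' (I₂ : Set (MvPolynomial π₂ K))), ?_⟩
  intro p p'
  rw [zeroLocus_span_eq, hI₁, hI₂]
  simp only [Set.mem_setOf_eq, Set.mem_union, Set.mem_image, SetLike.mem_coe]
  constructor
  · intro h
    refine ⟨fun f hf => ?_, fun f hf => ?_⟩
    · have := h (rename Sum.inl f) (Or.inl ⟨f, hf, rfl⟩)
      rw [eval_rename] at this
      simpa using this
    · have := h (rename Sum.inr f) (Or.inr ⟨f, hf, rfl⟩)
      rw [eval_rename] at this
      simpa using this
  · rintro ⟨h1, h2⟩ f (⟨g, hg, rfl⟩ | ⟨g, hg, rfl⟩)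
    · rw [eval_rename]
      simpa using h1 g hg
    · rw [eval_rename]
      simpa using h2 g hg

end Prod

end Fermat.Agent.S17.H71
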