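import Fermat.Agent.S17.Height.H71_LOC
import Fermat.Agent.S17.Height.H71_Eval

/-!
# S17, part H: the local package for evaluations and leading coefficients

* `unif P`: a uniformiser at `P`; `evL P hP D : L D →ₗ[K] K` the leading-coefficient form of
  `L(D)` at `P` (the evaluation at `P` if `D P = 0`).
* `la_geo_jet`: two-level (LA) for the forms `evL Q` (any place `Q` of degree one; mixed levels).
* `la_one_jet`: one-level (LA) for the forms `evL Q`.
* `mem_L_sub_sum_iff`: for a finite set `S` of places with `D P = 0` on `S`,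
  `f ∈ L(D - ∑_{P ∈ S} P) ↔ f ∈ L(D) ∧ ∀ P ∈ S, evAt P f = 0`.
* `mem_coordSub_sub_sum_iff`: the same in coordinates:
  `W(S) = ⋂_{P ∈ S} ker (formVec e (evL P))`.
* `smul_mem_L_iff`: `L(D)` is stable under a semilinear automorphism fixing `D`.
-/

set_option autoImplicit false

noncomputable section

open AlgebraicCurve Module Matrix

namespace Fermat.Agent.S17.H71

open Fermat.Agent.S17.H16 Fermat.Agent.S17.H35 Fermat.Agent.RED.H42 Fermat.Agent.RED.H17

local notation "L" => riemannRochSpace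

local notation "deg" => Divisor.degree

section Unif

variable {K F : Type*} [Field K] [Field F] [Algebra K F]

/-- A uniformiser at `P`. -/
def unif (P : Place K F) : F :=
  ((IsDiscreteValuationRing.exists_irreducible P.toValuationSubring).choose :
    P.toValuationSubring)

theorem ord_unif (P : Place K F) : P.ord (unif P) = 1 :=
  P.ord_coe_irreducible (IsDiscreteValuationRing.exists_irreducible P.toValuationSubring).choose_spec

/-- The leading-coefficient form of `L(D)` at `P` (the evaluation at `P` if `D P = 0`). -/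
def evL (P : Place K F) (hP : P.deg = 1) (D : Divisor K F) : L D →ₗ[K] K :=
  jetL P hP (unif P) (ord_unif P) D

theorem evL_eq_evAt (P : Place K F) (hP : P.deg = 1) {D : Divisor K F} (hD : D P = 0)
    (f : L D) : evL P hP D f = evAt P (f : F) :=
  jetL_eq_evAt P hP _ _ hD f

theorem evL_mul (P : Place K F) (hP : P.deg = 1) (D₁ D₂ : Divisor K F) (f : L D₁) (k : L D₂) :
    evL P hP (D₁ + D₂) ⟨(f : F) * (k : F), mul_mem_L_add f.2 k.2⟩ =
      evL P hP D₁ f * evL P hP D₂ k :=
  jetL_mul P hP _ _ D₁ D₂ f k _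

theorem evL_eq_zero_iff (P : Place K F) (hP : P.deg = 1) (D : Divisor K F) (f : L D) :
    evL P hP D f = 0 ↔ (f : F) ∈ L (D - Finsupp.single P 1) :=
  jetL_eq_zero_iff P hP _ _ D f

/-- `f ∈ L(D - ∑_{P ∈ S} P)` iff `f ∈ L(D)` vanishes at all points of `S` (where `D` is `0` on
`S`). -/
theorem mem_L_sub_sum_iff (hdeg : ∀ v : Place K F, v.deg = 1) (D : Divisor K F)
    (S : Finset (Place K F)) (hS : ∀ P ∈ S, D P = 0) (f : F) :
    f ∈ L (D - ∑ P ∈ S, Finsupp.single P (1 : ℤ)) ↔ f ∈ L D ∧ ∀ P ∈ S, evAt P f = 0 := by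
  classical
  have hE : ∀ v : Place K F, (∑ P ∈ S, Finsupp.single P (1 : ℤ)) v = if v ∈ S then 1 else 0 := by
    intro v
    rw [Finsupp.finset_sum_apply]
    simp only [Finsupp.single_apply]
    rw [Finset.sum_ite_eq' S v]
  by_cases hf0 : f = 0
  · subst hf0
    simp
  rw [mem_riemannRochSpace_iff, mem_riemannRochSpace_iff]
  constructor
  · intro h
    have hD : ∀ v : Place K F, f = 0 ∨ -D v ≤ v.ord f := by
      intro v
      right
      have := (h v).resolve_left hf0
      rw [Finsupp.sub_apply, hE] at this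
      split_ifs at this <;> omega
    refine ⟨hD, fun P hP => ?_⟩
    have hreg : RegAt P f := by
      rw [regAt_iff_ord]
      right
      have := (hD P).resolve_left hf0
      rw [hS P hP] at this
      omega
    rw [evAt_eq_zero_iff (hdeg P) hreg, vanAt_iff_ord]
    right
    have := (h P).resolve_left hf0
    rw [Finsupp.sub_apply, hE, if_pos hP, hS P hP] at this
    omega
  · rintro ⟨hD, hev⟩ v
    right
    rw [Finsupp.sub_apply, hE]
    have h1 := (hD v).resolve_left hf0
    split_ifs with hv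
    · have hreg : RegAt v f := by
        rw [regAt_iff_ord]
        right
        rw [hS v hv] at h1
        omega
      have := (evAt_eq_zero_iff (hdeg v) hreg).1 (hev v hv)
      rw [vanAt_iff_ord] at this
      have := this.resolve_left hf0
      rw [hS v hv]
      omega
    · omega

/-- `L(D)` is stable under a semilinear automorphism fixing `D`. -/
theorem smul_mem_L_iff (g : SemilinearAut K F) {D : Divisor K F} (hD : g • D = D) (f : F) :
    g • f ∈ L D ↔ f ∈ L D := by
  constructor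
  · intro h
    have h1 := smul_mem_L g⁻¹ h
    rw [inv_smul_smul] at h1
    have h2 : g⁻¹ • D = D := by
      conv_lhs => rw [← hD]
      exact inv_smul_smul g D
    rwa [h2] at h1
  · intro h
    have := smul_mem_L g h
    rwa [hD] at this

end Unif

section Coord

variable {K F : Type} [Field K] [Field F] [Algebra K F]
variable {α : Type*} [Fintype α]

/-- In coordinates: `W(S) = ⋂_{P ∈ S} ker (ev P)`. -/
theorem mem_coordSub_sub_sum_iff (hdeg : ∀ v : Place K F, v.deg = 1) (D : Divisor K F)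
    (e : Basis α K (L D)) (S : Finset (Place K F)) (hS : ∀ P ∈ S, D P = 0) (x : α → K) :
    x ∈ coordSub e (L (D - ∑ P ∈ S, Finsupp.single P (1 : ℤ))) ↔
      ∀ P ∈ S, formVec e (evL P (hdeg P) D) ⬝ᵥ x = 0 := by
  rw [mem_coordSub, mem_L_sub_sum_iff hdeg D S hS]
  have hx : coordMap e x = ((e.equivFun.symm x : L D) : F) := rfl
  constructor
  · rintro ⟨-, h⟩ P hP
    rw [formVec_dotProduct, evL_eq_evAt P (hdeg P) (hS P hP), ← hx]
    exact h P hP
  · intro h
    refine ⟨coordMap_mem e x, fun P hP => ?_⟩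
    have := h P hP
    rwa [formVec_dotProduct, evL_eq_evAt P (hdeg P) (hS P hP), ← hx] at this

end Coord

section LA

variable {K F : Type} [Field K] [Field F] [Algebra K F]
variable {g : ℕ} {c : ℤ} (hG : Geo K F g c) [IsAlgClosed K]
variable {α β γ : Type*} [Fintype α] [Fintype β] [Fintype γ]

include hG

/-- **(LA), two-level form, for evaluations / leading coefficients** at any place `Q` of
degree one. -/
theorem la_geo_jet (D₁ D₂ : Divisor K F) (a b : ℕ) (h1 : c + g + a + 1 ≤ deg D₁)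
    (h2 : c + deg D₁ + b ≤ deg D₂ + a)
    (e₁ : Basis α K (L D₁)) (e₂ : Basis β K (L D₂)) (e₃ : Basis γ K (L (D₁ + D₂))) :
    ∃ Lc : LocConst K, ∀ (v : AbsoluteValue K ℝ) (Q : Place K F) (hQ : Q.deg = 1)
      (A B : Divisor K F), 0 ≤ A → deg A = a → 0 ≤ B → deg B = b →
        opNorm v (formVec e₃ (evL Q hQ (D₁ + D₂))) (coordSub e₃ (L (D₁ + D₂ - (A + B)))) ≤
          Lc.C v * (opNorm v (formVec e₁ (evL Q hQ D₁)) (coordSub e₁ (L (D₁ - A))) *
            opNorm v (formVec e₂ (evL Q hQ D₂)) (coordSub e₂ (L (D₂ - B)))) ∧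
        opNorm v (formVec e₁ (evL Q hQ D₁)) (coordSub e₁ (L (D₁ - A))) *
            opNorm v (formVec e₂ (evL Q hQ D₂)) (coordSub e₂ (L (D₂ - B))) ≤
          Lc.C v * opNorm v (formVec e₃ (evL Q hQ (D₁ + D₂)))
            (coordSub e₃ (L (D₁ + D₂ - (A + B)))) := by
  obtain ⟨Lc, hLc⟩ := la_geo hG D₁ D₂ a b h1 h2 e₁ e₂ e₃
  refine ⟨Lc, fun v Q hQ A B hA hdA hB hdB => ?_⟩
  exact hLc v _ _ _ (formVec_mul e₁ e₂ e₃ (L_mul_le D₁ D₂) _ _ _
    (fun f k => evL_mul Q hQ D₁ D₂ f k)) A B hA hdA hB hdB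

/-- **(LA), one-level form, for evaluations / leading coefficients** at any place `Q` of degree
one at which `L(E)` has a section with nonzero leading coefficient. -/
theorem la_one_jet (D₀ E : Divisor K F) (a b : ℕ) (h1 : c + g + a + b + 1 ≤ deg D₀)
    (h2 : c + deg D₀ ≤ deg E) (e₀ : Basis α K (L D₀)) :
    ∃ Lc : LocConst K, ∀ (v : AbsoluteValue K ℝ) (Q : Place K F) (hQ : Q.deg = 1),
      evL Q hQ E ≠ 0 →
      ∀ A B : Divisor K F, 0 ≤ A → deg A = a → 0 ≤ B → deg B = b →
        opNorm v (formVec e₀ (evL Q hQ D₀)) (coordSub e₀ (L (D₀ - (A + B)))) *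
            opNorm v (formVec e₀ (evL Q hQ D₀)) ⊤ ≤
          Lc.C v * (opNorm v (formVec e₀ (evL Q hQ D₀)) (coordSub e₀ (L (D₀ - A))) *
            opNorm v (formVec e₀ (evL Q hQ D₀)) (coordSub e₀ (L (D₀ - B)))) ∧
        opNorm v (formVec e₀ (evL Q hQ D₀)) (coordSub e₀ (L (D₀ - A))) *
            opNorm v (formVec e₀ (evL Q hQ D₀)) (coordSub e₀ (L (D₀ - B))) ≤
          Lc.C v * (opNorm v (formVec e₀ (evL Q hQ D₀)) (coordSub e₀ (L (D₀ - (A + B)))) *
            opNorm v (formVec e₀ (evL Q hQ D₀)) ⊤) := by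
  obtain ⟨Lc, hLc⟩ := la_one hG D₀ E a b h1 h2 e₀
  refine ⟨Lc, fun v Q hQ hE A B hA hdA hB hdB => ?_⟩
  exact hLc v (evL Q hQ D₀) (evL Q hQ E) (evL Q hQ (D₀ + E)) (evL Q hQ (D₀ + (D₀ + E)))
    (fun f k => evL_mul Q hQ D₀ E f k) (fun f k => evL_mul Q hQ D₀ (D₀ + E) f k) hE
    A B hA hdA hB hdB

end LA

end Fermat.Agent.S17.H71
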