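import Fermat.Agent.S17.Height.H71_FinMult
import Fermat.Agent.S17.Height.H71_LocJet

/-!
# S17 part H (helper71): the evaluation fields of the matrix system

For the data of `H35_GeoData`: the fields `ev_gal`, `W_red`, `ev_indep` and `la_ev` of `MatSys`.

* `sumPt S`: the reduced divisor with support `S`;
* `kerPts_evVec`: the common kernel of the evaluations at `S` is the coordinate space of
  `L(m∞ - ∑_{P ∈ S} P)`;
* `fin_ev_gal`, `fin_W_red`, `fin_ev_indep`, `fin_la_ev`.
-/

set_option autoImplicit false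

noncomputable section

open ModularCurve AlgebraicCurve Matrix Module

namespace Fermat.Agent.S17.H71F

open Fermat.Agent.RED.H42 Fermat.Agent.S17 Fermat.Agent.RED.KD.H22 Fermat.Agent.S24
open Fermat.Agent.S17.H71 Fermat.Agent.S17.H35 Fermat.Agent.S17.H16 Fermat.Agent.RED.H17

local notation "L" => riemannRochSpace

variable {N : ℕ} [NeZero N]

/-! ## Reduced divisors -/

/-- The reduced divisor with support `S`. -/
def sumPt (S : Finset (Pt N)) : Divisor Kbar (FN N) := ∑ P ∈ S, Finsupp.single P.1 (1 : ℤ)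

theorem sumPt_eq_sum_map (S : Finset (Pt N)) :
    sumPt S = ∑ P ∈ S.map (Function.Embedding.subtype _), Finsupp.single P (1 : ℤ) := by
  rw [Finset.sum_map]
  rfl

theorem sumPt_nonneg (S : Finset (Pt N)) : 0 ≤ sumPt S := by
  classical
  unfold sumPt
  refine Finset.sum_nonneg fun P _ => ?_
  rw [Finsupp.le_def]
  intro v
  rw [Finsupp.single_apply]
  split_ifs <;> simp

theorem degree_sumPt (S : Finset (Pt N)) : Divisor.degree (sumPt S) = S.card := by
  unfold sumPt
  rw [map_sum]
  rw [Finset.sum_congr rfl (fun P _ => by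
    rw [Divisor.degree_single, (hypMod N).deg_one P.1])]
  simp

theorem sumPt_union {S S' : Finset (Pt N)} (h : Disjoint S S') :
    sumPt (S ∪ S') = sumPt S + sumPt S' := by
  unfold sumPt
  exact Finset.sum_union h

theorem sumPt_apply (S : Finset (Pt N)) (P : Pt N) :
    sumPt S P.1 = if P ∈ S then 1 else 0 := by
  classical
  unfold sumPt
  rw [Finset.sum_apply']
  split_ifs with h
  · rw [Finset.sum_eq_single_of_mem P h]
    · rw [Finsupp.single_eq_same]
    · intro Q _ hQ
      rw [Finsupp.single_apply, if_neg]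
      exact fun hh => hQ (Subtype.ext hh)
  · refine Finset.sum_eq_zero fun Q hQ => ?_
    rw [Finsupp.single_apply, if_neg]
    intro hh
    exact h (by rwa [← Subtype.ext hh])

theorem sumPt_apply_cusp (S : Finset (Pt N)) : sumPt S (cuspInf N) = 0 := by
  classical
  unfold sumPt
  rw [Finset.sum_apply']
  refine Finset.sum_eq_zero fun Q _ => ?_
  rw [Finsupp.single_apply, if_neg Q.2]

/-- A reduced divisor is the sum of the points of its support. -/
theorem coe_eq_sumPt {D : Dv N} (hD : DvRed D) : D.1 = sumPt (dvSupp D) := by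
  classical
  ext v
  by_cases hv : v = cuspInf N
  · rw [hv, D.apply_cusp, sumPt_apply_cusp]
  · have h1 := sumPt_apply (dvSupp D) ⟨v, hv⟩
    rw [h1]
    have h2 := hD v
    have h3 := D.apply_nonneg v
    split_ifs with h
    · rw [mem_dvSupp] at h
      have : D.1 v ≠ 0 := h
      omega
    · rw [mem_dvSupp, not_not] at h
      exact h

/-! ## The evaluation vectors -/

variable (N)

theorem degree_mInf (m : ℕ) : Divisor.degree (mInf N m) = m := by
  rw [mInf_eq, Divisor.degree_single, (hypMod N).deg_one]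
  simp

theorem mInf_apply_of_ne (m : ℕ) {v : Place Kbar (FN N)} (hv : v ≠ cuspInf N) :
    mInf N m v = 0 :=
  (ratCtxMod N).kP_apply_of_ne _ hv

variable {N}

theorem regAt_of_mem_mInf {m : ℕ} {f : FN N} (hf : f ∈ L (mInf N m)) (P : Pt N) :
    RegAt P.1 f := by
  rw [regAt_iff_ord]
  by_cases hf0 : f = 0
  · exact Or.inl hf0
  · right
    have := neg_le_ord_of_mem hf hf0 P.1
    rw [mInf_apply_of_ne N m P.2] at this
    omega

theorem evVec_eq_formVec (m : ℕ) (P : Pt N) :
    evVec m P = formVec (eLev N m) (evL P.1 ((hypMod N).deg_one P.1) (mInf N m)) := by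
  funext i
  unfold formVec
  rw [evL_eq_evAt _ _ (mInf_apply_of_ne N m P.2), eLev_apply]
  rfl

/-- The common kernel of the evaluations at the points of `S` is the coordinate space of
`L(m∞ - ∑_{P ∈ S} P)`. -/
theorem kerPts_evVec (m : ℕ) (S : Finset (Pt N)) :
    kerPts (evVec m) S = coordSub (eLev N m) (L (mInf N m - sumPt S)) := by
  classical
  ext x
  rw [sumPt_eq_sum_map, mem_coordSub_sub_sum_iff (hypMod N).deg_one (mInf N m) (eLev N m)
    (S.map (Function.Embedding.subtype _)) (fun P hP => by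
      rw [Finset.mem_map] at hP
      obtain ⟨Q, -, rfl⟩ := hP
      exact mInf_apply_of_ne N m Q.2), mem_kerPts]
  constructor
  · intro h P hP
    rw [Finset.mem_map] at hP
    obtain ⟨Q, hQ, rfl⟩ := hP
    have := h Q hQ
    rwa [evVec_eq_formVec] at this
  · intro h Q hQ
    rw [evVec_eq_formVec]
    exact h Q.1 (Finset.mem_map_of_mem _ hQ)

/-- **The field `ev_gal`.** -/
theorem fin_ev_gal (m : ℕ) (σ : GQ) (P : Pt N) (i : Fin (nLev N m)) :
    evVec m (ptGal σ P) i = σ (evVec m P i) := by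
  show evAt (galN N σ • P.1) (eFun N i) = σ (evAt P.1 (eFun N i))
  have h1 := evAt_smul_place ((hypMod N).deg_one P.1) (galN N σ)
    (regAt_of_mem_mInf (eFun_mem N m i) P)
  rw [eFun_fixed N i σ] at h1
  rw [h1]
  rfl

/-- **The field `W_red`.** -/
theorem fin_W_red (m : ℕ) (D : Dv N) (hD : DvRed D) :
    Wlev N m D = kerPts (evVec m) (dvSupp D) := by
  rw [kerPts_evVec, ← coe_eq_sumPt hD]
  rfl

variable (N)

theorem finrank_L_mInf_sub (m : ℕ) (A : Divisor Kbar (FN N)) (a : ℕ)
    (hdA : Divisor.degree A = a) (h : cRie N + a ≤ m) :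
    finrank Kbar (L (mInf N m - A)) + genusN N + a = m + 1 := by
  have h1 := (geoN N).riemann (mInf N m - A) (by rw [map_sub, degree_mInf, hdA]; omega)
  rw [map_sub, degree_mInf, hdA] at h1
  omega

theorem nLev_add_genus (m : ℕ) (h : cRie N ≤ m) : nLev N m + genusN N = m + 1 := by
  have h1 := finrank_L_mInf_sub N m 0 0 (by simp) (by simpa using h)
  rw [sub_zero, finrank_L_mInf] at h1
  omega

variable {N}

/-- **The field `ev_indep`.** -/
theorem fin_ev_indep (c₀ m : ℕ) (hc : cRie N ≤ c₀) (S : Finset (Pt N)) (hS : S.card + c₀ ≤ m) :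
    finrank Kbar (kerPts (evVec m) S) + S.card = nLev N m := by
  rw [kerPts_evVec, finrank_coordSub _ (L_sub_le (sumPt_nonneg S))]
  have h1 := finrank_L_mInf_sub N m (sumPt S) S.card (degree_sumPt S) (by omega)
  have h2 := nLev_add_genus N m (by omega)
  omega

/-- **The field `la_ev`.** -/
theorem fin_la_ev (c₀ m₀ : ℕ) (hc : cRie N + genusN N ≤ c₀) :
    ∃ Lc : LocConst Qbar, ∀ (w : PlaceQ) (S S' : Finset (Pt N)) (Q : Pt N),
      Disjoint S S' → Q ∉ S → Q ∉ S' → (S ∪ S').card + 1 + c₀ ≤ m₀ →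
      opNorm (absQ w) (evVec m₀ Q) (kerPts (evVec m₀) (S ∪ S')) *
          opNorm (absQ w) (evVec m₀ Q) ⊤ ≤
        Lc.C (absQ w) * (opNorm (absQ w) (evVec m₀ Q) (kerPts (evVec m₀) S) *
          opNorm (absQ w) (evVec m₀ Q) (kerPts (evVec m₀) S')) ∧
      opNorm (absQ w) (evVec m₀ Q) (kerPts (evVec m₀) S) *
          opNorm (absQ w) (evVec m₀ Q) (kerPts (evVec m₀) S') ≤
        Lc.C (absQ w) * (opNorm (absQ w) (evVec m₀ Q) (kerPts (evVec m₀) (S ∪ S')) *
          opNorm (absQ w) (evVec m₀ Q) ⊤) := by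
  classical
  have hcn := (geoN N).c_nonneg
  obtain ⟨e, he⟩ : ∃ e : ℕ, cRie N + m₀ ≤ e := ⟨(cRie N).toNat + m₀, by
    push_cast
    rw [Int.toNat_of_nonneg hcn]⟩
  have hex : ∀ ab : ℕ × ℕ, ∃ Lc : LocConst Kbar, cRie N + genusN N + ab.1 + ab.2 + 1 ≤ m₀ →
      ∀ (v : AbsoluteValue Kbar ℝ) (Q : Place Kbar (FN N)) (hQ : Q.deg = 1),
      evL Q hQ (mInf N e) ≠ 0 →
      ∀ A B : Divisor Kbar (FN N), 0 ≤ A → Divisor.degree A = ab.1 → 0 ≤ B →
        Divisor.degree B = ab.2 →
        opNorm v (formVec (eLev N m₀) (evL Q hQ (mInf N m₀)))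
            (coordSub (eLev N m₀) (L (mInf N m₀ - (A + B)))) *
            opNorm v (formVec (eLev N m₀) (evL Q hQ (mInf N m₀))) ⊤ ≤
          Lc.C v * (opNorm v (formVec (eLev N m₀) (evL Q hQ (mInf N m₀)))
              (coordSub (eLev N m₀) (L (mInf N m₀ - A))) *
            opNorm v (formVec (eLev N m₀) (evL Q hQ (mInf N m₀)))
              (coordSub (eLev N m₀) (L (mInf N m₀ - B)))) ∧
        opNorm v (formVec (eLev N m₀) (evL Q hQ (mInf N m₀)))
              (coordSub (eLev N m₀) (L (mInf N m₀ - A))) *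
            opNorm v (formVec (eLev N m₀) (evL Q hQ (mInf N m₀)))
              (coordSub (eLev N m₀) (L (mInf N m₀ - B))) ≤
          Lc.C v * (opNorm v (formVec (eLev N m₀) (evL Q hQ (mInf N m₀)))
              (coordSub (eLev N m₀) (L (mInf N m₀ - (A + B)))) *
            opNorm v (formVec (eLev N m₀) (evL Q hQ (mInf N m₀))) ⊤) := by
    intro ab
    by_cases hab : cRie N + genusN N + ab.1 + ab.2 + 1 ≤ m₀
    · obtain ⟨Lc, hLc⟩ := la_one_jet (geoN N) (mInf N m₀) (mInf N e) ab.1 ab.2
        (by rw [degree_mInf]; exact hab) (by rw [degree_mInf, degree_mInf]; exact he)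
        (eLev N m₀)
      exact ⟨Lc, fun _ => hLc⟩
    · exact ⟨LocConst.one _, fun h => absurd h hab⟩
  choose Lf hLf using hex
  obtain ⟨Lc, hLc⟩ := locConst_exists_le
    (Finset.range (m₀ + 1) ×ˢ Finset.range (m₀ + 1)) Lf
  refine ⟨Lc, fun w S S' Q hdisj _ _ hcard => ?_⟩
  have hcard' : (S ∪ S').card = S.card + S'.card := Finset.card_union_of_disjoint hdisj
  have hmem : (S.card, S'.card) ∈ Finset.range (m₀ + 1) ×ˢ Finset.range (m₀ + 1) := by
    rw [Finset.mem_product, Finset.mem_range, Finset.mem_range]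
    constructor <;> omega
  have hle := hLc _ hmem (absQ w)
  have hE : evL Q.1 ((hypMod N).deg_one Q.1) (mInf N e) ≠ 0 := by
    intro h0
    have h1 : (1 : FN N) ∈ L (mInf N e) := by
      apply mem_L_of_neg_le_ord
      intro v
      rw [Place.ord_one]
      by_cases hv : v = cuspInf N
      · rw [hv]
        have : mInf N e (cuspInf N) = e := (ratCtxMod N).kP_apply_self _
        rw [this]
        omega
      · rw [mInf_apply_of_ne N e hv]
        simp
    have h2 := congrArg (fun φ => φ ⟨1, h1⟩) h0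
    simp only [LinearMap.zero_apply] at h2
    rw [evL_eq_evAt _ _ (mInf_apply_of_ne N e Q.2)] at h2
    exact one_ne_zero (evAt_one.symm.trans h2)
  obtain ⟨h1, h2⟩ := hLf (S.card, S'.card) (by push_cast at hcard ⊢; omega) (absQ w) Q.1
    ((hypMod N).deg_one Q.1) hE (sumPt S) (sumPt S') (sumPt_nonneg S) (degree_sumPt S)
    (sumPt_nonneg S') (degree_sumPt S')
  rw [← sumPt_union hdisj, ← evVec_eq_formVec, ← kerPts_evVec, ← kerPts_evVec,
    ← kerPts_evVec] at h1 h2
  have hn : ∀ T : Submodule Kbar (Fin (nLev N m₀) → Kbar),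
      0 ≤ opNorm (absQ w) (evVec m₀ Q) T := fun T => opNorm_nonneg _ _ _
  constructor
  · exact h1.trans (mul_le_mul_of_nonneg_right hle (mul_nonneg (hn _) (hn _)))
  · exact h2.trans (mul_le_mul_of_nonneg_right hle (mul_nonneg (hn _) (hn _)))

end Fermat.Agent.S17.H71F
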