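import Fermat.Agent.S17.Height.H71_FinEv

/-!
# S17 part H (helper71): the field `la_lead` of the matrix system

* `la_geo'`: the two-level form of (LA) with a free third level divisor `D₃ = D₁ + D₂`;
* `LeadMul N`: the multiplicativity of the leading forms `leadVec` in coordinates;
* `fin_la_lead`: the field `la_lead` of `MatSys` (levels with a gap), from `LeadMul N`.
-/

set_option autoImplicit false

noncomputable section

open ModularCurve AlgebraicCurve Matrix Module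

namespace Fermat.Agent.S17.H71F

open Fermat.Agent.RED.H42 Fermat.Agent.S17 Fermat.Agent.RED.KD.H22 Fermat.Agent.S24
open Fermat.Agent.S17.H71 Fermat.Agent.S17.H35 Fermat.Agent.S17.H16 Fermat.Agent.RED.H17

local notation "L" => riemannRochSpace

local notation "deg" => Divisor.degree

section General

variable {K F : Type} [Field K] [Field F] [Algebra K F]
variable {g : ℕ} {c : ℤ} (hG : Geo K F g c) [IsAlgClosed K]
variable {α β γ : Type*} [Fintype α] [Fintype β] [Fintype γ]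

include hG in
/-- **(LA), two-level form**, with a free third level `D₃ = D₁ + D₂`. -/
theorem la_geo' (D₁ D₂ D₃ : Divisor K F) (h3 : D₃ = D₁ + D₂) (a b : ℕ)
    (h1 : c + g + a + 1 ≤ deg D₁) (h2 : c + deg D₁ + b ≤ deg D₂ + a)
    (e₁ : Basis α K (L D₁)) (e₂ : Basis β K (L D₂)) (e₃ : Basis γ K (L D₃))
    (hle : L D₁ * L D₂ ≤ L D₃) :
    ∃ Lc : LocConst K, ∀ (v : AbsoluteValue K ℝ) (ε₁ : α → K) (ε₂ : β → K) (ε₃ : γ → K),
      (∀ x y, ε₃ ⬝ᵥ prodVec (structConst e₁ e₂ e₃ hle) x y = (ε₁ ⬝ᵥ x) * (ε₂ ⬝ᵥ y)) →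
      ∀ A B : Divisor K F, 0 ≤ A → deg A = a → 0 ≤ B → deg B = b →
        opNorm v ε₃ (coordSub e₃ (L (D₃ - (A + B)))) ≤
          Lc.C v * (opNorm v ε₁ (coordSub e₁ (L (D₁ - A))) *
            opNorm v ε₂ (coordSub e₂ (L (D₂ - B)))) ∧
        opNorm v ε₁ (coordSub e₁ (L (D₁ - A))) * opNorm v ε₂ (coordSub e₂ (L (D₂ - B))) ≤
          Lc.C v * opNorm v ε₃ (coordSub e₃ (L (D₃ - (A + B)))) := by
  subst h3
  exact la_geo hG D₁ D₂ a b h1 h2 e₁ e₂ e₃

end General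

variable (N : ℕ) [NeZero N]

/-- The multiplicativity of the leading forms, in coordinates. -/
def LeadMul : Prop :=
  ∀ (m k : ℕ) (x : Fin (nLev N m) → Kbar) (y : Fin (nLev N k) → Kbar),
    castV (leadVec N (m + k)) ⬝ᵥ prodVec (structConst (eLev N m) (eLev N k) (eLev N (m + k))
      (L_mInf_mul_le N m k)) x y = (castV (leadVec N m) ⬝ᵥ x) * (castV (leadVec N k) ⬝ᵥ y)

variable {N}

theorem LeadMul.general (h : LeadMul N) (m k n : ℕ) (hn : n = m + k)
    (hle : L (mInf N m) * L (mInf N k) ≤ L (mInf N n))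
    (x : Fin (nLev N m) → Kbar) (y : Fin (nLev N k) → Kbar) :
    castV (leadVec N n) ⬝ᵥ prodVec (structConst (eLev N m) (eLev N k) (eLev N n) hle) x y =
      (castV (leadVec N m) ⬝ᵥ x) * (castV (leadVec N k) ⬝ᵥ y) := by
  subst hn
  exact h m k x y

/-- **The field `la_lead`** of the matrix system. -/
theorem fin_la_lead (hmul : LeadMul N) (c₀ Mtop : ℕ) (hc : cRie N + genusN N ≤ c₀) :
    ∃ Lc : LocConst Qbar, ∀ (w : PlaceQ) (m k : ℕ) (D D' : Dv N),
      dvDeg N D + c₀ ≤ m → m + dvDeg N D' + c₀ ≤ k + dvDeg N D → m + k + 2 ≤ Mtop →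
      opNorm (absQ w) (castV (leadVec N (m + k + 2))) (Wlev N (m + k + 2) (D + D')) ≤
        Lc.C (absQ w) * (opNorm (absQ w) (castV (leadVec N (m + 1))) (Wlev N (m + 1) D) *
          opNorm (absQ w) (castV (leadVec N (k + 1))) (Wlev N (k + 1) D')) ∧
      opNorm (absQ w) (castV (leadVec N (m + 1))) (Wlev N (m + 1) D) *
          opNorm (absQ w) (castV (leadVec N (k + 1))) (Wlev N (k + 1) D') ≤
        Lc.C (absQ w) * opNorm (absQ w) (castV (leadVec N (m + k + 2)))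
          (Wlev N (m + k + 2) (D + D')) := by
  classical
  have hcn := (geoN N).c_nonneg
  have hlev : ∀ m k : ℕ, mInf N (m + k + 2) = mInf N (m + 1) + mInf N (k + 1) := by
    intro m k
    rw [mInf_add]
    congr 1
    omega
  have hle : ∀ m k : ℕ, L (mInf N (m + 1)) * L (mInf N (k + 1)) ≤ L (mInf N (m + k + 2)) := by
    intro m k
    rw [hlev]
    exact L_mul_le _ _
  have hex : ∀ q : (ℕ × ℕ) × (ℕ × ℕ), ∃ Lc : LocConst Kbar,
      cRie N + genusN N + q.2.1 ≤ q.1.1 → cRie N + q.1.1 + q.2.2 ≤ q.1.2 + q.2.1 →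
      ∀ (v : AbsoluteValue Kbar ℝ) (ε₁ : Fin (nLev N (q.1.1 + 1)) → Kbar)
        (ε₂ : Fin (nLev N (q.1.2 + 1)) → Kbar) (ε₃ : Fin (nLev N (q.1.1 + q.1.2 + 2)) → Kbar),
      (∀ x y, ε₃ ⬝ᵥ prodVec (structConst (eLev N (q.1.1 + 1)) (eLev N (q.1.2 + 1))
        (eLev N (q.1.1 + q.1.2 + 2)) (hle q.1.1 q.1.2)) x y = (ε₁ ⬝ᵥ x) * (ε₂ ⬝ᵥ y)) →
      ∀ A B : Divisor Kbar (FN N), 0 ≤ A → deg A = q.2.1 → 0 ≤ B → deg B = q.2.2 →
        opNorm v ε₃ (coordSub (eLev N (q.1.1 + q.1.2 + 2))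
            (L (mInf N (q.1.1 + q.1.2 + 2) - (A + B)))) ≤
          Lc.C v * (opNorm v ε₁ (coordSub (eLev N (q.1.1 + 1)) (L (mInf N (q.1.1 + 1) - A))) *
            opNorm v ε₂ (coordSub (eLev N (q.1.2 + 1)) (L (mInf N (q.1.2 + 1) - B)))) ∧
        opNorm v ε₁ (coordSub (eLev N (q.1.1 + 1)) (L (mInf N (q.1.1 + 1) - A))) *
            opNorm v ε₂ (coordSub (eLev N (q.1.2 + 1)) (L (mInf N (q.1.2 + 1) - B))) ≤
          Lc.C v * opNorm v ε₃ (coordSub (eLev N (q.1.1 + q.1.2 + 2))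
            (L (mInf N (q.1.1 + q.1.2 + 2) - (A + B)))) := by
    rintro ⟨⟨m, k⟩, ⟨a, b⟩⟩
    by_cases h1 : cRie N + genusN N + a ≤ m
    · by_cases h2 : cRie N + m + b ≤ k + a
      · obtain ⟨Lc, hLc⟩ := la_geo' (geoN N) (mInf N (m + 1)) (mInf N (k + 1))
          (mInf N (m + k + 2)) (hlev m k) a b
          (by rw [degree_mInf]; push_cast; omega)
          (by rw [degree_mInf, degree_mInf]; push_cast; omega)
          (eLev N (m + 1)) (eLev N (k + 1)) (eLev N (m + k + 2)) (hle m k)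
        exact ⟨Lc, fun _ _ => hLc⟩
      · exact ⟨LocConst.one _, fun _ h => absurd h h2⟩
    · exact ⟨LocConst.one _, fun h => absurd h h1⟩
  choose Lf hLf using hex
  obtain ⟨Lc, hLc⟩ := locConst_exists_le
    ((Finset.range (Mtop + 1) ×ˢ Finset.range (Mtop + 1)) ×ˢ
      (Finset.range (Mtop + 1) ×ˢ Finset.range (Mtop + 1))) Lf
  refine ⟨Lc, fun w m k D D' hD hD' hM => ?_⟩
  have hmem : ((m, k), (dvDeg N D, dvDeg N D')) ∈
      (Finset.range (Mtop + 1) ×ˢ Finset.range (Mtop + 1)) ×ˢ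
        (Finset.range (Mtop + 1) ×ˢ Finset.range (Mtop + 1)) := by
    simp only [Finset.mem_product, Finset.mem_range]
    refine ⟨⟨?_, ?_⟩, ?_, ?_⟩ <;> omega
  have hle' := hLc _ hmem (absQ w)
  obtain ⟨h1, h2⟩ := hLf ((m, k), (dvDeg N D, dvDeg N D'))
    (by show cRie N + genusN N + (dvDeg N D : ℤ) ≤ (m : ℤ); omega)
    (by show cRie N + (m : ℤ) + (dvDeg N D' : ℤ) ≤ (k : ℤ) + (dvDeg N D : ℤ); omega)
    (absQ w) (castV (leadVec N (m + 1))) (castV (leadVec N (k + 1)))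
    (castV (leadVec N (m + k + 2)))
    (fun x y => hmul.general (m + 1) (k + 1) (m + k + 2) (by omega) (hle m k) x y)
    D.1 D'.1 D.nonneg (dvDeg_cast D).symm D'.nonneg (dvDeg_cast D').symm
  have hn : ∀ (n : ℕ) (e : Fin (nLev N n) → Kbar) (T : Submodule Kbar (Fin (nLev N n) → Kbar)),
      0 ≤ opNorm (absQ w) e T := fun n e T => opNorm_nonneg _ _ _
  constructor
  · exact h1.trans (mul_le_mul_of_nonneg_right hle' (mul_nonneg (hn _ _ _) (hn _ _ _)))
  · exact h2.trans (mul_le_mul_of_nonneg_right hle' (hn _ _ _))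

end Fermat.Agent.S17.H71F
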