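import Fermat.Agent.S17.Height.H35_GeoData
import Fermat.Agent.S17.Height.H16_MatSys
import Fermat.Agent.S17.Height.H71_LOC

/-!
# S17 part H (helper71): the field `mult` of the matrix system

For the data of `H35_GeoData`:

* `coordMap_castV_ratCoord`: a fixed function of `L(m∞)` is recovered from its rational
  coordinates;
* `coordMap_vecMul_mulMat`: `x ᵥ* mulMat m u` are the coordinates of `f * u`, where `x` are the
  coordinates of `f`;
* `LocConst.exists_le_of_finset`: a uniform constant for a finite family of constants;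
* `fin_mult`: the field `mult` of `MatSys`.
-/

set_option autoImplicit false

noncomputable section

open ModularCurve AlgebraicCurve Matrix Module

namespace Fermat.Agent.S17.H71F

open Fermat.Agent.RED.H42 Fermat.Agent.S17 Fermat.Agent.RED.KD.H22 Fermat.Agent.S24
open Fermat.Agent.S17.H71 Fermat.Agent.S17.H35 Fermat.Agent.S17.H16

local notation "L" => riemannRochSpace

/-! ## Uniform constants for finite families -/

theorem locConst_exists_le {K : Type*} [Field K] {ι : Type*} (s : Finset ι)
    (Lf : ι → LocConst K) : ∃ Lc : LocConst K, ∀ i ∈ s, ∀ v, (Lf i).C v ≤ Lc.C v := by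
  classical
  induction s using Finset.induction_on with
  | empty => exact ⟨LocConst.one K, fun i hi => absurd hi (Finset.notMem_empty i)⟩
  | insert a s _ ih =>
    obtain ⟨Lc, hLc⟩ := ih
    refine ⟨(Lf a).mul Lc, fun i hi v => ?_⟩
    rcases Finset.mem_insert.1 hi with rfl | hi
    · exact LocConst.le_mul_left _ _ v
    · exact (hLc i hi v).trans (LocConst.le_mul_right _ _ v)

variable (N : ℕ) [NeZero N]

/-! ## Coordinates -/

theorem mInf_add (m k : ℕ) : mInf N m + mInf N k = mInf N (m + k) := by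
  show (ratCtxMod N).kP (m : ℤ) + (ratCtxMod N).kP (k : ℤ) = (ratCtxMod N).kP ((m + k : ℕ) : ℤ)
  unfold RatCtx.kP
  rw [← Finsupp.single_add]
  push_cast
  rfl

theorem L_mInf_mul_le (m k : ℕ) : L (mInf N m) * L (mInf N k) ≤ L (mInf N (m + k)) := by
  rw [← mInf_add]
  exact L_mul_le _ _

theorem coordMap_eLev (m : ℕ) (x : Fin (nLev N m) → Kbar) :
    coordMap (eLev N m) x = ∑ i, x i • eFun N i := by
  rw [coordMap_apply]
  refine Finset.sum_congr rfl fun i _ => ?_
  rw [eLev_apply]

/-- A fixed function of `L(m∞)` is recovered from its rational coordinates. -/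
theorem coordMap_castV_ratCoord (m : ℕ) {f : FN N} (hf : f ∈ L (mInf N m))
    (hfix : f ∈ fixedFun (galN N)) :
    coordMap (eLev N m) (castV (ratCoord N m f)) = f := by
  rw [coordMap_eLev]
  exact sum_ratCoord N m hf hfix

theorem eFun_mem (m : ℕ) (i : Fin (nLev N m)) : eFun N i ∈ L (mInf N m) := by
  rw [← eLev_apply N m i]
  exact (eLev N m i).2

variable {N}

theorem eFun_mul_mem (m : ℕ) (i : Fin (nLev N m)) (u : Rv N) :
    eFun N i * u.1 ∈ L (mInf N (m + rvOrd u)) :=
  L_mInf_mul_le N m (rvOrd u) (Submodule.mul_mem_mul (eFun_mem N m i) (u.mem_L le_rfl))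

/-- `x ᵥ* mulMat m u` are the coordinates of `f * u`. -/
theorem coordMap_vecMul_mulMat (m : ℕ) (u : Rv N) (x : Fin (nLev N m) → Kbar) :
    coordMap (eLev N (m + rvOrd u)) (x ᵥ* castM (mulMat m u)) = coordMap (eLev N m) x * u.1 := by
  have hrow : ∀ i : Fin (nLev N m),
      coordMap (eLev N (m + rvOrd u)) (castV (mulMat m u i)) = eFun N i * u.1 := by
    intro i
    exact coordMap_castV_ratCoord N _ (eFun_mul_mem m i u)
      (mul_mem_fixedFun (eFun_fixed N i) u.fixed)
  have hx : x ᵥ* castM (mulMat m u) = ∑ i, x i • castV (mulMat m u i) := by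
    funext j
    rw [Matrix.vecMul, dotProduct, Finset.sum_apply]
    refine Finset.sum_congr rfl fun i _ => ?_
    rfl
  rw [hx, map_sum, coordMap_eLev, Finset.sum_mul]
  refine Finset.sum_congr rfl fun i _ => ?_
  rw [map_smul, hrow, smul_mul_assoc]

/-- The coordinates of `f * u` as a product of coordinate vectors. -/
theorem vecMul_mulMat_eq_prodVec (m : ℕ) (u : Rv N) (x : Fin (nLev N m) → Kbar) :
    x ᵥ* castM (mulMat m u) =
      prodVec (structConst (eLev N m) (eLev N (rvOrd u)) (eLev N (m + rvOrd u))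
        (L_mInf_mul_le N m (rvOrd u))) x (castV (vecR u)) := by
  apply coordMap_injective (eLev N (m + rvOrd u))
  rw [coordMap_vecMul_mulMat, coordMap_prodVec]
  congr 1
  exact (coordMap_castV_ratCoord N _ (u.mem_L le_rfl) u.fixed).symm

variable (N)

/-- **The field `mult`** of the matrix system. -/
theorem fin_mult (Mtop : ℕ) :
    ∃ Lc : LocConst Qbar, ∀ (w : PlaceQ) (m : ℕ) (u : Rv N), m + rvOrd u ≤ Mtop →
      ∀ x : Fin (nLev N m) → Qbar,
        supNorm (absQ w) (castV (vecR u)) * supNorm (absQ w) x ≤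
          Lc.C (absQ w) * supNorm (absQ w) (x ᵥ* castM (mulMat m u)) ∧
        supNorm (absQ w) (x ᵥ* castM (mulMat m u)) ≤
          Lc.C (absQ w) * (supNorm (absQ w) (castV (vecR u)) * supNorm (absQ w) x) := by
  classical
  have hex : ∀ mk : ℕ × ℕ, ∃ Lc : LocConst Kbar, ∀ (v : AbsoluteValue Kbar ℝ)
      (x : Fin (nLev N mk.1) → Kbar) (y : Fin (nLev N mk.2) → Kbar),
      supNorm v x * supNorm v y ≤ Lc.C v * supNorm v (prodVec (structConst (eLev N mk.1)
        (eLev N mk.2) (eLev N (mk.1 + mk.2)) (L_mInf_mul_le N mk.1 mk.2)) x y) ∧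
      supNorm v (prodVec (structConst (eLev N mk.1) (eLev N mk.2) (eLev N (mk.1 + mk.2))
        (L_mInf_mul_le N mk.1 mk.2)) x y) ≤ Lc.C v * (supNorm v x * supNorm v y) :=
    fun mk => mult_geo _ _ _ _
  choose Lf hLf using hex
  obtain ⟨Lc, hLc⟩ := locConst_exists_le
    (Finset.range (Mtop + 1) ×ˢ Finset.range (Mtop + 1)) Lf
  refine ⟨Lc, fun w m u hmu x => ?_⟩
  have hmem : (m, rvOrd u) ∈ Finset.range (Mtop + 1) ×ˢ Finset.range (Mtop + 1) := by
    rw [Finset.mem_product, Finset.mem_range, Finset.mem_range]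
    constructor <;> omega
  have hle := hLc _ hmem (absQ w)
  obtain ⟨h1, h2⟩ := hLf (m, rvOrd u) (absQ w) x (castV (vecR u))
  rw [vecMul_mulMat_eq_prodVec]
  constructor
  · rw [mul_comm]
    exact h1.trans (mul_le_mul_of_nonneg_right hle (supNorm_nonneg _ _))
  · rw [mul_comm (supNorm (absQ w) (castV (vecR u)))]
    exact h2.trans (mul_le_mul_of_nonneg_right hle
      (mul_nonneg (supNorm_nonneg _ _) (supNorm_nonneg _ _)))

end Fermat.Agent.S17.H71F
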