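import Fermat.Agent.S17.Height.H71_BFL
import Fermat.Agent.S17.Height.H16_OpNorm

/-!
# S17, part H: local additivity and local multiplicativity, linear algebra form

* `la_linear`: in the situation of `bf_linear`, for every triple of linear forms
  `ε₁, ε₂, ε₃` with `ε₃ (x · y) = ε₁ x * ε₂ y` the norm of `ε₃` on `U · U'` is the product of the
  norms of `ε₁` on `U` and of `ε₂` on `U'`, up to the local constant (which does not depend on
  the forms, nor on `U`, `U'`).
* `mult_linear`: for a multiplication without zero divisors, `‖x · y‖_v ≍ ‖x‖_v ‖y‖_v`.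
-/

set_option autoImplicit false

open MvPolynomial Module Matrix

namespace Fermat.Agent.S17.H71

open Fermat.Agent.S17.H16

variable {K : Type*} [Field K]

section Aux

variable {α β : Type*} [Fintype α] [Fintype β]

theorem supNorm_mul_supNorm_le (v : AbsoluteValue K ℝ) (x : α → K) (y : β → K) {T : ℝ}
    (hT : 0 ≤ T) (h : ∀ a b, v (x a) * v (y b) ≤ T) : supNorm v x * supNorm v y ≤ T := by
  rcases (supNorm_nonneg v y).eq_or_lt with h0 | hpos
  · rw [← h0, mul_zero]
    exact hT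
  · rw [← le_div_iff₀ hpos]
    refine supNorm_le v x (div_nonneg hT hpos.le) fun a => ?_
    rw [le_div_iff₀ hpos]
    rcases (v.nonneg (x a)).eq_or_lt with h1 | h1
    · rw [← h1, zero_mul]
      exact hT
    · rw [mul_comm, ← le_div_iff₀ h1]
      refine supNorm_le v y (div_nonneg hT h1.le) fun b => ?_
      rw [le_div_iff₀ h1, mul_comm]
      exact h a b

theorem opNorm_mul_opNorm_le (v : AbsoluteValue K ℝ) (ε₁ : α → K) (ε₂ : β → K)
    (U : Submodule K (α → K)) (U' : Submodule K (β → K)) {t : ℝ} (ht : 0 ≤ t)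
    (h : ∀ f ∈ U, ∀ g ∈ U', v (ε₁ ⬝ᵥ f) * v (ε₂ ⬝ᵥ g) ≤ t * (supNorm v f * supNorm v g)) :
    opNorm v ε₁ U * opNorm v ε₂ U' ≤ t := by
  rcases (opNorm_nonneg v ε₂ U').eq_or_lt with h0 | hpos
  · rw [← h0, mul_zero]
    exact ht
  · rw [← le_div_iff₀ hpos]
    refine opNorm_le v ε₁ U (div_nonneg ht hpos.le) fun f hf => ?_
    rw [div_mul_eq_mul_div, le_div_iff₀ hpos]
    rcases (v.nonneg (ε₁ ⬝ᵥ f)).eq_or_lt with h1 | h1
    · rw [← h1, zero_mul]
      exact mul_nonneg ht (supNorm_nonneg v f)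
    · rw [mul_comm, ← le_div_iff₀ h1]
      refine opNorm_le v ε₂ U' (div_nonneg (mul_nonneg ht (supNorm_nonneg v f)) h1.le)
        fun g hg => ?_
      rw [div_mul_eq_mul_div, le_div_iff₀ h1, mul_comm, mul_assoc]
      exact h f hf g hg

end Aux

section Main

variable [IsAlgClosed K]
variable {α β γ τ₁ τ₂ α' β' : Type*}
  [Fintype α] [DecidableEq α] [Fintype β] [DecidableEq β] [Fintype γ] [DecidableEq γ]
  [Fintype τ₁] [DecidableEq τ₁] [Fintype τ₂] [DecidableEq τ₂]
  [Fintype α'] [DecidableEq α'] [Fintype β'] [DecidableEq β']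

/-- **Local additivity, linear algebra form**: multiplicativity of the norms of multiplicative
linear forms along products of subspaces. -/
theorem la_linear (c : α → β → γ → K) (cM₁ : τ₁ → α → α' → K) (cM₂ : τ₂ → β → β' → K)
    (r₁ ρ₁ r₂ ρ₂ r₃ : ℕ)
    (hdim : ∀ (U : Submodule K (α → K)) (U' : Submodule K (β → K)),
      finrank K U = r₁ → finrank K (prodSpan cM₁ ⊤ U) ≤ ρ₁ →
      finrank K U' = r₂ → finrank K (prodSpan cM₂ ⊤ U') ≤ ρ₂ →
      finrank K (prodSpan c U U') = r₃) :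
    ∃ L : LocConst K, ∀ (v : AbsoluteValue K ℝ) (ε₁ : α → K) (ε₂ : β → K) (ε₃ : γ → K),
      (∀ x y, ε₃ ⬝ᵥ prodVec c x y = (ε₁ ⬝ᵥ x) * (ε₂ ⬝ᵥ y)) →
      ∀ (U : Submodule K (α → K)) (U' : Submodule K (β → K)),
      finrank K U = r₁ → finrank K (prodSpan cM₁ ⊤ U) ≤ ρ₁ →
      finrank K U' = r₂ → finrank K (prodSpan cM₂ ⊤ U') ≤ ρ₂ →
      opNorm v ε₃ (prodSpan c U U') ≤ L.C v * (opNorm v ε₁ U * opNorm v ε₂ U') ∧
      opNorm v ε₁ U * opNorm v ε₂ U' ≤ L.C v * opNorm v ε₃ (prodSpan c U U') := by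
  classical
  obtain ⟨L₀, hL₀⟩ := bf_linear c cM₁ cM₂ r₁ ρ₁ r₂ ρ₂ r₃ hdim
  obtain ⟨Lμ, hLμ⟩ := exists_prodVec_bound c
  refine ⟨((LocConst.card K r₃).mul L₀).mul Lμ, ?_⟩
  intro v ε₁ ε₂ ε₃ hε U U' hU hUρ hU' hUρ'
  have hCpos := (LocConst.card K r₃).pos v
  have hL₀pos := L₀.pos v
  have hLμpos := Lμ.pos v
  have hC1 := (LocConst.card K r₃).one_le v
  have hL₀1 := L₀.one_le v
  have hLμ1 := Lμ.one_le v
  have hN₁ := opNorm_nonneg v ε₁ U
  have hN₂ := opNorm_nonneg v ε₂ U'
  have hN₃ := opNorm_nonneg v ε₃ (prodSpan c U U')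
  constructor
  · -- upper bound, by bounded factorisation
    have key : opNorm v ε₃ (prodSpan c U U') ≤
        (LocConst.card K r₃).C v * (L₀.C v * (opNorm v ε₁ U * opNorm v ε₂ U')) := by
      refine opNorm_le v ε₃ _ (by positivity) fun F₀ hF₀ => ?_
      obtain ⟨f, g, hf, hg, hsum, hb⟩ := hL₀ v U U' hU hUρ hU' hUρ' F₀ hF₀ (supNorm v F₀)
        (fun k => le_supNorm v F₀ k)
      have hfg : ∀ k, supNorm v (f k) * supNorm v (g k) ≤ L₀.C v * supNorm v F₀ := fun k =>
        supNorm_mul_supNorm_le v (f k) (g k) (mul_nonneg hL₀pos.le (supNorm_nonneg v F₀))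
          (hb k)
      have h1 : ε₃ ⬝ᵥ F₀ = ∑ k, (ε₁ ⬝ᵥ f k) * (ε₂ ⬝ᵥ g k) := by
        rw [hsum, dotProduct_sum]
        exact Finset.sum_congr rfl fun k _ => hε _ _
      have h2 : ∀ k, v ((ε₁ ⬝ᵥ f k) * (ε₂ ⬝ᵥ g k)) ≤
          L₀.C v * (opNorm v ε₁ U * opNorm v ε₂ U') * supNorm v F₀ := by
        intro k
        rw [v.map_mul]
        have a1 := le_opNorm v ε₁ U (hf k)
        have a2 := le_opNorm v ε₂ U' (hg k)
        calc v (ε₁ ⬝ᵥ f k) * v (ε₂ ⬝ᵥ g k)
            ≤ (opNorm v ε₁ U * supNorm v (f k)) * (opNorm v ε₂ U' * supNorm v (g k)) :=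
              mul_le_mul a1 a2 (v.nonneg _) (mul_nonneg hN₁ (supNorm_nonneg v _))
          _ = (opNorm v ε₁ U * opNorm v ε₂ U') * (supNorm v (f k) * supNorm v (g k)) := by ring
          _ ≤ (opNorm v ε₁ U * opNorm v ε₂ U') * (L₀.C v * supNorm v F₀) :=
              mul_le_mul_of_nonneg_left (hfg k) (mul_nonneg hN₁ hN₂)
          _ = _ := by ring
      have h3 := abv_sum_univ_le_card v (fun k => (ε₁ ⬝ᵥ f k) * (ε₂ ⬝ᵥ g k)) _
        (mul_nonneg (mul_nonneg hL₀pos.le (mul_nonneg hN₁ hN₂)) (supNorm_nonneg v F₀)) h2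
      rw [Fintype.card_fin] at h3
      rw [h1]
      calc v (∑ k, (ε₁ ⬝ᵥ f k) * (ε₂ ⬝ᵥ g k)) ≤ _ := h3
        _ = _ := by ring
    calc opNorm v ε₃ (prodSpan c U U')
        ≤ (LocConst.card K r₃).C v * (L₀.C v * (opNorm v ε₁ U * opNorm v ε₂ U')) := key
      _ ≤ (LocConst.card K r₃).C v * (L₀.C v * (opNorm v ε₁ U * opNorm v ε₂ U')) * Lμ.C v :=
          le_mul_of_one_le_right (by positivity) hLμ1
      _ = (((LocConst.card K r₃).mul L₀).mul Lμ).C v * (opNorm v ε₁ U * opNorm v ε₂ U') := by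
          show _ = (LocConst.card K r₃).C v * L₀.C v * Lμ.C v * _
          ring
  · -- lower bound, by products
    have key : opNorm v ε₁ U * opNorm v ε₂ U' ≤ Lμ.C v * opNorm v ε₃ (prodSpan c U U') := by
      refine opNorm_mul_opNorm_le v ε₁ ε₂ U U' (by positivity) fun f hf g hg => ?_
      have h1 := le_opNorm v ε₃ (prodSpan c U U') (prodVec_mem_prodSpan c hf hg)
      rw [hε, v.map_mul] at h1
      have h2 : supNorm v (prodVec c f g) ≤ Lμ.C v * (supNorm v f * supNorm v g) :=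
        supNorm_le v _ (mul_nonneg hLμpos.le
          (mul_nonneg (supNorm_nonneg v f) (supNorm_nonneg v g)))
          (hLμ v f g _ _ (supNorm_nonneg v f) (supNorm_nonneg v g) (le_supNorm v f)
            (le_supNorm v g))
      calc v (ε₁ ⬝ᵥ f) * v (ε₂ ⬝ᵥ g) ≤ _ := h1
        _ ≤ opNorm v ε₃ (prodSpan c U U') * (Lμ.C v * (supNorm v f * supNorm v g)) :=
            mul_le_mul_of_nonneg_left h2 hN₃
        _ = _ := by ring
    calc opNorm v ε₁ U * opNorm v ε₂ U' ≤ Lμ.C v * opNorm v ε₃ (prodSpan c U U') := key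
      _ ≤ ((LocConst.card K r₃).C v * L₀.C v) * (Lμ.C v * opNorm v ε₃ (prodSpan c U U')) :=
          le_mul_of_one_le_left (by positivity) (by nlinarith)
      _ = (((LocConst.card K r₃).mul L₀).mul Lμ).C v * opNorm v ε₃ (prodSpan c U U') := by
          show _ = (LocConst.card K r₃).C v * L₀.C v * Lμ.C v * _
          ring

/-- **Local multiplicativity, linear algebra form.** -/
theorem mult_linear (c : α → β → γ → K)
    (hc : ∀ (x : α → K) (y : β → K), prodVec c x y = 0 → x = 0 ∨ y = 0) :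
    ∃ L : LocConst K, ∀ (v : AbsoluteValue K ℝ) (x : α → K) (y : β → K),
      supNorm v x * supNorm v y ≤ L.C v * supNorm v (prodVec c x y) ∧
      supNorm v (prodVec c x y) ≤ L.C v * (supNorm v x * supNorm v y) := by
  classical
  obtain ⟨Lμ, hLμ⟩ := exists_prodVec_bound c
  -- the bilinear forms as polynomials
  let Fp : γ → MvPolynomial (α ⊕ β) K := fun k =>
    ∑ a, ∑ b, C (c a b k) * X (Sum.inl a) * X (Sum.inr b)
  have hFp : ∀ (k : γ) (x : α → K) (y : β → K),
      eval (Sum.elim x y) (Fp k) = prodVec c x y k := by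
    intro k x y
    simp only [Fp, prodVec, map_sum, map_mul, eval_C, eval_X, Sum.elim_inl, Sum.elim_inr]
  obtain ⟨L₀, hL₀⟩ := mph_local (⊥ : Ideal (MvPolynomial (α ⊕ β) K))
    (fun x y _ a b => by
      intro f hf
      rw [Ideal.mem_bot] at hf
      rw [hf, map_zero])
    Fp 1 1
    (fun k x y a b => by
      rw [hFp, hFp]
      simp only [prodVec, Pi.smul_apply, smul_eq_mul, pow_one, Finset.mul_sum]
      refine Finset.sum_congr rfl fun i _ => Finset.sum_congr rfl fun j _ => ?_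
      ring)
    (fun x y _ h => hc x y (funext fun k => by rw [← hFp]; exact h k))
  refine ⟨L₀.mul Lμ, ?_⟩
  intro v x y
  have hL₀pos := L₀.pos v
  have hLμpos := Lμ.pos v
  have hL₀1 := L₀.one_le v
  have hLμ1 := Lμ.one_le v
  constructor
  · by_cases hx : x = 0
    · subst hx
      rw [(supNorm_eq_zero_iff v (0 : α → K)).2 rfl, zero_mul]
      exact mul_nonneg ((L₀.mul Lμ).pos v).le (supNorm_nonneg v _)
    by_cases hy : y = 0
    · subst hy
      rw [(supNorm_eq_zero_iff v (0 : β → K)).2 rfl, mul_zero]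
      exact mul_nonneg ((L₀.mul Lμ).pos v).le (supNorm_nonneg v _)
    haveI : Nonempty α := by
      by_contra hne
      rw [not_nonempty_iff] at hne
      exact hx (funext fun a => (hne.false a).elim)
    haveI : Nonempty β := by
      by_contra hne
      rw [not_nonempty_iff] at hne
      exact hy (funext fun a => (hne.false a).elim)
    obtain ⟨i₀, hi₀⟩ := exists_eq_supNorm v x
    obtain ⟨j₀, hj₀⟩ := exists_eq_supNorm v y
    have hxi : x i₀ ≠ 0 := by
      intro h0
      rw [h0, map_zero] at hi₀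
      exact hx ((supNorm_eq_zero_iff v x).1 hi₀.symm)
    have hyj : y j₀ ≠ 0 := by
      intro h0
      rw [h0, map_zero] at hj₀
      exact hy ((supNorm_eq_zero_iff v y).1 hj₀.symm)
    obtain ⟨k, hk⟩ := hL₀ v x y (fun f hf => by rw [Ideal.mem_bot] at hf; rw [hf, map_zero])
      i₀ j₀ (fun i => by rw [hi₀]; exact le_supNorm v x i)
      (fun j => by rw [hj₀]; exact le_supNorm v y j) hxi hyj
    rw [pow_one, pow_one, hFp, hi₀, hj₀] at hk
    calc supNorm v x * supNorm v y ≤ L₀.C v * v (prodVec c x y k) := hk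
      _ ≤ L₀.C v * supNorm v (prodVec c x y) :=
          mul_le_mul_of_nonneg_left (le_supNorm v _ k) hL₀pos.le
      _ ≤ L₀.C v * supNorm v (prodVec c x y) * Lμ.C v :=
          le_mul_of_one_le_right (mul_nonneg hL₀pos.le (supNorm_nonneg v _)) hLμ1
      _ = (L₀.mul Lμ).C v * supNorm v (prodVec c x y) := by
          show _ = L₀.C v * Lμ.C v * _
          ring
  · have h2 : supNorm v (prodVec c x y) ≤ Lμ.C v * (supNorm v x * supNorm v y) :=
      supNorm_le v _ (mul_nonneg hLμpos.le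
        (mul_nonneg (supNorm_nonneg v x) (supNorm_nonneg v y)))
        (hLμ v x y _ _ (supNorm_nonneg v x) (supNorm_nonneg v y) (le_supNorm v x)
          (le_supNorm v y))
    calc supNorm v (prodVec c x y) ≤ Lμ.C v * (supNorm v x * supNorm v y) := h2
      _ ≤ L₀.C v * (Lμ.C v * (supNorm v x * supNorm v y)) :=
          le_mul_of_one_le_left (mul_nonneg hLμpos.le
            (mul_nonneg (supNorm_nonneg v x) (supNorm_nonneg v y))) hL₀1
      _ = (L₀.mul Lμ).C v * (supNorm v x * supNorm v y) := by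
          show _ = L₀.C v * Lμ.C v * _
          ring

end Main

end Fermat.Agent.S17.H71
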