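import Fermat.Agent.S17.Height.H71_Cone
import Mathlib.Algebra.Module.Submodule.Bilinear
import Mathlib.LinearAlgebra.Matrix.Adjugate
import Mathlib.LinearAlgebra.StdBasis

/-!
# S17, part H: the Pluecker family

Parameters are functions `p : (Fin r → α) → K` vanishing on non-injective tuples.  The spanning
vectors at `p` are `a ↦ p (Function.update J l a)`, for all `J` and `l`; they depend linearly
on `p`.

* `le_finrank_plkSpan`: at a nonzero parameter the spanning vectors span a space of dimension
  at least `r`;
* `plk u`: the vector of maximal minors of `r` rows `u`; `plkSpan_plk`: for independent rows the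
  spanning vectors at `plk u` span the row space;
* `plkCone r ρ cM`: the closed cone of parameters at which the spanning vectors span a space of
  dimension `≤ r` whose product with the whole first factor of the multiplication `cM` has
  dimension `≤ ρ`.
-/

set_option autoImplicit false

open Module

namespace Fermat.Agent.S17.H71

variable {K : Type*} [Field K]

section Bil

variable {α β γ : Type*} [Fintype α] [Fintype β]

/-- The bilinear map with structure constants `c`. -/
def prodBil (c : α → β → γ → K) : (α → K) →ₗ[K] (β → K) →ₗ[K] (γ → K) :=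
  LinearMap.mk₂ K (prodVec c)
    (fun f f' g => by
      funext k
      simp only [prodVec, Pi.add_apply, mul_add, add_mul, Finset.sum_add_distrib])
    (fun s f g => by
      funext k
      simp only [prodVec, Pi.smul_apply, smul_eq_mul, Finset.mul_sum]
      refine Finset.sum_congr rfl fun a _ => Finset.sum_congr rfl fun b _ => ?_
      ring)
    (fun f g g' => by
      funext k
      simp only [prodVec, Pi.add_apply, mul_add, Finset.sum_add_distrib])
    (fun s f g => by
      funext k
      simp only [prodVec, Pi.smul_apply, smul_eq_mul, Finset.mul_sum]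
      refine Finset.sum_congr rfl fun a _ => Finset.sum_congr rfl fun b _ => ?_
      ring)

@[simp]
theorem prodBil_apply (c : α → β → γ → K) (f : α → K) (g : β → K) :
    prodBil c f g = prodVec c f g := rfl

/-- The span of the products of two subspaces. -/
def prodSpan (c : α → β → γ → K) (U : Submodule K (α → K)) (U' : Submodule K (β → K)) :
    Submodule K (γ → K) :=
  Submodule.map₂ (prodBil c) U U'

theorem prodVec_mem_prodSpan (c : α → β → γ → K) {U : Submodule K (α → K)}
    {U' : Submodule K (β → K)} {f : α → K} {g : β → K} (hf : f ∈ U) (hg : g ∈ U') :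
    prodVec c f g ∈ prodSpan c U U' :=
  Submodule.apply_mem_map₂ (prodBil c) hf hg

theorem prodSpan_span_range {ι ι' : Type*} (c : α → β → γ → K) (x : ι → α → K)
    (y : ι' → β → K) :
    prodSpan c (Submodule.span K (Set.range x)) (Submodule.span K (Set.range y)) =
      Submodule.span K (Set.range fun ij : ι × ι' => prodVec c (x ij.1) (y ij.2)) := by
  unfold prodSpan
  rw [Submodule.map₂_span_span]
  congr 1
  ext z
  constructor
  · rintro ⟨_, ⟨i, rfl⟩, _, ⟨j, rfl⟩, rfl⟩
    exact ⟨(i, j), rfl⟩
  · rintro ⟨⟨i, j⟩, rfl⟩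
    exact ⟨x i, ⟨i, rfl⟩, y j, ⟨j, rfl⟩, rfl⟩

theorem prodVec_single_left [DecidableEq α] (c : α → β → γ → K) (t : α) (g : β → K) (k : γ) :
    prodVec c (Pi.single t 1) g k = ∑ b, c t b k * g b := by
  unfold prodVec
  rw [Finset.sum_eq_single t]
  · refine Finset.sum_congr rfl fun b _ => ?_
    rw [Pi.single_eq_same, mul_one]
  · intro a _ ha
    refine Finset.sum_eq_zero fun b _ => ?_
    rw [Pi.single_eq_of_ne ha, mul_zero, zero_mul]
  · intro h
    exact absurd (Finset.mem_univ t) h

end Bil

section Plk

variable {α : Type*} [Fintype α] [DecidableEq α] {r : ℕ}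

/-- Coefficients of the spanning vectors of the Pluecker family. -/
def plkW (K : Type*) [Field K] (r : ℕ) (α : Type*) [DecidableEq α]
    (s : (Fin r → α) × Fin r) (a : α) (q : Fin r → α) : K :=
  if q = Function.update s.1 s.2 a then 1 else 0

theorem spanVec_plkW (p : (Fin r → α) → K) (s : (Fin r → α) × Fin r) (a : α) :
    spanVec (plkW K r α) p s a = p (Function.update s.1 s.2 a) := by
  unfold spanVec plkW
  simp only [ite_mul, one_mul, zero_mul]
  rw [Finset.sum_ite_eq' Finset.univ (Function.update s.1 s.2 a) p]
  simp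

/-- Vanishing on non-injective tuples. -/
def IsAltLike (p : (Fin r → α) → K) : Prop :=
  ∀ J : Fin r → α, ¬ Function.Injective J → p J = 0

/-- The span of the spanning vectors at `p`. -/
def plkSpan (p : (Fin r → α) → K) : Submodule K (α → K) :=
  Submodule.span K (Set.range (spanVec (plkW K r α) p))

theorem le_finrank_plkSpan (p : (Fin r → α) → K) (hp : IsAltLike p) (hne : p ≠ 0) :
    r ≤ finrank K (plkSpan p) := by
  obtain ⟨J, hJ⟩ : ∃ J, p J ≠ 0 := by
    by_contra h
    simp only [not_exists, not_not] at h
    exact hne (funext h)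
  set x : Fin r → α → K := fun l => spanVec (plkW K r α) p (J, l) with hx
  have hmat : (Matrix.of fun i j => x i (J j)) = Matrix.diagonal (fun _ : Fin r => p J) := by
    ext l l'
    rw [Matrix.of_apply, hx]
    simp only [spanVec_plkW]
    by_cases h : l = l'
    · subst h
      rw [Function.update_eq_self, Matrix.diagonal_apply_eq]
    · rw [Matrix.diagonal_apply_ne _ h]
      apply hp
      intro hinj
      refine h (hinj ?_)
      rw [Function.update_self, Function.update_of_ne (Ne.symm h)]
  have hminor : minorOf x J = p J ^ r := by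
    unfold minorOf
    rw [hmat, Matrix.det_diagonal]
    simp
  have hli := linearIndependent_of_minor_ne_zero x J (by rw [hminor]; exact pow_ne_zero _ hJ)
  have h1 : finrank K (Submodule.span K (Set.range x)) = r := by
    simpa using finrank_span_eq_card hli
  have h2 : Submodule.span K (Set.range x) ≤ plkSpan p :=
    Submodule.span_mono (by rintro _ ⟨l, rfl⟩; exact ⟨(J, l), rfl⟩)
  calc r = _ := h1.symm
    _ ≤ _ := Submodule.finrank_mono h2

/-- The vector of maximal minors of the rows `u`. -/
def plk (u : Fin r → α → K) : (Fin r → α) → K := fun J => minorOf u J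

theorem plk_isAltLike (u : Fin r → α → K) : IsAltLike (plk u) := by
  intro J hJ
  unfold Function.Injective at hJ
  simp only [not_forall] at hJ
  obtain ⟨l, l', hll, hne⟩ := hJ
  unfold plk minorOf
  refine Matrix.det_zero_of_column_eq hne fun k => ?_
  rw [Matrix.of_apply, Matrix.of_apply, hll]

theorem plk_ne_zero (u : Fin r → α → K) (h : LinearIndependent K u) : plk u ≠ 0 := by
  obtain ⟨cols, hcols⟩ := exists_minor_ne_zero u h
  intro h0
  exact hcols (congrFun h0 cols)

theorem spanVec_plk_eq (u : Fin r → α → K) (s : (Fin r → α) × Fin r) :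
    spanVec (plkW K r α) (plk u) s =
      ∑ k, (Matrix.of fun i j => u i (s.1 j)).adjugate s.2 k • u k := by
  funext a
  rw [spanVec_plkW, Finset.sum_apply]
  simp only [Pi.smul_apply, smul_eq_mul]
  unfold plk minorOf
  have hA : (Matrix.of fun i j => u i (Function.update s.1 s.2 a j)) =
      (Matrix.of fun i j => u i (s.1 j)).updateCol s.2 (fun k => u k a) := by
    ext i j
    rw [Matrix.of_apply, Matrix.updateCol_apply]
    by_cases h : j = s.2
    · rw [if_pos h, h, Function.update_self]
    · rw [if_neg h, Function.update_of_ne h, Matrix.of_apply]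
  rw [hA, ← Matrix.cramer_apply, Matrix.cramer_eq_adjugate_mulVec]
  rfl

theorem spanVec_plk_mem (u : Fin r → α → K) (s : (Fin r → α) × Fin r) :
    spanVec (plkW K r α) (plk u) s ∈ Submodule.span K (Set.range u) := by
  rw [spanVec_plk_eq]
  exact Submodule.sum_mem _ fun k _ =>
    Submodule.smul_mem _ _ (Submodule.subset_span ⟨k, rfl⟩)

theorem plkSpan_plk (u : Fin r → α → K) (h : LinearIndependent K u) :
    plkSpan (plk u) = Submodule.span K (Set.range u) := by
  have hle : plkSpan (plk u) ≤ Submodule.span K (Set.range u) := by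
    refine Submodule.span_le.2 ?_
    rintro _ ⟨s, rfl⟩
    exact spanVec_plk_mem u s
  refine Submodule.eq_of_le_of_finrank_le hle ?_
  have h1 : finrank K (Submodule.span K (Set.range u)) = r := by
    simpa using finrank_span_eq_card h
  rw [h1]
  exact le_finrank_plkSpan _ (plk_isAltLike u) (plk_ne_zero u h)

end Plk

section Cone

variable {α τ α' : Type*} [Fintype α] [DecidableEq α] [Fintype τ] [DecidableEq τ]
  [Fintype α'] [DecidableEq α'] {r : ℕ}

/-- The linear family of the products of the basis vectors of the first factor with the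
spanning vectors. -/
def mulLin (cM : τ → α → α' → K) (r : ℕ) (ts : τ × ((Fin r → α) × Fin r)) (k : α')
    (q : Fin r → α) : K :=
  ∑ a, cM ts.1 a k * plkW K r α ts.2 a q

theorem spanVec_mulLin (cM : τ → α → α' → K) (p : (Fin r → α) → K)
    (ts : τ × ((Fin r → α) × Fin r)) :
    spanVec (mulLin cM r) p ts =
      prodVec cM (Pi.single ts.1 1) (spanVec (plkW K r α) p ts.2) := by
  funext k
  rw [prodVec_single_left]
  unfold spanVec mulLin
  simp only [Finset.sum_mul, Finset.mul_sum]
  rw [Finset.sum_comm]
  refine Finset.sum_congr rfl fun a _ => Finset.sum_congr rfl fun q _ => ?_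
  ring

theorem span_mulLin (cM : τ → α → α' → K) (p : (Fin r → α) → K) :
    Submodule.span K (Set.range (spanVec (mulLin cM r) p)) = prodSpan cM ⊤ (plkSpan p) := by
  have htop : (⊤ : Submodule K (τ → K)) =
      Submodule.span K (Set.range fun t : τ => (Pi.single t 1 : τ → K)) := by
    have := (Pi.basisFun K τ).span_eq
    rw [← this]
    congr 1
    ext z
    constructor
    · rintro ⟨t, rfl⟩
      exact ⟨t, by simp⟩
    · rintro ⟨t, rfl⟩
      exact ⟨t, by simp⟩
  unfold plkSpan
  rw [htop, prodSpan_span_range]
  congr 1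
  ext z
  constructor
  · rintro ⟨ts, rfl⟩
    exact ⟨ts, (spanVec_mulLin cM p ts).symm⟩
  · rintro ⟨ts, rfl⟩
    exact ⟨ts, spanVec_mulLin cM p ts⟩

/-- The closed cone of the Pluecker family. -/
def plkCone (cM : τ → α → α' → K) (r ρ : ℕ) : Set ((Fin r → α) → K) :=
  {p | IsAltLike p ∧ finrank K (plkSpan p) ≤ r ∧
    finrank K (prodSpan cM ⊤ (plkSpan p)) ≤ ρ}

theorem isClosedCone_plkCone (cM : τ → α → α' → K) (r ρ : ℕ) :
    IsClosedCone (plkCone cM r ρ) := by
  have h1 := coordLocus_isClosedCone (K := K) {J : Fin r → α | ¬ Function.Injective J}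
  have h2 := rankLocus_isClosedCone (plkW K r α) r
  have h3 := rankLocus_isClosedCone (mulLin cM r) ρ
  have := (h1.inter h2).inter h3
  convert this using 1
  ext p
  simp only [plkCone, Set.mem_setOf_eq, Set.mem_inter_iff, IsAltLike]
  constructor
  · rintro ⟨a, b, c⟩
    exact ⟨⟨a, b⟩, by rw [span_mulLin]; exact c⟩
  · rintro ⟨⟨a, b⟩, c⟩
    exact ⟨a, b, by rw [← span_mulLin]; exact c⟩

theorem finrank_plkSpan_of_mem (cM : τ → α → α' → K) {r ρ : ℕ} {p : (Fin r → α) → K}
    (hp : p ∈ plkCone cM r ρ) (hne : p ≠ 0) : finrank K (plkSpan p) = r :=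
  le_antisymm hp.2.1 (le_finrank_plkSpan p hp.1 hne)

theorem plk_mem_plkCone (cM : τ → α → α' → K) {r ρ : ℕ} (u : Fin r → α → K)
    (h : LinearIndependent K u)
    (hρ : finrank K (prodSpan cM ⊤ (Submodule.span K (Set.range u))) ≤ ρ) :
    plk u ∈ plkCone cM r ρ := by
  refine ⟨plk_isAltLike u, ?_, ?_⟩
  · rw [plkSpan_plk u h]
    exact le_of_eq (by simpa using finrank_span_eq_card h)
  · rw [plkSpan_plk u h]
    exact hρ

end Cone

end Fermat.Agent.S17.H71
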