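import Fermat.Agent.S24.Asm.Count
import Fermat.Agent.S24.Closure.Final
import Fermat.Agent.S24.H72_FF1d
import Fermat.Agent.S24.H59_FF2de
import Fermat.Agent.S24.H85_FF3

/-!
# S17 part H, package RAM-FIN (helper8)

`stmt_RamFin N`: a non-constant function `φ` of `ℚ̄(X₀(N))` has only finitely many ramification
points away from its poles, i.e. finitely many places `P` with `ord_P (φ - c) ≥ 2` for some
constant `c`.

Proof: `dφ = h · dj` with `h ≠ 0`; `j` is unramified outside `0, 1728, ∞` (the generic count of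
zeros of S24), so `ord_P (dj) = 0` and `ord_P (dφ) = ord_P h` outside a finite set, whereas
`ord_P (dφ) = ord_P (φ - c) - 1 ≥ 1` at a ramification point.
-/

set_option autoImplicit false

noncomputable section

open AlgebraicCurve KaehlerDifferential IntermediateField ModularCurve

namespace Fermat.Agent.S17.H8

open Fermat.Agent.S24

/-- A function outside the constants is transcendental. -/
theorem transcendental_of_not_mem_range (N : ℕ) [NeZero N] (φ : FN N)
    (hφ : φ ∉ Set.range (algebraMap Kbar (FN N))) : Transcendental Kbar φ := by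
  intro halg
  obtain ⟨a, ha⟩ := H59.exists_algebraMap_eq_of_isAlgebraic (K := Kbar) (L := FN N) halg
  exact hφ ⟨a, ha⟩

/-- Every zero of `j - b` is simple, for `b ≠ 0, 1728`. -/
theorem jF_simple_zero (N : ℕ) [NeZero N] (b : Kbar) (h0 : b ≠ 0) (h1728 : b ≠ 1728)
    (v : Place Kbar (FN N)) (hv : 0 < v.ord (jF N - algebraMap Kbar (FN N) b)) :
    v.ord (jF N - algebraMap Kbar (FN N) b) = 1 := by
  classical
  have hx : Transcendental Kbar (jF N) := asm_transcendental_jF (modClosure N)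
  have : FiniteDimensional Kbar⟮jF N⟯ (FN N) := asm_finiteDimensional (modClosure N)
  obtain ⟨Z, hZ, hZsum, hZcard⟩ := H85.zeros_sub (jF N) hx
    (fun y hy hfd => @h72_zerosStmt Kbar (FN N) _ _ _ _ _ y hy hfd) b
  rw [asm_finrank (modClosure N)] at hZsum
  rw [asm_card_zeros_generic (modClosure N) b h0 h1728] at hZcard
  have hvZ : v ∈ Z := (hZ v).2 hv
  -- all terms are `≥ 1` and the sum is the number of terms
  have hge : ∀ w ∈ Z, (1 : ℤ) ≤ w.ord (jF N - algebraMap Kbar (FN N) b) :=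
    fun w hw => (hZ w).1 hw
  by_contra hne
  have hlt : (1 : ℤ) < v.ord (jF N - algebraMap Kbar (FN N) b) :=
    lt_of_le_of_ne (hge v hvZ) (Ne.symm hne)
  have hsum : ∑ _w ∈ Z, (1 : ℤ) < ∑ w ∈ Z, w.ord (jF N - algebraMap Kbar (FN N) b) :=
    Finset.sum_lt_sum hge ⟨v, hvZ, hlt⟩
  rw [Finset.sum_const, hZsum, hZcard] at hsum
  simp at hsum

/-- **RAM-FIN**. -/
theorem stmt_RamFin (N : ℕ) [NeZero N] :
    ∀ φ : FN N, φ ∉ Set.range (algebraMap Kbar (FN N)) →
      {P : Place Kbar (FN N) | ∃ c : Kbar, 2 ≤ P.ord (φ - algebraMap Kbar (FN N) c)}.Finite := by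
  intro φ hφ
  have hx : Transcendental Kbar (jF N) := asm_transcendental_jF (modClosure N)
  have : FiniteDimensional Kbar⟮jF N⟯ (FN N) := asm_finiteDimensional (modClosure N)
  have hφt : Transcendental Kbar φ := transcendental_of_not_mem_range N φ hφ
  obtain ⟨h, hh⟩ := ff_omega_span (jF N) hx (jF N) hx (D Kbar (FN N) φ)
  have hDφ : D Kbar (FN N) φ ≠ 0 := ff_D_ne_zero (jF N) hx φ hφt
  have hDj : D Kbar (FN N) (jF N) ≠ 0 := ff_D_ne_zero (jF N) hx (jF N) hx
  have hh0 : h ≠ 0 := by
    rintro rfl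
    rw [zero_smul] at hh
    exact hDφ hh
  have hj0 : jF N ≠ 0 := fun h0 => hx (h0 ▸ isAlgebraic_zero)
  have hj1 : jF N - algebraMap Kbar (FN N) 1728 ≠ 0 :=
    fun h0 => (H85.transcendental_sub_algebraMap hx 1728) (h0 ▸ isAlgebraic_zero)
  have f1 := (ff_degree_principal (jF N) hx h hh0).1
  have f2 := (ff_degree_principal (jF N) hx (jF N) hj0).1
  have f3 := (ff_degree_principal (jF N) hx _ hj1).1
  refine ((f1.union f2).union f3).subset ?_
  rintro P ⟨c, hc⟩
  by_contra hP
  simp only [Set.mem_union, Set.mem_ofPred_eq, not_or, not_not] at hP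
  obtain ⟨⟨hPh, hPj⟩, hPj1⟩ := hP
  -- `j` is regular at `P`
  have hmem : jF N ∈ P.toValuationSubring := H85.mem_of_ord_nonneg P hPj.ge
  obtain ⟨b, hb⟩ := H85.exists_ord_sub_pos P (ff_deg_eq_one (jF N) hx P) hx hmem
  have hb0 : b ≠ 0 := by
    rintro rfl
    rw [map_zero, sub_zero, hPj] at hb
    exact lt_irrefl _ hb
  have hb1 : b ≠ 1728 := by
    rintro rfl
    rw [hPj1] at hb
    exact lt_irrefl _ hb
  have hs := jF_simple_zero N b hb0 hb1 P hb
  have e1 : P.ordDifferential (D Kbar (FN N) (jF N)) = 0 := by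
    rw [ff_ordDifferential_zero (jF N) hx P (jF N) b hb, hs, sub_self]
  have hcpos : 0 < P.ord (φ - algebraMap Kbar (FN N) c) := by omega
  have e2 : P.ordDifferential (D Kbar (FN N) φ) = P.ord (φ - algebraMap Kbar (FN N) c) - 1 :=
    ff_ordDifferential_zero (jF N) hx P φ c hcpos
  have e3 : P.ordDifferential (D Kbar (FN N) φ) = 0 := by
    rw [hh, ff_ordDifferential_smul (jF N) hx P h hh0 _ hDj, hPh, e1, add_zero]
  omega

end Fermat.Agent.S17.H8
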